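/-
Programme U (S52, the 3–5 switch), chapter LOCAL §B2.4 Step 1(a) (helper9): **a commuting family
of operators of exponent `4` on an `𝔽₅`-space without proper stable subspaces acts on a space
with at most `5` elements**.

`X⁴ - 1 = (X - 1)(X + 1)(X - 2)(X + 2)` over `𝔽₅`: every operator has an eigenvalue in `𝔽₅`, its
eigenspace is stable under the commuting family, hence everything; so every operator is a scalar,
every line is stable, and the space is a line.  Applied to `W[5]` (25 elements) this shows that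
the image of `G_ℚ` does NOT factor through `Gal(ℚ(ζ₁₂₀)/ℚ)` when `W[5]` is irreducible.
-/
import Mathlib

set_option autoImplicit false

namespace Fermat.Agent.ES.U52.AbelianLine9

variable {V : Type*} [AddCommGroup V] [Module (ZMod 5) V]

theorem five_smul_eq_zero (x : V) : (5 : ZMod 5) • x = 0 := by
  rw [show (5 : ZMod 5) = 0 from by decide, zero_smul]

/-- an operator with `f⁴ = 1` on a nonzero `𝔽₅`-space has an eigenvector with eigenvalue in
`𝔽₅`. -/
theorem exists_eigen [Nontrivial V] (f : Module.End (ZMod 5) V) (hf : f ^ 4 = 1) :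
    ∃ (c : ZMod 5) (v : V), v ≠ 0 ∧ f v = c • v := by
  by_contra hcon
  push Not at hcon
  obtain ⟨v₀, hv₀⟩ := exists_ne (0 : V)
  have h1 : f v₀ - (2 : ZMod 5) • v₀ ≠ 0 := fun h => hcon 2 v₀ hv₀ (sub_eq_zero.mp h)
  set v₁ := f v₀ - (2 : ZMod 5) • v₀ with hv₁
  have h2 : f v₁ - (-2 : ZMod 5) • v₁ ≠ 0 := fun h => hcon (-2) v₁ h1 (sub_eq_zero.mp h)
  set v₂ := f v₁ - (-2 : ZMod 5) • v₁ with hv₂
  have h3 : f v₂ - (1 : ZMod 5) • v₂ ≠ 0 := fun h => hcon 1 v₂ h2 (sub_eq_zero.mp h)
  set v₃ := f v₂ - (1 : ZMod 5) • v₂ with hv₃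
  have h4 : f v₃ - (-1 : ZMod 5) • v₃ ≠ 0 := fun h => hcon (-1) v₃ h3 (sub_eq_zero.mp h)
  apply h4
  have hf4 : f (f (f (f v₀))) = v₀ := by
    have := congrArg (fun g : Module.End (ZMod 5) V => g v₀) hf
    simpa [pow_succ, Module.End.mul_apply] using this
  have key : f v₃ - (-1 : ZMod 5) • v₃ = (5 : ZMod 5) • (v₀ - f (f v₀)) := by
    rw [hv₃, hv₂, hv₁]
    simp only [map_sub, map_smul, hf4]
    module
  rw [key, five_smul_eq_zero]

variable {G : Type*} [Monoid G] (ρ : G →* Module.End (ZMod 5) V)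

/-- in a commuting family of exponent `4` without proper stable subspaces, every operator is a
scalar. -/
theorem scalar_of_comm (hcomm : ∀ σ τ : G, ρ σ * ρ τ = ρ τ * ρ σ) (hexp : ∀ σ : G, ρ σ ^ 4 = 1)
    (hirr : ∀ N : Submodule (ZMod 5) V, (∀ σ : G, ∀ x ∈ N, ρ σ x ∈ N) → N = ⊥ ∨ N = ⊤)
    (σ : G) : ∃ c : ZMod 5, ∀ v : V, ρ σ v = c • v := by
  rcases subsingleton_or_nontrivial V with hV | hV
  · exact ⟨1, fun v => Subsingleton.elim _ _⟩
  obtain ⟨c, v, hv0, hv⟩ := exists_eigen (ρ σ) (hexp σ)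
  refine ⟨c, ?_⟩
  set N : Submodule (ZMod 5) V := LinearMap.ker (ρ σ - c • (1 : Module.End (ZMod 5) V)) with hN
  have hmem : ∀ x : V, x ∈ N ↔ ρ σ x = c • x := by
    intro x
    rw [hN, LinearMap.mem_ker, LinearMap.sub_apply, LinearMap.smul_apply, Module.End.one_apply,
      sub_eq_zero]
  have hstab : ∀ τ : G, ∀ x ∈ N, ρ τ x ∈ N := by
    intro τ x hx
    rw [hmem] at hx ⊢
    have h1 : ρ σ (ρ τ x) = ρ τ (ρ σ x) := by
      have := congrArg (fun g : Module.End (ZMod 5) V => g x) (hcomm σ τ)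
      simpa [Module.End.mul_apply] using this
    rw [h1, hx, map_smul]
  rcases hirr N hstab with hbot | htop
  · exfalso
    have : v ∈ N := (hmem v).mpr hv
    rw [hbot, Submodule.mem_bot] at this
    exact hv0 this
  · intro x
    exact (hmem x).mp (by rw [htop]; exact Submodule.mem_top)

/-- **The bound**: such a space has at most `5` elements. -/
theorem card_le_five (hcomm : ∀ σ τ : G, ρ σ * ρ τ = ρ τ * ρ σ) (hexp : ∀ σ : G, ρ σ ^ 4 = 1)
    (hirr : ∀ N : Submodule (ZMod 5) V, (∀ σ : G, ∀ x ∈ N, ρ σ x ∈ N) → N = ⊥ ∨ N = ⊤) :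
    Nat.card V ≤ 5 := by
  rcases subsingleton_or_nontrivial V with hV | hV
  · rw [Nat.card_of_subsingleton (0 : V)]
    norm_num
  obtain ⟨v, hv⟩ := exists_ne (0 : V)
  -- the line through `v` is stable
  have hstab : ∀ σ : G, ∀ x ∈ Submodule.span (ZMod 5) {v}, ρ σ x ∈ Submodule.span (ZMod 5) {v} := by
    intro σ x hx
    obtain ⟨c, hc⟩ := scalar_of_comm ρ hcomm hexp hirr σ
    rw [hc x]
    exact Submodule.smul_mem _ c hx
  have htop : Submodule.span (ZMod 5) {v} = ⊤ := by
    rcases hirr _ hstab with hbot | htop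
    · exfalso
      have : v ∈ Submodule.span (ZMod 5) {v} := Submodule.mem_span_singleton_self v
      rw [hbot, Submodule.mem_bot] at this
      exact hv this
    · exact htop
  have hsurj : Function.Surjective fun c : ZMod 5 => c • v := by
    intro x
    have hx : x ∈ Submodule.span (ZMod 5) {v} := by rw [htop]; exact Submodule.mem_top
    exact Submodule.mem_span_singleton.mp hx
  have := Nat.card_le_card_of_surjective _ hsurj
  simpa using this

end Fermat.Agent.ES.U52.AbelianLine9
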