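/-
Programme U (S52, the 3–5 switch), chapter LOCAL §B2.4 Step 1(c) (helper9): **an operator on an
`𝔽₅`-space satisfying `f² - a f + d = 0` with `d` a NON-residue, `f ≠ 1`, has a power with
eigenvalue `-1`**.

The relation is the Eichler–Shimura relation of a Frobenius at `p₀ ≡ 2, 3 mod 5` on `W[5]`
(`Q58/RelQbar18`); no determinant / Weil pairing is used:

* `pow_mem_span`      : `f ^ m = x • 1 + y • f`;
* `scalar_of_odd_pow` : `f ^ n = 1`, `n` odd ⇒ `f` is a scalar (`f = h²`, `h = x + y f`, and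
                        `x² = d y²` forces `x = y = 0`);
* `even_of_pow_eq_one`: `f ≠ 1`, `f ^ n = 1` ⇒ `n` even;
* `exists_neg_eigen`  : on a finite module, `∃ k, ∃ v ≠ 0, f ^ k v = -v`.
-/
import Mathlib

set_option autoImplicit false

namespace Fermat.Agent.ES.U52.EvenOrder9

section Decide

/-- `x² = d y²` in `𝔽₅` with `d` a non-residue forces `x = y = 0`. -/
theorem eq_zero_of_sq_eq {d : ZMod 5} (hd : d = 2 ∨ d = 3) :
    ∀ x y : ZMod 5, x ^ 2 = d * y ^ 2 → x = 0 ∧ y = 0 := by
  rcases hd with rfl | rfl <;> decide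

/-- a scalar of odd order in `𝔽₅` is `1`. -/
theorem eq_one_of_odd_pow : ∀ c : ZMod 5, ∀ r : Fin 4, (r : ℕ) % 2 = 1 → c ^ (r : ℕ) = 1 →
    c = 1 := by decide

theorem pow_four_eq_one : ∀ c : ZMod 5, c ≠ 0 → c ^ 4 = 1 := by decide

theorem ne_zero_of_nonres {d : ZMod 5} (hd : d = 2 ∨ d = 3) : d ≠ 0 := by
  rcases hd with rfl | rfl <;> decide

end Decide

section Ring

variable [Fact (Nat.Prime 5)] {R : Type*} [Ring R] [Algebra (ZMod 5) R]

/-- the powers of `f` lie in the span of `1` and `f`. -/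
theorem pow_mem_span {f : R} {a d : ZMod 5} (hrel : f * f = a • f - d • (1 : R)) (m : ℕ) :
    ∃ x y : ZMod 5, f ^ m = x • (1 : R) + y • f := by
  induction m with
  | zero => exact ⟨1, 0, by simp⟩
  | succ m ih =>
    obtain ⟨x, y, h⟩ := ih
    refine ⟨-(y * d), x + y * a, ?_⟩
    rw [pow_succ, h, add_mul, smul_mul_assoc, smul_mul_assoc, one_mul, hrel]
    module

variable [Nontrivial R]

theorem smul_one_injective : Function.Injective fun c : ZMod 5 => c • (1 : R) := by
  intro c c' h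
  have h' : algebraMap (ZMod 5) R c = algebraMap (ZMod 5) R c' := by
    simpa [Algebra.algebraMap_eq_smul_one] using h
  exact (algebraMap (ZMod 5) R).injective h'

/-- an element of odd order satisfying the quadratic relation is a scalar. -/
theorem scalar_of_odd_pow {f : R} {a d : ZMod 5} (hd : d = 2 ∨ d = 3)
    (hrel : f * f = a • f - d • (1 : R)) {n : ℕ} (hn : Odd n) (hfn : f ^ n = 1) :
    ∃ c : ZMod 5, f = c • (1 : R) := by
  obtain ⟨m, rfl⟩ := hn
  obtain ⟨x, y, h⟩ := pow_mem_span hrel (m + 1)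
  -- `f = (f ^ (m+1))²`
  have hsq : f = f ^ (m + 1) * f ^ (m + 1) := by
    rw [← pow_add, show m + 1 + (m + 1) = (2 * m + 1) + 1 by ring, pow_succ, hfn, one_mul]
  rw [h] at hsq
  have hexp : (x • (1 : R) + y • f) * (x • (1 : R) + y • f)
      = (x ^ 2 - d * y ^ 2) • (1 : R) + (2 * x * y + a * y ^ 2) • f := by
    rw [add_mul, mul_add, mul_add, smul_mul_smul_comm, smul_mul_smul_comm, smul_mul_smul_comm,
      smul_mul_smul_comm, one_mul, one_mul, mul_one, hrel]
    module
  rw [hexp] at hsq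
  -- `(1 - 2xy - a y²) f = (x² - d y²) 1`
  have hlin : (1 - (2 * x * y + a * y ^ 2)) • f = (x ^ 2 - d * y ^ 2) • (1 : R) := by
    rw [sub_smul, one_smul]
    nth_rewrite 1 [hsq]
    module
  by_cases hc : 1 - (2 * x * y + a * y ^ 2) = 0
  · exfalso
    rw [hc, zero_smul] at hlin
    have h0 : x ^ 2 - d * y ^ 2 = 0 := by
      have := smul_one_injective (R := R) (show (fun c : ZMod 5 => c • (1 : R)) (x ^ 2 - d * y ^ 2)
        = (fun c : ZMod 5 => c • (1 : R)) 0 by simp [← hlin])
      exact this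
    obtain ⟨hx, hy⟩ := eq_zero_of_sq_eq hd x y (sub_eq_zero.mp h0)
    rw [hx, hy] at hc
    norm_num at hc
  · refine ⟨(1 - (2 * x * y + a * y ^ 2))⁻¹ * (x ^ 2 - d * y ^ 2), ?_⟩
    rw [mul_smul, ← hlin, smul_smul, inv_mul_cancel₀ hc, one_smul]

/-- **`f ≠ 1` satisfying the quadratic relation has even order.** -/
theorem even_of_pow_eq_one {f : R} {a d : ZMod 5} (hd : d = 2 ∨ d = 3)
    (hrel : f * f = a • f - d • (1 : R)) (hf1 : f ≠ 1) {n : ℕ} (hfn : f ^ n = 1) : Even n := by
  by_contra hodd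
  rw [Nat.not_even_iff_odd] at hodd
  obtain ⟨c, hc⟩ := scalar_of_odd_pow hd hrel hodd hfn
  apply hf1
  have hcn : c ^ n = 1 := by
    have h0 : (c • (1 : R)) ^ n = 1 := by rw [← hc]; exact hfn
    rw [smul_pow, one_pow] at h0
    have h1 : (c ^ n) • (1 : R) = (1 : ZMod 5) • (1 : R) := by
      rw [one_smul, h0]
    exact smul_one_injective (R := R) h1
  have hc0 : c ≠ 0 := by
    rintro rfl
    rw [zero_pow (by rcases hodd with ⟨k, rfl⟩; omega)] at hcn
    exact zero_ne_one hcn
  have hc4 : c ^ 4 = 1 := pow_four_eq_one c hc0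
  have hmod : c ^ (n % 4) = 1 := by
    have : c ^ n = c ^ (n % 4) := by
      conv_lhs => rw [← Nat.div_add_mod n 4, pow_add, pow_mul, hc4, one_pow, one_mul]
    rw [← this, hcn]
  have hr : (n % 4) % 2 = 1 := by
    rcases hodd with ⟨k, rfl⟩
    omega
  have hc1 := eq_one_of_odd_pow c ⟨n % 4, Nat.mod_lt _ (by norm_num)⟩ hr hmod
  rw [hc, hc1, one_smul]

end Ring

section Module

variable [Fact (Nat.Prime 5)] {V : Type*} [AddCommGroup V] [Module (ZMod 5) V] [Finite V]

/-- **The element**: `f ≠ 1` with `f² - a f + d = 0`, `d` a non-residue, has a power with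
eigenvalue `-1`. -/
theorem exists_neg_eigen {f : Module.End (ZMod 5) V} {a d : ZMod 5} (hd : d = 2 ∨ d = 3)
    (hrel : f * f = a • f - d • (1 : Module.End (ZMod 5) V)) (hf1 : f ≠ 1) :
    ∃ (k : ℕ) (v : V), v ≠ 0 ∧ (f ^ k) v = -v := by
  classical
  have : Nontrivial (Module.End (ZMod 5) V) := ⟨⟨f, 1, hf1⟩⟩
  have hd0 : d ≠ 0 := ne_zero_of_nonres hd
  -- `f` is a unit
  have hinv : f * (d⁻¹ • (a • (1 : Module.End (ZMod 5) V) - f)) = 1 := by
    rw [mul_smul_comm, mul_sub, mul_smul_comm, mul_one, hrel]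
    have : a • f - (a • f - d • (1 : Module.End (ZMod 5) V)) = d • 1 := by abel
    rw [this, smul_smul, inv_mul_cancel₀ hd0, one_smul]
  have hinv' : (d⁻¹ • (a • (1 : Module.End (ZMod 5) V) - f)) * f = 1 := by
    rw [smul_mul_assoc, sub_mul, smul_mul_assoc, one_mul, hrel]
    have : a • f - (a • f - d • (1 : Module.End (ZMod 5) V)) = d • 1 := by abel
    rw [this, smul_smul, inv_mul_cancel₀ hd0, one_smul]
  let u : (Module.End (ZMod 5) V)ˣ := ⟨f, _, hinv, hinv'⟩
  have : Finite (Module.End (ZMod 5) V) := Finite.of_injective (fun g => (g : V → V))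
    DFunLike.coe_injective
  have : Finite (Module.End (ZMod 5) V)ˣ := Finite.of_injective _ Units.val_injective
  set n := orderOf u with hn
  have hnpos : 0 < n := orderOf_pos u
  have hun : u ^ n = 1 := pow_orderOf_eq_one u
  have hfn : f ^ n = 1 := by
    have := congrArg Units.val hun
    simpa [u] using this
  obtain ⟨m, hm⟩ := even_of_pow_eq_one hd hrel hf1 hfn
  have hm0 : 0 < m := by omega
  have hmn : m < n := by omega
  have hum : u ^ m ≠ 1 := pow_ne_one_of_lt_orderOf hm0.ne' hmn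
  set h : Module.End (ZMod 5) V := f ^ m with hh
  have hh1 : h ≠ 1 := by
    intro h1
    apply hum
    apply Units.ext
    simpa [u] using h1
  have hh2 : h * h = 1 := by
    rw [hh, ← pow_add, ← hm, hfn]
  -- a vector moved by `h`
  obtain ⟨w, hw⟩ : ∃ w : V, h w ≠ w := by
    by_contra hall
    push Not at hall
    exact hh1 (LinearMap.ext hall)
  refine ⟨m, h w - w, sub_ne_zero.mpr hw, ?_⟩
  have : h (h w) = w := by
    have := congrArg (fun g : Module.End (ZMod 5) V => g w) hh2
    simpa using this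
  rw [map_sub, this]
  abel

end Module

end Fermat.Agent.ES.U52.EvenOrder9
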