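/-
Programme U (S52, the 3–5 switch), chapter LOCAL §B2.4 Step 1 (helper9): **the element `σ₀`**.

`W` an integral model with `Δ ≠ 0` and `W[5]` irreducible.  Then there are `σ₀ ∈ Gal(ℚ̄/ℚ)` fixing
the 24-th roots of unity (`chiMod 24 σ₀ = 1`) and a point `P ≠ 0` of `W[5]` with `σ₀ P = -P`.

No Weil pairing is used (none is on main): (a) by `AbelianLine9` the kernel of
`(χ₂₄, χ₅)` acts non-trivially on `W[5]`; (b) Dirichlet + Chebotarev (`T56/TWCheb17`) give a good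
prime `p₀ ≡ 1 mod 24`, `p₀ ≡ 2, 3 mod 5` with a Frobenius `τ` acting non-trivially on `W[5]`;
(c) the Eichler–Shimura relation `τ² - a τ + p₀ = 0` (`Q58/RelQbar18`) and `EvenOrder9` give a
power `σ₀ = τ ^ k` with eigenvalue `-1`.
-/
import Mathlib
import Fermat.Prelude.Def_FLTPrelim_Modularity
import Fermat.Prelude.Def_FLTPrelim_ModularRep
import Fermat.Agent.ES.Q58.CoordField13
import Fermat.Agent.ES.Q58.RelQbar18
import Fermat.Agent.ES.R48.ModCyclo13
import Fermat.Agent.ES.T56.TWCheb17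
import Fermat.Agent.ES.U52.EvenOrder9
import Fermat.Agent.ES.U52.AbelianLine9

set_option autoImplicit false

open WeierstrassCurve WeierstrassCurve.Affine WeierstrassCurve.Affine.Point

noncomputable section

namespace Fermat.Agent.ES.U52.SigmaElem9

open Fermat.Agent.ES.R48.ModCyclo13 Fermat.Agent.ES.T56.TWCheb17
open Fermat.Agent.ES.Q58.CoordField13

local notation "Qb" => AlgebraicClosure ℚ
local notation "GQ" => (AlgebraicClosure ℚ ≃ₐ[ℚ] AlgebraicClosure ℚ)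

/-- The `5`-torsion of `E(ℚ̄)`, `E` over `ℚ`. -/
abbrev Tors5 (E : WeierstrassCurve ℚ) : Type :=
  Submodule.torsionBy ℤ (E⁄Qb).Point ((5 : ℕ) : ℤ)

variable (E : WeierstrassCurve ℚ)

/-- The action of `Gal(ℚ̄/ℚ)` on `E[5]` by `𝔽₅`-linear maps. -/
def rho5 : GQ →* Module.End (ZMod 5) (Tors5 E) where
  toFun σ := (DistribSMul.toAddMonoidHom (Tors5 E) σ).toZModLinearMap 5
  map_one' := by
    apply LinearMap.ext
    intro x
    show (1 : GQ) • x = x
    exact one_smul _ x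
  map_mul' σ τ := by
    apply LinearMap.ext
    intro x
    show (σ * τ) • x = σ • τ • x
    exact mul_smul σ τ x

theorem rho5_apply (σ : GQ) (x : Tors5 E) : rho5 E σ x = σ • x := rfl

theorem rho5_pow_apply (σ : GQ) (k : ℕ) (x : Tors5 E) : ((rho5 E σ) ^ k) x = (σ ^ k) • x := by
  rw [← map_pow]
  rfl

section Decide

theorem units24_pow_four : ∀ u : (ZMod 24)ˣ, u ^ 4 = 1 := by decide

theorem units5_pow_four : ∀ u : (ZMod 5)ˣ, u ^ 4 = 1 := by decide

theorem units5_inv_two : ∀ u : (ZMod 5)ˣ, ((u : (ZMod 5)ˣ) : ZMod 5) = 2 →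
    ((u⁻¹ : (ZMod 5)ˣ) : ZMod 5) = 3 := by decide

theorem units5_inv_three : ∀ u : (ZMod 5)ˣ, ((u : (ZMod 5)ˣ) : ZMod 5) = 3 →
    ((u⁻¹ : (ZMod 5)ˣ) : ZMod 5) = 2 := by decide

end Decide

variable {E}

/-- **(a)** if `E[5]` is irreducible, the kernel of `(χ₂₄, χ₅)` acts non-trivially on it. -/
theorem exists_nontrivial_kernel (hΔ : E.Δ ≠ 0)
    (h5 : GaloisRepIsIrreducible (K := Qb) ℚ E.toAffine 5) :
    ∃ τ : GQ, chiMod 24 τ = 1 ∧ chiMod 5 τ = 1 ∧ ∃ x : Tors5 E, τ • x ≠ x := by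
  by_contra hcon
  push Not at hcon
  have hcard : Nat.card (Tors5 E) = 5 ^ 2 := card_torsionBy_odd hΔ (by decide : Odd 5)
  have hcomm : ∀ σ τ : GQ, rho5 E σ * rho5 E τ = rho5 E τ * rho5 E σ := by
    intro σ τ
    apply LinearMap.ext
    intro x
    show σ • τ • x = τ • σ • x
    have h24 : chiMod 24 (τ⁻¹ * σ⁻¹ * τ * σ) = 1 := by
      simp only [map_mul, map_inv]
      rw [mul_comm ((chiMod 24 τ)⁻¹) _, mul_assoc, mul_assoc, ← mul_assoc ((chiMod 24 τ)⁻¹),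
        inv_mul_cancel, one_mul, inv_mul_cancel]
    have h5' : chiMod 5 (τ⁻¹ * σ⁻¹ * τ * σ) = 1 := by
      simp only [map_mul, map_inv]
      rw [mul_comm ((chiMod 5 τ)⁻¹) _, mul_assoc, mul_assoc, ← mul_assoc ((chiMod 5 τ)⁻¹),
        inv_mul_cancel, one_mul, inv_mul_cancel]
    have := hcon _ h24 h5' x
    have h2 : σ • τ • ((τ⁻¹ * σ⁻¹ * τ * σ) • x) = σ • τ • x := by rw [this]
    rw [← h2]
    simp only [← mul_smul]
    congr 1
    group
  have hexp : ∀ σ : GQ, rho5 E σ ^ 4 = 1 := by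
    intro σ
    apply LinearMap.ext
    intro x
    rw [rho5_pow_apply]
    have h24 : chiMod 24 (σ ^ 4) = 1 := by rw [map_pow]; exact units24_pow_four _
    have h5' : chiMod 5 (σ ^ 4) = 1 := by rw [map_pow]; exact units5_pow_four _
    exact hcon _ h24 h5' x
  have hirr : ∀ N : Submodule (ZMod 5) (Tors5 E), (∀ σ : GQ, ∀ x ∈ N, rho5 E σ x ∈ N) →
      N = ⊥ ∨ N = ⊤ := fun N hN => h5.2 N hN
  have := AbelianLine9.card_le_five (rho5 E) hcomm hexp hirr
  rw [hcard] at this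
  norm_num at this

/-- **(b)** a Frobenius element with `χ₂₄ = 1` and `χ₅ = 2` (Dirichlet at `97 mod 120`). -/
theorem exists_frob_97 :
    ∃ τ : GQ, chiMod 24 τ = 1 ∧ ((chiMod 5 τ : (ZMod 5)ˣ) : ZMod 5) = 2 := by
  have hunit : IsUnit ((97 : ℕ) : ZMod 120) :=
    (ZMod.isUnit_iff_coprime 97 120).mpr (by norm_num)
  obtain ⟨p, hp5, hp, hpmod⟩ := Nat.forall_exists_prime_gt_and_eq_mod hunit 5
  have hmod : p % 120 = 97 := by
    have := (ZMod.natCast_eq_natCast_iff' p 97 120).mp hpmod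
    simpa using this
  obtain ⟨A, τ, hA, hτ⟩ := Fermat.Agent.Lib.exists_isFrobeniusAt p hp
  have hp24 : ¬ p ∣ 24 := fun h => by
    have := Nat.le_of_dvd (by norm_num) h
    omega
  have hp5' : ¬ p ∣ 5 := fun h => by
    have := Nat.le_of_dvd (by norm_num) h
    omega
  have h24 := chiMod_of_isFrobeniusAt (n := 24) hp hp24 A hA hτ
  have h5 := chiMod_of_isFrobeniusAt (n := 5) hp hp5' A hA hτ
  refine ⟨τ, ?_, ?_⟩
  · apply Units.ext
    rw [h24, Units.val_one]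
    have : ((p : ℕ) : ZMod 24) = ((1 : ℕ) : ZMod 24) :=
      (ZMod.natCast_eq_natCast_iff' p 1 24).mpr (by omega)
    simpa using this
  · rw [h5]
    have : ((p : ℕ) : ZMod 5) = ((2 : ℕ) : ZMod 5) :=
      (ZMod.natCast_eq_natCast_iff' p 2 5).mpr (by omega)
    simpa using this

variable (E)

/-- the Chebotarev predicate of Step 1. -/
def Pred0 (σ : GQ) : Prop :=
  chiMod 24 σ = 1 ∧ ((((chiMod 5 σ : (ZMod 5)ˣ) : ZMod 5) = 2 ∨
    ((chiMod 5 σ : (ZMod 5)ˣ) : ZMod 5) = 3) ∧ ∃ x : Tors5 E, σ • x ≠ x)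

theorem isLevelPred_moves : IsLevelPred fun σ : GQ => ∃ x : Tors5 E, σ • x ≠ x := by
  refine ⟨torsField E 5, finiteDimensional_torsField (by decide), fun σ s hs => ?_⟩
  constructor
  · rintro ⟨x, hx⟩
    refine ⟨x, ?_⟩
    rwa [mul_smul, smul_torsion_eq_self_of_fix hs x] at hx
  · rintro ⟨x, hx⟩
    refine ⟨x, ?_⟩
    rwa [mul_smul, smul_torsion_eq_self_of_fix hs x]

theorem isLevelPred_pred0 : IsLevelPred (Pred0 E) :=
  (isLevelPred_of_hom (chiMod 24) (chiMod_finiteLevel 24) (fun u => u = 1)).and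
    ((isLevelPred_of_hom (chiMod 5) (chiMod_finiteLevel 5)
      (fun u => ((u : (ZMod 5)ˣ) : ZMod 5) = 2 ∨ ((u : (ZMod 5)ˣ) : ZMod 5) = 3)).and
      (isLevelPred_moves E))

theorem pred0_conj (σ τ : GQ) (h : Pred0 E σ) : Pred0 E (τ * σ * τ⁻¹) := by
  obtain ⟨h24, h5, x, hx⟩ := h
  have hc : ∀ n : ℕ, [NeZero n] → chiMod n (τ * σ * τ⁻¹) = chiMod n σ := by
    intro n _
    rw [map_mul, map_mul, map_inv, mul_comm, ← mul_assoc, inv_mul_cancel, one_mul]
  refine ⟨by rw [hc 24]; exact h24, by rw [hc 5]; exact h5, τ • x, ?_⟩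
  rw [← mul_smul, inv_mul_cancel_right, mul_smul]
  intro h
  exact hx (smul_left_cancel τ h)

theorem pred0_inv (σ : GQ) (h : Pred0 E σ) : Pred0 E σ⁻¹ := by
  obtain ⟨h24, h5, x, hx⟩ := h
  refine ⟨by rw [map_inv, h24, inv_one], ?_, σ • x, ?_⟩
  · rw [map_inv]
    rcases h5 with h | h
    · exact Or.inr (units5_inv_two _ h)
    · exact Or.inl (units5_inv_three _ h)
  · rw [inv_smul_smul]
    exact fun h => hx h.symm

variable {E}

theorem exists_pred0 (hΔ : E.Δ ≠ 0) (h5 : GaloisRepIsIrreducible (K := Qb) ℚ E.toAffine 5) :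
    ∃ σ : GQ, Pred0 E σ := by
  obtain ⟨τ₁, h24, h51, x, hx⟩ := exists_nontrivial_kernel hΔ h5
  obtain ⟨τ₂, h24', h52⟩ := exists_frob_97
  by_cases hmove : ∃ y : Tors5 E, τ₂ • y ≠ y
  · exact ⟨τ₂, h24', Or.inl h52, hmove⟩
  · push Not at hmove
    refine ⟨τ₂ * τ₁, by rw [map_mul, h24, h24', one_mul], Or.inl ?_, x, ?_⟩
    · rw [map_mul, h51, mul_one]
      exact h52
    · rw [mul_smul, hmove]
      exact hx

/-- **Step 1**: the element `σ₀`. -/
theorem exists_sigma0 (W : WeierstrassCurve ℤ) (hΔ : W.Δ ≠ 0) (h5 : W.ModRepIsIrreducible 5) :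
    ∃ σ₀ : GQ, chiMod 24 σ₀ = 1 ∧
      ∃ P : Tors5 (W.map (Int.castRingHom ℚ)), P ≠ 0 ∧ σ₀ • P = -P := by
  classical
  set E : WeierstrassCurve ℚ := W.map (Int.castRingHom ℚ) with hE
  have hΔE : E.Δ ≠ 0 := by
    rw [hE, WeierstrassCurve.map_Δ]
    exact (map_ne_zero_iff _ (RingHom.injective_int (Int.castRingHom ℚ))).mpr hΔ
  have h5' : GaloisRepIsIrreducible (K := Qb) ℚ E.toAffine 5 := h5
  -- the prime `p₀`
  have hT : {p : ℕ | p ∣ 30 * W.Δ.natAbs}.Finite := by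
    have h0 : 30 * W.Δ.natAbs ≠ 0 := Nat.mul_ne_zero (by norm_num) (Int.natAbs_ne_zero.mpr hΔ)
    exact (Set.finite_le_nat (30 * W.Δ.natAbs)).subset
      fun p hp => Nat.le_of_dvd (Nat.pos_of_ne_zero h0) hp
  obtain ⟨q, hq, hqT, hqP⟩ := exists_prime_forall_frob (Pred0 E) (isLevelPred_pred0 E)
    (fun σ τ h => pred0_conj E σ τ h) (fun σ h => pred0_inv E σ h) (exists_pred0 hΔE h5') _ hT
  obtain ⟨A, τ, hA, hτ⟩ := Fermat.Agent.Lib.exists_isFrobeniusAt q hq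
  obtain ⟨h24, hd, hmove⟩ := hqP A hA τ hτ
  have hq30 : ¬ q ∣ 30 := fun h => hqT (Dvd.dvd.mul_right h _)
  have hqΔ : ¬ q ∣ W.Δ.natAbs := fun h => hqT (Dvd.dvd.mul_left h _)
  have hq5 : ¬ q ∣ 5 := fun h => hq30 (h.trans (by norm_num))
  have hgood : W.IsGoodPrimeFor q := fun h => hqΔ (Int.natCast_dvd.mp h)
  have hchi5 := chiMod_of_isFrobeniusAt (n := 5) hq hq5 A hA hτ
  rw [hchi5] at hd
  -- the Eichler–Shimura relation in `End(E[5])`
  have hrel : rho5 E τ * rho5 E τ = ((W.apOfModel q : ℤ) : ZMod 5) • rho5 E τ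
      - ((q : ℕ) : ZMod 5) • (1 : Module.End (ZMod 5) (Tors5 E)) := by
    apply LinearMap.ext
    intro x
    have hx5 : 5 • (x : (E⁄Qb).Point) = 0 := by
      have := (Submodule.mem_torsionBy_iff _ _).mp x.2
      rwa [natCast_zsmul] at this
    have h := Fermat.Agent.ES.Q58.RelQbar18.relQbar W q hq hgood 5 (by decide) hq5 A τ hA hτ
      (x : (E⁄Qb).Point) hx5
    rw [Module.End.mul_apply, LinearMap.sub_apply, LinearMap.smul_apply, LinearMap.smul_apply,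
      Module.End.one_apply, rho5_apply, rho5_apply, Int.cast_smul_eq_zsmul,
      Nat.cast_smul_eq_nsmul]
    apply Subtype.ext
    have e1 : ((τ • τ • x : Tors5 E) : (E⁄Qb).Point) = τ • τ • (x : (E⁄Qb).Point) := rfl
    have e2 : ((W.apOfModel q • (τ • x) - q • x : Tors5 E) : (E⁄Qb).Point)
        = W.apOfModel q • (τ • (x : (E⁄Qb).Point)) - q • (x : (E⁄Qb).Point) := by
      push_cast
      rfl
    rw [e1, e2]
    have : τ • τ • (x : (E⁄Qb).Point)
        = (τ • τ • (x : (E⁄Qb).Point) - W.apOfModel q • (τ • (x : (E⁄Qb).Point))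
          + q • (x : (E⁄Qb).Point))
          + (W.apOfModel q • (τ • (x : (E⁄Qb).Point)) - q • (x : (E⁄Qb).Point)) := by abel
    rw [this, h, zero_add]
  have hf1 : rho5 E τ ≠ 1 := by
    obtain ⟨x, hx⟩ := hmove
    intro h
    apply hx
    have := congrArg (fun g : Module.End (ZMod 5) (Tors5 E) => g x) h
    simpa [rho5_apply] using this
  have : Fact (Nat.Prime 5) := ⟨by norm_num⟩
  have : Finite (Tors5 E) := finite_torsionBy_odd (E := E) (by decide : Odd 5)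
  obtain ⟨k, v, hv0, hv⟩ := EvenOrder9.exists_neg_eigen hd hrel hf1
  refine ⟨τ ^ k, by rw [map_pow, h24, one_pow], v, hv0, ?_⟩
  rw [← rho5_pow_apply]
  exact hv

end Fermat.Agent.ES.U52.SigmaElem9
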