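/-
Programme U (S52, the 3–5 switch), chapter LOCAL §B2.4 Step 2d (helper9): **the Chebotarev step for
the auxiliary prime**.

`E` over `ℚ`, `R ⊂ ℚ̄` finite.  If some `σ₀ ∈ Gal(ℚ̄/ℚ)` fixes `μ₂₄` and has the eigenvalue `-1` on
`E[5]`, then outside any finite set there is a prime `q` ALL of whose Frobenius elements `σ` fix
`μ₂₄` (so `q ≡ 1 mod 24`), have the eigenvalue `-1` on `E[5]`, and have `2`-power order on `R`
(replace `σ₀` by its odd power `σ₀ ^ m`, `m` the odd part of its order on the Galois closure of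
`ℚ(R)`; then `T56/TWCheb17.exists_prime_forall_frob`).
-/
import Mathlib
import Fermat.Agent.ES.Q58.CoordField13
import Fermat.Agent.ES.R48.ModCyclo13
import Fermat.Agent.ES.T56.TWCheb17
import Fermat.Agent.ES.U52.SigmaElem9

set_option autoImplicit false
set_option linter.style.haveILetI false

open WeierstrassCurve WeierstrassCurve.Affine WeierstrassCurve.Affine.Point

noncomputable section

namespace Fermat.Agent.ES.U52.AuxCheb9

open Fermat.Agent.ES.R48.ModCyclo13 Fermat.Agent.ES.T56.TWCheb17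
open Fermat.Agent.ES.Q58.CoordField13 Fermat.Agent.ES.U52.SigmaElem9

local notation "Qbar" => AlgebraicClosure ℚ
local notation "GQ" => (AlgebraicClosure ℚ ≃ₐ[ℚ] AlgebraicClosure ℚ)

attribute [local instance] Fermat.Agent.Lib.FrobeniusExists.isGalois_Qbar
  Fermat.Agent.Lib.FrobeniusExists.isIntegral_Qbar

variable (E : WeierstrassCurve ℚ)

/-- `σ` has the eigenvalue `-1` on `E[5]`. -/
def NegEigen (σ : GQ) : Prop := ∃ x : Tors5 E, x ≠ 0 ∧ σ • x = -x

theorem isLevelPred_negEigen : IsLevelPred (NegEigen E) := by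
  refine ⟨torsField E 5, finiteDimensional_torsField (by decide), fun σ s hs => ?_⟩
  constructor
  · rintro ⟨x, hx0, hx⟩
    refine ⟨x, hx0, ?_⟩
    rwa [mul_smul, smul_torsion_eq_self_of_fix hs x] at hx
  · rintro ⟨x, hx0, hx⟩
    refine ⟨x, hx0, ?_⟩
    rwa [mul_smul, smul_torsion_eq_self_of_fix hs x]

theorem negEigen_conj (σ τ : GQ) (h : NegEigen E σ) : NegEigen E (τ * σ * τ⁻¹) := by
  obtain ⟨x, hx0, hx⟩ := h
  refine ⟨τ • x, ?_, ?_⟩
  · intro h0
    apply hx0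
    have := congrArg (fun y => τ⁻¹ • y) h0
    simpa using this
  · rw [← mul_smul, inv_mul_cancel_right, mul_smul, hx, smul_neg]

theorem negEigen_inv (σ : GQ) (h : NegEigen E σ) : NegEigen E σ⁻¹ := by
  obtain ⟨x, hx0, hx⟩ := h
  refine ⟨x, hx0, ?_⟩
  have h1 : σ⁻¹ • (σ • x) = σ⁻¹ • (-x) := by rw [hx]
  rw [inv_smul_smul, smul_neg] at h1
  rw [eq_neg_iff_add_eq_zero, add_comm, ← eq_neg_iff_add_eq_zero]
  exact h1

theorem negEigen_pow_odd {σ : GQ} (h : NegEigen E σ) {m : ℕ} (hm : Odd m) :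
    NegEigen E (σ ^ m) := by
  obtain ⟨x, hx0, hx⟩ := h
  refine ⟨x, hx0, ?_⟩
  have hpow : ∀ n : ℕ, (σ ^ n) • x = (-1 : ℤ) ^ n • x := by
    intro n
    induction n with
    | zero => simp
    | succ n ih =>
      rw [pow_succ, mul_smul, hx, smul_neg, ih, pow_succ, mul_smul, neg_smul, one_smul,
        smul_neg]
  rw [hpow, hm.neg_one_pow, neg_smul, one_smul]

variable {E}

/-- **The Chebotarev step.** -/
theorem exists_prime_frob_two_pow (R : Finset Qbar)
    (hne : ∃ σ₀ : GQ, chiMod 24 σ₀ = 1 ∧ NegEigen E σ₀) (T : Set ℕ) (hT : T.Finite) :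
    ∃ q : ℕ, q.Prime ∧ q ∉ T ∧ ∀ A : ValuationSubring Qbar, A.LiesOverPrime q →
      ∀ σ : GQ, A.IsFrobeniusAt σ q →
        chiMod 24 σ = 1 ∧ NegEigen E σ ∧ ∃ k : ℕ, ∀ z ∈ R, (σ ^ 2 ^ k) z = z := by
  classical
  -- the level field
  set L₀ : IntermediateField ℚ Qbar := IntermediateField.adjoin ℚ (R : Set Qbar) with hL₀
  haveI : FiniteDimensional ℚ L₀ := by
    haveI : Finite (R : Set Qbar) := R.finite_toSet.to_subtype
    exact IntermediateField.finiteDimensional_adjoin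
      (fun x _ => (Fermat.Agent.Lib.FrobeniusExists.isIntegral_Qbar).isIntegral x)
  set L : IntermediateField ℚ Qbar := IntermediateField.normalClosure ℚ L₀ Qbar with hL
  haveI hLfin : FiniteDimensional ℚ L := normalClosure.is_finiteDimensional ℚ L₀ Qbar
  haveI hnorm : Normal ℚ L := normalClosure.normal ℚ L₀ Qbar
  have hRL : ∀ z ∈ R, z ∈ L := fun z hz =>
    IntermediateField.le_normalClosure L₀ (IntermediateField.subset_adjoin ℚ _ hz)
  set ρ : GQ →* (L ≃ₐ[ℚ] L) := AlgEquiv.restrictNormalHom (F := ℚ) (K₁ := Qbar) L with hρ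
  have hρlev : GaloisFactorsThroughFiniteLevel ρ :=
    ⟨L, hLfin, fun σ hσ => restrictNormalHom_eq_one_of_fixes L hσ⟩
  haveI : Finite (L ≃ₐ[ℚ] L) := inferInstance
  -- the predicate
  set Pr : GQ → Prop := fun σ => chiMod 24 σ = 1 ∧ NegEigen E σ ∧ ∃ k : ℕ, ρ σ ^ 2 ^ k = 1
    with hPr
  have hlev : IsLevelPred Pr :=
    (isLevelPred_of_hom (chiMod 24) (chiMod_finiteLevel 24) (fun u => u = 1)).and
      ((isLevelPred_negEigen E).and
        (isLevelPred_of_hom ρ hρlev (fun g => ∃ k : ℕ, g ^ 2 ^ k = 1)))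
  have hconj : ∀ σ τ : GQ, Pr σ → Pr (τ * σ * τ⁻¹) := by
    rintro σ τ ⟨h24, hneg, k, hk⟩
    refine ⟨?_, negEigen_conj E σ τ hneg, k, ?_⟩
    · rw [map_mul, map_mul, map_inv, mul_comm, ← mul_assoc, inv_mul_cancel, one_mul]
      exact h24
    · rw [map_mul, map_mul, map_inv, conj_pow, hk, mul_one, mul_inv_cancel]
  have hinv : ∀ σ : GQ, Pr σ → Pr σ⁻¹ := by
    rintro σ ⟨h24, hneg, k, hk⟩
    refine ⟨by rw [map_inv, h24, inv_one], negEigen_inv E σ hneg, k, ?_⟩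
    rw [map_inv, inv_pow, hk, inv_one]
  have hex : ∃ σ : GQ, Pr σ := by
    obtain ⟨σ₀, h24, hneg⟩ := hne
    have hord : orderOf (ρ σ₀) ≠ 0 := (orderOf_pos (ρ σ₀)).ne'
    obtain ⟨a, m, hm, ham⟩ := Nat.exists_eq_two_pow_mul_odd hord
    refine ⟨σ₀ ^ m, by rw [map_pow, h24, one_pow], negEigen_pow_odd E hneg hm, a, ?_⟩
    rw [map_pow, ← pow_mul, mul_comm, ← ham, pow_orderOf_eq_one]
  obtain ⟨q, hq, hqT, hqP⟩ := exists_prime_forall_frob Pr hlev hconj hinv hex T hT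
  refine ⟨q, hq, hqT, fun A hA σ hσ => ?_⟩
  obtain ⟨h24, hneg, k, hk⟩ := hqP A hA σ hσ
  refine ⟨h24, hneg, k, fun z hz => ?_⟩
  rw [← map_pow] at hk
  exact fixes_of_restrictNormalHom_eq_one L hk z (hRL z hz)

end Fermat.Agent.ES.U52.AuxCheb9

end
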