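/-
Programme U (S52), chapter LOCAL §A2 (helper15): valuation toolkit at a place `P` of `ℚ̄` over `q`.

* `exists_zpow_of_fixed` : `z ≠ 0` fixed by the inertia group of `P` ⇒ `v(z) = v(q)^n`, `n ∈ ℤ`
  (the inertia field is unramified; from main's `ES/P36/UnrFixed1.dvd_of_mem_maximalIdeal`);
* `valuation_intCast_le_pow_iff` : for `n ∈ ℤ`: `v(n) ≤ v(q)^k ↔ q^k ∣ n`;
* `nonneg_of_zpow_le_one` : `v(q)^m ≤ 1 → 0 ≤ m`.
-/
import Mathlib
import Fermat.Agent.ES.P36.UnrFixed1
import Fermat.Agent.S05.Inertia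

set_option autoImplicit false
set_option linter.style.haveILetI false

namespace Fermat.Agent.ES.U52.KeyVal15

open Fermat.Agent.RED.Interface4 Fermat.Agent.RED.DESC.NumberFieldDVR27
  Fermat.Agent.ES.P36.UnrFixed1

local notation "Qbar" => AlgebraicClosure ℚ

variable (P : ValuationSubring Qbar) {q : ℕ}

/-- An element of `ℚ̄ˣ` fixed by the inertia group of `P` has the valuation of a power of `q`:
the inertia field is unramified over `ℚ`. -/
theorem exists_zpow_of_fixed (hq : q.Prime) (hP : P.LiesOverPrime q) {z : Qbar} (hz : z ≠ 0)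
    (hfix : ∀ τ ∈ P.inertiaSubgroupIn ℚ, τ z = z) :
    ∃ n : ℤ, P.valuation z = P.valuation (q : Qbar) ^ n := by
  set K : IntermediateField ℚ Qbar := IntermediateField.adjoin ℚ {z} with hKdef
  haveI hfin : FiniteDimensional ℚ K :=
    IntermediateField.adjoin.finiteDimensional (Algebra.IsIntegral.isIntegral z)
  have hzK : z ∈ K := IntermediateField.mem_adjoin_simple_self ℚ z
  have hle : K ≤ IntermediateField.fixedField (P.inertiaSubgroupIn ℚ) := by
    rw [hKdef, IntermediateField.adjoin_le_iff]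
    intro w hw
    rw [Set.mem_singleton_iff] at hw
    subst hw
    intro τ
    exact hfix τ.1 τ.2
  have hK : ∀ τ ∈ P.inertiaSubgroupIn ℚ, ∀ y ∈ K, τ y = y := by
    intro τ hτ y hy
    exact hle hy ⟨τ, hτ⟩
  haveI := isDiscreteValuationRing_AK P K hq.ne_zero hP
  have hirr : Irreducible (q : AK P K) := by
    rw [IsDiscreteValuationRing.irreducible_iff_uniformizer]
    apply le_antisymm
    · intro x hx
      rw [Ideal.mem_span_singleton]
      exact dvd_of_mem_maximalIdeal P hq hP K hK x hx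
    · rw [Ideal.span_singleton_le_iff_mem]
      exact natCast_mem_maximalIdeal P K hP
  -- elements of the DVR `A ∩ K`
  have key : ∀ x : AK P K, x ≠ 0 →
      ∃ n : ℕ, P.valuation ((x : K) : Qbar) = P.valuation (q : Qbar) ^ n := by
    intro x hx
    obtain ⟨n, u, hu⟩ := IsDiscreteValuationRing.eq_unit_mul_pow_irreducible hx hirr
    refine ⟨n, ?_⟩
    have hu1 : P.valuation (((u : AK P K) : K) : Qbar) = 1 := by
      have h1 : IsUnit (incl P K (u : AK P K)) := (incl P K).isUnit_map u.isUnit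
      have h2 := (ValuationSubring.valuation_eq_one_iff P _).mp h1
      simpa using h2
    have : ((x : K) : Qbar) = (((u : AK P K) : K) : Qbar) * (q : Qbar) ^ n := by
      have := congrArg (fun t : AK P K => ((t : K) : Qbar)) hu
      simpa using this
    rw [this, map_mul, hu1, one_mul, map_pow]
  -- `z` or `z⁻¹` lies in the DVR
  set zK : K := ⟨z, hzK⟩ with hzKdef
  have hzK0 : zK ≠ 0 := by
    intro h
    apply hz
    have := congrArg (fun t : K => (t : Qbar)) h
    simpa [hzKdef] using this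
  rcases (AK P K).mem_or_inv_mem zK with h | h
  · obtain ⟨n, hn⟩ := key ⟨zK, h⟩ (by
      intro h0
      apply hzK0
      exact congrArg Subtype.val h0)
    exact ⟨n, by simpa [hzKdef] using hn⟩
  · obtain ⟨n, hn⟩ := key ⟨zK⁻¹, h⟩ (by
      intro h0
      apply inv_ne_zero hzK0
      exact congrArg Subtype.val h0)
    refine ⟨-(n : ℤ), ?_⟩
    have h1 : P.valuation (z⁻¹) = P.valuation (q : Qbar) ^ n := by simpa [hzKdef] using hn
    rw [map_inv₀] at h1
    rw [zpow_neg, zpow_natCast, ← h1, inv_inv]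

open Fermat.Agent.S05.Inertia in
/-- `v(q) ≠ 0`. -/
theorem valuation_prime_ne_zero (hq : q.Prime) : P.valuation (q : Qbar) ≠ 0 := by
  rw [ne_eq, map_eq_zero]
  exact_mod_cast hq.ne_zero

open Fermat.Agent.S05.Inertia in
/-- For an integer `n`: `v(n) ≤ v(q)^k` iff `q^k ∣ n`. -/
theorem valuation_intCast_le_pow_iff (hq : q.Prime) (hP : P.LiesOverPrime q) (n : ℤ) (k : ℕ) :
    P.valuation (n : Qbar) ≤ P.valuation (q : Qbar) ^ k ↔ (q : ℤ) ^ k ∣ n := by
  have hπ0 := valuation_prime_ne_zero P hq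
  constructor
  · induction k generalizing n with
    | zero => intro _; simp
    | succ k ih =>
      intro h
      have hlt : P.valuation (n : Qbar) < 1 := by
        refine lt_of_le_of_lt h ?_
        exact pow_lt_one₀ zero_le (valuation_prime_lt_one hP) (Nat.succ_ne_zero k)
      obtain ⟨m, rfl⟩ := (valuation_intCast_lt_one_iff hq hP n).mp hlt
      have h2 : P.valuation (m : Qbar) ≤ P.valuation (q : Qbar) ^ k := by
        have h3 : P.valuation (m : Qbar) * P.valuation (q : Qbar)
            ≤ P.valuation (q : Qbar) ^ k * P.valuation (q : Qbar) := by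
          rw [← pow_succ]
          refine le_trans (le_of_eq ?_) h
          push_cast
          rw [map_mul, mul_comm]
        exact le_of_mul_le_mul_right h3 (zero_lt_iff.mpr hπ0)
      obtain ⟨c, rfl⟩ := ih m h2
      exact ⟨c, by ring⟩
  · rintro ⟨c, rfl⟩
    push_cast
    rw [map_mul, map_pow]
    calc P.valuation (q : Qbar) ^ k * P.valuation (c : Qbar)
        ≤ P.valuation (q : Qbar) ^ k * 1 := mul_le_mul_right (valuation_intCast_le_one c) _
      _ = P.valuation (q : Qbar) ^ k := mul_one _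

open Fermat.Agent.S05.Inertia in
/-- `v(q)^m ≤ 1` forces `0 ≤ m`. -/
theorem nonneg_of_zpow_le_one (hq : q.Prime) (hP : P.LiesOverPrime q) {m : ℤ}
    (h : P.valuation (q : Qbar) ^ m ≤ 1) : 0 ≤ m := by
  by_contra hm
  push Not at hm
  obtain ⟨k, hk⟩ : ∃ k : ℕ, m = -((k : ℤ) + 1) := ⟨(-m - 1).toNat, by omega⟩
  rw [hk, zpow_neg] at h
  have h1 : P.valuation (q : Qbar) ^ ((k : ℤ) + 1) < 1 := by
    have : P.valuation (q : Qbar) ^ (k + 1) < 1 :=
      pow_lt_one₀ zero_le (valuation_prime_lt_one hP) (Nat.succ_ne_zero k)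
    exact_mod_cast this
  have h2 : P.valuation (q : Qbar) ^ ((k : ℤ) + 1) ≠ 0 :=
    zpow_ne_zero _ (valuation_prime_ne_zero P hq)
  have h3 := (one_lt_inv₀ (zero_lt_iff.mpr h2)).mpr h1
  exact absurd h (not_le.mpr h3)

end Fermat.Agent.ES.U52.KeyVal15
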