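/-
Programme U (S52, the 3–5 switch), chapter LOCAL §B2.4 Step 4 (helper9): **the valuation core at
the auxiliary prime**.

`A` a valuation subring of `ℚ̄` over the prime `q ≥ 5`, `σ` a Frobenius element at `A`.  Let the
integers `c4, c6` be related to Tate's normal form `𝓔_b` by `6⁴ c4 = u⁴ c₄(𝓔_b)`,
`6⁶ c6 = u⁶ c₆(𝓔_b)` with `v(b) = v(q)` (a simple zero of the Tate parameter), `u` an `A`-unit and
`σ u = -u`.  Then `q ∤ c4`, `v_q(c4³ - c6²) = 5` and `-c6` is a NON-residue modulo `q`: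
non-split multiplicative reduction with `3 ∤ v_q(Δ)`.

The non-residue statement is Euler's criterion: `-c6 ≡ w²`, `w = (u/6)³`, and
`w^(q-1) ≡ σ(w)/w = -1`.
-/
import Mathlib
import Fermat.Prelude.Def_EllipticCurve_FrobeniusTrace
import Fermat.Agent.S05.Inertia
import Fermat.Agent.ES.J.CycloChar8
import Fermat.Agent.ES.U52.KeyVal15

set_option autoImplicit false

namespace Fermat.Agent.ES.U52.AuxCore9

open Fermat.Agent.S05.Inertia Fermat.Agent.ES.J.CycloChar8 Fermat.Agent.ES.U52.KeyVal15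

local notation "Qbar" => AlgebraicClosure ℚ
local notation "GQ" => (AlgebraicClosure ℚ ≃ₐ[ℚ] AlgebraicClosure ℚ)

variable {A : ValuationSubring Qbar}

/-- `v(1 + b g) = 1` for `v(b) < 1`, `v(g) ≤ 1`. -/
theorem valuation_one_add_mul {b g : Qbar} (hb : A.valuation b < 1) (hg : A.valuation g ≤ 1) :
    A.valuation (1 + b * g) = 1 := by
  have h : A.valuation (b * g) < 1 := by
    rw [map_mul]
    calc A.valuation b * A.valuation g ≤ A.valuation b * 1 := mul_le_mul_right hg _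
      _ < 1 := by rwa [mul_one]
  have := Valuation.map_add_eq_of_lt_left (v := A.valuation) (x := (1 : Qbar)) (y := b * g)
    (by rw [map_one]; exact h)
  rw [this, map_one]

/-- an integer polynomial expression in an element of `A` lies in `A`. -/
theorem valuation_aeval_le_one {b : Qbar} (hb : A.valuation b ≤ 1) (p : Polynomial ℤ) :
    A.valuation (Polynomial.aeval b p) ≤ 1 := by
  have hbA : b ∈ A := (ValuationSubring.valuation_le_one_iff A b).mp hb
  rw [ValuationSubring.valuation_le_one_iff]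
  have h := Polynomial.aeval_algebraMap_apply (A := A) Qbar (⟨b, hbA⟩ : A) p
  have e : Polynomial.aeval b p = algebraMap A Qbar (Polynomial.aeval (⟨b, hbA⟩ : A) p) := h
  rw [e]
  exact (Polynomial.aeval (⟨b, hbA⟩ : A) p).2

/-- `(1 + m) ^ h ≡ 1` modulo the maximal ideal. -/
theorem valuation_one_add_pow_sub_one {m : Qbar} (hm : A.valuation m < 1) (h : ℕ) :
    A.valuation ((1 + m) ^ h - 1) < 1 := by
  have h1 : A.valuation (1 + m) ≤ 1 := by
    refine le_trans (Valuation.map_add _ _ _) ?_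
    rw [map_one]
    exact max_le le_rfl hm.le
  induction h with
  | zero => simp
  | succ h ih =>
    have e : (1 + m) ^ (h + 1) - 1 = (1 + m) * ((1 + m) ^ h - 1) + m := by ring
    rw [e]
    apply Valuation.map_add_lt _ _ hm
    rw [map_mul]
    calc A.valuation (1 + m) * A.valuation ((1 + m) ^ h - 1)
        ≤ 1 * A.valuation ((1 + m) ^ h - 1) := mul_le_mul_left h1 _
      _ < 1 := by rwa [one_mul]

/-- **The core.** -/
theorem aux_core {q : ℕ} (hq : q.Prime) (hq5 : 5 ≤ q) (hA : A.LiesOverPrime q) {σ : GQ}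
    (hσ : A.IsFrobeniusAt σ q) {c4 c6 : ℤ} {b u : Qbar}
    (hc4 : (1296 : Qbar) * c4 = u ^ 4 * (b ^ 4 - 12 * b ^ 3 + 14 * b ^ 2 + 12 * b + 1))
    (hc6 : (46656 : Qbar) * c6
      = -(u ^ 6 * (b ^ 6 - 18 * b ^ 5 + 75 * b ^ 4 + 75 * b ^ 2 + 18 * b + 1)))
    (hvb : A.valuation b = A.valuation (q : Qbar)) (hvu : A.valuation u = 1)
    (hσu : σ u = -u) :
    ¬ (q : ℤ) ∣ c4 ∧ (q : ℤ) ∣ c4 ^ 3 - c6 ^ 2 ∧ padicValInt q (c4 ^ 3 - c6 ^ 2) = 5 ∧
      ¬ IsSquare (((-c6 : ℤ)) : ZMod q) := by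
  have : Fact q.Prime := ⟨hq⟩
  have hε1 : A.valuation (q : Qbar) < 1 := valuation_prime_lt_one hA
  have hε0 : A.valuation (q : Qbar) ≠ 0 := valuation_prime_ne_zero A hq
  have hb1 : A.valuation b < 1 := by rw [hvb]; exact hε1
  have hble : A.valuation b ≤ 1 := hb1.le
  -- small integers are units
  have hunit : ∀ n : ℕ, (∀ p : ℕ, p.Prime → p ∣ n → p < 5) → n ≠ 0 →
      A.valuation ((n : ℕ) : Qbar) = 1 := by
    intro n hn hn0
    apply valuation_natCast_eq_one hq hA
    intro hqn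
    have := hn q hq hqn
    omega
  have h6 : A.valuation (6 : Qbar) = 1 := by
    have := hunit 6 (fun p hp hpn => by
      have : p ∣ 2 * 3 := hpn
      rcases (Nat.Prime.dvd_mul hp).mp this with h | h
      · have := Nat.le_of_dvd (by norm_num) h; omega
      · have := Nat.le_of_dvd (by norm_num) h; omega) (by norm_num)
    simpa using this
  have h2 : A.valuation (2 : Qbar) = 1 :=
    valuation_two_eq_one hq hA (by omega)
  have h3 : A.valuation (3 : Qbar) = 1 := by
    have := valuation_prime_eq_one (L := Qbar) hq hA Nat.prime_three (by omega)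
    simpa using this
  have h1296 : A.valuation (1296 : Qbar) = 1 := by
    rw [show (1296 : Qbar) = 6 ^ 4 by norm_num, map_pow, h6, one_pow]
  have h46656 : A.valuation (46656 : Qbar) = 1 := by
    rw [show (46656 : Qbar) = 6 ^ 6 by norm_num, map_pow, h6, one_pow]
  have h1728 : A.valuation (1728 : Qbar) = 1 := by
    rw [show (1728 : Qbar) = 2 ^ 6 * 3 ^ 3 by norm_num, map_mul, map_pow, map_pow, h2, h3,
      one_pow, one_pow, one_mul]
  -- the three unit factors
  have hΦ4 : A.valuation (b ^ 4 - 12 * b ^ 3 + 14 * b ^ 2 + 12 * b + 1) = 1 := by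
    have e : b ^ 4 - 12 * b ^ 3 + 14 * b ^ 2 + 12 * b + 1
        = 1 + b * (Polynomial.aeval b
          (Polynomial.X ^ 3 - 12 * Polynomial.X ^ 2 + 14 * Polynomial.X + 12 : Polynomial ℤ)) := by
      simp only [map_add, map_sub, map_mul, map_pow, Polynomial.aeval_X, map_ofNat]
      ring
    rw [e]
    exact valuation_one_add_mul hb1 (valuation_aeval_le_one hble _)
  have hΦ6' : ∃ m : Qbar, A.valuation m < 1 ∧
      b ^ 6 - 18 * b ^ 5 + 75 * b ^ 4 + 75 * b ^ 2 + 18 * b + 1 = 1 + m := by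
    refine ⟨b * (Polynomial.aeval b (Polynomial.X ^ 5 - 18 * Polynomial.X ^ 4
      + 75 * Polynomial.X ^ 3 + 75 * Polynomial.X + 18 : Polynomial ℤ)), ?_, ?_⟩
    · rw [map_mul]
      calc A.valuation b * _ ≤ A.valuation b * 1 :=
            mul_le_mul_right (valuation_aeval_le_one hble _) _
        _ < 1 := by rwa [mul_one]
    · simp only [map_add, map_sub, map_mul, map_pow, Polynomial.aeval_X, map_ofNat]
      ring
  have hΦΔ : A.valuation (b ^ 2 - 11 * b - 1) = 1 := by
    have e : b ^ 2 - 11 * b - 1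
        = -(1 + b * (Polynomial.aeval b (11 - Polynomial.X : Polynomial ℤ))) := by
      simp only [map_sub, Polynomial.aeval_X, map_ofNat]
      ring
    rw [e, Valuation.map_neg]
    exact valuation_one_add_mul hb1 (valuation_aeval_le_one hble _)
  -- (1) `q ∤ c4`
  have hvc4 : A.valuation ((c4 : ℤ) : Qbar) = 1 := by
    have := congrArg A.valuation hc4
    rw [map_mul, map_mul, map_pow, h1296, hvu, one_pow, one_mul, one_mul, hΦ4] at this
    exact this
  have hqc4 : ¬ (q : ℤ) ∣ c4 := by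
    intro h
    have := (valuation_intCast_lt_one_iff hq hA c4).mpr h
    rw [hvc4] at this
    exact lt_irrefl _ this
  -- (2) the discriminant
  have hdisc : (6 : Qbar) ^ 12 * (((c4 ^ 3 - c6 ^ 2 : ℤ)) : Qbar)
      = 1728 * u ^ 12 * b ^ 5 * (b ^ 2 - 11 * b - 1) := by
    push_cast
    linear_combination ((1296 * (c4 : Qbar)) ^ 2 + (1296 * (c4 : Qbar))
      * (u ^ 4 * (b ^ 4 - 12 * b ^ 3 + 14 * b ^ 2 + 12 * b + 1))
      + (u ^ 4 * (b ^ 4 - 12 * b ^ 3 + 14 * b ^ 2 + 12 * b + 1)) ^ 2) * hc4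
      - ((46656 * (c6 : Qbar))
      + -(u ^ 6 * (b ^ 6 - 18 * b ^ 5 + 75 * b ^ 4 + 75 * b ^ 2 + 18 * b + 1))) * hc6
  have hvD : A.valuation (((c4 ^ 3 - c6 ^ 2 : ℤ)) : Qbar) = A.valuation (q : Qbar) ^ 5 := by
    have := congrArg A.valuation hdisc
    rw [map_mul, map_pow, h6, one_pow, one_mul, map_mul, map_mul, map_mul, map_pow, map_pow,
      h1728, hvu, one_pow, one_mul, one_mul, hΦΔ, mul_one, hvb] at this
    exact this
  have hq5dvd : (q : ℤ) ^ 5 ∣ c4 ^ 3 - c6 ^ 2 :=
    (valuation_intCast_le_pow_iff A hq hA _ 5).mp hvD.le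
  have hq6 : ¬ (q : ℤ) ^ 6 ∣ c4 ^ 3 - c6 ^ 2 := by
    intro h
    have := (valuation_intCast_le_pow_iff A hq hA _ 6).mpr h
    rw [hvD, pow_succ _ 5] at this
    have hpos : 0 < A.valuation (q : Qbar) ^ 5 := zero_lt_iff.mpr (pow_ne_zero 5 hε0)
    have hlt : A.valuation (q : Qbar) ^ 5 * A.valuation (q : Qbar) < A.valuation (q : Qbar) ^ 5 := by
      calc A.valuation (q : Qbar) ^ 5 * A.valuation (q : Qbar)
          < A.valuation (q : Qbar) ^ 5 * 1 := by
            exact mul_lt_mul_of_pos_left hε1 hpos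
        _ = _ := mul_one _
    exact absurd this (not_le.mpr hlt)
  have hD0 : c4 ^ 3 - c6 ^ 2 ≠ 0 := by
    intro h
    rw [h, Int.cast_zero, map_zero] at hvD
    exact pow_ne_zero 5 hε0 hvD.symm
  have hqD : (q : ℤ) ∣ c4 ^ 3 - c6 ^ 2 := Dvd.dvd.trans (dvd_pow_self _ (by norm_num)) hq5dvd
  have hpv : padicValInt q (c4 ^ 3 - c6 ^ 2) = 5 := by
    have h5 := (padicValInt_dvd_iff (p := q) 5 (c4 ^ 3 - c6 ^ 2)).mp hq5dvd
    have h6' : ¬ (6 ≤ padicValInt q (c4 ^ 3 - c6 ^ 2)) := fun h =>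
      hq6 ((padicValInt_dvd_iff (p := q) 6 (c4 ^ 3 - c6 ^ 2)).mpr (Or.inr h))
    rcases h5 with h5 | h5
    · exact absurd h5 hD0
    · omega
  refine ⟨hqc4, hqD, hpv, ?_⟩
  -- (3) the non-residue
  obtain ⟨m, hm, hΦ6⟩ := hΦ6'
  set w : Qbar := u ^ 3 / 216 with hw
  have h216 : A.valuation (216 : Qbar) = 1 := by
    rw [show (216 : Qbar) = 6 ^ 3 by norm_num, map_pow, h6, one_pow]
  have hvw : A.valuation w = 1 := by
    rw [hw, map_div₀, map_pow, hvu, one_pow, h216, div_one]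
  have hwA : w ∈ A := (ValuationSubring.valuation_le_one_iff A w).mp hvw.le
  have hσw : σ w = -w := by
    rw [hw, map_div₀, map_pow, hσu, map_ofNat]
    ring
  have hc6' : ((-c6 : ℤ) : Qbar) = w ^ 2 * (1 + m) := by
    have h216' : (216 : Qbar) ≠ 0 := by norm_num
    rw [hw, ← hΦ6]
    push_cast
    field_simp
    linear_combination (-1 : Qbar) * hc6
  -- `w ^ (q - 1) ≡ -1`
  have hfrob := frob_apply_sub_pow_mem_nonunits hσ hwA
  rw [hσw, ValuationSubring.mem_nonunits_iff] at hfrob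
  obtain ⟨h, hh⟩ : ∃ h : ℕ, q = 2 * h + 1 := by
    rcases hq.eq_two_or_odd with h2' | hodd
    · omega
    · exact ⟨q / 2, by omega⟩
  have hwq : A.valuation (w ^ (2 * h) + 1) < 1 := by
    have e : -w - w ^ q = -(w * (w ^ (2 * h) + 1)) := by
      rw [hh]; ring
    rw [e, Valuation.map_neg, map_mul, hvw, one_mul] at hfrob
    exact hfrob
  have hmain : A.valuation ((((-c6) ^ h + 1 : ℤ)) : Qbar) < 1 := by
    have e : ((((-c6) ^ h + 1 : ℤ)) : Qbar)
        = w ^ (2 * h) * ((1 + m) ^ h - 1) + (w ^ (2 * h) + 1) := by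
      have : ((((-c6) ^ h + 1 : ℤ)) : Qbar) = (((-c6 : ℤ)) : Qbar) ^ h + 1 := by push_cast; ring
      rw [this, hc6', mul_pow, ← pow_mul]
      ring
    rw [e]
    apply Valuation.map_add_lt _ _ hwq
    rw [map_mul, map_pow, hvw, one_pow, one_mul]
    exact valuation_one_add_pow_sub_one hm h
  have hdvd : (q : ℤ) ∣ (-c6) ^ h + 1 := (valuation_intCast_lt_one_iff hq hA _).mp hmain
  have hzmod : (((-c6 : ℤ)) : ZMod q) ^ h = -1 := by
    have := (ZMod.intCast_zmod_eq_zero_iff_dvd ((-c6) ^ h + 1) q).mpr hdvd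
    push_cast at this
    push_cast
    linear_combination this
  intro hsq
  have hne0 : (((-c6 : ℤ)) : ZMod q) ≠ 0 := by
    intro h0
    rw [h0] at hzmod
    have hh0 : h ≠ 0 := by omega
    rw [zero_pow hh0] at hzmod
    have : (1 : ZMod q) = 0 := by linear_combination hzmod
    exact one_ne_zero this
  have heul := (ZMod.euler_criterion q hne0).mp hsq
  have hq2 : q / 2 = h := by omega
  rw [hq2, hzmod] at heul
  have h2' : (2 : ZMod q) = 0 := by linear_combination -heul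
  have : ((2 : ℕ) : ZMod q) = 0 := by simpa using h2'
  rw [ZMod.natCast_eq_zero_iff] at this
  have := Nat.le_of_dvd (by norm_num) this
  omega

end Fermat.Agent.ES.U52.AuxCore9
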