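/-
Programme U (S52, the 3–5 switch), chapter LOCAL §B2.4 Step 3 (helper9): **the choice of the
integer parameter `t_q` at the auxiliary prime**.

`A` a valuation subring of `ℚ̄` over the prime `q`, `σ` a Frobenius element at `A`, `β ∈ A` fixed by
`σ` and by the inertia group of `A`.  Then there is an integer `t₀` such that
`v(t - β) = v(q)` for every integer `t ≡ t₀ mod q²` (`exists_int_valuation_eq`): `β` reduces into
the prime field (`Q58/RedInst18.exists_primeEmb_eq`), the inertia field is unramified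
(`KeyVal15.exists_zpow_of_fixed`), and one of `t₁`, `t₁ + q` has the exact valuation.

`valuation_eval_eq`: `v(p(x)) = v(p(y))` as soon as `v(x - y) < v(y - δ)` for every root `δ` of `p`.
-/
import Mathlib
import Fermat.Prelude.Def_EllipticCurve_FrobeniusTrace
import Fermat.Agent.S05.Inertia
import Fermat.Agent.ES.J.CycloChar8
import Fermat.Agent.ES.Q58.RedInst18
import Fermat.Agent.ES.U52.KeyVal15

set_option autoImplicit false

namespace Fermat.Agent.ES.U52.AuxPick9

open Fermat.Agent.S05.Inertia Fermat.Agent.ES.J.CycloChar8 Fermat.Agent.ES.U52.KeyVal15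
open Fermat.Agent.ES.EC.LiftTorsion29

local notation "Qbar" => AlgebraicClosure ℚ
local notation "GQ" => (AlgebraicClosure ℚ ≃ₐ[ℚ] AlgebraicClosure ℚ)

variable {A : ValuationSubring Qbar} {q : ℕ}

/-- a Frobenius-fixed element of `A` is congruent to an integer modulo the maximal ideal. -/
theorem exists_int_sub_lt_one (hq : q.Prime) (hA : A.LiesOverPrime q) {σ : GQ}
    (hσ : A.IsFrobeniusAt σ q) {β : Qbar} (hβ : β ∈ A) (hfix : σ β = β) :
    ∃ t₁ : ℤ, A.valuation ((t₁ : Qbar) - β) < 1 := by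
  have hfrob := frob_apply_sub_pow_mem_nonunits hσ hβ
  rw [hfix] at hfrob
  set x : IsLocalRing.ResidueField A := IsLocalRing.residue A ⟨β, hβ⟩ with hx
  have hxq : x ^ q = x := by
    have hmem : (⟨β, hβ⟩ - ⟨β, hβ⟩ ^ q : A) ∈ IsLocalRing.maximalIdeal A := by
      rw [ValuationSubring.valuation_lt_one_iff]
      exact (ValuationSubring.mem_nonunits_iff (A := A)).mp hfrob
    have h0 := (IsLocalRing.residue_eq_zero_iff _).mpr hmem
    rw [map_sub, map_pow, sub_eq_zero] at h0
    exact h0.symm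
  obtain ⟨c, hc⟩ := Fermat.Agent.ES.Q58.RedInst18.exists_primeEmb_eq A hq hA hxq
  refine ⟨(c.val : ℤ), ?_⟩
  have hc' : primeEmb A hq hA (((c.val : ℤ)) : ZMod q) = x := by
    have : NeZero q := ⟨hq.ne_zero⟩
    rw [Int.cast_natCast, ZMod.natCast_zmod_val]
    exact hc
  rw [primeEmb_intCast, hx, ← sub_eq_zero, ← map_sub, IsLocalRing.residue_eq_zero_iff,
    ValuationSubring.valuation_lt_one_iff] at hc'
  simpa using hc'

/-- **The choice of `t₀`.** -/
theorem exists_int_valuation_eq (hq : q.Prime) (hA : A.LiesOverPrime q) {σ : GQ}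
    (hσ : A.IsFrobeniusAt σ q) {β : Qbar} (hβ : β ∈ A) (hfix : σ β = β)
    (hin : ∀ τ ∈ A.inertiaSubgroupIn ℚ, τ β = β) :
    ∃ t₀ : ℤ, ∀ t : ℤ, (q : ℤ) ^ 2 ∣ t - t₀ →
      A.valuation ((t : Qbar) - β) = A.valuation (q : Qbar) := by
  have hε1 : A.valuation (q : Qbar) < 1 := valuation_prime_lt_one hA
  have hε0 : A.valuation (q : Qbar) ≠ 0 := valuation_prime_ne_zero A hq
  have hεpos : 0 < A.valuation (q : Qbar) := zero_lt_iff.mpr hε0
  have hε2 : A.valuation (q : Qbar) ^ 2 < A.valuation (q : Qbar) := by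
    calc A.valuation (q : Qbar) ^ 2 = A.valuation (q : Qbar) * A.valuation (q : Qbar) := sq _
      _ < A.valuation (q : Qbar) * 1 := mul_lt_mul_of_pos_left hε1 hεpos
      _ = _ := mul_one _
  -- it suffices to find `t₀` with the exact valuation
  suffices h : ∃ t₀ : ℤ, A.valuation ((t₀ : Qbar) - β) = A.valuation (q : Qbar) by
    obtain ⟨t₀, ht₀⟩ := h
    refine ⟨t₀, fun t ht => ?_⟩
    have hle : A.valuation (((t - t₀ : ℤ)) : Qbar) ≤ A.valuation (q : Qbar) ^ 2 :=
      (valuation_intCast_le_pow_iff A hq hA _ 2).mpr ht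
    have e : (t : Qbar) - β = (((t - t₀ : ℤ)) : Qbar) + ((t₀ : Qbar) - β) := by
      push_cast; ring
    rw [e, Valuation.map_add_eq_of_lt_right, ht₀]
    rw [ht₀]
    exact lt_of_le_of_lt hle hε2
  obtain ⟨t₁, ht₁⟩ := exists_int_sub_lt_one hq hA hσ hβ hfix
  by_cases hz : (t₁ : Qbar) - β = 0
  · refine ⟨t₁ + q, ?_⟩
    have e : (((t₁ + q : ℤ)) : Qbar) - β = (q : Qbar) + ((t₁ : Qbar) - β) := by
      push_cast; ring
    rw [e, hz, add_zero]
  · have hfix' : ∀ τ ∈ A.inertiaSubgroupIn ℚ, τ ((t₁ : Qbar) - β) = (t₁ : Qbar) - β := by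
      intro τ hτ
      rw [map_sub, map_intCast, hin τ hτ]
    obtain ⟨n, hn⟩ := exists_zpow_of_fixed A hq hA hz hfix'
    have hn0 : 0 ≤ n := nonneg_of_zpow_le_one A hq hA (by rw [← hn]; exact ht₁.le)
    have hn1 : n ≠ 0 := by
      rintro rfl
      rw [zpow_zero] at hn
      rw [hn] at ht₁
      exact lt_irrefl _ ht₁
    obtain ⟨k, rfl⟩ : ∃ k : ℕ, n = (k : ℤ) + 1 := ⟨(n - 1).toNat, by omega⟩
    have hn' : A.valuation ((t₁ : Qbar) - β) = A.valuation (q : Qbar) ^ (k + 1) := by
      rw [hn]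
      exact_mod_cast rfl
    rcases Nat.eq_zero_or_pos k with rfl | hk
    · exact ⟨t₁, by rw [hn']; simp⟩
    · refine ⟨t₁ + q, ?_⟩
      have e : (((t₁ + q : ℤ)) : Qbar) - β = (q : Qbar) + ((t₁ : Qbar) - β) := by
        push_cast; ring
      rw [e, Valuation.map_add_eq_of_lt_left]
      rw [hn']
      calc A.valuation (q : Qbar) ^ (k + 1)
          ≤ A.valuation (q : Qbar) ^ 2 :=
            pow_le_pow_of_le_one zero_le hε1.le (by omega)
        _ < A.valuation (q : Qbar) := hε2

/-- `v(p(x)) = v(p(y))` if `x` is closer to `y` than every root of `p`. -/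
theorem valuation_eval_eq (p : Polynomial Qbar) {x y : Qbar}
    (h : ∀ δ ∈ p.roots, A.valuation (x - y) < A.valuation (y - δ)) :
    A.valuation (p.eval x) = A.valuation (p.eval y) := by
  have hs : p.Splits := IsAlgClosed.splits p
  rw [hs.eval_eq_prod_roots x, hs.eval_eq_prod_roots y, map_mul, map_mul, map_multiset_prod,
    map_multiset_prod, Multiset.map_map, Multiset.map_map]
  congr 1
  apply congrArg
  apply Multiset.map_congr rfl
  intro δ hδ
  show A.valuation (x - δ) = A.valuation (y - δ)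
  have e : x - δ = (x - y) + (y - δ) := by ring
  rw [e, Valuation.map_add_eq_of_lt_right _ (h δ hδ)]

end Fermat.Agent.ES.U52.AuxPick9
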