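/-
Programme U (S52), chapter LOCAL §A2 (helper15): the valuation computation of the KEY LEMMA.

* `exists_zpow_of_tate` : `w⁴c = c₄(𝓔_B)`, `w¹²d = Δ(𝓔_B)`, `v(w), v(B) ∈ v(q)^ℤ`, `q ≠ 5` ⇒
  `v(c) = v(q)^{4m} g₄`, `v(d) = v(q)^{12m} g_D` with `g₄, g_D ≤ 1` not both `< 1`
  (case `v(B) ≤ 1`: `c₄ ≡ 1 mod B` and the Bezout-5 identity; case `v(B) > 1`: `3·4v(B) < 7v(B)`);
* `exists_nat_of_valuation` : translation into divisibility of the integers `c₄`, `D`.
-/
import Mathlib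
import Fermat.Agent.ES.U52.KeyVal15

set_option autoImplicit false

namespace Fermat.Agent.ES.U52.KeyCore15

open Fermat.Agent.ES.U52.KeyVal15 Fermat.Agent.S05.Inertia

local notation "Qbar" => AlgebraicClosure ℚ

variable (P : ValuationSubring Qbar) {q : ℕ}

/-- The valuation computation behind "a point of order `5` forces semistability away from `5`":
if `w⁴·c = c₄(𝓔_B)` and `w¹²·d = Δ(𝓔_B)` with `v(w)`, `v(B)` integral powers of `v(q)`, `q ≠ 5`,
then `(v(c), v(d)) = (v(q)^{4m}·g₄, v(q)^{12m}·g_D)` with `g₄, g_D ≤ 1`, not both `< 1`. -/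
theorem exists_zpow_of_tate (hq : q.Prime) (hq5 : q ≠ 5) (hP : P.LiesOverPrime q)
    {w B c d : Qbar} (nw nb : ℤ)
    (hvw : P.valuation w = P.valuation (q : Qbar) ^ nw)
    (hvB : P.valuation B = P.valuation (q : Qbar) ^ nb)
    (e1 : w ^ 4 * c = B ^ 4 - 12 * B ^ 3 + 14 * B ^ 2 + 12 * B + 1)
    (e2 : w ^ 12 * d = B ^ 5 * (B ^ 2 - 11 * B - 1)) :
    ∃ (m : ℤ) (g4 gD : P.ValueGroup), g4 ≤ 1 ∧ gD ≤ 1 ∧ (g4 = 1 ∨ gD = 1) ∧
      P.valuation c = P.valuation (q : Qbar) ^ (4 * m) * g4 ∧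
      P.valuation d = P.valuation (q : Qbar) ^ (12 * m) * gD := by
  have hπ0 := valuation_prime_ne_zero P hq
  have hπ1 := valuation_prime_lt_one hP
  have hw0 : P.valuation w ≠ 0 := by rw [hvw]; exact zpow_ne_zero _ hπ0
  have hvc : P.valuation c = P.valuation (q : Qbar) ^ (4 * (-nw)) *
      P.valuation (B ^ 4 - 12 * B ^ 3 + 14 * B ^ 2 + 12 * B + 1) := by
    rw [← e1, map_mul, map_pow, hvw, ← zpow_natCast, ← zpow_mul, ← mul_assoc, ← zpow_add₀ hπ0]
    have : 4 * -nw + nw * ((4 : ℕ) : ℤ) = 0 := by push_cast; ring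
    rw [this, zpow_zero, one_mul]
  have hvd : P.valuation d = P.valuation (q : Qbar) ^ (12 * (-nw)) *
      P.valuation (B ^ 5 * (B ^ 2 - 11 * B - 1)) := by
    rw [← e2, map_mul (P.valuation) (w ^ 12) d, map_pow, hvw, ← zpow_natCast, ← zpow_mul,
      ← mul_assoc, ← zpow_add₀ hπ0]
    have : 12 * -nw + nw * ((12 : ℕ) : ℤ) = 0 := by push_cast; ring
    rw [this, zpow_zero, one_mul]
  by_cases hB : P.valuation B ≤ 1
  · -- `B` integral
    have hBm : B ∈ P := (P.valuation_le_one_iff B).mp hB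
    have h12 : (12 : Qbar) ∈ P := by exact_mod_cast natCast_mem P 12
    have h14 : (14 : Qbar) ∈ P := by exact_mod_cast natCast_mem P 14
    have h11 : (11 : Qbar) ∈ P := by exact_mod_cast natCast_mem P 11
    have hC : B ^ 4 - 12 * B ^ 3 + 14 * B ^ 2 + 12 * B + 1 ∈ P :=
      P.add_mem _ _ (P.add_mem _ _ (P.add_mem _ _ (sub_mem (pow_mem hBm 4)
        (P.mul_mem _ _ h12 (pow_mem hBm 3))) (P.mul_mem _ _ h14 (pow_mem hBm 2)))
        (P.mul_mem _ _ h12 hBm)) P.one_mem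
    have hQ : B ^ 2 - 11 * B - 1 ∈ P :=
      sub_mem (sub_mem (pow_mem hBm 2) (P.mul_mem _ _ h11 hBm)) P.one_mem
    have hDm : B ^ 5 * (B ^ 2 - 11 * B - 1) ∈ P := P.mul_mem _ _ (pow_mem hBm 5) hQ
    refine ⟨-nw, _, _, (P.valuation_le_one_iff _).mpr hC, (P.valuation_le_one_iff _).mpr hDm, ?_,
      hvc, hvd⟩
    by_contra hcon
    push Not at hcon
    obtain ⟨hc1, hd1⟩ := hcon
    have hc1' := lt_of_le_of_ne ((P.valuation_le_one_iff _).mpr hC) hc1
    have hd1' := lt_of_le_of_ne ((P.valuation_le_one_iff _).mpr hDm) hd1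
    -- either `B` or `B² - 11B - 1` is a nonunit
    rw [map_mul, map_pow] at hd1'
    have hcase : P.valuation B < 1 ∨ P.valuation (B ^ 2 - 11 * B - 1) < 1 := by
      by_contra hh
      push Not at hh
      have hB1 : P.valuation B = 1 := le_antisymm hB hh.1
      have hQ1 : P.valuation (B ^ 2 - 11 * B - 1) = 1 :=
        le_antisymm ((P.valuation_le_one_iff _).mpr hQ) hh.2
      rw [hB1, hQ1, one_pow, one_mul] at hd1'
      exact lt_irrefl _ hd1'
    rcases hcase with hb | hb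
    · -- `c₄ ≡ 1 mod B`
      have h1 : (1 : Qbar) = (B ^ 4 - 12 * B ^ 3 + 14 * B ^ 2 + 12 * B + 1)
          - B * (B ^ 3 - 12 * B ^ 2 + 14 * B + 12) := by ring
      have hR : B ^ 3 - 12 * B ^ 2 + 14 * B + 12 ∈ P :=
        P.add_mem _ _ (P.add_mem _ _ (sub_mem (pow_mem hBm 3) (P.mul_mem _ _ h12 (pow_mem hBm 2)))
          (P.mul_mem _ _ h14 hBm)) h12
      have h2 : P.valuation (B * (B ^ 3 - 12 * B ^ 2 + 14 * B + 12)) < 1 := by
        rw [map_mul]
        calc P.valuation B * P.valuation (B ^ 3 - 12 * B ^ 2 + 14 * B + 12)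
            ≤ P.valuation B * 1 := mul_le_mul_right ((P.valuation_le_one_iff _).mpr hR) _
          _ < 1 := by rw [mul_one]; exact hb
      have h3 : P.valuation (1 : Qbar) < 1 := by
        rw [h1]
        exact Valuation.map_sub_lt _ hc1' h2
      rw [map_one] at h3
      exact lt_irrefl _ h3
    · -- the Bezout identity gives `5 ∈ 𝔪`
      have h5 : (5 : Qbar) = (122 - 11 * B) * (B ^ 4 - 12 * B ^ 3 + 14 * B ^ 2 + 12 * B + 1)
          - ((122 - 11 * B) * (B ^ 2 - B + 4) - 605) * (B ^ 2 - 11 * B - 1) := by ring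
      have h122 : (122 : Qbar) ∈ P := by exact_mod_cast natCast_mem P 122
      have h605 : (605 : Qbar) ∈ P := by exact_mod_cast natCast_mem P 605
      have h4 : (4 : Qbar) ∈ P := by exact_mod_cast natCast_mem P 4
      have hL : (122 - 11 * B) ∈ P := sub_mem h122 (P.mul_mem _ _ h11 hBm)
      have hM : ((122 - 11 * B) * (B ^ 2 - B + 4) - 605) ∈ P :=
        sub_mem (P.mul_mem _ _ hL (P.add_mem _ _ (sub_mem (pow_mem hBm 2) hBm) h4)) h605
      have h6 : P.valuation (5 : Qbar) < 1 := by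
        rw [h5]
        apply Valuation.map_sub_lt
        · rw [map_mul]
          calc P.valuation (122 - 11 * B) * P.valuation (B ^ 4 - 12 * B ^ 3 + 14 * B ^ 2 + 12 * B + 1)
              ≤ 1 * P.valuation (B ^ 4 - 12 * B ^ 3 + 14 * B ^ 2 + 12 * B + 1) :=
                mul_le_mul_left ((P.valuation_le_one_iff _).mpr hL) _
            _ < 1 := by rw [one_mul]; exact hc1'
        · rw [map_mul]
          calc P.valuation ((122 - 11 * B) * (B ^ 2 - B + 4) - 605) * P.valuation (B ^ 2 - 11 * B - 1)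
              ≤ 1 * P.valuation (B ^ 2 - 11 * B - 1) :=
                mul_le_mul_left ((P.valuation_le_one_iff _).mpr hM) _
            _ < 1 := by rw [one_mul]; exact hb
      have h7 : P.valuation ((5 : ℕ) : Qbar) < 1 := by exact_mod_cast h6
      have := (valuation_natCast_lt_one_iff hq hP 5).mp h7
      have h8 : q = 5 := (Nat.prime_dvd_prime_iff_eq hq (by norm_num)).mp this
      exact hq5 h8
  · -- `B⁻¹` in the maximal ideal
    push Not at hB
    have hB0 : B ≠ 0 := by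
      rintro rfl
      rw [map_zero] at hB
      exact absurd hB (not_lt.mpr zero_le)
    have hnb : nb < 0 := by
      by_contra hnb
      push Not at hnb
      obtain ⟨k, rfl⟩ : ∃ k : ℕ, nb = k := ⟨nb.toNat, by omega⟩
      rw [hvB, zpow_natCast] at hB
      exact absurd hB (not_lt.mpr (pow_le_one₀ zero_le hπ1.le))
    have hβ : P.valuation B⁻¹ < 1 := by
      rw [map_inv₀]
      exact inv_lt_one_of_one_lt₀ hB
    have hβm : B⁻¹ ∈ P := (P.valuation_le_one_iff _).mp hβ.le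
    have h12 : (12 : Qbar) ∈ P := by exact_mod_cast natCast_mem P 12
    have h14 : (14 : Qbar) ∈ P := by exact_mod_cast natCast_mem P 14
    have h11 : (11 : Qbar) ∈ P := by exact_mod_cast natCast_mem P 11
    -- the two units
    have hε1 : P.valuation (1 + B⁻¹ * (-12 + 14 * B⁻¹ + 12 * B⁻¹ ^ 2 + B⁻¹ ^ 3)) = 1 := by
      apply Valuation.map_one_add_of_lt
      rw [map_mul]
      have hR : (-12 + 14 * B⁻¹ + 12 * B⁻¹ ^ 2 + B⁻¹ ^ 3) ∈ P :=
        P.add_mem _ _ (P.add_mem _ _ (P.add_mem _ _ (P.neg_mem _ h12) (P.mul_mem _ _ h14 hβm))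
          (P.mul_mem _ _ h12 (pow_mem hβm 2))) (pow_mem hβm 3)
      calc P.valuation B⁻¹ * P.valuation (-12 + 14 * B⁻¹ + 12 * B⁻¹ ^ 2 + B⁻¹ ^ 3)
          ≤ P.valuation B⁻¹ * 1 := mul_le_mul_right ((P.valuation_le_one_iff _).mpr hR) _
        _ < 1 := by rw [mul_one]; exact hβ
    have hε2 : P.valuation (1 + B⁻¹ * (-11 - B⁻¹)) = 1 := by
      apply Valuation.map_one_add_of_lt
      rw [map_mul]
      have hR : (-11 - B⁻¹) ∈ P := sub_mem (P.neg_mem _ h11) hβm
      calc P.valuation B⁻¹ * P.valuation (-11 - B⁻¹)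
          ≤ P.valuation B⁻¹ * 1 := mul_le_mul_right ((P.valuation_le_one_iff _).mpr hR) _
        _ < 1 := by rw [mul_one]; exact hβ
    have hC : B ^ 4 - 12 * B ^ 3 + 14 * B ^ 2 + 12 * B + 1
        = B ^ 4 * (1 + B⁻¹ * (-12 + 14 * B⁻¹ + 12 * B⁻¹ ^ 2 + B⁻¹ ^ 3)) := by
      field_simp
      ring
    have hD : B ^ 5 * (B ^ 2 - 11 * B - 1) = B ^ 7 * (1 + B⁻¹ * (-11 - B⁻¹)) := by
      field_simp
      ring
    refine ⟨nb - nw, 1, P.valuation (q : Qbar) ^ (-5 * nb), le_refl _, ?_, Or.inl rfl, ?_, ?_⟩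
    · obtain ⟨k, hk⟩ : ∃ k : ℕ, -5 * nb = k := ⟨(-5 * nb).toNat, by omega⟩
      rw [hk, zpow_natCast]
      exact pow_le_one₀ zero_le hπ1.le
    · rw [hvc, hC, map_mul, map_pow, hε1, mul_one, mul_one, hvB, ← zpow_natCast, ← zpow_mul,
        ← zpow_add₀ hπ0]
      congr 1
      push_cast
      ring
    · rw [hvd, hD, map_mul (P.valuation) (B ^ 7), map_pow, hε2, mul_one, hvB, ← zpow_natCast,
        ← zpow_mul, ← zpow_add₀ hπ0, ← zpow_add₀ hπ0]
      congr 1
      push_cast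
      ring

/-- Conversion of the valuation statement into divisibility of integers. -/
theorem exists_nat_of_valuation (hq : q.Prime) (hP : P.LiesOverPrime q) (c4 D : ℤ) (m : ℤ)
    (g4 gD : P.ValueGroup) (h4 : g4 ≤ 1) (hD : gD ≤ 1) (hmax : g4 = 1 ∨ gD = 1)
    (e4 : P.valuation (c4 : Qbar) = P.valuation (q : Qbar) ^ (4 * m) * g4)
    (eD : P.valuation (D : Qbar) = P.valuation (q : Qbar) ^ (12 * m) * gD) :
    ∃ k : ℕ, (q : ℤ) ^ (4 * k) ∣ c4 ∧ (q : ℤ) ^ (12 * k) ∣ D ∧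
      ¬ ((q : ℤ) ^ (4 * k + 1) ∣ c4 ∧ (q : ℤ) ^ (12 * k + 1) ∣ D) := by
  have hπ0 := valuation_prime_ne_zero P hq
  have hπ1 := valuation_prime_lt_one hP
  -- `m ≥ 0`
  have hm : 0 ≤ m := by
    rcases hmax with h | h
    · rw [h, mul_one] at e4
      have := valuation_intCast_le_one (A := P) c4
      rw [e4] at this
      have := nonneg_of_zpow_le_one P hq hP this
      omega
    · rw [h, mul_one] at eD
      have := valuation_intCast_le_one (A := P) D
      rw [eD] at this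
      have := nonneg_of_zpow_le_one P hq hP this
      omega
  obtain ⟨k, rfl⟩ : ∃ k : ℕ, m = k := ⟨m.toNat, by omega⟩
  have e4' : P.valuation (c4 : Qbar) = P.valuation (q : Qbar) ^ (4 * k) * g4 := by
    rw [e4]; norm_cast
  have eD' : P.valuation (D : Qbar) = P.valuation (q : Qbar) ^ (12 * k) * gD := by
    rw [eD]; norm_cast
  refine ⟨k, ?_, ?_, ?_⟩
  · rw [← valuation_intCast_le_pow_iff P hq hP, e4']
    calc P.valuation (q : Qbar) ^ (4 * k) * g4 ≤ P.valuation (q : Qbar) ^ (4 * k) * 1 :=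
          mul_le_mul_right h4 _
      _ = _ := mul_one _
  · rw [← valuation_intCast_le_pow_iff P hq hP, eD']
    calc P.valuation (q : Qbar) ^ (12 * k) * gD ≤ P.valuation (q : Qbar) ^ (12 * k) * 1 :=
          mul_le_mul_right hD _
      _ = _ := mul_one _
  · rintro ⟨h1, h2⟩
    rw [← valuation_intCast_le_pow_iff P hq hP, e4', pow_succ] at h1
    rw [← valuation_intCast_le_pow_iff P hq hP, eD', pow_succ] at h2
    have hk4 : P.valuation (q : Qbar) ^ (4 * k) ≠ 0 := pow_ne_zero _ hπ0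
    have hk12 : P.valuation (q : Qbar) ^ (12 * k) ≠ 0 := pow_ne_zero _ hπ0
    have h1' : g4 ≤ P.valuation (q : Qbar) := by
      rw [mul_comm, mul_comm (P.valuation (q : Qbar) ^ (4 * k))] at h1
      exact le_of_mul_le_mul_right h1 (zero_lt_iff.mpr hk4)
    have h2' : gD ≤ P.valuation (q : Qbar) := by
      rw [mul_comm, mul_comm (P.valuation (q : Qbar) ^ (12 * k))] at h2
      exact le_of_mul_le_mul_right h2 (zero_lt_iff.mpr hk12)
    rcases hmax with h | h
    · rw [h] at h1'; exact absurd (lt_of_le_of_lt h1' hπ1) (lt_irrefl _)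
    · rw [h] at h2'; exact absurd (lt_of_le_of_lt h2' hπ1) (lt_irrefl _)


end Fermat.Agent.ES.U52.KeyCore15
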