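/-
Programme U (S52, the 3–5 switch), chapter LOCAL §A2 (helper15): **Tate's normal form**
`𝓔_{b,c} : y² + (1 - c)xy - by = x³ - bx²` with the point `P0 = (0, 0)`.

* `tateNF_c₄`, `tateNF_Δ` : `c₄(𝓔_{b,b}) = b⁴ - 12b³ + 14b² + 12b + 1`, `Δ(𝓔_{b,b}) = b⁵(b² - 11b - 1)`;
* `bezout_five` : `5 = (122 - 11b)·c₄ - [(122 - 11b)(b² - b + 4) - 605]·(b² - 11b - 1)`;
* `two_nsmul_P0`, `three_nsmul_P0` : `2·P0 = (b, bc)`, `3·P0 = (c, b - c)` (field, `b ≠ 0`);
* `eq_of_five_nsmul_P0` : `5·P0 = 0 → b = c`.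
-/
import Mathlib

set_option autoImplicit false

open WeierstrassCurve WeierstrassCurve.Affine

namespace Fermat.Agent.ES.U52.TateNF15

section Ring
variable {R : Type*} [CommRing R]

/-- Tate's normal form `y² + (1 - c)xy - by = x³ - bx²`. -/
def tateNF (b c : R) : WeierstrassCurve R := ⟨1 - c, -b, -b, 0, 0⟩

theorem tateNF_c₄ (b : R) :
    (tateNF b b).c₄ = b ^ 4 - 12 * b ^ 3 + 14 * b ^ 2 + 12 * b + 1 := by
  simp only [tateNF, WeierstrassCurve.c₄, WeierstrassCurve.b₂, WeierstrassCurve.b₄]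
  ring

theorem tateNF_Δ (b : R) : (tateNF b b).Δ = b ^ 5 * (b ^ 2 - 11 * b - 1) := by
  simp only [tateNF, WeierstrassCurve.Δ, WeierstrassCurve.b₂, WeierstrassCurve.b₄,
    WeierstrassCurve.b₆, WeierstrassCurve.b₈]
  ring

/-- The Bezout identity: `c₄` and `b² - 11b - 1` generate `5`. -/
theorem bezout_five (b : R) :
    (5 : R) = (122 - 11 * b) * (tateNF b b).c₄
      - ((122 - 11 * b) * (b ^ 2 - b + 4) - 605) * (b ^ 2 - 11 * b - 1) := by
  rw [tateNF_c₄]; ring

theorem tateNF_c₄_mod (b : R) : (tateNF b b).c₄ = 1 + b * (b ^ 3 - 12 * b ^ 2 + 14 * b + 12) := by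
  rw [tateNF_c₄]; ring

end Ring

section Field
variable {F : Type*} [Field F] [DecidableEq F]

omit [DecidableEq F] in
theorem equation_zero (b c : F) : (tateNF b c).toAffine.Equation 0 0 := by
  rw [Affine.equation_iff]; simp [tateNF]

omit [DecidableEq F] in
theorem nonsingular_zero {b : F} (c : F) (hb : b ≠ 0) : (tateNF b c).toAffine.Nonsingular 0 0 := by
  rw [Affine.nonsingular_iff]
  refine ⟨equation_zero b c, Or.inr ?_⟩
  simp only [tateNF]
  intro h
  apply hb
  linear_combination (-1 : F) * h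

/-- The point `(0, 0)`. -/
def P0 {b : F} (c : F) (hb : b ≠ 0) : (tateNF b c).toAffine.Point :=
  Point.some 0 0 (nonsingular_zero c hb)

theorem two_nsmul_P0 {b : F} (c : F) (hb : b ≠ 0) :
    ∃ h : (tateNF b c).toAffine.Nonsingular b (b * c), 2 • P0 c hb = Point.some b (b * c) h := by
  have hy : (0 : F) ≠ (tateNF b c).toAffine.negY 0 0 := by
    simp only [Affine.negY, tateNF]
    intro h
    apply hb
    linear_combination (-1 : F) * h
  have h2 := Point.add_self_of_Y_ne (h₁ := nonsingular_zero c hb) hy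
  have hs : (tateNF b c).toAffine.slope 0 0 0 0 = 0 := by
    rw [Affine.slope_of_Y_ne rfl hy]
    simp [tateNF]
  have hx : (tateNF b c).toAffine.addX 0 0 ((tateNF b c).toAffine.slope 0 0 0 0) = b := by
    rw [hs]; simp [Affine.addX, tateNF]
  have hyy : (tateNF b c).toAffine.addY 0 0 0 ((tateNF b c).toAffine.slope 0 0 0 0) = b * c := by
    rw [hs]; simp [Affine.addY, Affine.negAddY, Affine.negY, Affine.addX, tateNF]; ring
  have hns := Affine.nonsingular_add (nonsingular_zero c hb) (nonsingular_zero c hb)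
    (fun hxy => hy hxy.right)
  rw [hx, hyy] at hns
  refine ⟨hns, ?_⟩
  rw [two_nsmul]
  show Point.some 0 0 (nonsingular_zero c hb) + Point.some 0 0 (nonsingular_zero c hb) = _
  rw [h2]
  simp only [Point.some.injEq]
  exact ⟨hx, hyy⟩

theorem three_nsmul_P0 {b : F} (c : F) (hb : b ≠ 0) :
    ∃ h : (tateNF b c).toAffine.Nonsingular c (b - c), 3 • P0 c hb = Point.some c (b - c) h := by
  obtain ⟨h2, e2⟩ := two_nsmul_P0 c hb
  have h0 := nonsingular_zero c hb
  have hx : b ≠ (0 : F) := hb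
  have h3 := Point.add_of_X_ne (h₁ := h2) (h₂ := h0) hx
  have hs : (tateNF b c).toAffine.slope b 0 (b * c) 0 = c := by
    rw [Affine.slope_of_X_ne hx, sub_zero, sub_zero, mul_comm, mul_div_assoc, div_self hb, mul_one]
  have hxx : (tateNF b c).toAffine.addX b 0 ((tateNF b c).toAffine.slope b 0 (b * c) 0) = c := by
    rw [hs]; simp [Affine.addX, tateNF]; ring
  have hyy : (tateNF b c).toAffine.addY b 0 (b * c) ((tateNF b c).toAffine.slope b 0 (b * c) 0)
      = b - c := by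
    rw [hs]; simp [Affine.addY, Affine.negAddY, Affine.negY, Affine.addX, tateNF]; ring
  have hns := Affine.nonsingular_add h2 h0 (fun hxy => hx hxy.left)
  rw [hxx, hyy] at hns
  refine ⟨hns, ?_⟩
  have : (3 : ℕ) • P0 c hb = 2 • P0 c hb + P0 c hb := by
    rw [show (3 : ℕ) = 2 + 1 from rfl, add_nsmul, one_nsmul]
  rw [this, e2]
  show Point.some b (b * c) h2 + Point.some 0 0 h0 = _
  rw [h3]
  simp only [Point.some.injEq]
  exact ⟨hxx, hyy⟩

/-- If `(0, 0)` is killed by `5` on `y² + (1 - c)xy - by = x³ - bx²`, then `b = c`. -/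
theorem eq_of_five_nsmul_P0 {b : F} (c : F) (hb : b ≠ 0) (h5 : 5 • P0 c hb = 0) : b = c := by
  obtain ⟨h2, e2⟩ := two_nsmul_P0 c hb
  obtain ⟨h3, e3⟩ := three_nsmul_P0 c hb
  have : (5 : ℕ) • P0 c hb = 3 • P0 c hb + 2 • P0 c hb := by
    rw [← add_nsmul]
  rw [this, e2, e3] at h5
  have h6 : Point.some c (b - c) h3 = - Point.some b (b * c) h2 := eq_neg_of_add_eq_zero_left h5
  rw [Point.neg_some] at h6
  simp only [Point.some.injEq] at h6
  exact h6.1.symm

end Field

end Fermat.Agent.ES.U52.TateNF15
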