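/-
Programme U (S52), chapter LOCAL §A2 (helper15): **existence of Tate's normal form**.
A Weierstrass curve `E` over a field `F` with a nonsingular point `(x₀, y₀)` killed by `5` becomes,
after a change of variables DEFINED OVER `F`, the curve `𝓔_{b,b} : y² + (1-b)xy - by = x³ - bx²`
(`exists_tateNF`).  Steps: move the point to the origin and kill `a₄` (`preNF`), `a₃ ≠ 0` (not
`2`-torsion), `a₂ ≠ 0` (not `3`-torsion: `preNF_three_nsmul`), scale to `a₂ = a₃`, then
`TateNF15.eq_of_five_nsmul_P0`.  Points are transported with main's `S05.Transport.pointEquiv`.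
-/
import Mathlib
import Fermat.Agent.S05.Transport
import Fermat.Agent.ES.U52.TateNF15

set_option autoImplicit false

open WeierstrassCurve WeierstrassCurve.Affine

namespace Fermat.Agent.ES.U52.TateNFExists15

open Fermat.Agent.S05.Transport Fermat.Agent.ES.U52.TateNF15

variable {F : Type*} [Field F] [DecidableEq F]

/-- The pre-normal form `y² + a₁xy + a₃y = x³ + a₂x²`. -/
def preNF (a₁ a₂ a₃ : F) : WeierstrassCurve F := ⟨a₁, a₂, a₃, 0, 0⟩

omit [DecidableEq F] in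
theorem preNF_nonsingular_zero (a₁ a₂ : F) {a₃ : F} (h3 : a₃ ≠ 0) :
    (preNF a₁ a₂ a₃).toAffine.Nonsingular 0 0 := by
  rw [Affine.nonsingular_iff, Affine.equation_iff]
  refine ⟨by simp [preNF], Or.inr ?_⟩
  simp only [preNF]
  intro h
  apply h3
  linear_combination h

/-- If `a₂ = 0`, the point `(0, 0)` of the pre-normal form is killed by `3`. -/
theorem preNF_three_nsmul (a₁ : F) {a₃ : F} (h3 : a₃ ≠ 0) :
    3 • (Point.some 0 0 (preNF_nonsingular_zero a₁ 0 h3) : (preNF a₁ 0 a₃).toAffine.Point) = 0 := by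
  have h0 := preNF_nonsingular_zero a₁ 0 h3
  have hy : (0 : F) ≠ (preNF a₁ 0 a₃).toAffine.negY 0 0 := by
    simp only [Affine.negY, preNF]
    intro h
    apply h3
    linear_combination h
  have h2 := Point.add_self_of_Y_ne (h₁ := h0) hy
  have hs : (preNF a₁ 0 a₃).toAffine.slope 0 0 0 0 = 0 := by
    rw [Affine.slope_of_Y_ne rfl hy]
    simp [preNF]
  have hx : (preNF a₁ 0 a₃).toAffine.addX 0 0 ((preNF a₁ 0 a₃).toAffine.slope 0 0 0 0) = 0 := by
    rw [hs]; simp [Affine.addX, preNF]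
  have hyy : (preNF a₁ 0 a₃).toAffine.addY 0 0 0 ((preNF a₁ 0 a₃).toAffine.slope 0 0 0 0)
      = (preNF a₁ 0 a₃).toAffine.negY 0 0 := by
    rw [hs]; simp [Affine.addY, Affine.negAddY, Affine.addX, preNF]
  have e3 : (3 : ℕ) • (Point.some 0 0 h0 : (preNF a₁ 0 a₃).toAffine.Point)
      = (Point.some 0 0 h0 + Point.some 0 0 h0) + Point.some 0 0 h0 := by
    rw [show (3 : ℕ) = 2 + 1 from rfl, add_nsmul, one_nsmul, two_nsmul]
  rw [e3, h2]
  exact Point.add_of_Y_eq hx hyy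

/-- On the pre-normal form, if `(0, 0)` is killed by `5` then `a₂ ≠ 0`. -/
theorem preNF_a₂_ne_zero (a₁ a₂ : F) {a₃ : F} (h3 : a₃ ≠ 0)
    (h5 : 5 • (Point.some 0 0 (preNF_nonsingular_zero a₁ a₂ h3) :
      (preNF a₁ a₂ a₃).toAffine.Point) = 0) : a₂ ≠ 0 := by
  rintro rfl
  have h3' := preNF_three_nsmul a₁ h3
  have h6 : (6 : ℕ) • (Point.some 0 0 (preNF_nonsingular_zero a₁ 0 h3) :
      (preNF a₁ 0 a₃).toAffine.Point) = 0 := by
    rw [show (6 : ℕ) = 2 * 3 from rfl, mul_nsmul', h3', nsmul_zero]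
  rw [show (6 : ℕ) = 5 + 1 from rfl, add_nsmul, h5, zero_add, one_nsmul] at h6
  exact Point.some_ne_zero _ h6

/-- Scaling the pre-normal form to Tate's normal form. -/
theorem exists_tateNF_of_preNF (A₁ A₂ : F) {A₃ : F} (hA₃ : A₃ ≠ 0)
    (hQ5 : 5 • (Point.some 0 0 (preNF_nonsingular_zero A₁ A₂ hA₃) :
      (preNF A₁ A₂ A₃).toAffine.Point) = 0) :
    ∃ (C : VariableChange F) (b : F), b ≠ 0 ∧ C • preNF A₁ A₂ A₃ = tateNF b b := by
  have hA₂ := preNF_a₂_ne_zero _ _ hA₃ hQ5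
  have hu : A₃ / A₂ ≠ 0 := div_ne_zero hA₃ hA₂
  let C₂ : VariableChange F := ⟨Units.mk0 _ hu, 0, 0, 0⟩
  have hC₂u : ((C₂.u⁻¹ : Fˣ) : F) = A₂ / A₃ := by
    simp only [C₂, Units.val_inv_eq_inv_val, Units.val_mk0, inv_div]
  have hT : tateNF (-((A₂ / A₃) ^ 2 * A₂)) (1 - A₂ / A₃ * A₁) = C₂ • preNF A₁ A₂ A₃ := by
    ext
    · simp only [tateNF, preNF, variableChange_a₁, hC₂u]
      simp [C₂]
    · simp only [tateNF, preNF, variableChange_a₂, hC₂u]
      simp [C₂]
    · simp only [tateNF, preNF, variableChange_a₃, hC₂u]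
      simp only [C₂, mul_zero, zero_mul, add_zero]
      field_simp
    · simp only [tateNF, preNF, variableChange_a₄, hC₂u]
      simp [C₂]
    · simp only [tateNF, preNF, variableChange_a₆, hC₂u]
      simp [C₂]
  have hb : -((A₂ / A₃) ^ 2 * A₂) ≠ 0 :=
    neg_ne_zero.mpr (mul_ne_zero (pow_ne_zero 2 (div_ne_zero hA₂ hA₃)) hA₂)
  have hP5 : 5 • P0 (1 - A₂ / A₃ * A₁) hb = 0 := by
    apply (Fermat.Agent.S05.Transport.pointEquiv hT).injective
    rw [map_nsmul, map_zero, P0, Fermat.Agent.S05.Transport.pointEquiv_some]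
    have hx : vcX C₂ 0 = 0 := by simp [vcX, C₂]
    have hy : vcY C₂ 0 0 = 0 := by simp [vcY, C₂]
    have : (Point.some (vcX C₂ 0) (vcY C₂ 0 0)
        ((nonsingular_iff_vc hT 0 0).mpr (nonsingular_zero _ hb)) : (preNF A₁ A₂ A₃).toAffine.Point)
        = Point.some 0 0 (preNF_nonsingular_zero A₁ A₂ hA₃) := by
      simp only [Point.some.injEq]
      exact ⟨hx, hy⟩
    rw [this]
    exact hQ5
  have hbc := eq_of_five_nsmul_P0 _ hb hP5
  refine ⟨C₂, -((A₂ / A₃) ^ 2 * A₂), hb, ?_⟩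
  rw [← hT, ← hbc]

/-- **Tate normal form.** A Weierstrass curve over a field with a (nonsingular) point killed by `5`
is, after a change of variables over the same field, of the form `y² + (1-b)xy - by = x³ - bx²`. -/
theorem exists_tateNF (E : WeierstrassCurve F) {x₀ y₀ : F} (h : E.toAffine.Nonsingular x₀ y₀)
    (h5 : 5 • (Point.some x₀ y₀ h : E.toAffine.Point) = 0) :
    ∃ (C : VariableChange F) (b : F), b ≠ 0 ∧ C • E = tateNF b b := by
  -- the point is not killed by `2`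
  have hψ : y₀ ≠ E.toAffine.negY x₀ y₀ := by
    intro hy
    have h2 : (Point.some x₀ y₀ h : E.toAffine.Point) + Point.some x₀ y₀ h = 0 :=
      Point.add_self_of_Y_eq hy
    rw [← two_nsmul] at h2
    have h4 : (4 : ℕ) • (Point.some x₀ y₀ h : E.toAffine.Point) = 0 := by
      rw [show (4 : ℕ) = 2 * 2 from rfl, mul_nsmul', h2, nsmul_zero]
    rw [show (5 : ℕ) = 4 + 1 from rfl, add_nsmul, h4, zero_add, one_nsmul] at h5
    exact Point.some_ne_zero h h5
  have hA₃ : 2 * y₀ + E.a₁ * x₀ + E.a₃ ≠ 0 := by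
    intro h0
    apply hψ
    simp only [Affine.negY]
    linear_combination h0
  have heq := (Affine.equation_iff _ _).mp h.1
  -- first change of variables: move the point to the origin and kill `a₄`
  obtain ⟨s, hs⟩ : ∃ s : F, s * (2 * y₀ + E.a₁ * x₀ + E.a₃)
      = 3 * x₀ ^ 2 + 2 * E.a₂ * x₀ + E.a₄ - E.a₁ * y₀ := ⟨_, div_mul_cancel₀ _ hA₃⟩
  let C₁ : VariableChange F := ⟨1, x₀, s, y₀⟩
  have hW : preNF (E.a₁ + 2 * s) (E.a₂ - s * E.a₁ + 3 * x₀ - s ^ 2)
      (2 * y₀ + E.a₁ * x₀ + E.a₃) = C₁ • E := by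
    ext
    · simp [preNF, variableChange_a₁, C₁]
    · simp [preNF, variableChange_a₂, C₁]
    · simp [preNF, variableChange_a₃, C₁]; ring
    · simp only [preNF, variableChange_a₄, C₁, Units.val_one, inv_one, one_pow, one_mul]
      linear_combination hs
    · simp only [preNF, variableChange_a₆, C₁]
      simp only [Units.val_one, inv_one, one_pow, one_mul]
      linear_combination heq
  -- the origin of the pre-normal form corresponds to the given point
  have hQ5 : 5 • (Point.some 0 0 (preNF_nonsingular_zero (E.a₁ + 2 * s)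
      (E.a₂ - s * E.a₁ + 3 * x₀ - s ^ 2) hA₃) : (preNF (E.a₁ + 2 * s)
      (E.a₂ - s * E.a₁ + 3 * x₀ - s ^ 2) (2 * y₀ + E.a₁ * x₀ + E.a₃)).toAffine.Point) = 0 := by
    apply (Fermat.Agent.S05.Transport.pointEquiv hW).injective
    rw [map_nsmul, map_zero, Fermat.Agent.S05.Transport.pointEquiv_some]
    have hx : vcX C₁ 0 = x₀ := by simp [vcX, C₁]
    have hy : vcY C₁ 0 0 = y₀ := by simp [vcY, C₁]
    have : (Point.some (vcX C₁ 0) (vcY C₁ 0 0)
        ((nonsingular_iff_vc hW 0 0).mpr (preNF_nonsingular_zero _ _ hA₃)) : E.toAffine.Point)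
        = Point.some x₀ y₀ h := by
      simp only [Point.some.injEq]
      exact ⟨hx, hy⟩
    rw [this]
    exact h5
  obtain ⟨C₂, b, hb, hC₂⟩ := exists_tateNF_of_preNF _ _ hA₃ hQ5
  refine ⟨C₂ * C₁, b, hb, ?_⟩
  rw [mul_smul, ← hW, hC₂]

end Fermat.Agent.ES.U52.TateNFExists15
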