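/-
Programme U (S52), chapter LOCAL §A2 (helper15): **the KEY LEMMA for the new primes**.

`key_lemma` : `q ∉ {2, 3, 5}` prime, `P` a place of `ℚ̄` over `q`, `(x, y)` a point killed by `5` of
`y² = x³ - 27c₄x - 54c₆` (`c₄, c₆ ∈ ℤ`) whose coordinates are fixed by the inertia group of `P`.
Then `∃ k, q^{4k} ∣ c₄ ∧ q^{12k} ∣ c₄³ - c₆² ∧ ¬(q^{4k+1} ∣ c₄ ∧ q^{12k+1} ∣ c₄³ - c₆²)`:
after rescaling by `q^k` the pair `(c₄, c₆)` is semistable at `q`.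
(= "a rational point of order 5 forces semistable reduction away from 5", descended through the
unramified inertia field; no Tate curve, no Néron–Ogg–Shafarevich.)
-/
import Mathlib
import Fermat.Prelude.Def_FLTPrelim_Ramification
import Fermat.Agent.ES.U52.KeyCore15
import Fermat.Agent.ES.U52.TateNFExists15

set_option autoImplicit false

open WeierstrassCurve WeierstrassCurve.Affine

namespace Fermat.Agent.ES.U52.KeyLemma15

open Fermat.Agent.ES.U52.KeyVal15 Fermat.Agent.ES.U52.KeyCore15 Fermat.Agent.S05.Inertia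
  Fermat.Agent.ES.U52.TateNF15 Fermat.Agent.ES.U52.TateNFExists15

local notation "Qbar" => AlgebraicClosure ℚ

/-- The short Weierstrass model `y² = x³ - 27c₄x - 54c₆` over `ℤ`. -/
def shortW (c4 c6 : ℤ) : WeierstrassCurve ℤ := ⟨0, 0, 0, -27 * c4, -54 * c6⟩

theorem shortW_c₄ (c4 c6 : ℤ) : (shortW c4 c6).c₄ = 1296 * c4 := by
  simp only [shortW, WeierstrassCurve.c₄, WeierstrassCurve.b₂, WeierstrassCurve.b₄]; ring

theorem shortW_Δ (c4 c6 : ℤ) : (shortW c4 c6).Δ = 1259712 * (c4 ^ 3 - c6 ^ 2) := by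
  simp only [shortW, WeierstrassCurve.Δ, WeierstrassCurve.b₂, WeierstrassCurve.b₄,
    WeierstrassCurve.b₆, WeierstrassCurve.b₈]; ring

variable {q : ℕ}

/-- **KEY LEMMA.** If the curve `y² = x³ - 27c₄x - 54c₆` has a point killed by `5` whose coordinates
are fixed by the inertia group of a place `P` over a prime `q ∉ {2, 3, 5}`, then
`min(3 v_q(c₄), v_q(c₄³ - c₆²))` is a multiple of `12`. -/
theorem key_lemma (hq : q.Prime) (hq2 : q ≠ 2) (hq3 : q ≠ 3) (hq5 : q ≠ 5)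
    (P : ValuationSubring Qbar) (hP : P.LiesOverPrime q) (c4 c6 : ℤ) {x y : Qbar}
    (h : (((shortW c4 c6).map (Int.castRingHom ℚ))⁄Qbar).toAffine.Nonsingular x y)
    (h5 : 5 • (Point.some x y h :
      (((shortW c4 c6).map (Int.castRingHom ℚ))⁄Qbar).toAffine.Point) = 0)
    (hx : ∀ τ ∈ P.inertiaSubgroupIn ℚ, τ x = x) (hy : ∀ τ ∈ P.inertiaSubgroupIn ℚ, τ y = y) :
    ∃ k : ℕ, (q : ℤ) ^ (4 * k) ∣ c4 ∧ (q : ℤ) ^ (12 * k) ∣ (c4 ^ 3 - c6 ^ 2) ∧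
      ¬ ((q : ℤ) ^ (4 * k + 1) ∣ c4 ∧ (q : ℤ) ^ (12 * k + 1) ∣ (c4 ^ 3 - c6 ^ 2)) := by
  classical
  -- the inertia field
  let F : IntermediateField ℚ Qbar := IntermediateField.fixedField (P.inertiaSubgroupIn ℚ)
  have hxF : x ∈ F := fun τ => hx τ.1 τ.2
  have hyF : y ∈ F := fun τ => hy τ.1 τ.2
  have hinj : Function.Injective (F.val : F →ₐ[ℚ] Qbar) := F.val.injective
  have hF : (((shortW c4 c6).map (Int.castRingHom ℚ))⁄F).toAffine.Nonsingular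
      (⟨x, hxF⟩ : F) ⟨y, hyF⟩ :=
    (Affine.baseChange_nonsingular ((shortW c4 c6).map (Int.castRingHom ℚ)).toAffine
      (f := F.val) hinj ⟨x, hxF⟩ ⟨y, hyF⟩).mp h
  have h5F : 5 • (Point.some _ _ hF :
      (((shortW c4 c6).map (Int.castRingHom ℚ))⁄F).toAffine.Point) = 0 := by
    apply Point.map_injective (W' := ((shortW c4 c6).map (Int.castRingHom ℚ)).toAffine) F.val
    rw [map_nsmul, Point.map_zero, Point.map_some]
    exact h5
  obtain ⟨C, b, hb, hCb⟩ := exists_tateNF _ hF h5F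
  -- the two invariants
  have hc4F : (((C.u⁻¹ : (↥F)ˣ) : ↥F)) ^ 4 * (((1296 * c4 : ℤ) : ℚ) : ↥F)
      = b ^ 4 - 12 * b ^ 3 + 14 * b ^ 2 + 12 * b + 1 := by
    have h1 := congrArg WeierstrassCurve.c₄ hCb
    rw [variableChange_c₄, tateNF_c₄] at h1
    rw [← h1]
    congr 1
    change _ = (((shortW c4 c6).map (Int.castRingHom ℚ)).map (algebraMap ℚ ↥F)).c₄
    rw [WeierstrassCurve.map_c₄, WeierstrassCurve.map_c₄, shortW_c₄]
    simp
  have hΔF : (((C.u⁻¹ : (↥F)ˣ) : ↥F)) ^ 12 * (((1259712 * (c4 ^ 3 - c6 ^ 2) : ℤ) : ℚ) : ↥F)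
      = b ^ 5 * (b ^ 2 - 11 * b - 1) := by
    have h1 := congrArg WeierstrassCurve.Δ hCb
    rw [variableChange_Δ, tateNF_Δ] at h1
    rw [← h1]
    congr 1
    change _ = (((shortW c4 c6).map (Int.castRingHom ℚ)).map (algebraMap ℚ ↥F)).Δ
    rw [WeierstrassCurve.map_Δ, WeierstrassCurve.map_Δ, shortW_Δ]
    simp
  -- push everything to `ℚ̄`
  have hu0 : (((C.u⁻¹ : (↥F)ˣ) : ↥F) : Qbar) ≠ 0 := by
    intro h0
    have : ((C.u⁻¹ : (↥F)ˣ) : ↥F) = 0 := Subtype.ext h0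
    exact (C.u⁻¹).ne_zero this
  have hb0 : ((b : ↥F) : Qbar) ≠ 0 := by
    intro h0
    exact hb (Subtype.ext h0)
  have hufix : ∀ τ ∈ P.inertiaSubgroupIn ℚ, τ (((C.u⁻¹ : (↥F)ˣ) : ↥F) : Qbar)
      = (((C.u⁻¹ : (↥F)ˣ) : ↥F) : Qbar) := fun τ hτ => ((C.u⁻¹ : (↥F)ˣ) : ↥F).2 ⟨τ, hτ⟩
  have hbfix : ∀ τ ∈ P.inertiaSubgroupIn ℚ, τ ((b : ↥F) : Qbar) = ((b : ↥F) : Qbar) :=
    fun τ hτ => b.2 ⟨τ, hτ⟩
  obtain ⟨nw, hvw⟩ := exists_zpow_of_fixed P hq hP hu0 hufix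
  obtain ⟨nb, hvB⟩ := exists_zpow_of_fixed P hq hP hb0 hbfix
  have e1 : (((C.u⁻¹ : (↥F)ˣ) : ↥F) : Qbar) ^ 4 * ((1296 * c4 : ℤ) : Qbar)
      = (b : Qbar) ^ 4 - 12 * (b : Qbar) ^ 3 + 14 * (b : Qbar) ^ 2 + 12 * (b : Qbar) + 1 := by
    have := congrArg (fun t : ↥F => (t : Qbar)) hc4F
    push_cast at this ⊢
    exact this
  have e2 : (((C.u⁻¹ : (↥F)ˣ) : ↥F) : Qbar) ^ 12 * ((1259712 * (c4 ^ 3 - c6 ^ 2) : ℤ) : Qbar)
      = (b : Qbar) ^ 5 * ((b : Qbar) ^ 2 - 11 * (b : Qbar) - 1) := by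
    have := congrArg (fun t : ↥F => (t : Qbar)) hΔF
    push_cast at this ⊢
    exact this
  obtain ⟨m, g4, gD, h4, hD, hmax, ev4, evD⟩ :=
    exists_zpow_of_tate P hq hq5 hP nw nb hvw hvB e1 e2
  -- `1296` and `1259712` are units at `q`
  have hq6 : ∀ n : ℕ, n ∣ 6 ^ 12 → n ≠ 0 → ¬ (q : ℤ) ∣ (n : ℤ) := by
    intro n hn _ hdvd
    have h1 : q ∣ n := Int.natCast_dvd_natCast.mp hdvd
    have h2 : q ∣ 6 ^ 12 := h1.trans hn
    have h3 : q ∣ 6 := hq.dvd_of_dvd_pow h2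
    have h4 : q ∣ 2 * 3 := by simpa using h3
    rcases (Nat.Prime.dvd_mul hq).mp h4 with h | h
    · exact hq2 ((Nat.prime_dvd_prime_iff_eq hq Nat.prime_two).mp h)
    · exact hq3 ((Nat.prime_dvd_prime_iff_eq hq Nat.prime_three).mp h)
  have hv1296 : P.valuation ((1296 : ℤ) : Qbar) = 1 :=
    valuation_intCast_eq_one hq hP (by exact_mod_cast hq6 1296 (by norm_num) (by norm_num))
  have hv125 : P.valuation ((1259712 : ℤ) : Qbar) = 1 :=
    valuation_intCast_eq_one hq hP (by exact_mod_cast hq6 1259712 (by norm_num) (by norm_num))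
  have ev4' : P.valuation (c4 : Qbar) = P.valuation (q : Qbar) ^ (4 * m) * g4 := by
    rw [← ev4]
    push_cast
    rw [map_mul]
    have : P.valuation (1296 : Qbar) = 1 := by exact_mod_cast hv1296
    rw [this, one_mul]
  have evD' : P.valuation (((c4 ^ 3 - c6 ^ 2 : ℤ)) : Qbar)
      = P.valuation (q : Qbar) ^ (12 * m) * gD := by
    rw [← evD]
    rw [Int.cast_mul, map_mul, hv125, one_mul]
  exact exists_nat_of_valuation P hq hP c4 (c4 ^ 3 - c6 ^ 2) m g4 gD h4 hD hmax ev4' evD'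

end Fermat.Agent.ES.U52.KeyLemma15
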