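/-
Programme U (S52), chapter LOCAL §A2 / §B2 support (helper15): **uniqueness of Tate's normal form**
and the `±P` rule.

A *pointed normal form* of `E` at `(x₀, y₀)` is a change of variables `C` with `C • E = 𝓔_{b,b}`,
`C.r = x₀`, `C.t = y₀` (so that the origin of `𝓔_{b,b}` corresponds to `(x₀, y₀)` under main's
`S05.Transport.pointEquiv`).

* `exists_tateNF_at` : existence (a point killed by `5`);
* `tateNF_unique` : `(C, b)` is unique;
* `tateNF_neg` : the pointed normal form at `-(x₀, y₀)` is `(D * C, b)` with `(D * C).u = -C.u`: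
  **`b(E, -P) = b(E, P)` and `u(E, -P) = -u(E, P)`**;
* `map_tateNF`, `map_pointed` : covariance under ring homomorphisms.
-/
import Mathlib
import Fermat.Agent.S05.Transport
import Fermat.Agent.ES.U52.TateNFExists15

set_option autoImplicit false

open WeierstrassCurve WeierstrassCurve.Affine

namespace Fermat.Agent.ES.U52.TateNFUnique15

open Fermat.Agent.S05.Transport Fermat.Agent.ES.U52.TateNF15 Fermat.Agent.ES.U52.TateNFExists15

variable {F : Type*} [Field F]

/-- Covariance of Tate's normal form under ring homomorphisms. -/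
theorem map_tateNF {A B : Type*} [CommRing A] [CommRing B] (φ : A →+* B) (b c : A) :
    (tateNF b c).map φ = tateNF (φ b) (φ c) := by
  ext <;> simp [tateNF, WeierstrassCurve.map]

/-- Covariance of a pointed normal form under ring homomorphisms. -/
theorem map_pointed {A B : Type*} [CommRing A] [CommRing B] (φ : A →+* B)
    {E : WeierstrassCurve A} {C : VariableChange A} {b : A} (h : C • E = tateNF b b) :
    (C.map φ) • (E.map φ) = tateNF (φ b) (φ b) := by
  rw [WeierstrassCurve.map_variableChange, h, map_tateNF]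

/-- **Uniqueness** of the pointed normal form. -/
theorem tateNF_unique {E : WeierstrassCurve F} {C C' : VariableChange F} {b b' : F}
    (hb : b ≠ 0) (hb' : b' ≠ 0) (h : C • E = tateNF b b) (h' : C' • E = tateNF b' b')
    (hr : C.r = C'.r) (ht : C.t = C'.t) : C = C' ∧ b = b' := by
  have hu : ((C.u⁻¹ : Fˣ) : F) ≠ 0 := (C.u⁻¹).ne_zero
  have hu' : ((C'.u⁻¹ : Fˣ) : F) ≠ 0 := (C'.u⁻¹).ne_zero
  -- the five coefficient equations, twice
  have e2 := congrArg WeierstrassCurve.a₂ h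
  have e3 := congrArg WeierstrassCurve.a₃ h
  have e4 := congrArg WeierstrassCurve.a₄ h
  have e2' := congrArg WeierstrassCurve.a₂ h'
  have e3' := congrArg WeierstrassCurve.a₃ h'
  have e4' := congrArg WeierstrassCurve.a₄ h'
  rw [variableChange_a₂] at e2 e2'
  rw [variableChange_a₃] at e3 e3'
  rw [variableChange_a₄] at e4 e4'
  simp only [tateNF] at e2 e3 e4 e2' e3' e4'
  rw [← hr] at e2' e3' e4'
  rw [← ht] at e3' e4'
  -- `ψ := a₃ + r a₁ + 2t ≠ 0`
  have hψ : E.a₃ + C.r * E.a₁ + 2 * C.t ≠ 0 := by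
    intro h0
    rw [h0, mul_zero] at e3
    exact hb (neg_eq_zero.mp e3.symm)
  -- `s = s'`
  have hs4 : E.a₄ - C.s * E.a₃ + 2 * C.r * E.a₂ - (C.t + C.r * C.s) * E.a₁ + 3 * C.r ^ 2
      - 2 * C.s * C.t = 0 := by
    rcases mul_eq_zero.mp e4 with h0 | h0
    · exact absurd (pow_eq_zero_iff (by norm_num) |>.mp h0) hu
    · exact h0
  have hs4' : E.a₄ - C'.s * E.a₃ + 2 * C.r * E.a₂ - (C.t + C.r * C'.s) * E.a₁ + 3 * C.r ^ 2
      - 2 * C'.s * C.t = 0 := by
    rcases mul_eq_zero.mp e4' with h0 | h0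
    · exact absurd (pow_eq_zero_iff (by norm_num) |>.mp h0) hu'
    · exact h0
  have hs : C.s = C'.s := by
    have : (C.s - C'.s) * (E.a₃ + C.r * E.a₁ + 2 * C.t) = 0 := by
      linear_combination hs4' - hs4
    rcases mul_eq_zero.mp this with h0 | h0
    · exact sub_eq_zero.mp h0
    · exact absurd h0 hψ
  rw [← hs] at e2'
  -- `u⁻¹ = A₂ / ψ`, twice
  have hA : ∀ {w : F}, w ≠ 0 → ∀ {β : F}, β ≠ 0 →
      w ^ 2 * (E.a₂ - C.s * E.a₁ + 3 * C.r - C.s ^ 2) = -β →
      w ^ 3 * (E.a₃ + C.r * E.a₁ + 2 * C.t) = -β →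
      w * (E.a₃ + C.r * E.a₁ + 2 * C.t) = E.a₂ - C.s * E.a₁ + 3 * C.r - C.s ^ 2 := by
    intro w hw β _ h2 h3
    have : w ^ 2 * (w * (E.a₃ + C.r * E.a₁ + 2 * C.t)
        - (E.a₂ - C.s * E.a₁ + 3 * C.r - C.s ^ 2)) = 0 := by
      linear_combination h3 - h2
    rcases mul_eq_zero.mp this with h0 | h0
    · exact absurd (pow_eq_zero_iff (by norm_num) |>.mp h0) hw
    · exact sub_eq_zero.mp h0
  have hw := hA hu hb e2 e3
  have hw' := hA hu' hb' e2' e3'
  have huu : ((C.u⁻¹ : Fˣ) : F) = ((C'.u⁻¹ : Fˣ) : F) := by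
    have : (((C.u⁻¹ : Fˣ) : F) - ((C'.u⁻¹ : Fˣ) : F)) * (E.a₃ + C.r * E.a₁ + 2 * C.t) = 0 := by
      linear_combination hw - hw'
    rcases mul_eq_zero.mp this with h0 | h0
    · exact sub_eq_zero.mp h0
    · exact absurd h0 hψ
  have huU : C.u = C'.u := inv_injective (Units.ext huu)
  have hC : C = C' := by
    ext
    · exact congrArg Units.val huU
    · exact hr
    · exact hs
    · exact ht
  refine ⟨hC, ?_⟩
  subst hC
  have := h.symm.trans h'
  have h3 := congrArg WeierstrassCurve.a₃ this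
  simp only [tateNF] at h3
  exact neg_injective h3

section Exists

variable [DecidableEq F]

/-- Scaling the pre-normal form, keeping track of the origin. -/
theorem exists_tateNF_of_preNF_at (A₁ A₂ : F) {A₃ : F} (hA₃ : A₃ ≠ 0)
    (hQ5 : 5 • (Point.some 0 0 (preNF_nonsingular_zero A₁ A₂ hA₃) :
      (preNF A₁ A₂ A₃).toAffine.Point) = 0) :
    ∃ (C : VariableChange F) (b : F), b ≠ 0 ∧ C • preNF A₁ A₂ A₃ = tateNF b b ∧
      C.r = 0 ∧ C.s = 0 ∧ C.t = 0 := by
  have hA₂ := preNF_a₂_ne_zero _ _ hA₃ hQ5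
  have hu : A₃ / A₂ ≠ 0 := div_ne_zero hA₃ hA₂
  let C₂ : VariableChange F := ⟨Units.mk0 _ hu, 0, 0, 0⟩
  have hC₂u : ((C₂.u⁻¹ : Fˣ) : F) = A₂ / A₃ := by
    simp only [C₂, Units.val_inv_eq_inv_val, Units.val_mk0, inv_div]
  have hT : tateNF (-((A₂ / A₃) ^ 2 * A₂)) (1 - A₂ / A₃ * A₁) = C₂ • preNF A₁ A₂ A₃ := by
    ext
    · simp only [tateNF, preNF, variableChange_a₁, hC₂u]
      simp [C₂]
    · simp only [tateNF, preNF, variableChange_a₂, hC₂u]
      simp [C₂]
    · simp only [tateNF, preNF, variableChange_a₃, hC₂u]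
      simp only [C₂, mul_zero, zero_mul, add_zero]
      field_simp
    · simp only [tateNF, preNF, variableChange_a₄, hC₂u]
      simp [C₂]
    · simp only [tateNF, preNF, variableChange_a₆, hC₂u]
      simp [C₂]
  have hb : -((A₂ / A₃) ^ 2 * A₂) ≠ 0 :=
    neg_ne_zero.mpr (mul_ne_zero (pow_ne_zero 2 (div_ne_zero hA₂ hA₃)) hA₂)
  have hP5 : 5 • P0 (1 - A₂ / A₃ * A₁) hb = 0 := by
    apply (Fermat.Agent.S05.Transport.pointEquiv hT).injective
    rw [map_nsmul, map_zero, P0, Fermat.Agent.S05.Transport.pointEquiv_some]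
    have hx : vcX C₂ 0 = 0 := by simp [vcX, C₂]
    have hy : vcY C₂ 0 0 = 0 := by simp [vcY, C₂]
    have : (Point.some (vcX C₂ 0) (vcY C₂ 0 0)
        ((nonsingular_iff_vc hT 0 0).mpr (nonsingular_zero _ hb)) : (preNF A₁ A₂ A₃).toAffine.Point)
        = Point.some 0 0 (preNF_nonsingular_zero A₁ A₂ hA₃) := by
      simp only [Point.some.injEq]
      exact ⟨hx, hy⟩
    rw [this]
    exact hQ5
  have hbc := eq_of_five_nsmul_P0 _ hb hP5
  refine ⟨C₂, -((A₂ / A₃) ^ 2 * A₂), hb, ?_, rfl, rfl, rfl⟩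
  rw [← hT, ← hbc]

/-- **Existence of the pointed normal form** at a point killed by `5`. -/
theorem exists_tateNF_at (E : WeierstrassCurve F) {x₀ y₀ : F} (h : E.toAffine.Nonsingular x₀ y₀)
    (h5 : 5 • (Point.some x₀ y₀ h : E.toAffine.Point) = 0) :
    ∃ (C : VariableChange F) (b : F), b ≠ 0 ∧ C • E = tateNF b b ∧ C.r = x₀ ∧ C.t = y₀ := by
  have hψ : y₀ ≠ E.toAffine.negY x₀ y₀ := by
    intro hy
    have h2 : (Point.some x₀ y₀ h : E.toAffine.Point) + Point.some x₀ y₀ h = 0 :=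
      Point.add_self_of_Y_eq hy
    rw [← two_nsmul] at h2
    have h4 : (4 : ℕ) • (Point.some x₀ y₀ h : E.toAffine.Point) = 0 := by
      rw [show (4 : ℕ) = 2 * 2 from rfl, mul_nsmul', h2, nsmul_zero]
    rw [show (5 : ℕ) = 4 + 1 from rfl, add_nsmul, h4, zero_add, one_nsmul] at h5
    exact Point.some_ne_zero h h5
  have hA₃ : 2 * y₀ + E.a₁ * x₀ + E.a₃ ≠ 0 := by
    intro h0
    apply hψ
    simp only [Affine.negY]
    linear_combination h0
  have heq := (Affine.equation_iff _ _).mp h.1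
  obtain ⟨s, hs⟩ : ∃ s : F, s * (2 * y₀ + E.a₁ * x₀ + E.a₃)
      = 3 * x₀ ^ 2 + 2 * E.a₂ * x₀ + E.a₄ - E.a₁ * y₀ := ⟨_, div_mul_cancel₀ _ hA₃⟩
  let C₁ : VariableChange F := ⟨1, x₀, s, y₀⟩
  have hW : preNF (E.a₁ + 2 * s) (E.a₂ - s * E.a₁ + 3 * x₀ - s ^ 2)
      (2 * y₀ + E.a₁ * x₀ + E.a₃) = C₁ • E := by
    ext
    · simp [preNF, variableChange_a₁, C₁]
    · simp [preNF, variableChange_a₂, C₁]
    · simp [preNF, variableChange_a₃, C₁]; ring
    · simp only [preNF, variableChange_a₄, C₁, Units.val_one, inv_one, one_pow, one_mul]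
      linear_combination hs
    · simp only [preNF, variableChange_a₆, C₁]
      simp only [Units.val_one, inv_one, one_pow, one_mul]
      linear_combination heq
  have hQ5 : 5 • (Point.some 0 0 (preNF_nonsingular_zero (E.a₁ + 2 * s)
      (E.a₂ - s * E.a₁ + 3 * x₀ - s ^ 2) hA₃) : (preNF (E.a₁ + 2 * s)
      (E.a₂ - s * E.a₁ + 3 * x₀ - s ^ 2) (2 * y₀ + E.a₁ * x₀ + E.a₃)).toAffine.Point) = 0 := by
    apply (Fermat.Agent.S05.Transport.pointEquiv hW).injective
    rw [map_nsmul, map_zero, Fermat.Agent.S05.Transport.pointEquiv_some]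
    have hx : vcX C₁ 0 = x₀ := by simp [vcX, C₁]
    have hy : vcY C₁ 0 0 = y₀ := by simp [vcY, C₁]
    have : (Point.some (vcX C₁ 0) (vcY C₁ 0 0)
        ((nonsingular_iff_vc hW 0 0).mpr (preNF_nonsingular_zero _ _ hA₃)) : E.toAffine.Point)
        = Point.some x₀ y₀ h := by
      simp only [Point.some.injEq]
      exact ⟨hx, hy⟩
    rw [this]
    exact h5
  obtain ⟨C₂, b, hb, hC₂, hr2, hs2, ht2⟩ := exists_tateNF_of_preNF_at _ _ hA₃ hQ5
  refine ⟨C₂ * C₁, b, hb, ?_, ?_, ?_⟩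
  · rw [mul_smul, ← hW, hC₂]
  · simp [VariableChange.mul_def, hr2, C₁]
  · simp [VariableChange.mul_def, hr2, ht2, C₁]

end Exists

/-- **The `±P` rule.** If `(C, b)` is the pointed normal form of `E` at `(C.r, C.t)`, then the
pointed normal form at the opposite point `(C.r, -C.t - a₁C.r - a₃)` is `(D * C, b)` with
`(D * C).u = -C.u`. -/
theorem tateNF_neg {E : WeierstrassCurve F} {C : VariableChange F} {b : F}
    (h : C • E = tateNF b b) :
    ∃ C' : VariableChange F, C' • E = tateNF b b ∧ C'.u = -C.u ∧ C'.r = C.r ∧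
      C'.t = E.toAffine.negY C.r C.t := by
  let D : VariableChange F := ⟨-1, 0, -(1 - b), b⟩
  have hD : D • tateNF b b = tateNF b b := by
    have hDu : ((D.u⁻¹ : Fˣ) : F) = -1 := by simp [D]
    ext
    · simp only [variableChange_a₁, hDu, tateNF, D]; ring
    · simp only [variableChange_a₂, hDu, tateNF, D]; ring
    · simp only [variableChange_a₃, hDu, tateNF, D]; ring
    · simp only [variableChange_a₄, hDu, tateNF, D]; ring
    · simp only [variableChange_a₆, hDu, tateNF, D]; ring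
  have e3 := congrArg WeierstrassCurve.a₃ h
  rw [variableChange_a₃] at e3
  simp only [tateNF] at e3
  refine ⟨D * C, ?_, ?_, ?_, ?_⟩
  · rw [mul_smul, h, hD]
  · simp [VariableChange.mul_def, D]
  · simp [VariableChange.mul_def, D]
  · simp only [VariableChange.mul_def, D, Affine.negY]
    have hu : ((C.u : Fˣ) : F) ≠ 0 := C.u.ne_zero
    have hinv : ((C.u⁻¹ : Fˣ) : F) = ((C.u : Fˣ) : F)⁻¹ := by simp
    rw [hinv] at e3
    have e3' : E.a₃ + C.r * E.a₁ + 2 * C.t = -b * ((C.u : Fˣ) : F) ^ 3 := by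
      field_simp at e3
      linear_combination e3
    simp only [zero_mul, add_zero]
    linear_combination e3'

end Fermat.Agent.ES.U52.TateNFUnique15
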