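/-
Programme U (S52, the 3–5 switch), CONTRACT FILE (helper29, U lead).

`FiveCongFamily c4 c6` is what chapters FAM + SPEC deliver for the short model
`shortW c4 c6 : y² = x³ - 27 c4 x - 54 c6` of a semistable `W` (`c4 = c₄(W)`, `c6 = c₆(W)`), and what
chapters LOCAL-A (helper15, `semistable_member`) and LOCAL-B (helper9, `mod3_member`) consume:

* two integer polynomials `C4`, `C6` with `C4(0) = c4`, `C6(0) = c6` (Rubin–Silverberg's family on
  Klein's cone: `C4 = c4 + 20 c6 T + 190 c4² T² + …`);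
* for every integer `t` with `C4(t)³ ≠ C6(t)²` a map `θ_t` from the `ℚ̄`-points of `shortW c4 c6` to
  those of the member `shortW (C4 t) (C6 t)` which on the `5`-torsion is additive, injective and
  `Gal(ℚ̄/ℚ)`-equivariant (`θ_t = sp_t ∘ sp₀⁻¹`);
* clause **(C-b)**: for every point `P₀` of exact order `5` there are coprime `N, D ∈ ℚ̄[T]`, one of
  them with FIVE SIMPLE roots (and no others), and `κ ≠ 0`, such that the Tate-normal-form parameters
  `(b, u)` of `(member t, θ_t P₀)` are `(N(t) / D(t), κ · D(t))`  (v2: `u` added at helper9's request).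
-/
import Mathlib
import Fermat.Agent.ES.U52.KeyLemma15
import Fermat.Agent.ES.U52.TateNFUnique15

set_option autoImplicit false

open WeierstrassCurve WeierstrassCurve.Affine Polynomial

namespace Fermat.Agent.ES.U52.U52Iface29

open Fermat.Agent.ES.U52.KeyLemma15 Fermat.Agent.ES.U52.TateNF15

/-- The `ℚ̄`-points of an integral Weierstrass curve, in the form used by the Prelude, by
`TorsCong8` and by `KeyLemma15`. -/
abbrev Pt (E : WeierstrassCurve ℤ) : Type :=
  ((E.map (Int.castRingHom ℚ))⁄(AlgebraicClosure ℚ)).Point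

/-- The member of the family at the integer parameter `t`. -/
def member (C4 C6 : Polynomial ℤ) (t : ℤ) : WeierstrassCurve ℤ :=
  shortW (C4.eval t) (C6.eval t)

/-- `t` is a good parameter: the member at `t` is nonsingular. -/
def Good (C4 C6 : Polynomial ℤ) (t : ℤ) : Prop := (C4.eval t) ^ 3 ≠ (C6.eval t) ^ 2

/-- `b` is the Tate-normal-form parameter of the pointed curve `(E, (x, y))` over a field: some
change of variables moves `(x, y)` to `(0, 0)` and `E` to `y² + (1 - b)xy - by = x³ - bx²`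
(unique by `TateNFUnique15.tateNF_unique`). -/
def IsTateParam {F : Type*} [Field F] (E : WeierstrassCurve F) (x y b : F) : Prop :=
  ∃ C : VariableChange F, C • E = tateNF b b ∧ C.r = x ∧ C.t = y

/-- As `IsTateParam`, recording also the scaling `u` of the change of variables
(`c₄(E) = u⁴ c₄(tateNF b b)`, `c₆(E) = u⁶ c₆(tateNF b b)`); `u` is unique up to nothing once `(x, y)` is
fixed (`TateNFUnique15.tateNF_unique`), and `(x, -y)` has the parameters `(b, -u)`
(`TateNFUnique15.tateNF_neg`). -/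
def IsTateParamU {F : Type*} [Field F] (E : WeierstrassCurve F) (x y b u : F) : Prop :=
  ∃ C : VariableChange F, C • E = tateNF b b ∧ C.r = x ∧ C.t = y ∧ (C.u : F) = u

theorem IsTateParamU.isTateParam {F : Type*} [Field F] {E : WeierstrassCurve F} {x y b u : F}
    (h : IsTateParamU E x y b u) : IsTateParam E x y b := by
  obtain ⟨C, h1, h2, h3, _⟩ := h
  exact ⟨C, h1, h2, h3⟩

/-- `N` has exactly five roots in `ℚ̄`, all simple. -/
def FiveSimpleRoots (N : Polynomial (AlgebraicClosure ℚ)) : Prop :=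
  ∃ (c : AlgebraicClosure ℚ) (β : Fin 5 → AlgebraicClosure ℚ), c ≠ 0 ∧ Function.Injective β ∧
    N = C c * ∏ i : Fin 5, (X - C (β i))

/-- Clause (C-b) for the point `P₀`: the Tate parameters `(b, u)` of `(member t, θ_t P₀)` are the
values at `t` of `N / D` and `κ · D` with coprime `N`, `D`, one of which has five simple roots
(FAM: `N = g M₁⁵ - M₂⁵`, `D = M₁⁵ + g M₂⁵`, `κ = 6 c_P`). -/
def ClauseCb (C4 C6 : Polynomial ℤ) (c4 c6 : ℤ)
    (theta : ∀ t : ℤ, Pt (shortW c4 c6) → Pt (member C4 C6 t)) (P₀ : Pt (shortW c4 c6)) : Prop :=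
  ∃ (N D : Polynomial (AlgebraicClosure ℚ)) (κ : AlgebraicClosure ℚ), κ ≠ 0 ∧
    (∀ z : AlgebraicClosure ℚ, N.eval z = 0 → D.eval z ≠ 0) ∧
    (FiveSimpleRoots N ∨ FiveSimpleRoots D) ∧
    ∀ t : ℤ, Good C4 C6 t → N.eval (t : AlgebraicClosure ℚ) ≠ 0 → D.eval (t : AlgebraicClosure ℚ) ≠ 0 →
      ∀ (x y : AlgebraicClosure ℚ)
        (h : (((member C4 C6 t).map (Int.castRingHom ℚ))⁄(AlgebraicClosure ℚ)).toAffine.Nonsingular x y),
        theta t P₀ = Point.some x y h →
        IsTateParamU (((member C4 C6 t).map (Int.castRingHom ℚ))⁄(AlgebraicClosure ℚ)) x y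
          (N.eval (t : AlgebraicClosure ℚ) / D.eval (t : AlgebraicClosure ℚ))
          (κ * D.eval (t : AlgebraicClosure ℚ))

/-- **The contract of Programme U**: a family of curves through `shortW c4 c6` with constant
mod-`5` representation, explicit enough for the two LOCAL chapters. -/
structure FiveCongFamily (c4 c6 : ℤ) where
  /-- `c₄` of the family. -/
  C4 : Polynomial ℤ
  /-- `c₆` of the family. -/
  C6 : Polynomial ℤ
  C4_zero : C4.eval 0 = c4
  C6_zero : C6.eval 0 = c6
  /-- `θ_t = sp_t ∘ sp₀⁻¹` (junk outside the `5`-torsion and at bad `t`). -/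
  theta : ∀ t : ℤ, Pt (shortW c4 c6) → Pt (member C4 C6 t)
  theta_add : ∀ t : ℤ, Good C4 C6 t → ∀ P Q : Pt (shortW c4 c6), 5 • P = 0 → 5 • Q = 0 →
    theta t (P + Q) = theta t P + theta t Q
  theta_gal : ∀ t : ℤ, Good C4 C6 t →
    ∀ (σ : AlgebraicClosure ℚ ≃ₐ[ℚ] AlgebraicClosure ℚ) (P : Pt (shortW c4 c6)), 5 • P = 0 →
      theta t (σ • P) = σ • theta t P
  theta_inj : ∀ t : ℤ, Good C4 C6 t → ∀ P : Pt (shortW c4 c6), 5 • P = 0 → theta t P = 0 → P = 0
  cb : ∀ P₀ : Pt (shortW c4 c6), 5 • P₀ = 0 → P₀ ≠ 0 → ClauseCb C4 C6 c4 c6 theta P₀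

namespace FiveCongFamily

variable {c4 c6 : ℤ} (F : FiveCongFamily c4 c6)

theorem theta_zero {t : ℤ} (ht : Good F.C4 F.C6 t) : F.theta t 0 = 0 := by
  have h := F.theta_add t ht 0 0 (nsmul_zero 5) (nsmul_zero 5)
  rw [add_zero] at h
  exact (add_eq_left.mp h.symm)

theorem theta_nsmul {t : ℤ} (ht : Good F.C4 F.C6 t) {P : Pt (shortW c4 c6)} (hP : 5 • P = 0)
    (n : ℕ) : F.theta t (n • P) = n • F.theta t P := by
  induction n with
  | zero => simpa using F.theta_zero ht
  | succ n ih =>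
    have hn : 5 • (n • P) = 0 := by rw [smul_comm, hP, nsmul_zero]
    rw [succ_nsmul, succ_nsmul, F.theta_add t ht _ _ hn hP, ih]

/-- `θ_t` maps the `5`-torsion into the `5`-torsion. -/
theorem five_nsmul_theta {t : ℤ} (ht : Good F.C4 F.C6 t) {P : Pt (shortW c4 c6)} (hP : 5 • P = 0) :
    5 • F.theta t P = 0 := by
  rw [← F.theta_nsmul ht hP 5, hP, F.theta_zero ht]

/-- `θ_t` is not identically zero on the `5`-torsion as soon as there is a nonzero `5`-torsion
point (the input `hne` of `TorsCong8.apOfModel_congr`). -/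
theorem theta_ne_zero {t : ℤ} (ht : Good F.C4 F.C6 t) {P : Pt (shortW c4 c6)} (hP : 5 • P = 0)
    (h0 : P ≠ 0) : F.theta t P ≠ 0 := fun h => h0 (F.theta_inj t ht P hP h)

end FiveCongFamily

end Fermat.Agent.ES.U52.U52Iface29
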