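/-
Programme U (S52, the 3–5 switch), chapter LOCAL §B2.4 Step 2 (helper9): **Galois covariance of the
Tate parameters of the contract's clause (C-b)**.

For a family `F : FiveCongFamily c4 c6`, a point `P ≠ 0` of order `5` with clause data `(N, D, κ)`
(`b(E_t, θ_t P) = N(t)/D(t)`, `u(E_t, θ_t P) = κ D(t)`) and `σ ∈ Gal(ℚ̄/ℚ)`:

* `sigma_neg` : `σ P = -P` ⇒ `σ b_t = b_t` and `σ u_t = -u_t` (uniqueness of the pointed normal
  form + the `±P` rule);
* `sigma_fix` : `σ P = P` ⇒ `σ b_t = b_t`, `σ u_t = u_t`;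
* `roots_stable` : if `σ b_t = b_t` for all good integers `t`, then `σ` permutes the roots of `N`
  and the roots of `D` (the polynomial identity `σ(N) D = N σ(D)` holds at infinitely many `t`).
-/
import Mathlib
import Fermat.Agent.ES.U52.U52Iface29

set_option autoImplicit false

open WeierstrassCurve WeierstrassCurve.Affine Polynomial

noncomputable section

namespace Fermat.Agent.ES.U52.TateCov9

open Fermat.Agent.ES.U52.U52Iface29 Fermat.Agent.ES.U52.KeyLemma15 Fermat.Agent.ES.U52.TateNF15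
  Fermat.Agent.ES.U52.TateNFUnique15

local notation "Qbar" => AlgebraicClosure ℚ
local notation "GQ" => (AlgebraicClosure ℚ ≃ₐ[ℚ] AlgebraicClosure ℚ)

/-- the ring homomorphism underlying `σ`. -/
abbrev toHom (σ : GQ) : Qbar →+* Qbar := σ.toAlgHom.toRingHom

theorem toHom_apply (σ : GQ) (z : Qbar) : toHom σ z = σ z := rfl

/-- a curve defined over `ℚ` is `σ`-invariant. -/
theorem map_baseChange (E : WeierstrassCurve ℚ) (σ : GQ) :
    (E⁄Qbar).map (toHom σ) = E⁄Qbar := by
  show (E.map (algebraMap ℚ Qbar)).map (toHom σ) = E.map (algebraMap ℚ Qbar)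
  rw [WeierstrassCurve.map_map]
  congr 1
  ext r
  exact σ.commutes r

/-- **Uniqueness, Galois form**: the Tate parameters at `(σ x, σ y)` are `(σ b, σ u)`. -/
theorem params_of_apply {E : WeierstrassCurve ℚ} (σ : GQ) {x y b u x' y' b' u' : Qbar}
    (h : IsTateParamU (E⁄Qbar) x y b u) (hb : b ≠ 0)
    (h' : IsTateParamU (E⁄Qbar) x' y' b' u') (hb' : b' ≠ 0)
    (hx : σ x = x') (hy : σ y = y') : σ b = b' ∧ σ u = u' := by
  obtain ⟨C, hC, hr, ht, hu⟩ := h
  obtain ⟨C', hC', hr', ht', hu'⟩ := h'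
  have h0 := map_pointed (toHom σ) hC
  have h1 : C.map (toHom σ) • (E⁄Qbar) = tateNF (toHom σ b) (toHom σ b) := by
    have e := map_baseChange E σ
    exact e ▸ h0
  have hσb : toHom σ b ≠ 0 := (_root_.map_ne_zero _).mpr hb
  have hrr : (C.map (toHom σ)).r = C'.r := by
    show toHom σ C.r = C'.r
    rw [hr, hr', toHom_apply, hx]
  have htt : (C.map (toHom σ)).t = C'.t := by
    show toHom σ C.t = C'.t
    rw [ht, ht', toHom_apply, hy]
  obtain ⟨hCC, hbb⟩ := tateNF_unique hσb hb' h1 hC' hrr htt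
  refine ⟨hbb, ?_⟩
  rw [← hu, ← hu', ← hCC]
  rfl

/-- the `±P` rule for `IsTateParamU`. -/
theorem isTateParamU_neg {F : Type*} [Field F] {E : WeierstrassCurve F} {x y b u : F}
    (h : IsTateParamU E x y b u) : IsTateParamU E x (E.toAffine.negY x y) b (-u) := by
  obtain ⟨C, hC, hr, ht, hu⟩ := h
  obtain ⟨C', hC', hu', hr', ht'⟩ := tateNF_neg hC
  refine ⟨C', hC', by rw [hr', hr], by rw [ht', hr, ht], ?_⟩
  rw [hu', Units.val_neg, hu]

variable {c4 c6 : ℤ} (F : FiveCongFamily c4 c6)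

/-- the clause data of a point, as a predicate on `(N, D, κ)`. -/
def IsCbData (P : Pt (shortW c4 c6)) (N D : Polynomial Qbar) (κ : Qbar) : Prop :=
  ∀ t : ℤ, Good F.C4 F.C6 t → N.eval (t : Qbar) ≠ 0 → D.eval (t : Qbar) ≠ 0 →
    ∀ (x y : Qbar)
      (h : (((member F.C4 F.C6 t).map (Int.castRingHom ℚ))⁄Qbar).toAffine.Nonsingular x y),
      F.theta t P = Point.some x y h →
      IsTateParamU (((member F.C4 F.C6 t).map (Int.castRingHom ℚ))⁄Qbar) x y
        (N.eval (t : Qbar) / D.eval (t : Qbar)) (κ * D.eval (t : Qbar))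

variable {F}

theorem theta_neg {t : ℤ} (ht : Good F.C4 F.C6 t) {P : Pt (shortW c4 c6)} (hP : 5 • P = 0) :
    F.theta t (-P) = -F.theta t P := by
  have hP' : 5 • (-P) = 0 := by rw [neg_nsmul, hP, neg_zero]
  have h := F.theta_add t ht P (-P) hP hP'
  rw [add_neg_cancel, F.theta_zero ht] at h
  exact (neg_eq_of_add_eq_zero_right h.symm).symm

/-- **`σ P = -P`** ⇒ `σ b_t = b_t`, `σ u_t = -u_t`. -/
theorem sigma_neg {P : Pt (shortW c4 c6)} (hP5 : 5 • P = 0) (hP0 : P ≠ 0)
    {N D : Polynomial Qbar} {κ : Qbar} (hcl : IsCbData F P N D κ) {σ : GQ} (hσ : σ • P = -P)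
    {t : ℤ} (ht : Good F.C4 F.C6 t) (hN : N.eval (t : Qbar) ≠ 0) (hD : D.eval (t : Qbar) ≠ 0) :
    σ (N.eval (t : Qbar) / D.eval (t : Qbar)) = N.eval (t : Qbar) / D.eval (t : Qbar) ∧
      σ (κ * D.eval (t : Qbar)) = -(κ * D.eval (t : Qbar)) := by
  have hQ0 : F.theta t P ≠ 0 := F.theta_ne_zero ht hP5 hP0
  have hgal := F.theta_gal t ht σ P hP5
  rw [hσ, theta_neg ht hP5] at hgal
  cases hQ : F.theta t P with
  | zero => exact absurd hQ hQ0
  | some x y h =>
    have hpar := hcl t ht hN hD x y h hQ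
    have hb : N.eval (t : Qbar) / D.eval (t : Qbar) ≠ 0 := div_ne_zero hN hD
    rw [hQ] at hgal
    -- `σ • (x, y) = (x, negY x y)`
    have hσQ : σ • (Point.some x y h :
        (((member F.C4 F.C6 t).map (Int.castRingHom ℚ))⁄Qbar).Point) = Point.some (σ x) (σ y)
          ((Affine.baseChange_nonsingular _ σ.toAlgHom.injective x y).mpr h) := rfl
    rw [Point.neg_some, hσQ] at hgal
    have hxy := Point.some.inj hgal.symm
    exact params_of_apply σ hpar hb (isTateParamU_neg hpar) hb hxy.1 hxy.2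

/-- **`σ P = P`** ⇒ `σ b_t = b_t`, `σ u_t = u_t`. -/
theorem sigma_fix {P : Pt (shortW c4 c6)} (hP5 : 5 • P = 0) (hP0 : P ≠ 0)
    {N D : Polynomial Qbar} {κ : Qbar} (hcl : IsCbData F P N D κ) {σ : GQ} (hσ : σ • P = P)
    {t : ℤ} (ht : Good F.C4 F.C6 t) (hN : N.eval (t : Qbar) ≠ 0) (hD : D.eval (t : Qbar) ≠ 0) :
    σ (N.eval (t : Qbar) / D.eval (t : Qbar)) = N.eval (t : Qbar) / D.eval (t : Qbar) ∧
      σ (κ * D.eval (t : Qbar)) = κ * D.eval (t : Qbar) := by
  have hQ0 : F.theta t P ≠ 0 := F.theta_ne_zero ht hP5 hP0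
  have hgal := F.theta_gal t ht σ P hP5
  rw [hσ] at hgal
  cases hQ : F.theta t P with
  | zero => exact absurd hQ hQ0
  | some x y h =>
    have hpar := hcl t ht hN hD x y h hQ
    have hb : N.eval (t : Qbar) / D.eval (t : Qbar) ≠ 0 := div_ne_zero hN hD
    rw [hQ] at hgal
    have hσQ : σ • (Point.some x y h :
        (((member F.C4 F.C6 t).map (Int.castRingHom ℚ))⁄Qbar).Point) = Point.some (σ x) (σ y)
          ((Affine.baseChange_nonsingular _ σ.toAlgHom.injective x y).mpr h) := rfl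
    rw [hσQ] at hgal
    have hxy := Point.some.inj hgal.symm
    exact params_of_apply σ hpar hb hpar hb hxy.1 hxy.2

/-- there are infinitely many good integer parameters avoiding the roots of `N` and `D`. -/
theorem infinite_good (F : FiveCongFamily c4 c6) (hD0 : c4 ^ 3 ≠ c6 ^ 2) {N D : Polynomial Qbar}
    (hN0 : N ≠ 0) (hD0' : D ≠ 0) :
    {t : ℤ | Good F.C4 F.C6 t ∧ N.eval (t : Qbar) ≠ 0 ∧ D.eval (t : Qbar) ≠ 0}.Infinite := by
  set G : Polynomial ℤ := F.C4 ^ 3 - F.C6 ^ 2 with hG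
  have hG0 : G ≠ 0 := by
    intro h
    have := congrArg (Polynomial.eval 0) h
    rw [hG, eval_sub, eval_pow, eval_pow, F.C4_zero, F.C6_zero, eval_zero] at this
    exact hD0 (sub_eq_zero.mp this)
  have hA : {t : ℤ | IsRoot G t}.Finite := finite_setOfPred_isRoot hG0
  have hB : {t : ℤ | IsRoot N (t : Qbar)}.Finite :=
    Set.Finite.preimage (Int.cast_injective.injOn) (finite_setOfPred_isRoot hN0)
  have hC : {t : ℤ | IsRoot D (t : Qbar)}.Finite :=
    Set.Finite.preimage (Int.cast_injective.injOn) (finite_setOfPred_isRoot hD0')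
  have hfin := (hA.union hB).union hC
  refine hfin.infinite_compl.mono ?_
  intro t ht
  simp only [Set.mem_compl_iff, Set.mem_union, Set.mem_ofPred_eq, not_or] at ht
  obtain ⟨⟨h1, h2⟩, h3⟩ := ht
  refine ⟨?_, h2, h3⟩
  intro hbad
  apply h1
  show G.eval t = 0
  rw [hG, eval_sub, eval_pow, eval_pow, hbad, sub_self]

theorem eval_map_apply_hom (σ : GQ) (p : Polynomial Qbar) (z : Qbar) :
    (p.map (toHom σ)).eval (σ z) = σ (p.eval z) := by
  rw [eval_map, ← toHom_apply σ z, eval₂_at_apply]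
  rfl

/-- **`σ` permutes the roots of `N` and of `D`** when it fixes all the values `N(t)/D(t)`. -/
theorem roots_stable (F : FiveCongFamily c4 c6) (hD0 : c4 ^ 3 ≠ c6 ^ 2) {N D : Polynomial Qbar}
    (hcop : ∀ z : Qbar, N.eval z = 0 → D.eval z ≠ 0) (hN0 : N ≠ 0) (hD0' : D ≠ 0) {σ : GQ}
    (hb : ∀ t : ℤ, Good F.C4 F.C6 t → N.eval (t : Qbar) ≠ 0 → D.eval (t : Qbar) ≠ 0 →
      σ (N.eval (t : Qbar) / D.eval (t : Qbar)) = N.eval (t : Qbar) / D.eval (t : Qbar)) :
    (∀ z : Qbar, N.eval z = 0 → N.eval (σ z) = 0) ∧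
      (∀ z : Qbar, D.eval z = 0 → D.eval (σ z) = 0) := by
  set G : Polynomial Qbar := N.map (toHom σ) * D - N * D.map (toHom σ) with hG
  have hG0 : G = 0 := by
    apply eq_zero_of_infinite_isRoot
    refine ((infinite_good F hD0 hN0 hD0').image (Int.cast_injective.injOn)).mono ?_
    rintro _ ⟨t, ⟨ht, hN, hD⟩, rfl⟩
    show G.eval ((t : ℤ) : Qbar) = 0
    have hσt : σ ((t : ℤ) : Qbar) = ((t : ℤ) : Qbar) := map_intCast σ t
    have e1 : (N.map (toHom σ)).eval ((t : ℤ) : Qbar) = σ (N.eval ((t : ℤ) : Qbar)) := by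
      conv_lhs => rw [← hσt]
      exact eval_map_apply_hom σ N _
    have e2 : (D.map (toHom σ)).eval ((t : ℤ) : Qbar) = σ (D.eval ((t : ℤ) : Qbar)) := by
      conv_lhs => rw [← hσt]
      exact eval_map_apply_hom σ D _
    have h := hb t ht hN hD
    rw [map_div₀] at h
    have hσD : σ (D.eval ((t : ℤ) : Qbar)) ≠ 0 := (_root_.map_ne_zero _).mpr hD
    rw [div_eq_div_iff hσD hD] at h
    rw [hG, eval_sub, eval_mul, eval_mul, e1, e2, h, sub_self]
  have hid : ∀ w : Qbar, (N.map (toHom σ)).eval w * D.eval w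
      = N.eval w * (D.map (toHom σ)).eval w := by
    intro w
    have := congrArg (Polynomial.eval w) hG0
    rw [hG, eval_sub, eval_mul, eval_mul, eval_zero] at this
    exact sub_eq_zero.mp this
  constructor
  · intro z hz
    have h := hid (σ z)
    rw [eval_map_apply_hom, eval_map_apply_hom, hz, map_zero, zero_mul] at h
    have hσD : σ (D.eval z) ≠ 0 := (_root_.map_ne_zero _).mpr (hcop z hz)
    exact (mul_eq_zero.mp h.symm).resolve_right hσD
  · intro z hz
    have h := hid (σ z)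
    rw [eval_map_apply_hom, eval_map_apply_hom, hz, map_zero, mul_zero] at h
    have hNz : N.eval z ≠ 0 := fun h0 => hcop z h0 hz
    have hσN : σ (N.eval z) ≠ 0 := (_root_.map_ne_zero _).mpr hNz
    exact (mul_eq_zero.mp h).resolve_left hσN

end Fermat.Agent.ES.U52.TateCov9

end
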