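/-
Programme U (S52, the 3–5 switch), chapter LOCAL §B2.4 Step 2b (helper9): **the numerical form of
clause (C-b)**.

For a point `P ≠ 0` of order `5` of `shortW c4 c6` the contract gives `(N, D, κ)` with one of `N`, `D`
having five simple roots.  `exists_numData` normalises to the case where `N` has the five simple
roots (the other case is the substitution `b ↦ -1/b`, `(N, D, κ) ↦ (-D, N, κ)`: Tate's
`c₄(𝓔_b) = b⁴ c₄(𝓔_{-1/b})`, `c₆(𝓔_b) = b⁶ c₆(𝓔_{-1/b})`) and records only what the valuation core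
`AuxCore9.aux_core` consumes: the two relations `6⁴ C4(t) = u⁴ c₄(𝓔_b)`, `6⁶ C6(t) = u⁶ c₆(𝓔_b)` with
`b = N(t)/D(t)`, `u = κ D(t)`, and the Galois rules of `TateCov9`.
-/
import Mathlib
import Fermat.Agent.ES.U52.TateCov9

set_option autoImplicit false

open WeierstrassCurve WeierstrassCurve.Affine Polynomial

noncomputable section

namespace Fermat.Agent.ES.U52.NumData9

open Fermat.Agent.ES.U52.U52Iface29 Fermat.Agent.ES.U52.KeyLemma15 Fermat.Agent.ES.U52.TateNF15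
  Fermat.Agent.ES.U52.TateNFUnique15 Fermat.Agent.ES.U52.TateCov9

local notation "Qbar" => AlgebraicClosure ℚ
local notation "GQ" => (AlgebraicClosure ℚ ≃ₐ[ℚ] AlgebraicClosure ℚ)

theorem tateNF_c₆ {R : Type*} [CommRing R] (b : R) :
    (tateNF b b).c₆ = -(b ^ 6 - 18 * b ^ 5 + 75 * b ^ 4 + 75 * b ^ 2 + 18 * b + 1) := by
  simp only [tateNF, WeierstrassCurve.c₆, WeierstrassCurve.b₂, WeierstrassCurve.b₄,
    WeierstrassCurve.b₆]
  ring

theorem shortW_c₆ (c4 c6 : ℤ) : (shortW c4 c6).c₆ = 46656 * c6 := by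
  simp only [shortW, WeierstrassCurve.c₆, WeierstrassCurve.b₂, WeierstrassCurve.b₄,
    WeierstrassCurve.b₆]
  ring

/-- Tate's `c₄`-form and `c₆`-form. -/
def Phi4 (b : Qbar) : Qbar := b ^ 4 - 12 * b ^ 3 + 14 * b ^ 2 + 12 * b + 1

def Phi6 (b : Qbar) : Qbar := b ^ 6 - 18 * b ^ 5 + 75 * b ^ 4 + 75 * b ^ 2 + 18 * b + 1

/-- the relations between `(c4, c6)` and the Tate parameters `(b, u)`. -/
theorem rel_of_isTateParamU {c4 c6 : ℤ} {x y b u : Qbar}
    (h : IsTateParamU (((shortW c4 c6).map (Int.castRingHom ℚ))⁄Qbar) x y b u) :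
    (1296 : Qbar) * c4 = u ^ 4 * Phi4 b ∧ (46656 : Qbar) * c6 = -(u ^ 6 * Phi6 b) := by
  obtain ⟨C, hC, -, -, hu⟩ := h
  have hu0 : u ≠ 0 := by rw [← hu]; exact C.u.ne_zero
  have e4 : ((((shortW c4 c6).map (Int.castRingHom ℚ))⁄Qbar)).c₄ = (1296 : Qbar) * c4 := by
    show (((shortW c4 c6).map (Int.castRingHom ℚ)).map (algebraMap ℚ Qbar)).c₄ = _
    rw [WeierstrassCurve.map_c₄, WeierstrassCurve.map_c₄, shortW_c₄]
    simp
  have e6 : ((((shortW c4 c6).map (Int.castRingHom ℚ))⁄Qbar)).c₆ = (46656 : Qbar) * c6 := by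
    show (((shortW c4 c6).map (Int.castRingHom ℚ)).map (algebraMap ℚ Qbar)).c₆ = _
    rw [WeierstrassCurve.map_c₆, WeierstrassCurve.map_c₆, shortW_c₆]
    simp
  have h4 := congrArg WeierstrassCurve.c₄ hC
  have h6 := congrArg WeierstrassCurve.c₆ hC
  rw [variableChange_c₄, tateNF_c₄, e4, Units.val_inv_eq_inv_val, hu] at h4
  rw [variableChange_c₆, tateNF_c₆, e6, Units.val_inv_eq_inv_val, hu] at h6
  constructor
  · rw [Phi4, ← h4]
    field_simp
  · have h6' : b ^ 6 - 18 * b ^ 5 + 75 * b ^ 4 + 75 * b ^ 2 + 18 * b + 1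
        = -(u⁻¹ ^ 6 * ((46656 : Qbar) * c6)) := by rw [h6, neg_neg]
    rw [Phi6, h6']
    field_simp

variable {c4 c6 : ℤ}

/-- the numerical clause data of a point `P`. -/
structure IsNumData (F : FiveCongFamily c4 c6) (P : Pt (shortW c4 c6)) (N D : Polynomial Qbar)
    (κ : Qbar) : Prop where
  kappa_ne : κ ≠ 0
  coprime : ∀ z : Qbar, N.eval z = 0 → D.eval z ≠ 0
  five : FiveSimpleRoots N
  D_ne : D ≠ 0
  rel : ∀ t : ℤ, Good F.C4 F.C6 t → N.eval (t : Qbar) ≠ 0 → D.eval (t : Qbar) ≠ 0 →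
    (1296 : Qbar) * (F.C4.eval t : ℤ)
        = (κ * D.eval (t : Qbar)) ^ 4 * Phi4 (N.eval (t : Qbar) / D.eval (t : Qbar)) ∧
      (46656 : Qbar) * (F.C6.eval t : ℤ)
        = -((κ * D.eval (t : Qbar)) ^ 6 * Phi6 (N.eval (t : Qbar) / D.eval (t : Qbar)))
  sig_neg : ∀ σ : GQ, σ • P = -P → ∀ t : ℤ, Good F.C4 F.C6 t → N.eval (t : Qbar) ≠ 0 →
    D.eval (t : Qbar) ≠ 0 →
      σ (N.eval (t : Qbar) / D.eval (t : Qbar)) = N.eval (t : Qbar) / D.eval (t : Qbar) ∧
        σ (κ * D.eval (t : Qbar)) = -(κ * D.eval (t : Qbar))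
  sig_fix : ∀ σ : GQ, σ • P = P → ∀ t : ℤ, Good F.C4 F.C6 t → N.eval (t : Qbar) ≠ 0 →
    D.eval (t : Qbar) ≠ 0 →
      σ (N.eval (t : Qbar) / D.eval (t : Qbar)) = N.eval (t : Qbar) / D.eval (t : Qbar)

theorem exists_root_of_five {N : Polynomial Qbar} (h : FiveSimpleRoots N) :
    ∃ z : Qbar, N.eval z = 0 := by
  obtain ⟨c, β, -, -, rfl⟩ := h
  refine ⟨β 0, ?_⟩
  rw [eval_mul, eval_prod, Finset.prod_eq_zero (Finset.mem_univ (0 : Fin 5)), mul_zero]
  simp

theorem five_neg {N : Polynomial Qbar} (h : FiveSimpleRoots N) :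
    FiveSimpleRoots (-N) := by
  obtain ⟨c, β, hc, hβ, rfl⟩ := h
  exact ⟨-c, β, neg_ne_zero.mpr hc, hβ, by rw [C_neg, neg_mul]⟩

/-- **Normalised clause (C-b)**. -/
theorem exists_numData (F : FiveCongFamily c4 c6) {P : Pt (shortW c4 c6)} (hP5 : 5 • P = 0)
    (hP0 : P ≠ 0) : ∃ (N D : Polynomial Qbar) (κ : Qbar), IsNumData F P N D κ := by
  obtain ⟨N, D, κ, hκ, hcop, hfive, hcl⟩ := F.cb P hP5 hP0
  have hcl' : IsCbData F P N D κ := hcl
  -- the relations in the original variables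
  have hrel : ∀ t : ℤ, Good F.C4 F.C6 t → N.eval (t : Qbar) ≠ 0 → D.eval (t : Qbar) ≠ 0 →
      (1296 : Qbar) * (F.C4.eval t : ℤ)
          = (κ * D.eval (t : Qbar)) ^ 4 * Phi4 (N.eval (t : Qbar) / D.eval (t : Qbar)) ∧
        (46656 : Qbar) * (F.C6.eval t : ℤ)
          = -((κ * D.eval (t : Qbar)) ^ 6 * Phi6 (N.eval (t : Qbar) / D.eval (t : Qbar))) := by
    intro t ht hN hD
    have hQ0 : F.theta t P ≠ 0 := F.theta_ne_zero ht hP5 hP0
    cases hQ : F.theta t P with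
    | zero => exact absurd hQ hQ0
    | some x y h => exact rel_of_isTateParamU (hcl t ht hN hD x y h hQ)
  rcases hfive with h5 | h5
  · refine ⟨N, D, κ, hκ, hcop, h5, ?_, hrel, ?_, ?_⟩
    · rintro rfl
      obtain ⟨z, hz⟩ := exists_root_of_five h5
      exact hcop z hz (eval_zero)
    · intro σ hσ t ht hN hD
      exact sigma_neg hP5 hP0 hcl' hσ ht hN hD
    · intro σ hσ t ht hN hD
      exact (sigma_fix hP5 hP0 hcl' hσ ht hN hD).1
  · have hN0 : N ≠ 0 := by
      rintro rfl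
      obtain ⟨z, hz⟩ := exists_root_of_five h5
      exact hcop z eval_zero hz
    refine ⟨-D, N, κ, hκ, ?_, five_neg h5, hN0, ?_, ?_, ?_⟩
    · intro z hz hNz
      rw [eval_neg, neg_eq_zero] at hz
      exact hcop z hNz hz
    · intro t ht hD hN
      rw [eval_neg, neg_ne_zero] at hD
      obtain ⟨r4, r6⟩ := hrel t ht hN hD
      rw [eval_neg]
      constructor
      · rw [r4, Phi4, Phi4]
        field_simp
        ring
      · rw [r6, Phi6, Phi6]
        field_simp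
        ring
    · intro σ hσ t ht hD hN
      rw [eval_neg, neg_ne_zero] at hD
      obtain ⟨s1, s2⟩ := sigma_neg hP5 hP0 hcl' hσ ht hN hD
      rw [eval_neg]
      constructor
      · have e : -D.eval (t : Qbar) / N.eval (t : Qbar)
            = -(N.eval (t : Qbar) / D.eval (t : Qbar))⁻¹ := by
          rw [inv_div, neg_div]
        rw [e, map_neg, map_inv₀, s1]
      · have e : κ * N.eval (t : Qbar)
            = (κ * D.eval (t : Qbar)) * (N.eval (t : Qbar) / D.eval (t : Qbar)) := by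
          field_simp
        rw [e, map_mul, s1, s2, neg_mul]
    · intro σ hσ t ht hD hN
      rw [eval_neg, neg_ne_zero] at hD
      obtain ⟨s1, -⟩ := sigma_fix hP5 hP0 hcl' hσ ht hN hD
      rw [eval_neg]
      have e : -D.eval (t : Qbar) / N.eval (t : Qbar)
          = -(N.eval (t : Qbar) / D.eval (t : Qbar))⁻¹ := by
        rw [inv_div, neg_div]
      rw [e, map_neg, map_inv₀, s1]

end Fermat.Agent.ES.U52.NumData9

end
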