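/-
Programme U (S52, the 3–5 switch), chapter LOCAL §B2.4 Step 2c (helper9): **the parity argument**.

`σ` permutes five distinct algebraic numbers `β₀, …, β₄` and some `2`-power of `σ` fixes all of
them.  Then `σ` fixes one of them (`5` is odd).
-/
import Mathlib

set_option autoImplicit false

namespace Fermat.Agent.ES.U52.ParityRoot9

local notation "Qbar" => AlgebraicClosure ℚ
local notation "GQ" => (AlgebraicClosure ℚ ≃ₐ[ℚ] AlgebraicClosure ℚ)

theorem exists_fixed_root {β : Fin 5 → Qbar} (hβ : Function.Injective β) {σ : GQ}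
    (hperm : ∀ i, ∃ j, σ (β i) = β j) {k : ℕ} (hk : ∀ i, (σ ^ 2 ^ k) (β i) = β i) :
    ∃ i, σ (β i) = β i := by
  classical
  choose f hf using hperm
  have hinj : Function.Injective f := by
    intro i j hij
    apply hβ
    apply σ.injective
    rw [hf i, hf j, hij]
  let π : Equiv.Perm (Fin 5) := Equiv.ofBijective f (Finite.injective_iff_bijective.mp hinj)
  have hπ : ∀ i, π i = f i := fun i => rfl
  have hpow : ∀ n : ℕ, ∀ i, (σ ^ n) (β i) = β ((π ^ n) i) := by
    intro n
    induction n with
    | zero => intro i; simp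
    | succ n ih =>
      intro i
      rw [pow_succ, pow_succ, AlgEquiv.mul_apply, hf i, ← hπ, ih, Equiv.Perm.mul_apply]
  have hone : π ^ 2 ^ k = 1 := by
    apply Equiv.ext
    intro i
    apply hβ
    rw [← hpow, hk]
    rfl
  have : Fact (Nat.Prime 2) := ⟨Nat.prime_two⟩
  obtain ⟨i, hi⟩ := Equiv.Perm.exists_fixed_point_of_prime (p := 2) (n := k)
    (by simp : ¬ 2 ∣ Fintype.card (Fin 5)) hone
  exact ⟨i, by rw [hf i, ← hπ, hi]⟩

end Fermat.Agent.ES.U52.ParityRoot9
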