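/-
Programme U (S52, the 3–5 switch), chapter LOCAL §B2.4 Step 5 (helper9): **the local statement at the
auxiliary prime**.

`F : FiveCongFamily c4 c6`, `P ≠ 0` of order `5` with normalised clause data `(N, D, κ)`,
`N = c ∏ (X - β i)`.  Let `q ≥ 5` be a prime, `A` a valuation subring of `ℚ̄` over `q`, `σ` a Frobenius
element at `A` with `σ P = -P` and of `2`-power order on the `β i`; assume that the inertia group of
`A` fixes `P` and that `c`, `κ`, the `β i - β j`, the `β i - δ` (`δ` a root of `D`), the `D(β i)` and the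
non-zero `β i` are `A`-units.  Then there is an integer `t_q` such that for every good `t ≡ t_q mod q²`
the member `E_t` has `q ∤ c₄`, `v_q(c₄³ - c₆²) = 5` and `-c₆` a non-residue modulo `q`.
-/
import Mathlib
import Fermat.Agent.ES.U52.NumData9
import Fermat.Agent.ES.U52.ParityRoot9
import Fermat.Agent.ES.U52.AuxCore9
import Fermat.Agent.ES.U52.AuxPick9

set_option autoImplicit false

open WeierstrassCurve WeierstrassCurve.Affine Polynomial

noncomputable section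

namespace Fermat.Agent.ES.U52.AuxLocal9

open Fermat.Agent.ES.U52.U52Iface29 Fermat.Agent.ES.U52.KeyLemma15 Fermat.Agent.ES.U52.TateCov9
  Fermat.Agent.ES.U52.NumData9 Fermat.Agent.S05.Inertia Fermat.Agent.ES.U52.KeyVal15

local notation "Qbar" => AlgebraicClosure ℚ
local notation "GQ" => (AlgebraicClosure ℚ ≃ₐ[ℚ] AlgebraicClosure ℚ)

theorem eval_five (c : Qbar) (β : Fin 5 → Qbar) (z : Qbar) :
    (C c * ∏ i : Fin 5, (X - C (β i))).eval z = c * ∏ i : Fin 5, (z - β i) := by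
  rw [eval_mul, eval_C, eval_prod]
  simp

theorem eval_five_eq_zero {c : Qbar} (hc : c ≠ 0) (β : Fin 5 → Qbar) (z : Qbar) :
    (C c * ∏ i : Fin 5, (X - C (β i))).eval z = 0 ↔ ∃ i, z = β i := by
  rw [eval_five, mul_eq_zero, Finset.prod_eq_zero_iff]
  constructor
  · rintro (h | ⟨i, -, hi⟩)
    · exact absurd h hc
    · exact ⟨i, sub_eq_zero.mp hi⟩
  · rintro ⟨i, hi⟩
    exact Or.inr ⟨i, Finset.mem_univ _, sub_eq_zero.mpr hi⟩

variable {c4 c6 : ℤ}

theorem aux_local (F : FiveCongFamily c4 c6) (hD0 : c4 ^ 3 ≠ c6 ^ 2) {P : Pt (shortW c4 c6)}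
    {D : Polynomial Qbar} {κ c : Qbar} {β : Fin 5 → Qbar} (hβinj : Function.Injective β)
    (hc : c ≠ 0)
    (hnd : IsNumData F P (C c * ∏ i : Fin 5, (X - C (β i))) D κ)
    {q : ℕ} (hq : q.Prime) (hq5 : 5 ≤ q) {A : ValuationSubring Qbar} (hA : A.LiesOverPrime q)
    {σ : GQ} (hσ : A.IsFrobeniusAt σ q) (hσP : σ • P = -P)
    (hpow : ∃ k : ℕ, ∀ i, (σ ^ 2 ^ k) (β i) = β i)
    (hin : ∀ τ ∈ A.inertiaSubgroupIn ℚ, τ • P = P)
    (hvc : A.valuation c = 1) (hvκ : A.valuation κ = 1)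
    (hvββ : ∀ i j, i ≠ j → A.valuation (β i - β j) = 1)
    (hvβδ : ∀ i, ∀ δ ∈ D.roots, A.valuation (β i - δ) = 1)
    (hvDβ : ∀ i, A.valuation (D.eval (β i)) = 1)
    (hvβ : ∀ i, β i ≠ 0 → A.valuation (β i) = 1) :
    ∃ tq : ℤ, ∀ t : ℤ, (q : ℤ) ^ 2 ∣ t - tq → Good F.C4 F.C6 t →
      ¬ (q : ℤ) ∣ F.C4.eval t ∧ (q : ℤ) ∣ (F.C4.eval t) ^ 3 - (F.C6.eval t) ^ 2 ∧
        padicValInt q ((F.C4.eval t) ^ 3 - (F.C6.eval t) ^ 2) = 5 ∧
        ¬ IsSquare (((-F.C6.eval t : ℤ)) : ZMod q) := by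
  classical
  set N : Polynomial Qbar := C c * ∏ i : Fin 5, (X - C (β i)) with hN
  have hN0 : N ≠ 0 := by
    intro h0
    have hall : ∀ z : Qbar, ∃ i, z = β i := fun z =>
      (eval_five_eq_zero hc β z).mp (by rw [← hN, h0, eval_zero])
    have hfin : (Set.univ : Set Qbar).Finite :=
      (Set.finite_range β).subset fun z _ => by
        obtain ⟨j, hj⟩ := hall z
        exact ⟨j, hj.symm⟩
    exact Set.infinite_univ hfin
  have hroot : ∀ z : Qbar, N.eval z = 0 ↔ ∃ i, z = β i := eval_five_eq_zero hc β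
  -- `σ` permutes the `β i`
  have hσb : ∀ t : ℤ, Good F.C4 F.C6 t → N.eval (t : Qbar) ≠ 0 → D.eval (t : Qbar) ≠ 0 →
      σ (N.eval (t : Qbar) / D.eval (t : Qbar)) = N.eval (t : Qbar) / D.eval (t : Qbar) :=
    fun t ht h1 h2 => (hnd.sig_neg σ hσP t ht h1 h2).1
  have hσroots := (roots_stable F hD0 hnd.coprime hN0 hnd.D_ne hσb).1
  have hperm : ∀ i, ∃ j, σ (β i) = β j := fun i =>
    (hroot _).mp (hσroots _ ((hroot _).mpr ⟨i, rfl⟩))
  obtain ⟨k, hk⟩ := hpow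
  obtain ⟨i₀, hi₀⟩ := ParityRoot9.exists_fixed_root hβinj hperm hk
  -- `β i₀ ∈ A`
  have hβA : β i₀ ∈ A := by
    by_cases h0 : β i₀ = 0
    · rw [h0]; exact A.zero_mem
    · rw [← ValuationSubring.valuation_le_one_iff, hvβ i₀ h0]
  -- the inertia group fixes `β i₀`
  have hinβ : ∀ τ ∈ A.inertiaSubgroupIn ℚ, τ (β i₀) = β i₀ := by
    intro τ hτ
    have hτb : ∀ t : ℤ, Good F.C4 F.C6 t → N.eval (t : Qbar) ≠ 0 → D.eval (t : Qbar) ≠ 0 →
        τ (N.eval (t : Qbar) / D.eval (t : Qbar)) = N.eval (t : Qbar) / D.eval (t : Qbar) :=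
      fun t ht h1 h2 => hnd.sig_fix τ (hin τ hτ) t ht h1 h2
    have hτroots := (roots_stable F hD0 hnd.coprime hN0 hnd.D_ne hτb).1
    obtain ⟨j, hj⟩ := (hroot _).mp (hτroots _ ((hroot _).mpr ⟨i₀, rfl⟩))
    by_contra hne
    have hji : j ≠ i₀ := by
      rintro rfl
      exact hne hj
    have hnu := apply_sub_mem_nonunits hτ hβA
    rw [hj] at hnu
    have hlt : A.valuation (β j - β i₀) < 1 := (ValuationSubring.mem_nonunits_iff (A := A)).mp hnu
    rw [hvββ j i₀ hji] at hlt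
    exact lt_irrefl _ hlt
  obtain ⟨t₀, ht₀⟩ := AuxPick9.exists_int_valuation_eq hq hA hσ hβA hi₀ hinβ
  refine ⟨t₀, fun t htq ht => ?_⟩
  have hvt := ht₀ t htq
  have hε1 : A.valuation (q : Qbar) < 1 := valuation_prime_lt_one hA
  have hε0 : A.valuation (q : Qbar) ≠ 0 := valuation_prime_ne_zero A hq
  -- `v(N(t)) = v(q)`
  have hvN : A.valuation (N.eval (t : Qbar)) = A.valuation (q : Qbar) := by
    rw [hN, eval_five, map_mul, hvc, one_mul, map_prod,
      Finset.prod_eq_single_of_mem i₀ (Finset.mem_univ _), hvt]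
    intro j _ hj
    have e : (t : Qbar) - β j = ((t : Qbar) - β i₀) + (β i₀ - β j) := by ring
    rw [e, Valuation.map_add_eq_of_lt_right, hvββ i₀ j (Ne.symm hj)]
    rw [hvt, hvββ i₀ j (Ne.symm hj)]
    exact hε1
  -- `v(D(t)) = 1`
  have hvD : A.valuation (D.eval (t : Qbar)) = 1 := by
    rw [AuxPick9.valuation_eval_eq (A := A) D (x := (t : Qbar)) (y := β i₀), hvDβ i₀]
    intro δ hδ
    rw [hvt, hvβδ i₀ δ hδ]
    exact hε1
  have hNt : N.eval (t : Qbar) ≠ 0 := by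
    intro h0
    rw [h0, map_zero] at hvN
    exact hε0 hvN.symm
  have hDt : D.eval (t : Qbar) ≠ 0 := by
    intro h0
    rw [h0, map_zero] at hvD
    exact zero_ne_one hvD
  obtain ⟨r4, r6⟩ := hnd.rel t ht hNt hDt
  obtain ⟨-, s2⟩ := hnd.sig_neg σ hσP t ht hNt hDt
  have hvb : A.valuation (N.eval (t : Qbar) / D.eval (t : Qbar)) = A.valuation (q : Qbar) := by
    rw [map_div₀, hvN, hvD, div_one]
  have hvu : A.valuation (κ * D.eval (t : Qbar)) = 1 := by
    rw [map_mul, hvκ, hvD, one_mul]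
  exact AuxCore9.aux_core hq hq5 hA hσ r4 r6 hvb hvu s2

end Fermat.Agent.ES.U52.AuxLocal9

end
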