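/-
Programme U (S52), chapter LOCAL §A3 step 6 (helper15): **transport of the data at the auxiliary prime
from `(c₄, c₆)` to the integral model `W'`** — the interface asked by §B (`IrredThree9`).

`SemistableMember15.semistable_member` produces `W'` and `u ≥ 1` with `c₄ = u⁴c₄(W')`, `c₆ = u⁶c₆(W')`.
If `q ≡ 1 (mod 24)` is a prime with `q ∤ c₄`, `q ∣ c₄³ - c₆²`, `3 ∤ v_q(c₄³ - c₆²)` and `-c₆` a
non-residue mod `q`, then `q ∤ c₄(W')`, `q ∣ Δ(W')`, `3 ∤ v_q(Δ(W'))` and `-c₆(W')` is a non-residue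
mod `q` — exactly the hypotheses of `IrredThree9.irreducible_three_of_nonsplit` for `W'`.
(`q ∤ u` because `q ∤ c₄`; `c₄³ - c₆² = u¹²·1728·Δ(W')` and `q ∤ 1728u`; `u⁶` is a square.)
-/
import Mathlib

set_option autoImplicit false

open WeierstrassCurve

namespace Fermat.Agent.ES.U52.AuxPrime15

/-- **§A3 step 6.** -/
theorem aux_transfer (W' : WeierstrassCurve ℤ) {u : ℕ} {c4 c6 : ℤ}
    (h4 : c4 = (u : ℤ) ^ 4 * W'.c₄) (h6 : c6 = (u : ℤ) ^ 6 * W'.c₆)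
    {q : ℕ} [hq : Fact q.Prime] (h24 : q % 24 = 1)
    (hqc4 : ¬ (q : ℤ) ∣ c4) (hqD : (q : ℤ) ∣ (c4 ^ 3 - c6 ^ 2))
    (h3 : ¬ 3 ∣ padicValInt q (c4 ^ 3 - c6 ^ 2))
    (hns : ¬ IsSquare (((-c6 : ℤ)) : ZMod q)) :
    ¬ (q : ℤ) ∣ W'.c₄ ∧ (q : ℤ) ∣ W'.Δ ∧ ¬ 3 ∣ padicValInt q W'.Δ ∧
      ¬ IsSquare (((-W'.c₆ : ℤ)) : ZMod q) := by
  have hqp : Prime (q : ℤ) := Nat.prime_iff_prime_int.mp hq.out
  -- `q ∤ u`
  have hqu : ¬ (q : ℤ) ∣ (u : ℤ) := by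
    intro h
    apply hqc4
    rw [h4]
    exact Dvd.dvd.mul_right (dvd_pow h (by norm_num)) _
  -- `q ∤ 1728`
  have hq1728 : ¬ (q : ℤ) ∣ 1728 := by
    intro h
    have h1 : q ∣ 2 ^ 6 * 3 ^ 3 := by
      have : q ∣ 1728 := by exact_mod_cast h
      simpa using this
    rcases (Nat.Prime.dvd_mul hq.out).mp h1 with h2 | h2
    · have := (Nat.prime_dvd_prime_iff_eq hq.out Nat.prime_two).mp (hq.out.dvd_of_dvd_pow h2)
      subst this
      omega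
    · have := (Nat.prime_dvd_prime_iff_eq hq.out Nat.prime_three).mp (hq.out.dvd_of_dvd_pow h2)
      subst this
      omega
  -- the discriminants
  have hD : c4 ^ 3 - c6 ^ 2 = ((u : ℤ) ^ 12 * 1728) * W'.Δ := by
    rw [h4, h6, mul_assoc, W'.c_relation]
    ring
  have hqU : ¬ (q : ℤ) ∣ (u : ℤ) ^ 12 * 1728 := by
    intro h
    rcases hqp.dvd_or_dvd h with h | h
    · exact hqu (hqp.dvd_of_dvd_pow h)
    · exact hq1728 h
  have hΔ0 : W'.Δ ≠ 0 := by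
    intro h0
    apply h3
    rw [hD, h0, mul_zero, padicValInt.zero]
    exact dvd_zero 3
  have hU0 : (u : ℤ) ^ 12 * 1728 ≠ 0 := by
    intro h0
    apply hqU
    rw [h0]
    exact dvd_zero _
  refine ⟨?_, ?_, ?_, ?_⟩
  · intro h
    apply hqc4
    rw [h4]
    exact Dvd.dvd.mul_left h _
  · rw [hD] at hqD
    rcases hqp.dvd_or_dvd hqD with h | h
    · exact absurd h hqU
    · exact h
  · rw [hD, padicValInt.mul hU0 hΔ0, padicValInt.eq_zero_of_not_dvd hqU, zero_add] at h3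
    exact h3
  · intro hsq
    apply hns
    have e : ((-c6 : ℤ) : ZMod q) = (((u : ℤ) ^ 3 : ℤ) : ZMod q) * (((u : ℤ) ^ 3 : ℤ) : ZMod q)
        * ((-W'.c₆ : ℤ) : ZMod q) := by
      rw [h6]
      push_cast
      ring
    rw [e]
    exact (IsSquare.mul_self _).mul hsq

end Fermat.Agent.ES.U52.AuxPrime15
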