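/-
Programme U (S52, the 3–5 switch), chapter LOCAL §B2.4 Step 3 (helper9): **finitely many nonzero
algebraic numbers are units at all places over all but finitely many primes**.

`exists_bad_modulus`: for a finite set `Z ⊂ ℚ̄ˣ` there is `M ≠ 0` such that for every prime
`q ∤ M` and every valuation subring `A` of `ℚ̄` over `q`, every `z ∈ Z` has `v_A(z) = 1`.
(Clear the denominators of `z` and of `z⁻¹`.)  `exists_bad_modulus_diff`: the same for the pairwise
differences of a finite set.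
-/
import Mathlib
import Fermat.Agent.S05.Inertia
import Fermat.Agent.Lib.FrobeniusExists

set_option autoImplicit false

namespace Fermat.Agent.ES.U52.UnitAE9

open Fermat.Agent.S05.Inertia Fermat.Agent.Lib.FrobeniusExists

local notation "Qbar" => AlgebraicClosure ℚ

theorem exists_bad_modulus (Z : Finset Qbar) (hZ : ∀ z ∈ Z, z ≠ 0) :
    ∃ M : ℕ, M ≠ 0 ∧ ∀ q : ℕ, q.Prime → ¬ q ∣ M →
      ∀ A : ValuationSubring Qbar, A.LiesOverPrime q → ∀ z ∈ Z, A.valuation z = 1 := by
  classical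
  have halg : Algebra.IsAlgebraic ℤ Qbar := ⟨fun x => isAlgebraic_int_Qbar x⟩
  obtain ⟨y, hy0, hy⟩ := Algebra.IsAlgebraic.exists_integral_multiples (R := ℤ)
    (Z ∪ Z.image (fun z => z⁻¹))
  refine ⟨y.natAbs, Int.natAbs_ne_zero.mpr hy0, fun q hq hqM A hA z hz => ?_⟩
  have hqy : ¬ (q : ℤ) ∣ y := fun h => hqM (Int.natCast_dvd.mp h)
  have hvy : A.valuation ((y : ℤ) : Qbar) = 1 := valuation_intCast_eq_one hq hA hqy
  have key : ∀ x ∈ Z ∪ Z.image (fun z => z⁻¹), A.valuation x ≤ 1 := by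
    intro x hx
    have hint := hy x hx
    have hmem : y • x ∈ A := mem_valuationSubring_of_isIntegral A hint
    have hle : A.valuation (y • x) ≤ 1 := (ValuationSubring.valuation_le_one_iff A _).mpr hmem
    rwa [zsmul_eq_mul, map_mul, hvy, one_mul] at hle
  have h1 : A.valuation z ≤ 1 := key z (Finset.mem_union_left _ hz)
  have h2 : A.valuation z⁻¹ ≤ 1 :=
    key z⁻¹ (Finset.mem_union_right _ (Finset.mem_image_of_mem _ hz))
  have hz0 : A.valuation z ≠ 0 := (map_ne_zero _).mpr (hZ z hz)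
  rw [map_inv₀] at h2
  have h3 : 1 ≤ A.valuation z := by
    have := (inv_le_one₀ (zero_lt_iff.mpr hz0)).mp h2
    exact this
  exact le_antisymm h1 h3

/-- the differences of finitely many algebraic numbers are units at almost all places. -/
theorem exists_bad_modulus_diff (B : Finset Qbar) :
    ∃ M : ℕ, M ≠ 0 ∧ ∀ q : ℕ, q.Prime → ¬ q ∣ M →
      ∀ A : ValuationSubring Qbar, A.LiesOverPrime q → ∀ a ∈ B, ∀ b ∈ B, a ≠ b →
        A.valuation (a - b) = 1 := by
  classical
  obtain ⟨M, hM0, hM⟩ := exists_bad_modulus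
    (((B ×ˢ B).image (fun p : Qbar × Qbar => p.1 - p.2)).filter (fun z => z ≠ 0))
    (fun z hz => (Finset.mem_filter.mp hz).2)
  refine ⟨M, hM0, fun q hq hqM A hA a ha b hb hab => hM q hq hqM A hA _ ?_⟩
  rw [Finset.mem_filter]
  exact ⟨Finset.mem_image.mpr ⟨(a, b), Finset.mem_product.mpr ⟨ha, hb⟩, rfl⟩, sub_ne_zero.mpr hab⟩

end Fermat.Agent.ES.U52.UnitAE9
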