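/-
Programme U (S52, the 3–5 switch), chapter LOCAL §B2.4 Step 6 (helper9): **the auxiliary prime and
the congruence class of good parameters** (`mod3_member`, short-model form).

`F : FiveCongFamily c4 c6` with `c4³ ≠ c6²`; assume some `σ₀ ∈ Gal(ℚ̄/ℚ)` fixes `μ₂₄` and has the
eigenvalue `-1` on the `5`-torsion of `shortW c4 c6`.  Then outside any finite set `S` there are a
prime `q ≡ 1 mod 24` and an integer `t_q` such that every good `t ≡ t_q mod q²` gives a member with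
`q ∤ C4(t)`, `q ∣ C4(t)³ - C6(t)²`, `3 ∤ v_q(C4(t)³ - C6(t)²)` and `-C6(t)` a non-residue modulo `q`:
exactly the hypotheses of `IrredThree9.irreducible_three_of_nonsplit` / `S52Reduce15.s52_of_member`.
-/
import Mathlib
import Fermat.Agent.ES.Q58.InertiaGood11
import Fermat.Agent.ES.U52.UnitAE9
import Fermat.Agent.ES.U52.AuxCheb9
import Fermat.Agent.ES.U52.AuxLocal9

set_option autoImplicit false

open WeierstrassCurve WeierstrassCurve.Affine Polynomial

noncomputable section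

namespace Fermat.Agent.ES.U52.AuxPrime9

open Fermat.Agent.ES.U52.U52Iface29 Fermat.Agent.ES.U52.KeyLemma15 Fermat.Agent.ES.U52.TateCov9
  Fermat.Agent.ES.U52.NumData9 Fermat.Agent.ES.U52.AuxCheb9 Fermat.Agent.ES.U52.SigmaElem9
  Fermat.Agent.ES.R48.ModCyclo13 Fermat.Agent.ES.Q58.CoordField13

local notation "Qbar" => AlgebraicClosure ℚ
local notation "GQ" => (AlgebraicClosure ℚ ≃ₐ[ℚ] AlgebraicClosure ℚ)

variable {c4 c6 : ℤ}

/-- **`mod3_member`, short-model form.** -/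
theorem mod3_member_short (F : FiveCongFamily c4 c6) (hD0 : c4 ^ 3 ≠ c6 ^ 2)
    (hne : ∃ σ₀ : GQ, chiMod 24 σ₀ = 1 ∧ NegEigen ((shortW c4 c6).map (Int.castRingHom ℚ)) σ₀)
    (S : Finset ℕ) :
    ∃ (q : ℕ) (tq : ℤ), q.Prime ∧ q % 24 = 1 ∧ q ∉ S ∧
      ∀ t : ℤ, (q : ℤ) ^ 2 ∣ t - tq → Good F.C4 F.C6 t →
        ¬ (q : ℤ) ∣ F.C4.eval t ∧ (q : ℤ) ∣ (F.C4.eval t) ^ 3 - (F.C6.eval t) ^ 2 ∧
          ¬ 3 ∣ padicValInt q ((F.C4.eval t) ^ 3 - (F.C6.eval t) ^ 2) ∧
          ¬ IsSquare (((-F.C6.eval t : ℤ)) : ZMod q) := by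
  classical
  set E : WeierstrassCurve ℚ := (shortW c4 c6).map (Int.castRingHom ℚ) with hE
  have : Finite (Tors5 E) := finite_torsionBy_odd (E := E) (by decide : Odd 5)
  have : Fintype {x : Tors5 E // x ≠ 0} := Fintype.ofFinite _
  -- the clause data of every non-zero point
  have hdata : ∀ x : {x : Tors5 E // x ≠ 0}, ∃ (c : Qbar) (β : Fin 5 → Qbar)
      (D : Polynomial Qbar) (κ : Qbar), c ≠ 0 ∧ Function.Injective β ∧
        IsNumData F ((x.1 : Tors5 E) : Pt (shortW c4 c6))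
          (C c * ∏ i : Fin 5, (X - C (β i))) D κ := by
    rintro ⟨x, hx0⟩
    have hx5 : 5 • ((x : Tors5 E) : Pt (shortW c4 c6)) = 0 := by
      have := (Submodule.mem_torsionBy_iff _ _).mp x.2
      rwa [natCast_zsmul] at this
    have hxne : ((x : Tors5 E) : Pt (shortW c4 c6)) ≠ 0 := fun h => hx0 (Subtype.ext h)
    obtain ⟨N, D, κ, hnd⟩ := exists_numData F hx5 hxne
    obtain ⟨c, β, hc, hβ, hN⟩ := hnd.five
    exact ⟨c, β, D, κ, hc, hβ, hN ▸ hnd⟩
  choose cf βf Df κf hcf hβf hndf using hdata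
  -- the roots and the units
  set R : Finset Qbar := Finset.univ.biUnion fun x => Finset.univ.image (βf x) with hR
  set B : Finset Qbar := insert 0 (Finset.univ.biUnion fun x =>
    ({cf x, κf x} ∪ Finset.univ.image (βf x) ∪ (Df x).roots.toFinset ∪
      Finset.univ.image (fun i => (Df x).eval (βf x i)))) with hB
  have hB0 : (0 : Qbar) ∈ B := Finset.mem_insert_self _ _
  have hBc : ∀ x, cf x ∈ B := fun x => Finset.mem_insert_of_mem
    (Finset.mem_biUnion.mpr ⟨x, Finset.mem_univ _, by simp⟩)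
  have hBκ : ∀ x, κf x ∈ B := fun x => Finset.mem_insert_of_mem
    (Finset.mem_biUnion.mpr ⟨x, Finset.mem_univ _, by simp⟩)
  have hBβ : ∀ x i, βf x i ∈ B := fun x i => Finset.mem_insert_of_mem
    (Finset.mem_biUnion.mpr ⟨x, Finset.mem_univ _, by simp⟩)
  have hBδ : ∀ x, ∀ δ ∈ (Df x).roots, δ ∈ B := fun x δ hδ => Finset.mem_insert_of_mem
    (Finset.mem_biUnion.mpr ⟨x, Finset.mem_univ _, by simp [hδ]⟩)
  have hBD : ∀ x i, (Df x).eval (βf x i) ∈ B := fun x i => Finset.mem_insert_of_mem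
    (Finset.mem_biUnion.mpr ⟨x, Finset.mem_univ _, by simp⟩)
  obtain ⟨M, hM0, hM⟩ := UnitAE9.exists_bad_modulus_diff B
  -- the excluded primes
  have hDnat : (c4 ^ 3 - c6 ^ 2).natAbs ≠ 0 := Int.natAbs_ne_zero.mpr (sub_ne_zero.mpr hD0)
  set M' : ℕ := 30 * (c4 ^ 3 - c6 ^ 2).natAbs * M with hM'
  have hM'0 : M' ≠ 0 := Nat.mul_ne_zero (Nat.mul_ne_zero (by norm_num) hDnat) hM0
  have hT : ({p : ℕ | p ∣ M'} ∪ (S : Set ℕ)).Finite := by
    refine Set.Finite.union ?_ S.finite_toSet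
    exact (Set.finite_le_nat M').subset fun p hp => Nat.le_of_dvd (Nat.pos_of_ne_zero hM'0) hp
  obtain ⟨q, hq, hqT, hqP⟩ := exists_prime_frob_two_pow (E := E) R hne _ hT
  obtain ⟨A, σ, hA, hσ⟩ := Fermat.Agent.Lib.exists_isFrobeniusAt q hq
  obtain ⟨h24, ⟨x, hx0, hσx⟩, k, hk⟩ := hqP A hA σ hσ
  have hqM' : ¬ q ∣ M' := fun h => hqT (Or.inl h)
  have hqS : q ∉ S := fun h => hqT (Or.inr h)
  have hq30 : ¬ q ∣ 30 := fun h => hqM' ((h.mul_right _).mul_right _)
  have hqΔ : ¬ q ∣ (c4 ^ 3 - c6 ^ 2).natAbs := fun h => hqM' ((h.mul_left _).mul_right _)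
  have hqM : ¬ q ∣ M := fun h => hqM' (h.mul_left _)
  have hq5 : 5 ≤ q := by
    by_contra hlt
    push Not at hlt
    have h2 := hq.two_le
    interval_cases q
    · exact hq30 (by norm_num)
    · exact hq30 (by norm_num)
    · exact absurd hq (by norm_num)
  have hq5' : ¬ q ∣ 5 := fun h => hq30 (h.trans (by norm_num))
  have hq24 : ¬ q ∣ 24 := fun h => by
    have h' : q ∣ 2 ^ 3 * 3 := h
    rcases (Nat.Prime.dvd_mul hq).mp h' with h2 | h3
    · exact hq30 ((hq.dvd_of_dvd_pow h2).trans (by norm_num))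
    · exact hq30 (h3.trans (by norm_num))
  -- `q ≡ 1 mod 24`
  have hqmod : q % 24 = 1 := by
    have h := chiMod_of_isFrobeniusAt (n := 24) hq hq24 A hA hσ
    rw [h24, Units.val_one] at h
    have h' : ((q : ℕ) : ZMod 24) = ((1 : ℕ) : ZMod 24) := by rw [← h]; simp
    have := (ZMod.natCast_eq_natCast_iff' q 1 24).mp h'
    simpa using this
  -- the point
  set P : Pt (shortW c4 c6) := ((x : Tors5 E) : Pt (shortW c4 c6)) with hP
  have hσP : σ • P = -P := by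
    have := congrArg (fun y : Tors5 E => (y : Pt (shortW c4 c6))) hσx
    exact this
  have hx5 : 5 • P = 0 := by
    have := (Submodule.mem_torsionBy_iff _ _).mp x.2
    rwa [natCast_zsmul] at this
  -- good reduction of the short model at `q`
  have hgood : (shortW c4 c6).IsGoodPrimeFor q := by
    intro hdvd
    rw [shortW_Δ] at hdvd
    rcases (Nat.prime_iff_prime_int.mp hq).dvd_or_dvd hdvd with h | h
    · have h' : q ∣ 1259712 := by exact_mod_cast h
      have h'' : q ∣ 2 ^ 6 * 3 ^ 9 := h'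
      rcases (Nat.Prime.dvd_mul hq).mp h'' with h2 | h3
      · exact hq30 ((hq.dvd_of_dvd_pow h2).trans (by norm_num))
      · exact hq30 ((hq.dvd_of_dvd_pow h3).trans (by norm_num))
    · exact hqΔ (Int.natCast_dvd.mp h)
  have hin : ∀ τ ∈ A.inertiaSubgroupIn ℚ, τ • P = P := by
    intro τ hτ
    rw [Point.algEquiv_smul_def]
    exact Fermat.Agent.ES.Q58.InertiaGood11.inertia_fix_of_good (shortW c4 c6) hq
      (by decide : Odd 5) hq5' hgood hA hτ P hx5
  -- the local statement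
  set y : {x : Tors5 E // x ≠ 0} := ⟨x, hx0⟩ with hy
  have hnd := hndf y
  have hcop := hnd.coprime
  have hrootβ : ∀ i, (C (cf y) * ∏ j : Fin 5, (X - C (βf y j))).eval (βf y i) = 0 := fun i =>
    (AuxLocal9.eval_five_eq_zero (hcf y) (βf y) _).mpr ⟨i, rfl⟩
  have hDβ0 : ∀ i, (Df y).eval (βf y i) ≠ 0 := fun i => hcop _ (hrootβ i)
  have hunit : ∀ a ∈ B, ∀ b ∈ B, a ≠ b → A.valuation (a - b) = 1 := hM q hq hqM A hA
  have hunit0 : ∀ a ∈ B, a ≠ 0 → A.valuation a = 1 := fun a ha ha0 => by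
    have := hunit a ha 0 hB0 ha0
    rwa [sub_zero] at this
  obtain ⟨tq, htq⟩ := AuxLocal9.aux_local F hD0 (hβf y) (hcf y) hnd hq hq5 hA hσ hσP
    ⟨k, fun i => hk _ (Finset.mem_biUnion.mpr ⟨y, Finset.mem_univ _,
      Finset.mem_image_of_mem _ (Finset.mem_univ i)⟩)⟩ hin
    (hunit0 _ (hBc y) (hcf y)) (hunit0 _ (hBκ y) hnd.kappa_ne)
    (fun i j hij => hunit _ (hBβ y i) _ (hBβ y j) (fun h => hij (hβf y h)))
    (fun i δ hδ => hunit _ (hBβ y i) _ (hBδ y δ hδ) (fun h => by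
      apply hDβ0 i
      rw [h]
      exact (Polynomial.mem_roots'.mp hδ).2))
    (fun i => hunit0 _ (hBD y i) (hDβ0 i))
    (fun i hi => hunit0 _ (hBβ y i) hi)
  refine ⟨q, tq, hq, hqmod, hqS, fun t ht hgt => ?_⟩
  obtain ⟨h1, h2, h3, h4⟩ := htq t ht hgt
  refine ⟨h1, h2, ?_, h4⟩
  rw [h3]
  norm_num

end Fermat.Agent.ES.U52.AuxPrime9

end
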