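/-
Programme U (S52), TOP (helper15): **the choice of the parameter `t`** — Chinese remainder theorem plus
avoidance of the finitely many roots of a nonzero polynomial.

`exists_t` : `M ≠ 0`, `q` a prime not dividing `M`, `k : ℕ`, `tq : ℤ`, `D ∈ ℤ[X]` nonzero.  Then there is
`t : ℤ` with `M ∣ t`, `q^k ∣ t - tq` and `D(t) ≠ 0`.
(Used with `M = 2488320·Δ(W)`, `k = 2`, `D = C4³ - C6²`.)
-/
import Mathlib

set_option autoImplicit false

open Polynomial

namespace Fermat.Agent.ES.U52.ChooseT15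

/-- A nonzero integer polynomial does not vanish identically on an arithmetic progression. -/
theorem exists_eval_ne_zero_on_progression (D : ℤ[X]) (hD : D ≠ 0) (t₀ m : ℤ) (hm : m ≠ 0) :
    ∃ j : ℤ, D.eval (t₀ + m * j) ≠ 0 := by
  by_contra hcon
  push Not at hcon
  -- `D ∘ (t₀ + m X)` has infinitely many roots
  have hcomp : D.comp (C t₀ + C m * X) = 0 := by
    apply Polynomial.eq_zero_of_infinite_isRoot
    have hall : {x : ℤ | (D.comp (C t₀ + C m * X)).IsRoot x} = Set.univ := by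
      ext j
      simp only [Set.mem_ofPred_eq, Set.mem_univ, iff_true, IsRoot.def, eval_comp, eval_add,
        eval_C, eval_mul, eval_X]
      exact hcon j
    rw [hall]
    exact Set.infinite_univ
  -- but composition with a nonconstant polynomial is injective on nonzero polynomials
  have hdeg : (C t₀ + C m * X : ℤ[X]).natDegree = 1 := by
    compute_degree!
  have h1 := Polynomial.natDegree_comp (p := D) (q := C t₀ + C m * X)
  rw [hcomp, natDegree_zero, hdeg, mul_one] at h1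
  -- so `D` is a constant `C a`, and then `D ∘ _ = C a = 0`
  have hDc : D = C (D.coeff 0) := Polynomial.eq_C_of_natDegree_eq_zero h1.symm
  rw [hDc, C_comp] at hcomp
  apply hD
  rw [hDc, hcomp]

/-- **The choice of `t`.** -/
theorem exists_t (M : ℤ) (hM : M ≠ 0) {q : ℕ} (hq : q.Prime) (hqM : ¬ (q : ℤ) ∣ M) (k : ℕ)
    (tq : ℤ) (D : ℤ[X]) (hD : D ≠ 0) :
    ∃ t : ℤ, M ∣ t ∧ (q : ℤ) ^ k ∣ t - tq ∧ D.eval t ≠ 0 := by
  have hqp : Prime (q : ℤ) := Nat.prime_iff_prime_int.mp hq
  have hcop : IsCoprime M ((q : ℤ) ^ k) := by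
    apply IsCoprime.pow_right
    exact (hqp.coprime_iff_not_dvd.mpr hqM).symm
  obtain ⟨a, b, hab⟩ := hcop
  -- `t₀ = tq a M ≡ tq (mod q^k)`
  have hq0 : (q : ℤ) ^ k ≠ 0 := pow_ne_zero k (by exact_mod_cast hq.ne_zero)
  obtain ⟨j, hj⟩ := exists_eval_ne_zero_on_progression D hD (tq * a * M) (M * (q : ℤ) ^ k)
    (mul_ne_zero hM hq0)
  refine ⟨tq * a * M + M * (q : ℤ) ^ k * j, ?_, ?_, hj⟩
  · exact ⟨tq * a + (q : ℤ) ^ k * j, by ring⟩
  · refine ⟨-(tq * b) + M * j, ?_⟩
    linear_combination tq * hab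

end Fermat.Agent.ES.U52.ChooseT15
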