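/-
Programme U (S52), chapter FAM: Klein's icosahedral forms ON THE CONE `X = v₁⁵`, `Y = v₂⁵`
(helper29; sign convention of helper24's `U52_FAM24.md` §0).

* `kc4 X Y = X⁴ + Y⁴ - 228 (X³Y - XY³) + 494 X²Y²`           (`= c₄` of the universal curve, degree 20 in `v`);
* `kc6 X Y = -(X⁶ + Y⁶) - 522 (X⁵Y - XY⁵) + 10005 (X⁴Y² + X²Y⁴)` (`= c₆`, degree 30 in `v`;
  `kc6 1 1 = 20008`, so that `(1, 1)` is the curve `11a1`);
* `kDelta X Y = X Y (Y² - 11 X Y - X²)⁵`                        (`= Δ = f⁵`, degree 60 in `v`,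
  `kDelta 1 1 = -11⁵`), with Klein's syzygy `kc4³ - kc6² = 1728 kDelta`;
* `kA`, `kB`: the direction of the Rubin–Silverberg line, `v ↦ (v₁ (1 - T A), v₂ (1 + T B))`, i.e. on
  the cone `(X, Y) ↦ (X (1 - T A)⁵, Y (1 + T B)⁵)`  (`v₁ A = ∂f/∂v₂`, `v₂ B = ∂f/∂v₁`).
-/
import Mathlib

set_option autoImplicit false

namespace Fermat.Agent.ES.U52.KleinForms29

variable {R : Type*} [CommRing R]

/-- Klein's degree-`20` form as `c₄`, in `X = v₁⁵`, `Y = v₂⁵`. -/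
def kc4 (X Y : R) : R := X ^ 4 + Y ^ 4 - 228 * (X ^ 3 * Y - X * Y ^ 3) + 494 * X ^ 2 * Y ^ 2

/-- Klein's degree-`30` form as `c₆`, in `X = v₁⁵`, `Y = v₂⁵`. -/
def kc6 (X Y : R) : R :=
  -(X ^ 6 + Y ^ 6) - 522 * (X ^ 5 * Y - X * Y ^ 5) + 10005 * (X ^ 4 * Y ^ 2 + X ^ 2 * Y ^ 4)

/-- The discriminant: the fifth power of Klein's degree-`12` form `f = v₁v₂(v₂¹⁰ - 11v₁⁵v₂⁵ - v₁¹⁰)`. -/
def kDelta (X Y : R) : R := X * Y * (Y ^ 2 - 11 * X * Y - X ^ 2) ^ 5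

/-- `v₁ · kA = ∂f/∂v₂`. -/
def kA (X Y : R) : R := X ^ 2 + 66 * X * Y - 11 * Y ^ 2

/-- `v₂ · kB = ∂f/∂v₁`. -/
def kB (X Y : R) : R := 11 * X ^ 2 + 66 * X * Y - Y ^ 2

/-- The first coordinate of the Rubin–Silverberg line on the cone. -/
def lineX (X Y T : R) : R := X * (1 - T * kA X Y) ^ 5

/-- The second coordinate of the Rubin–Silverberg line on the cone. -/
def lineY (X Y T : R) : R := Y * (1 + T * kB X Y) ^ 5

/-- Klein's syzygy. -/
theorem kc4_cube_sub_kc6_sq (X Y : R) : kc4 X Y ^ 3 - kc6 X Y ^ 2 = 1728 * kDelta X Y := by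
  simp only [kc4, kc6, kDelta]; ring

@[simp] theorem lineX_zero (X Y : R) : lineX X Y 0 = X := by simp [lineX]

@[simp] theorem lineY_zero (X Y : R) : lineY X Y 0 = Y := by simp [lineY]

theorem kc6_one_one : kc6 (1 : ℤ) 1 = 20008 := by norm_num [kc6]

theorem kc4_one_one : kc4 (1 : ℤ) 1 = 496 := by norm_num [kc4]

/-- Compatibility with ring homomorphisms. -/
theorem map_kc4 {S : Type*} [CommRing S] (φ : R →+* S) (X Y : R) :
    φ (kc4 X Y) = kc4 (φ X) (φ Y) := by simp [kc4, map_ofNat]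

theorem map_kc6 {S : Type*} [CommRing S] (φ : R →+* S) (X Y : R) :
    φ (kc6 X Y) = kc6 (φ X) (φ Y) := by simp [kc6, map_ofNat]

theorem map_kA {S : Type*} [CommRing S] (φ : R →+* S) (X Y : R) :
    φ (kA X Y) = kA (φ X) (φ Y) := by simp [kA, map_ofNat]

theorem map_kB {S : Type*} [CommRing S] (φ : R →+* S) (X Y : R) :
    φ (kB X Y) = kB (φ X) (φ Y) := by simp [kB, map_ofNat]

theorem map_lineX {S : Type*} [CommRing S] (φ : R →+* S) (X Y T : R) :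
    φ (lineX X Y T) = lineX (φ X) (φ Y) (φ T) := by simp [lineX, map_kA]

theorem map_lineY {S : Type*} [CommRing S] (φ : R →+* S) (X Y T : R) :
    φ (lineY X Y T) = lineY (φ X) (φ Y) (φ T) := by simp [lineY, map_kB]

end Fermat.Agent.ES.U52.KleinForms29
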