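/-
Programme U (S52), chapter FAM (helper24): **sections in Tate normal form**.

A "section datum" is a triple `(N, D, c)` of elements of a field with
`c₄ = c⁴·Φ₄(N, D)` and `c₆ = -c⁶·Φ₆(N, D)`, where `Φ₄, Φ₆` are the homogenised `c₄, -c₆` of Tate's
curve `𝓔_b : y² + (1-b)xy - by = x³ - bx²` (`b = N/D`).  Then on the short model
`E : y² = x³ - 27c₄x - 54c₆` the point `(3c²(N² - 6ND + D²), -108c³ND²)` is killed by `5`, and the
explicit change of variables `⟨6cD, x, 3c(D - N), y⟩` carries `E` to `𝓔_{N/D}` and the point to `(0,0)`.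

* `five_nsmul_P0` : `5 • (0,0) = 0` on `𝓔_{b,b}` (converse of `TateNF15.eq_of_five_nsmul_P0`);
* `secChange_smul` : `C • shortE c₄ c₆ = tateNF (N/D) (N/D)`;
* `sec_nonsingular`, `five_nsmul_sec`, `two_nsmul_sec_X`.
-/
import Mathlib
import Fermat.Agent.S05.Transport
import Fermat.Agent.ES.U52.TateNF15

set_option autoImplicit false

open WeierstrassCurve WeierstrassCurve.Affine

namespace Fermat.Agent.ES.U52.TateSection24

open Fermat.Agent.S05.Transport Fermat.Agent.ES.U52.TateNF15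

section Ring
variable {R : Type*} [CommRing R]

/-- Homogenised `c₄` of Tate's normal form `𝓔_b`, `b = N/D`. -/
def phi4 (N D : R) : R := N ^ 4 - 12 * N ^ 3 * D + 14 * N ^ 2 * D ^ 2 + 12 * N * D ^ 3 + D ^ 4

/-- Homogenised `-c₆` of Tate's normal form `𝓔_b`, `b = N/D`. -/
def phi6 (N D : R) : R :=
  N ^ 6 - 18 * N ^ 5 * D + 75 * N ^ 4 * D ^ 2 + 75 * N ^ 2 * D ^ 4 + 18 * N * D ^ 5 + D ^ 6

/-- The short Weierstrass model `y² = x³ - 27c₄x - 54c₆`. -/
def shortE (c4 c6 : R) : WeierstrassCurve R := ⟨0, 0, 0, -27 * c4, -54 * c6⟩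

/-- `x`-coordinate of the section attached to `(N, D, c)`. -/
def secX (N D c : R) : R := 3 * c ^ 2 * (N ^ 2 - 6 * N * D + D ^ 2)

/-- `y`-coordinate of the section attached to `(N, D, c)`. -/
def secY (N D c : R) : R := -108 * c ^ 3 * N * D ^ 2

/-- The `s`-parameter of the change of variables attached to `(N, D, c)`. -/
def secS (N D c : R) : R := 3 * c * (D - N)

theorem shortE_c₄ (c4 c6 : R) : (shortE c4 c6).c₄ = 1296 * c4 := by
  simp only [shortE, WeierstrassCurve.c₄, WeierstrassCurve.b₂, WeierstrassCurve.b₄]; ring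

theorem shortE_c₆ (c4 c6 : R) : (shortE c4 c6).c₆ = 46656 * c6 := by
  simp only [shortE, WeierstrassCurve.c₆, WeierstrassCurve.b₂, WeierstrassCurve.b₄,
    WeierstrassCurve.b₆]; ring

theorem shortE_Δ (c4 c6 : R) : (shortE c4 c6).Δ = 1259712 * (c4 ^ 3 - c6 ^ 2) := by
  simp only [shortE, WeierstrassCurve.Δ, WeierstrassCurve.b₂, WeierstrassCurve.b₄,
    WeierstrassCurve.b₆, WeierstrassCurve.b₈]; ring

theorem tateNF_c₆ (b : R) : (tateNF b b).c₆ = -phi6 b 1 := by
  simp only [tateNF, phi6, WeierstrassCurve.c₆, WeierstrassCurve.b₂, WeierstrassCurve.b₄,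
    WeierstrassCurve.b₆]; ring

theorem tateNF_c₄' (b : R) : (tateNF b b).c₄ = phi4 b 1 := by
  rw [tateNF_c₄]; simp only [phi4]; ring

/-- `Φ₄³ - Φ₆² = 1728·N⁵D⁵(N² - 11ND - D²)`. -/
theorem phi4_cube_sub_phi6_sq (N D : R) :
    phi4 N D ^ 3 - phi6 N D ^ 2 = 1728 * (N ^ 5 * D ^ 5 * (N ^ 2 - 11 * N * D - D ^ 2)) := by
  simp only [phi4, phi6]; ring

theorem map_shortE {S : Type*} [CommRing S] (φ : R →+* S) (c4 c6 : R) :
    (shortE c4 c6).map φ = shortE (φ c4) (φ c6) := by
  ext <;> simp [shortE, WeierstrassCurve.map, map_ofNat]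

end Ring

section Field
variable {F : Type*} [Field F] [DecidableEq F]

/-- On Tate's normal form `𝓔_{b,b}` the origin is killed by `5`. -/
theorem five_nsmul_P0 {b : F} (hb : b ≠ 0) : 5 • P0 b hb = 0 := by
  obtain ⟨h2, e2⟩ := two_nsmul_P0 b hb
  obtain ⟨h3, e3⟩ := three_nsmul_P0 b hb
  have h5 : (5 : ℕ) • P0 b hb = 3 • P0 b hb + 2 • P0 b hb := by rw [← add_nsmul]
  rw [h5, e2, e3]
  refine Point.add_of_Y_eq rfl ?_
  simp only [Affine.negY, tateNF]
  ring

omit [DecidableEq F] in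
theorem secU_ne_zero {D c : F} (h6 : (6 : F) ≠ 0) (hc : c ≠ 0) (hD : D ≠ 0) : 6 * c * D ≠ 0 :=
  mul_ne_zero (mul_ne_zero h6 hc) hD

/-- The change of variables attached to a section datum. -/
def secChange (N : F) {D c : F} (h6 : (6 : F) ≠ 0) (hc : c ≠ 0) (hD : D ≠ 0) : VariableChange F :=
  ⟨Units.mk0 (6 * c * D) (secU_ne_zero h6 hc hD), secX N D c, secS N D c, secY N D c⟩

omit [DecidableEq F] in
/-- **The section in Tate normal form.** -/
theorem secChange_smul {c4 c6 N D c : F} (h6 : (6 : F) ≠ 0) (hc : c ≠ 0) (hD : D ≠ 0)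
    (h4 : c4 = c ^ 4 * phi4 N D) (h6' : c6 = -(c ^ 6 * phi6 N D)) :
    secChange N h6 hc hD • shortE c4 c6 = tateNF (N / D) (N / D) := by
  have h2 : (2 : F) ≠ 0 := fun h => h6 (by rw [show (6 : F) = 2 * 3 by norm_num, h, zero_mul])
  have h3 : (3 : F) ≠ 0 := fun h => h6 (by rw [show (6 : F) = 2 * 3 by norm_num, h, mul_zero])
  subst h4 h6'
  ext
  · simp only [variableChange_a₁, secChange, shortE, tateNF, Units.val_inv_eq_inv_val,
      Units.val_mk0, secS]
    field_simp
    ring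
  · simp only [variableChange_a₂, secChange, shortE, tateNF, Units.val_inv_eq_inv_val,
      Units.val_mk0, secS, secX]
    field_simp
    ring
  · simp only [variableChange_a₃, secChange, shortE, tateNF, Units.val_inv_eq_inv_val,
      Units.val_mk0, secY, secX]
    field_simp
    ring
  · simp only [variableChange_a₄, secChange, shortE, tateNF, Units.val_inv_eq_inv_val,
      Units.val_mk0, secY, secX, secS, phi4]
    field_simp
    ring
  · simp only [variableChange_a₆, secChange, shortE, tateNF, Units.val_inv_eq_inv_val,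
      Units.val_mk0, secY, secX, secS, phi4, phi6]
    field_simp
    ring


omit [DecidableEq F] in
/-- The point `(0, 0)` of `𝓔_{N/D}` corresponds to `(secX, secY)` on the short model. -/
theorem sec_nonsingular {c4 c6 N D c : F} (h6 : (6 : F) ≠ 0) (hc : c ≠ 0) (hD : D ≠ 0)
    (hN : N ≠ 0) (h4 : c4 = c ^ 4 * phi4 N D) (h6' : c6 = -(c ^ 6 * phi6 N D)) :
    (shortE c4 c6).toAffine.Nonsingular (secX N D c) (secY N D c) := by
  have hT := (secChange_smul (N := N) h6 hc hD h4 h6').symm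
  have hb : N / D ≠ 0 := div_ne_zero hN hD
  have := (nonsingular_iff_vc hT 0 0).mpr (nonsingular_zero (N / D) hb)
  simpa [vcX, vcY, secChange] using this

/-- **The section is killed by `5`.** -/
theorem five_nsmul_sec {c4 c6 N D c : F} (h6 : (6 : F) ≠ 0) (hc : c ≠ 0) (hD : D ≠ 0)
    (hN : N ≠ 0) (h4 : c4 = c ^ 4 * phi4 N D) (h6' : c6 = -(c ^ 6 * phi6 N D))
    (h : (shortE c4 c6).toAffine.Nonsingular (secX N D c) (secY N D c)) :
    5 • (Point.some (secX N D c) (secY N D c) h : (shortE c4 c6).toAffine.Point) = 0 := by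
  have hT := (secChange_smul (N := N) h6 hc hD h4 h6').symm
  have hb : N / D ≠ 0 := div_ne_zero hN hD
  have h5 := five_nsmul_P0 hb
  have hmap := congrArg (pointEquiv hT) h5
  rw [map_nsmul, map_zero, P0, Fermat.Agent.S05.Transport.pointEquiv_some] at hmap
  have hx : vcX (secChange N h6 hc hD) 0 = secX N D c := by simp [vcX, secChange]
  have hy : vcY (secChange N h6 hc hD) 0 0 = secY N D c := by simp [vcY, secChange]
  have hpt : (Point.some (vcX (secChange N h6 hc hD) 0) (vcY (secChange N h6 hc hD) 0 0)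
      ((nonsingular_iff_vc hT 0 0).mpr (nonsingular_zero (N / D) hb)) :
        (shortE c4 c6).toAffine.Point) = Point.some (secX N D c) (secY N D c) h := by
    simp only [Point.some.injEq]
    exact ⟨hx, hy⟩
  rw [hpt] at hmap
  exact hmap

end Field

end Fermat.Agent.ES.U52.TateSection24
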