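/-
Programme U (S52), chapter FAM (helper24): **the `μ₅`-type section `P` on Klein's cone**.

Constants `r, e` of a field of characteristic `0` with `r² = 5`, `2e² = -(5 + r)` (in `ℚ(ζ₅)`:
`r = 1 + 2(ζ + ζ⁴)`, `e = ζ - ζ⁴`); `g = φ⁵ = (11 + 5r)/2`, `N_P = gX - Y`, `D_P = X + gY`,
`c_P = (5 - 2r)e/5` (so `c_P² = (11r - 25)/10`).  Then
`kc4 X Y = c_P⁴·Φ₄(N_P, D_P)`, `kc6 X Y = -c_P⁶·Φ₆(N_P, D_P)`,
`N_P·D_P = g·(X² + 11XY - Y²)`, `N_P² - 11N_PD_P - D_P² = -125·g·XY`.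
Cofactors against `r² = 5` were produced by exact polynomial division (python, no CAS).
-/
import Mathlib
import Fermat.Agent.ES.U52.KleinForms29
import Fermat.Agent.ES.U52.TateSection24

set_option autoImplicit false

namespace Fermat.Agent.ES.U52.KleinP24

open Fermat.Agent.ES.U52.KleinForms29 Fermat.Agent.ES.U52.TateSection24

variable {F : Type*} [Field F] [CharZero F]

/-- `g = φ⁵ = (11 + 5√5)/2`. -/
def gP (r : F) : F := (11 + 5 * r) / 2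

/-- Numerator form of Tate's parameter of the section `P`: `N_P = gX - Y`. -/
def nP (r X Y : F) : F := gP r * X - Y

/-- Denominator form of Tate's parameter of the section `P`: `D_P = X + gY`. -/
def dP (r X Y : F) : F := X + gP r * Y

/-- The scalar `c_P = (5 - 2r)e/5`. -/
def cP (r e : F) : F := (5 - 2 * r) * e / 5

theorem cP_sq {r e : F} (hr : r ^ 2 = 5) (he : 2 * e ^ 2 = -(5 + r)) :
    cP r e ^ 2 = (11 * r - 25) / 10 := by
  simp only [cP]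
  linear_combination ((5 - 2 * r) ^ 2 / 50) * he + (-(2 * r) / 25) * hr

theorem gP_ne_zero {r : F} (hr : r ^ 2 = 5) : gP r ≠ 0 := by
  intro h
  have h1 : 11 + 5 * r = 0 := by
    simp only [gP] at h
    linear_combination 2 * h
  have h2 : (4 : F) = 0 := by linear_combination (5 * r - 11) * h1 - 25 * hr
  norm_num at h2

theorem cP_ne_zero {r e : F} (hr : r ^ 2 = 5) (he : 2 * e ^ 2 = -(5 + r)) : cP r e ≠ 0 := by
  intro h
  have h2 := cP_sq hr he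
  rw [h, zero_pow two_ne_zero] at h2
  have h1 : 11 * r - 25 = 0 := by linear_combination (-10 : F) * h2
  have h3 : (20 : F) = 0 := by linear_combination -(11 * r + 25) * h1 + 121 * hr
  norm_num at h3

theorem kc4_eq_P {r : F} (hr : r ^ 2 = 5) (X Y : F) :
    kc4 X Y = ((11 * r - 25) / 10) ^ 2 * phi4 (nP r X Y) (dP r X Y) := by
  simp only [kc4, phi4, nP, dP, gP]
  linear_combination
    ((-236439/320)*Y^4 + (491727/80)*X^1*Y^3 + (4599567/160)*X^2*Y^2 + (-491727/80)*X^3*Y^1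
      + (-236439/320)*X^4 + (-4949/32)*r^1*Y^4 + (82407/8)*r^1*X^1*Y^3 + (358597/16)*r^1*X^2*Y^2
      + (-82407/8)*r^1*X^3*Y^1 + (-4949/32)*r^1*X^4 + (6365/16)*r^2*Y^4 + (3855/2)*r^2*X^1*Y^3
      + (-15505/8)*r^2*X^2*Y^2 + (-3855/2)*r^2*X^3*Y^1 + (6365/16)*r^2*X^4 + (825/32)*r^3*Y^4
      + (-15675/8)*r^3*X^1*Y^3 + (-66825/16)*r^3*X^2*Y^2 + (15675/8)*r^3*X^3*Y^1 + (825/32)*r^3*X^4
      + (-3025/64)*r^4*Y^4 + (-9075/16)*r^4*X^1*Y^3 + (-21175/32)*r^4*X^2*Y^2 + (9075/16)*r^4*X^3*Y^1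
      + (-3025/64)*r^4*X^4) * hr

theorem kc6_eq_P {r : F} (hr : r ^ 2 = 5) (X Y : F) :
    kc6 X Y = -(((11 * r - 25) / 10) ^ 3 * phi6 (nP r X Y) (dP r X Y)) := by
  simp only [kc6, phi6, nP, dP, gP]
  linear_combination
    ((64703637/2560)*Y^6 + (-1243118007/1280)*X^1*Y^5 + (3840522363/512)*X^2*Y^4
      + (3840522363/512)*X^4*Y^2 + (1243118007/1280)*X^5*Y^1 + (64703637/2560)*X^6
      + (-22693875/512)*r^1*Y^6 + (-23929875/256)*r^1*X^1*Y^5 + (5269719375/512)*r^1*X^2*Y^4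
      + (5269719375/512)*r^1*X^4*Y^2 + (23929875/256)*r^1*X^5*Y^1 + (-22693875/512)*r^1*X^6
      + (-195709863/12800)*r^2*Y^6 + (5648555493/6400)*r^2*X^1*Y^5 + (4475935863/2560)*r^2*X^2*Y^4
      + (4475935863/2560)*r^2*X^4*Y^2 + (-5648555493/6400)*r^2*X^5*Y^1 + (-195709863/12800)*r^2*X^6
      + (12861421/512)*r^3*Y^6 + (50332869/256)*r^3*X^1*Y^5 + (-1662057105/512)*r^3*X^2*Y^4
      + (-1662057105/512)*r^3*X^4*Y^2 + (-50332869/256)*r^3*X^5*Y^1 + (12861421/512)*r^3*X^6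
      + (1731435/512)*r^4*Y^6 + (-58962105/256)*r^4*X^1*Y^5 + (-758988135/512)*r^4*X^2*Y^4
      + (-758988135/512)*r^4*X^4*Y^2 + (58962105/256)*r^4*X^5*Y^1 + (1731435/512)*r^4*X^6
      + (-2497825/512)*r^5*Y^6 + (-16599825/256)*r^5*X^1*Y^5 + (60083925/512)*r^5*X^2*Y^4
      + (60083925/512)*r^5*X^4*Y^2 + (16599825/256)*r^5*X^5*Y^1 + (-2497825/512)*r^5*X^6
      + (-136125/512)*r^6*Y^6 + (4764375/256)*r^6*X^1*Y^5 + (85622625/512)*r^6*X^2*Y^4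
      + (85622625/512)*r^6*X^4*Y^2 + (-4764375/256)*r^6*X^5*Y^1 + (-136125/512)*r^6*X^6
      + (166375/512)*r^7*Y^6 + (1497375/256)*r^7*X^1*Y^5 + (12478125/512)*r^7*X^2*Y^4
      + (12478125/512)*r^7*X^4*Y^2 + (-1497375/256)*r^7*X^5*Y^1 + (166375/512)*r^7*X^6) * hr

theorem kc4_eq_P' {r e : F} (hr : r ^ 2 = 5) (he : 2 * e ^ 2 = -(5 + r)) (X Y : F) :
    kc4 X Y = cP r e ^ 4 * phi4 (nP r X Y) (dP r X Y) := by
  rw [show cP r e ^ 4 = (cP r e ^ 2) ^ 2 by ring, cP_sq hr he]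
  exact kc4_eq_P hr X Y

theorem kc6_eq_P' {r e : F} (hr : r ^ 2 = 5) (he : 2 * e ^ 2 = -(5 + r)) (X Y : F) :
    kc6 X Y = -(cP r e ^ 6 * phi6 (nP r X Y) (dP r X Y)) := by
  rw [show cP r e ^ 6 = (cP r e ^ 2) ^ 3 by ring, cP_sq hr he]
  exact kc6_eq_P hr X Y

theorem nP_mul_dP {r : F} (hr : r ^ 2 = 5) (X Y : F) :
    nP r X Y * dP r X Y = gP r * (X ^ 2 + 11 * X * Y - Y ^ 2) := by
  simp only [nP, dP, gP]
  linear_combination (25 / 4 * X * Y) * hr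

theorem nP_disc {r : F} (hr : r ^ 2 = 5) (X Y : F) :
    nP r X Y ^ 2 - 11 * (nP r X Y * dP r X Y) - dP r X Y ^ 2 = -(125 * gP r * (X * Y)) := by
  simp only [nP, dP, gP]
  linear_combination (25 / 4 * X ^ 2 - 275 / 4 * X * Y - 25 / 4 * Y ^ 2) * hr

/-- The linear system `(N_P, D_P) = (n, d)` is uniquely solvable. -/
theorem exists_XY {r : F} (hr : r ^ 2 = 5) (n d : F) :
    ∃ X Y : F, nP r X Y = n ∧ dP r X Y = d := by
  have hg : 1 + gP r ^ 2 ≠ 0 := by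
    intro h
    simp only [gP] at h
    have h1 : 125 + 55 * r = 0 := by linear_combination 2 * h - 25 / 2 * hr
    have h2 : (500 : F) = 0 := by linear_combination -(55 * r - 125) * h1 + 3025 * hr
    norm_num at h2
  refine ⟨(d + gP r * n) / (1 + gP r ^ 2), (gP r * d - n) / (1 + gP r ^ 2), ?_, ?_⟩
  · simp only [nP]; field_simp; ring
  · simp only [dP]; field_simp; ring

end Fermat.Agent.ES.U52.KleinP24
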