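/-
Programme U (S52), chapter FAM (helper24): **the section through a point of order `5`**.

`F` a field of characteristic `0` with `r² = 5`, `2e² = -(5 + r)`; `(X₀, Y₀) ∈ F²`,
`A₀ = kA X₀ Y₀`, `B₀ = kB X₀ Y₀`.  The line on Klein's cone through `(X₀, Y₀)` in the direction
`w = (-v₁A₀, v₂B₀)` reads, in the coordinates `X = v₁⁵`, `Y = v₂⁵`,
`X_T = X₀(1 - TA₀)⁵`, `Y_T = Y₀(1 + TB₀)⁵ ∈ F[T]`.  With `N_T = g·X_T - Y_T`, `D_T = X_T + g·Y_T`
the point `S_T = (secX N_T D_T c_P, secY N_T D_T c_P)` has POLYNOMIAL coordinates and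

* `fibre_tate` : at every `t` with `D_T(t) ≠ 0` it is carried to `(0,0)` on `𝓔_b`, `b = N_T(t)/D_T(t)`,
  by the explicit change of variables with `u = 6c_P·D_T(t)`;
* `section_five` : over any field `K ⊇ F[T]` it is a point of `y² = x³ - 27·C4·x - 54·C6` killed by `5`,
  where `C4 = kc4 X_T Y_T`, `C6 = kc6 X_T Y_T` (abstract here: the Rubin–Silverberg identity
  identifies them with integer polynomials in `c₄(X₀,Y₀)`, `c₆(X₀,Y₀)`).
-/
import Mathlib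
import Fermat.Agent.ES.U52.KleinP24

set_option autoImplicit false

open WeierstrassCurve WeierstrassCurve.Affine Polynomial

namespace Fermat.Agent.ES.U52.SectionP24

open Fermat.Agent.ES.U52.TateNF15 Fermat.Agent.ES.U52.KleinForms29
  Fermat.Agent.ES.U52.TateSection24 Fermat.Agent.ES.U52.KleinP24

section Maps
variable {A B : Type*} [CommRing A] [CommRing B] (φ : A →+* B)

theorem map_secX (N D c : A) : φ (secX N D c) = secX (φ N) (φ D) (φ c) := by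
  simp [secX, map_ofNat]

theorem map_secY (N D c : A) : φ (secY N D c) = secY (φ N) (φ D) (φ c) := by
  simp [secY, map_ofNat]

end Maps

section FieldMaps
variable {F K : Type*} [Field F] [Field K] [CharZero F] [CharZero K] (j : F →+* K)

theorem map_gP (r : F) : j (gP r) = gP (j r) := by
  simp [gP, map_ofNat]

theorem map_cP (r e : F) : j (cP r e) = cP (j r) (j e) := by
  simp [cP, map_ofNat]

end FieldMaps

variable {F : Type*} [Field F]

/-- `U = 1 - T·A₀`. -/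
noncomputable def polyU (X₀ Y₀ : F) : F[X] := 1 - X * C (kA X₀ Y₀)

/-- `V = 1 + T·B₀`. -/
noncomputable def polyV (X₀ Y₀ : F) : F[X] := 1 + X * C (kB X₀ Y₀)

/-- `X_T = X₀(1 - TA₀)⁵`. -/
noncomputable def polyXT (X₀ Y₀ : F) : F[X] := C X₀ * polyU X₀ Y₀ ^ 5

/-- `Y_T = Y₀(1 + TB₀)⁵`. -/
noncomputable def polyYT (X₀ Y₀ : F) : F[X] := C Y₀ * polyV X₀ Y₀ ^ 5

/-- `N_T = g·X_T - Y_T`. -/
noncomputable def polyN (r X₀ Y₀ : F) : F[X] := C (gP r) * polyXT X₀ Y₀ - polyYT X₀ Y₀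

/-- `D_T = X_T + g·Y_T`. -/
noncomputable def polyD (r X₀ Y₀ : F) : F[X] := polyXT X₀ Y₀ + C (gP r) * polyYT X₀ Y₀

/-- `x`-coordinate of the section. -/
noncomputable def polySX (r e X₀ Y₀ : F) : F[X] :=
  secX (polyN r X₀ Y₀) (polyD r X₀ Y₀) (C (cP r e))

/-- `y`-coordinate of the section. -/
noncomputable def polySY (r e X₀ Y₀ : F) : F[X] :=
  secY (polyN r X₀ Y₀) (polyD r X₀ Y₀) (C (cP r e))

theorem polyXT_eq_lineX (X₀ Y₀ : F) : polyXT X₀ Y₀ = lineX (C X₀) (C Y₀) X := by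
  simp only [polyXT, polyU, lineX, ← map_kA]

theorem polyYT_eq_lineY (X₀ Y₀ : F) : polyYT X₀ Y₀ = lineY (C X₀) (C Y₀) X := by
  simp only [polyYT, polyV, lineY, ← map_kB]

theorem eval_polyXT (X₀ Y₀ t : F) :
    (polyXT X₀ Y₀).eval t = X₀ * (1 - t * kA X₀ Y₀) ^ 5 := by
  simp only [polyXT, polyU, eval_mul, eval_pow, eval_sub, eval_one, eval_X, eval_C]

theorem eval_polyYT (X₀ Y₀ t : F) :
    (polyYT X₀ Y₀).eval t = Y₀ * (1 + t * kB X₀ Y₀) ^ 5 := by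
  simp only [polyYT, polyV, eval_mul, eval_pow, eval_add, eval_one, eval_X, eval_C]

theorem eval_polyN (r X₀ Y₀ t : F) :
    (polyN r X₀ Y₀).eval t = nP r ((polyXT X₀ Y₀).eval t) ((polyYT X₀ Y₀).eval t) := by
  simp [polyN, nP]

theorem eval_polyD (r X₀ Y₀ t : F) :
    (polyD r X₀ Y₀).eval t = dP r ((polyXT X₀ Y₀).eval t) ((polyYT X₀ Y₀).eval t) := by
  simp [polyD, dP]

theorem eval_polySX (r e X₀ Y₀ t : F) :
    (polySX r e X₀ Y₀).eval t =
      secX ((polyN r X₀ Y₀).eval t) ((polyD r X₀ Y₀).eval t) (cP r e) := by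
  have := map_secX (evalRingHom t) (polyN r X₀ Y₀) (polyD r X₀ Y₀) (C (cP r e))
  simpa [polySX] using this

theorem eval_polySY (r e X₀ Y₀ t : F) :
    (polySY r e X₀ Y₀).eval t =
      secY ((polyN r X₀ Y₀).eval t) ((polyD r X₀ Y₀).eval t) (cP r e) := by
  have := map_secY (evalRingHom t) (polyN r X₀ Y₀) (polyD r X₀ Y₀) (C (cP r e))
  simpa [polySY] using this

theorem eval_zero_polyXT (X₀ Y₀ : F) : (polyXT X₀ Y₀).eval 0 = X₀ := by
  rw [eval_polyXT]; ring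

theorem eval_zero_polyYT (X₀ Y₀ : F) : (polyYT X₀ Y₀).eval 0 = Y₀ := by
  rw [eval_polyYT]; ring

theorem eval_zero_polyN (r X₀ Y₀ : F) : (polyN r X₀ Y₀).eval 0 = nP r X₀ Y₀ := by
  rw [eval_polyN, eval_zero_polyXT, eval_zero_polyYT]

theorem eval_zero_polyD (r X₀ Y₀ : F) : (polyD r X₀ Y₀).eval 0 = dP r X₀ Y₀ := by
  rw [eval_polyD, eval_zero_polyXT, eval_zero_polyYT]

/-- The section passes through the point `P(X₀, Y₀)` at `T = 0`. -/
theorem eval_zero_polySX (r e X₀ Y₀ : F) :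
    (polySX r e X₀ Y₀).eval 0 = secX (nP r X₀ Y₀) (dP r X₀ Y₀) (cP r e) := by
  rw [eval_polySX, eval_zero_polyN, eval_zero_polyD]

theorem eval_zero_polySY (r e X₀ Y₀ : F) :
    (polySY r e X₀ Y₀).eval 0 = secY (nP r X₀ Y₀) (dP r X₀ Y₀) (cP r e) := by
  rw [eval_polySY, eval_zero_polyN, eval_zero_polyD]

theorem polyD_ne_zero {r X₀ Y₀ : F} (h : dP r X₀ Y₀ ≠ 0) : polyD r X₀ Y₀ ≠ 0 := by
  intro h0
  apply h
  rw [← eval_zero_polyD, h0, eval_zero]

theorem polyN_ne_zero {r X₀ Y₀ : F} (h : nP r X₀ Y₀ ≠ 0) : polyN r X₀ Y₀ ≠ 0 := by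
  intro h0
  apply h
  rw [← eval_zero_polyN, h0, eval_zero]

variable [CharZero F]

/-- **Tate normal form of the fibre at `t`**: the explicit change of variables. -/
theorem fibre_tate {r e : F} (hr : r ^ 2 = 5) (he : 2 * e ^ 2 = -(5 + r)) (X₀ Y₀ : F)
    {C4p C6p : F[X]} (h4 : kc4 (polyXT X₀ Y₀) (polyYT X₀ Y₀) = C4p)
    (h6 : kc6 (polyXT X₀ Y₀) (polyYT X₀ Y₀) = C6p) (t : F)
    (hD : (polyD r X₀ Y₀).eval t ≠ 0) :
    ∃ C : VariableChange F,
      C • shortE (C4p.eval t) (C6p.eval t) =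
          tateNF ((polyN r X₀ Y₀).eval t / (polyD r X₀ Y₀).eval t)
            ((polyN r X₀ Y₀).eval t / (polyD r X₀ Y₀).eval t) ∧
        C.r = (polySX r e X₀ Y₀).eval t ∧ C.t = (polySY r e X₀ Y₀).eval t ∧
        (C.u : F) = 6 * cP r e * (polyD r X₀ Y₀).eval t := by
  have h6ne : (6 : F) ≠ 0 := by norm_num
  have hc := cP_ne_zero hr he
  have e4 : C4p.eval t = cP r e ^ 4 * phi4 ((polyN r X₀ Y₀).eval t) ((polyD r X₀ Y₀).eval t) := by
    rw [← h4, ← coe_evalRingHom, map_kc4, coe_evalRingHom, kc4_eq_P' hr he, eval_polyN, eval_polyD]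
  have e6 : C6p.eval t =
      -(cP r e ^ 6 * phi6 ((polyN r X₀ Y₀).eval t) ((polyD r X₀ Y₀).eval t)) := by
    rw [← h6, ← coe_evalRingHom, map_kc6, coe_evalRingHom, kc6_eq_P' hr he, eval_polyN, eval_polyD]
  refine ⟨secChange ((polyN r X₀ Y₀).eval t) h6ne hc hD, secChange_smul h6ne hc hD e4 e6, ?_, ?_, ?_⟩
  · rw [eval_polySX]; rfl
  · rw [eval_polySY]; rfl
  · rfl

section Generic
variable {K : Type*} [Field K] [CharZero K] [DecidableEq K] [Algebra F[X] K]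

/-- **The section over a field containing `F[T]`**: a point of the generic fibre killed by `5`,
with polynomial coordinates. -/
theorem section_five (hinj : Function.Injective (algebraMap F[X] K))
    {r e : F} (hr : r ^ 2 = 5) (he : 2 * e ^ 2 = -(5 + r)) {X₀ Y₀ : F}
    (hd : dP r X₀ Y₀ ≠ 0) (hn : nP r X₀ Y₀ ≠ 0)
    {C4p C6p : F[X]} (h4 : kc4 (polyXT X₀ Y₀) (polyYT X₀ Y₀) = C4p)
    (h6 : kc6 (polyXT X₀ Y₀) (polyYT X₀ Y₀) = C6p) :
    ∃ h : (shortE (algebraMap F[X] K C4p) (algebraMap F[X] K C6p)).toAffine.Nonsingular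
        (algebraMap F[X] K (polySX r e X₀ Y₀)) (algebraMap F[X] K (polySY r e X₀ Y₀)),
      5 • (Point.some _ _ h :
        (shortE (algebraMap F[X] K C4p) (algebraMap F[X] K C6p)).toAffine.Point) = 0 := by
  set ι := algebraMap F[X] K with hι
  set j : F →+* K := ι.comp C with hj
  have h6ne : (6 : K) ≠ 0 := by norm_num
  have hrK : (j r) ^ 2 = 5 := by rw [← map_pow, hr, map_ofNat]
  have heK : 2 * (j e) ^ 2 = -(5 + j r) := by
    have := congrArg j he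
    simpa [map_ofNat] using this
  have hc := cP_ne_zero hrK heK
  have hN : ι (polyN r X₀ Y₀) = nP (j r) (ι (polyXT X₀ Y₀)) (ι (polyYT X₀ Y₀)) := by
    simp only [polyN, nP, map_sub, map_mul, ← map_gP]
    rfl
  have hD : ι (polyD r X₀ Y₀) = dP (j r) (ι (polyXT X₀ Y₀)) (ι (polyYT X₀ Y₀)) := by
    simp only [polyD, dP, map_add, map_mul, ← map_gP]
    rfl
  have hcK : ι (C (cP r e)) = cP (j r) (j e) := by
    rw [← map_cP]; rfl
  have hD0 : ι (polyD r X₀ Y₀) ≠ 0 := fun h0 =>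
    polyD_ne_zero hd (hinj (by rw [h0, map_zero]))
  have hN0 : ι (polyN r X₀ Y₀) ≠ 0 := fun h0 =>
    polyN_ne_zero hn (hinj (by rw [h0, map_zero]))
  have e4 : ι C4p = cP (j r) (j e) ^ 4 * phi4 (ι (polyN r X₀ Y₀)) (ι (polyD r X₀ Y₀)) := by
    rw [← h4, map_kc4, kc4_eq_P' hrK heK, hN, hD]
  have e6 : ι C6p = -(cP (j r) (j e) ^ 6 * phi6 (ι (polyN r X₀ Y₀)) (ι (polyD r X₀ Y₀))) := by
    rw [← h6, map_kc6, kc6_eq_P' hrK heK, hN, hD]
  have hx : ι (polySX r e X₀ Y₀) = secX (ι (polyN r X₀ Y₀)) (ι (polyD r X₀ Y₀)) (cP (j r) (j e)) := by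
    rw [polySX, map_secX, hcK]
  have hy : ι (polySY r e X₀ Y₀) = secY (ι (polyN r X₀ Y₀)) (ι (polyD r X₀ Y₀)) (cP (j r) (j e)) := by
    rw [polySY, map_secY, hcK]
  rw [hx, hy]
  have hns := sec_nonsingular h6ne hc hD0 hN0 e4 e6
  exact ⟨hns, five_nsmul_sec h6ne hc hD0 hN0 e4 e6 hns⟩

end Generic

end Fermat.Agent.ES.U52.SectionP24
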