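/-
Programme U (S52), chapter FAM (helper24): **clause (C-b): five simple roots**.

For `G = α(1 - TA)⁵ - γ(1 + TB)⁵ ∈ F[T]` with `αγ(A + B) ≠ 0` (characteristic `0`):
`G` is separable (`B·U + A·V = A + B` is a unit, `U·G' = -5A·G - 5γ(A+B)V⁴`,
`V·G' = 5B·G - 5α(A+B)U⁴`), of degree `5` iff `αA⁵ + γB⁵ ≠ 0`.  Applied to
`N_T = gX₀U⁵ - Y₀V⁵` and `D_T = X₀U⁵ + gY₀V⁵`: no common root, and one of them has exactly five
simple roots (over an algebraically closed field).
-/
import Mathlib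
import Fermat.Agent.ES.U52.SectionP24

set_option autoImplicit false

open Polynomial

namespace Fermat.Agent.ES.U52.ClauseCb24

open Fermat.Agent.ES.U52.KleinForms29 Fermat.Agent.ES.U52.KleinP24 Fermat.Agent.ES.U52.SectionP24

variable {F : Type*} [Field F]

/-- `G = α(1 - TA)⁵ - γ(1 + TB)⁵`. -/
noncomputable def quinticG (α γ A B : F) : F[X] :=
  C α * (1 - X * C A) ^ 5 - C γ * (1 + X * C B) ^ 5

theorem bezout_UV (A B : F) :
    C B * (1 - X * C A) + C A * (1 + X * C B) = C (A + B) := by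
  rw [map_add]; ring

theorem derivative_quinticG (α γ A B : F) :
    derivative (quinticG α γ A B) =
      -(5 * C α * C A * (1 - X * C A) ^ 4) - 5 * C γ * C B * (1 + X * C B) ^ 4 := by
  simp only [quinticG, derivative_sub, derivative_mul, derivative_C, derivative_pow,
    derivative_one, derivative_X, derivative_add, zero_mul, zero_add, mul_zero, add_zero, zero_sub,
    one_mul, Nat.cast_ofNat, map_ofNat]
  ring

theorem U_mul_derivative (α γ A B : F) :
    (1 - X * C A) * derivative (quinticG α γ A B) =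
      -(5 * C A * quinticG α γ A B) - 5 * C γ * C (A + B) * (1 + X * C B) ^ 4 := by
  rw [derivative_quinticG, map_add]
  simp only [quinticG]
  ring

theorem V_mul_derivative (α γ A B : F) :
    (1 + X * C B) * derivative (quinticG α γ A B) =
      5 * C B * quinticG α γ A B - 5 * C α * C (A + B) * (1 - X * C A) ^ 4 := by
  rw [derivative_quinticG, map_add]
  simp only [quinticG]
  ring

/-- `G` is separable. -/
theorem separable_quinticG [CharZero F] {α γ A B : F} (hα : α ≠ 0) (hγ : γ ≠ 0)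
    (hs : A + B ≠ 0) : (quinticG α γ A B).Separable := by
  have h5 : (5 : F) ≠ 0 := by norm_num
  set U : F[X] := 1 - X * C A with hU
  set V : F[X] := 1 + X * C B with hV
  set G := quinticG α γ A B with hG
  have hUV : IsCoprime U V := by
    refine ⟨C (B / (A + B)), C (A / (A + B)), ?_⟩
    have h := bezout_UV A B
    have h1 : C (B / (A + B)) * U + C (A / (A + B)) * V
        = C ((A + B)⁻¹) * (C B * U + C A * V) := by
      rw [div_eq_mul_inv, div_eq_mul_inv, map_mul, map_mul]; ring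
    rw [h1, h, ← map_mul, inv_mul_cancel₀ hs, map_one]
  obtain ⟨p, q, hpq⟩ := (hUV.pow : IsCoprime (U ^ 4) (V ^ 4))
  have h1 := U_mul_derivative α γ A B
  have h2 := V_mul_derivative α γ A B
  rw [← hU, ← hV, ← hG] at h1 h2
  set k₁ : F[X] := C ((5 * α * (A + B))⁻¹) with hk₁
  set k₂ : F[X] := C ((5 * γ * (A + B))⁻¹) with hk₂
  have e₁ : k₁ * (5 * C α * C (A + B)) = 1 := by
    rw [hk₁, show (5 : F[X]) = C 5 from (map_ofNat C 5).symm, ← map_mul, ← map_mul, ← map_mul,
      inv_mul_cancel₀ (mul_ne_zero (mul_ne_zero h5 hα) hs), map_one]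
  have e₂ : k₂ * (5 * C γ * C (A + B)) = 1 := by
    rw [hk₂, show (5 : F[X]) = C 5 from (map_ofNat C 5).symm, ← map_mul, ← map_mul, ← map_mul,
      inv_mul_cancel₀ (mul_ne_zero (mul_ne_zero h5 hγ) hs), map_one]
  have hU4 : U ^ 4 = k₁ * (5 * C B * G - V * derivative G) := by
    linear_combination (-(U ^ 4)) * e₁ + k₁ * h2
  have hV4 : V ^ 4 = -(k₂ * (5 * C A * G + U * derivative G)) := by
    linear_combination (-(V ^ 4)) * e₂ + k₂ * h1
  refine ⟨p * k₁ * (5 * C B) - q * k₂ * (5 * C A), -(p * k₁ * V) - q * k₂ * U, ?_⟩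
  rw [← hpq, hU4, hV4]
  ring

theorem quinticG_expand (α γ A B : F) :
    quinticG α γ A B =
      C (α - γ) + C (-(5 * α * A) - 5 * γ * B) * X + C (10 * α * A ^ 2 - 10 * γ * B ^ 2) * X ^ 2
        + C (-(10 * α * A ^ 3) - 10 * γ * B ^ 3) * X ^ 3 + C (5 * α * A ^ 4 - 5 * γ * B ^ 4) * X ^ 4
        + C (-(α * A ^ 5) - γ * B ^ 5) * X ^ 5 := by
  simp only [quinticG, map_sub, map_neg, map_mul, map_pow, map_ofNat]
  ring

theorem natDegree_quinticG {α γ A B : F} (h : α * A ^ 5 + γ * B ^ 5 ≠ 0) :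
    (quinticG α γ A B).natDegree = 5 := by
  rw [quinticG_expand]
  have hc : -(α * A ^ 5) - γ * B ^ 5 ≠ 0 := by
    intro h0
    apply h
    linear_combination (-1 : F) * h0
  compute_degree!

theorem eval_quinticG (α γ A B z : F) :
    (quinticG α γ A B).eval z = α * (1 - z * A) ^ 5 - γ * (1 + z * B) ^ 5 := by
  simp only [quinticG, eval_sub, eval_mul, eval_C, eval_pow, eval_one, eval_X, eval_add]

/-- A separable polynomial of degree `5` over an algebraically closed field has exactly five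
roots, all simple. -/
theorem exists_five_roots [IsAlgClosed F] {N : F[X]} (hdeg : N.natDegree = 5)
    (hsep : N.Separable) :
    ∃ (c : F) (β : Fin 5 → F), c ≠ 0 ∧ Function.Injective β ∧
      N = C c * ∏ i : Fin 5, (X - C (β i)) := by
  classical
  have hN0 : N ≠ 0 := by
    rintro rfl
    simp at hdeg
  have hsplit : N.Splits := IsAlgClosed.splits N
  have hcard : Multiset.card N.roots = 5 := by
    rw [← hdeg]; exact hsplit.natDegree_eq_card_roots.symm
  have hnd : N.roots.Nodup := nodup_roots hsep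
  have hprod := hsplit.eq_prod_roots
  set l := N.roots.toList with hl
  have hlen : l.length = 5 := by rw [hl, Multiset.length_toList, hcard]
  have hlnd : l.Nodup := by
    rw [hl]; exact (Multiset.coe_nodup.mp (by rw [Multiset.coe_toList]; exact hnd))
  refine ⟨N.leadingCoeff, fun i => l.get (Fin.cast hlen.symm i), leadingCoeff_ne_zero.mpr hN0, ?_, ?_⟩
  · intro i k hik
    have := (List.nodup_iff_injective_get.mp hlnd) hik
    exact Fin.cast_injective _ this
  · have h1 : (N.roots.map fun a => X - C a).prod = (l.map fun a => X - C a).prod := by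
      conv_lhs => rw [← Multiset.coe_toList N.roots]
      rw [Multiset.map_coe, Multiset.prod_coe]
    have h2 : (l.map fun a => X - C a).prod = ∏ i : Fin l.length, (X - C (l.get i)) := by
      have e : l.map (fun a => X - C a)
          = List.ofFn (fun i : Fin l.length => X - C (l.get i)) := by
        conv_lhs => rw [← List.ofFn_get l]
        rw [List.map_ofFn]
        rfl
      rw [e, List.prod_ofFn]
    have h3 : ∏ i : Fin l.length, (X - C (l.get i))
        = ∏ i : Fin 5, (X - C (l.get (Fin.cast hlen.symm i))) := by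
      exact (Fintype.prod_equiv (finCongr hlen.symm) _ _ (fun i => rfl)).symm
    conv_lhs => rw [hprod]
    rw [h1, h2, h3]

section Family

theorem polyN_eq_quinticG (r X₀ Y₀ : F) :
    polyN r X₀ Y₀ = quinticG (gP r * X₀) Y₀ (kA X₀ Y₀) (kB X₀ Y₀) := by
  simp only [polyN, polyXT, polyYT, polyU, polyV, quinticG, map_mul]
  ring

theorem polyD_eq_quinticG (r X₀ Y₀ : F) :
    polyD r X₀ Y₀ = quinticG X₀ (-(gP r * Y₀)) (kA X₀ Y₀) (kB X₀ Y₀) := by
  simp only [polyD, polyXT, polyYT, polyU, polyV, quinticG, map_mul, map_neg]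
  ring

variable [CharZero F]

theorem one_add_gP_sq_ne_zero {r : F} (hr : r ^ 2 = 5) : 1 + gP r ^ 2 ≠ 0 := by
  intro h
  simp only [gP] at h
  have h1 : 125 + 55 * r = 0 := by linear_combination 2 * h - 25 / 2 * hr
  have h2 : (500 : F) = 0 := by linear_combination -(55 * r - 125) * h1 + 3025 * hr
  norm_num at h2

/-- `N_T` and `D_T` have no common root. -/
theorem no_common_root {r : F} (hr : r ^ 2 = 5) {X₀ Y₀ : F} (hX : X₀ ≠ 0) (hY : Y₀ ≠ 0)
    (hs : kA X₀ Y₀ + kB X₀ Y₀ ≠ 0) (z : F) (hN : (polyN r X₀ Y₀).eval z = 0) :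
    (polyD r X₀ Y₀).eval z ≠ 0 := by
  intro hD
  rw [eval_polyN] at hN
  rw [eval_polyD] at hD
  simp only [nP] at hN
  simp only [dP] at hD
  have hg := one_add_gP_sq_ne_zero hr
  have hx : (polyXT X₀ Y₀).eval z = 0 := by
    have : (1 + gP r ^ 2) * (polyXT X₀ Y₀).eval z = 0 := by
      linear_combination gP r * hN + hD
    exact (mul_eq_zero.mp this).resolve_left hg
  have hy : (polyYT X₀ Y₀).eval z = 0 := by
    have : (1 + gP r ^ 2) * (polyYT X₀ Y₀).eval z = 0 := by
      linear_combination gP r * hD - hN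
    exact (mul_eq_zero.mp this).resolve_left hg
  rw [eval_polyXT] at hx
  rw [eval_polyYT] at hy
  have hu : 1 - z * kA X₀ Y₀ = 0 :=
    pow_eq_zero_iff (n := 5) (by norm_num) |>.mp ((mul_eq_zero.mp hx).resolve_left hX)
  have hv : 1 + z * kB X₀ Y₀ = 0 :=
    pow_eq_zero_iff (n := 5) (by norm_num) |>.mp ((mul_eq_zero.mp hy).resolve_left hY)
  apply hs
  linear_combination kB X₀ Y₀ * hu + kA X₀ Y₀ * hv

/-- **Clause (C-b), root part**: one of `N_T`, `D_T` has exactly five simple roots. -/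
theorem five_roots [IsAlgClosed F] {r : F} (hr : r ^ 2 = 5) {X₀ Y₀ : F} (hX : X₀ ≠ 0)
    (hY : Y₀ ≠ 0) (hs : kA X₀ Y₀ + kB X₀ Y₀ ≠ 0) :
    (∃ (c : F) (β : Fin 5 → F), c ≠ 0 ∧ Function.Injective β ∧
        polyN r X₀ Y₀ = C c * ∏ i : Fin 5, (X - C (β i))) ∨
      (∃ (c : F) (β : Fin 5 → F), c ≠ 0 ∧ Function.Injective β ∧
        polyD r X₀ Y₀ = C c * ∏ i : Fin 5, (X - C (β i))) := by
  have hg := gP_ne_zero hr
  by_cases h1 : gP r * X₀ * kA X₀ Y₀ ^ 5 + Y₀ * kB X₀ Y₀ ^ 5 = 0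
  · right
    have h2 : X₀ * kA X₀ Y₀ ^ 5 + -(gP r * Y₀) * kB X₀ Y₀ ^ 5 ≠ 0 := by
      intro h2
      have hgg := one_add_gP_sq_ne_zero hr
      have hA : X₀ * kA X₀ Y₀ ^ 5 = 0 := by
        have : (1 + gP r ^ 2) * (X₀ * kA X₀ Y₀ ^ 5) = 0 := by
          linear_combination gP r * h1 + h2
        exact (mul_eq_zero.mp this).resolve_left hgg
      have hB : Y₀ * kB X₀ Y₀ ^ 5 = 0 := by
        have : (1 + gP r ^ 2) * (Y₀ * kB X₀ Y₀ ^ 5) = 0 := by
          linear_combination h1 - gP r * h2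
        exact (mul_eq_zero.mp this).resolve_left hgg
      have hA0 : kA X₀ Y₀ = 0 :=
        pow_eq_zero_iff (n := 5) (by norm_num) |>.mp ((mul_eq_zero.mp hA).resolve_left hX)
      have hB0 : kB X₀ Y₀ = 0 :=
        pow_eq_zero_iff (n := 5) (by norm_num) |>.mp ((mul_eq_zero.mp hB).resolve_left hY)
      apply hs
      rw [hA0, hB0, add_zero]
    rw [polyD_eq_quinticG]
    exact exists_five_roots (natDegree_quinticG h2)
      (separable_quinticG hX (neg_ne_zero.mpr (mul_ne_zero hg hY)) hs)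
  · left
    rw [polyN_eq_quinticG]
    exact exists_five_roots (natDegree_quinticG h1)
      (separable_quinticG (mul_ne_zero hg hX) hY hs)

/-- From `Δ ≠ 0`: `X₀ ≠ 0`, `Y₀ ≠ 0`, `A₀ + B₀ ≠ 0`. -/
theorem nondeg_of_disc {c4 c6 X₀ Y₀ : F} (h4 : kc4 X₀ Y₀ = c4) (h6 : kc6 X₀ Y₀ = c6)
    (hΔ : c4 ^ 3 ≠ c6 ^ 2) : X₀ ≠ 0 ∧ Y₀ ≠ 0 ∧ kA X₀ Y₀ + kB X₀ Y₀ ≠ 0 := by
  have hrel := kc4_cube_sub_kc6_sq X₀ Y₀
  rw [h4, h6] at hrel
  have hF : kDelta X₀ Y₀ ≠ 0 := by
    intro h0
    apply hΔ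
    rw [h0, mul_zero] at hrel
    exact sub_eq_zero.mp hrel
  simp only [kDelta] at hF
  refine ⟨?_, ?_, ?_⟩
  · rintro rfl; apply hF; ring
  · rintro rfl; apply hF; ring
  · intro h0
    apply hF
    have : Y₀ ^ 2 - 11 * X₀ * Y₀ - X₀ ^ 2 = 0 := by
      simp only [kA, kB] at h0
      have h12 : (12 : F) ≠ 0 := by norm_num
      have : (12 : F) * (Y₀ ^ 2 - 11 * X₀ * Y₀ - X₀ ^ 2) = 0 := by linear_combination (-1 : F) * h0
      exact (mul_eq_zero.mp this).resolve_left h12
    rw [this]; ring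

end Family

end Fermat.Agent.ES.U52.ClauseCb24
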