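/-
Programme U (S52, the 3–5 switch), chapter LOCAL §B2 (helper9): **the 3-division quartic in the
integers `(c₄, c₆, L)`**.

For a Weierstrass curve with invariants `c₄, c₆`, a point `P` of order `3` has
`L := 12 x(P) + b₂` (one third of the `x`-coordinate on the short model
`Y² = X³ - 27 c₄ X - 54 c₆`) a root of

  `theta c₄ c₆ L = L⁴ - 6 c₄ L² - 8 c₆ L - 3 c₄²`.

Two polynomial identities carry the whole local and global analysis of the rational roots: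

* `I1 : 4 L (L³ - 3 c₄ L - 2 c₆) - 3 (L² - c₄)² = theta c₄ c₆ L`;
* `I2 : 64 L² (c₄³ - c₆²) = (L² - c₄)³ (9 c₄ - L²) + theta c₄ c₆ L * (L⁴ - 6 c₄ L² - 3 c₄² + 8 c₆ L)`.

`theta_of_psi3` links `theta` with Mathlib's `WeierstrassCurve.Ψ₃`.
-/
import Mathlib

set_option autoImplicit false

namespace Fermat.Agent.ES.U52.ThreeDiv9

/-- the 3-division quartic in the variable `L = 12 x + b₂`. -/
def theta {R : Type*} [CommRing R] (c4 c6 L : R) : R :=
  L ^ 4 - 6 * c4 * L ^ 2 - 8 * c6 * L - 3 * c4 ^ 2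

theorem I1 {R : Type*} [CommRing R] (c4 c6 L : R) :
    4 * L * (L ^ 3 - 3 * c4 * L - 2 * c6) - 3 * (L ^ 2 - c4) ^ 2 = theta c4 c6 L := by
  unfold theta
  ring

theorem I2 {R : Type*} [CommRing R] (c4 c6 L : R) :
    64 * L ^ 2 * (c4 ^ 3 - c6 ^ 2) = (L ^ 2 - c4) ^ 3 * (9 * c4 - L ^ 2)
      + theta c4 c6 L * (L ^ 4 - 6 * c4 * L ^ 2 - 3 * c4 ^ 2 + 8 * c6 * L) := by
  unfold theta
  ring

/-- at a root of `theta`: `4 L Φ = 3 δ²`. -/
theorem I1_of_root {R : Type*} [CommRing R] {c4 c6 L : R} (h : theta c4 c6 L = 0) :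
    4 * L * (L ^ 3 - 3 * c4 * L - 2 * c6) = 3 * (L ^ 2 - c4) ^ 2 := by
  have := I1 c4 c6 L
  rw [h] at this
  linear_combination this

/-- at a root of `theta`: `64 L² (c₄³ - c₆²) = δ³ (9 c₄ - L²)`. -/
theorem I2_of_root {R : Type*} [CommRing R] {c4 c6 L : R} (h : theta c4 c6 L = 0) :
    64 * L ^ 2 * (c4 ^ 3 - c6 ^ 2) = (L ^ 2 - c4) ^ 3 * (9 * c4 - L ^ 2) := by
  have := I2 c4 c6 L
  rw [h, zero_mul, add_zero] at this
  exact this

/-- `theta` at `L = 12 x + b₂` is `256 · 27 · Ψ₃(x)`. -/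
theorem theta_eq_psi3 {R : Type*} [CommRing R] (W : WeierstrassCurve R) (x : R) :
    theta W.c₄ W.c₆ (12 * x + W.b₂) = 256 * 27 * (W.Ψ₃.eval x) := by
  have h8 := W.b_relation
  unfold theta
  simp only [WeierstrassCurve.Ψ₃, WeierstrassCurve.c₄, WeierstrassCurve.c₆, Polynomial.eval_add,
    Polynomial.eval_mul, Polynomial.eval_pow, Polynomial.eval_C, Polynomial.eval_X,
    Polynomial.eval_ofNat]
  linear_combination (-1728 : R) * h8

end Fermat.Agent.ES.U52.ThreeDiv9
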