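/-
Programme U (S52, the 3–5 switch), chapter LOCAL §B2.2 (helper9): **the local lemma at a prime of
non-split multiplicative reduction** — the elementary substitute for the Tate curve.

`q ≥ 5` prime, `q ≡ 1 mod 3`, `q ∤ c₄`, `q ∣ c₄³ - c₆²` with `3 ∤ v_q(c₄³ - c₆²)`, and `-c₆` a
non-residue modulo `q` (non-split multiplicative reduction).  Then every integer root `L` of the
3-division quartic `theta c₄ c₆` is a unit and a NON-residue modulo `q`.

Proof: the identity `I2` gives `v_q(c₄³ - c₆²) = 3 v_q(L² - c₄) + v_q(9c₄ - L²)`; the first term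
cannot be positive, so `L² ≡ 9 c₄`, then `c₆ L ≡ 3 c₄²`, and `-3` is a square modulo `q`.
-/
import Mathlib
import Fermat.Agent.ES.U52.ThreeDiv9

set_option autoImplicit false

namespace Fermat.Agent.ES.U52.NonResL9

open Fermat.Agent.ES.U52.ThreeDiv9

/-- `-3` is a square in `ZMod q` for a prime `q ≡ 1 mod 3`. -/
theorem exists_sq_eq_neg_three {q : ℕ} [hq : Fact q.Prime] (h3 : q % 3 = 1) :
    ∃ v : ZMod q, v ^ 2 = -3 := by
  classical
  have hcard : Fintype.card (ZMod q)ˣ = q - 1 := ZMod.card_units q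
  have hdvd : 3 ∣ Fintype.card (ZMod q)ˣ := by
    rw [hcard]
    have := hq.out.two_le
    omega
  have : Fact (Nat.Prime 3) := ⟨Nat.prime_three⟩
  obtain ⟨x, hx⟩ := exists_prime_orderOf_dvd_card 3 hdvd
  have hx3 : x ^ 3 = 1 := by rw [← hx]; exact pow_orderOf_eq_one x
  have hx1 : x ≠ 1 := by
    intro h
    rw [h, orderOf_one] at hx
    omega
  have hx3' : ((x : ZMod q)) ^ 3 = 1 := by
    have := congrArg (fun u : (ZMod q)ˣ => (u : ZMod q)) hx3
    simpa using this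
  have hx1' : (x : ZMod q) - 1 ≠ 0 := by
    intro h
    apply hx1
    ext
    simpa using sub_eq_zero.mp h
  have hquad : (x : ZMod q) ^ 2 + (x : ZMod q) + 1 = 0 := by
    have h : ((x : ZMod q) - 1) * ((x : ZMod q) ^ 2 + (x : ZMod q) + 1) = 0 := by
      linear_combination hx3'
    exact (mul_eq_zero.mp h).resolve_left hx1'
  exact ⟨2 * (x : ZMod q) + 1, by linear_combination 4 * hquad⟩

/-- `v_q (a ^ k) = k · v_q a` for integers. -/
theorem padicValInt_pow_eq {q : ℕ} [Fact q.Prime] (a : ℤ) (k : ℕ) :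
    padicValInt q (a ^ k) = k * padicValInt q a := by
  unfold padicValInt
  rw [Int.natAbs_pow, padicValNat.pow]

/-- **The local lemma.** -/
theorem nonres_L {q : ℕ} [hq : Fact q.Prime] (hq5 : 5 ≤ q) (hq3 : q % 3 = 1) {c4 c6 L : ℤ}
    (hc4 : ¬ (q : ℤ) ∣ c4) (hD : c4 ^ 3 - c6 ^ 2 ≠ 0) (hqD : (q : ℤ) ∣ c4 ^ 3 - c6 ^ 2)
    (h3 : ¬ 3 ∣ padicValInt q (c4 ^ 3 - c6 ^ 2))
    (hns : ¬ IsSquare ((-c6 : ℤ) : ZMod q)) (hL : theta c4 c6 L = 0) :
    ¬ (q : ℤ) ∣ L ∧ ¬ IsSquare ((L : ℤ) : ZMod q) := by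
  have hqp : Nat.Prime q := hq.out
  have hqpZ : Prime (q : ℤ) := Nat.prime_iff_prime_int.mp hqp
  -- small numbers are units modulo `q`
  have hsmall : ∀ k : ℕ, 0 < k → k < 5 → ((k : ℤ) : ZMod q) ≠ 0 := by
    intro k hk0 hk5 h
    rw [Int.cast_natCast, ZMod.natCast_eq_zero_iff] at h
    have := Nat.le_of_dvd hk0 h
    omega
  have h2 : (2 : ZMod q) ≠ 0 := by simpa using hsmall 2 (by norm_num) (by norm_num)
  have h3' : (3 : ZMod q) ≠ 0 := by simpa using hsmall 3 (by norm_num) (by norm_num)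
  have hc4' : ((c4 : ℤ) : ZMod q) ≠ 0 := by
    rwa [Ne, ZMod.intCast_zmod_eq_zero_iff_dvd]
  -- the equation modulo `q`
  have hLq : theta ((c4 : ℤ) : ZMod q) ((c6 : ℤ) : ZMod q) ((L : ℤ) : ZMod q) = 0 := by
    have := congrArg (fun z : ℤ => (z : ZMod q)) hL
    simpa [theta] using this
  -- `q ∤ L`
  have hLunit : ¬ (q : ℤ) ∣ L := by
    intro h
    have h0 : ((L : ℤ) : ZMod q) = 0 := (ZMod.intCast_zmod_eq_zero_iff_dvd _ _).mpr h
    rw [h0] at hLq
    unfold theta at hLq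
    have : (3 : ZMod q) * ((c4 : ℤ) : ZMod q) ^ 2 = 0 := by linear_combination -hLq
    rcases mul_eq_zero.mp this with h | h
    · exact h3' h
    · exact hc4' (pow_eq_zero_iff (two_ne_zero) |>.mp h)
  have hL' : ((L : ℤ) : ZMod q) ≠ 0 := by
    rwa [Ne, ZMod.intCast_zmod_eq_zero_iff_dvd]
  refine ⟨hLunit, ?_⟩
  -- the identity `I2` in `ℤ`
  have hI2 := I2_of_root hL
  have hδ0 : L ^ 2 - c4 ≠ 0 := by
    intro h
    rw [h] at hI2
    have hL0 : L ≠ 0 := fun h0 => hLunit (h0 ▸ dvd_zero _)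
    have : (64 * L ^ 2) * (c4 ^ 3 - c6 ^ 2) = 0 := by rw [hI2]; ring
    rcases mul_eq_zero.mp this with h' | h'
    · have : L ^ 2 = 0 := by
        rcases mul_eq_zero.mp h' with h'' | h''
        · norm_num at h''
        · exact h''
      exact hL0 (pow_eq_zero_iff (two_ne_zero) |>.mp this)
    · exact hD h'
  -- `q ∤ L² - c₄`
  have hδ : ¬ (q : ℤ) ∣ L ^ 2 - c4 := by
    intro hd
    -- then `9 c₄ - L²` is a unit
    have h9 : ¬ (q : ℤ) ∣ 9 * c4 - L ^ 2 := by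
      intro h9
      have h8 : (q : ℤ) ∣ 8 * c4 := by
        have : 8 * c4 = (9 * c4 - L ^ 2) + (L ^ 2 - c4) := by ring
        rw [this]
        exact dvd_add h9 hd
      rcases hqpZ.dvd_or_dvd h8 with h | h
      · have : (q : ℤ) ≤ 8 := Int.le_of_dvd (by norm_num) h
        have hq8 : q ≤ 8 := by exact_mod_cast this
        have : q ∣ 8 := by exact_mod_cast h
        interval_cases q <;> omega
      · exact hc4 h
    have h9ne : 9 * c4 - L ^ 2 ≠ 0 := fun h => h9 (h ▸ dvd_zero _)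
    have h64 : ¬ (q : ℤ) ∣ 64 := by
      intro h
      have : q ∣ 64 := by exact_mod_cast h
      have h2' : q ∣ 2 ^ 6 := by simpa using this
      have := (Nat.prime_dvd_prime_iff_eq hqp Nat.prime_two).mp (hqp.dvd_of_dvd_pow h2')
      omega
    have hL0 : L ≠ 0 := fun h0 => hLunit (h0 ▸ dvd_zero _)
    -- valuations
    have hv : padicValInt q (64 * L ^ 2 * (c4 ^ 3 - c6 ^ 2))
        = padicValInt q ((L ^ 2 - c4) ^ 3 * (9 * c4 - L ^ 2)) := by rw [hI2]
    rw [padicValInt.mul (mul_ne_zero (by norm_num) (pow_ne_zero 2 hL0)) hD,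
      padicValInt.mul (by norm_num) (pow_ne_zero 2 hL0),
      padicValInt.mul (pow_ne_zero 3 hδ0) h9ne,
      padicValInt_pow_eq, padicValInt_pow_eq,
      padicValInt.eq_zero_of_not_dvd h64, padicValInt.eq_zero_of_not_dvd hLunit,
      padicValInt.eq_zero_of_not_dvd h9] at hv
    apply h3
    rw [show padicValInt q (c4 ^ 3 - c6 ^ 2) = 3 * padicValInt q (L ^ 2 - c4) by omega]
    exact dvd_mul_right 3 _
  -- hence `q ∣ 9 c₄ - L²`
  have h9 : (q : ℤ) ∣ 9 * c4 - L ^ 2 := by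
    have h : (q : ℤ) ∣ (L ^ 2 - c4) ^ 3 * (9 * c4 - L ^ 2) := by
      rw [← hI2]
      exact Dvd.dvd.mul_left hqD _
    rcases hqpZ.dvd_or_dvd h with h | h
    · exact absurd (hqpZ.dvd_of_dvd_pow h) hδ
    · exact h
  have h9' : ((L : ℤ) : ZMod q) ^ 2 = 9 * ((c4 : ℤ) : ZMod q) := by
    have := (ZMod.intCast_zmod_eq_zero_iff_dvd _ _).mpr h9
    push_cast at this
    linear_combination -this
  -- `c₆ L = 3 c₄²` modulo `q`
  have h8 : (8 : ZMod q) ≠ 0 := by
    have : (8 : ZMod q) = 2 ^ 3 := by norm_num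
    rw [this]
    exact pow_ne_zero 3 h2
  have hc6L : ((c6 : ℤ) : ZMod q) * ((L : ℤ) : ZMod q) = 3 * ((c4 : ℤ) : ZMod q) ^ 2 := by
    unfold theta at hLq
    have h : (8 : ZMod q) * (((c6 : ℤ) : ZMod q) * ((L : ℤ) : ZMod q)
        - 3 * ((c4 : ℤ) : ZMod q) ^ 2) = 0 := by
      linear_combination -hLq + (((L : ℤ) : ZMod q) ^ 2 + 9 * ((c4 : ℤ) : ZMod q)
        - 6 * ((c4 : ℤ) : ZMod q)) * h9'
    exact sub_eq_zero.mp ((mul_eq_zero.mp h).resolve_left h8)
  -- conclusion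
  rintro ⟨w, hw⟩
  obtain ⟨v, hv⟩ := exists_sq_eq_neg_three (q := q) hq3
  have hw0 : w ≠ 0 := by
    intro h
    rw [h, mul_zero] at hw
    exact hL' hw
  apply hns
  refine ⟨v * ((c4 : ℤ) : ZMod q) / w, ?_⟩
  rw [hw] at hc6L
  have hcast : ((-c6 : ℤ) : ZMod q) = -((c6 : ℤ) : ZMod q) := by push_cast; ring
  rw [hcast]
  have hww : w * w ≠ 0 := mul_ne_zero hw0 hw0
  have hprod : v * ((c4 : ℤ) : ZMod q) / w * (v * ((c4 : ℤ) : ZMod q) / w)
      = (v ^ 2 * ((c4 : ℤ) : ZMod q) ^ 2) / (w * w) := by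
    field_simp
  rw [hprod, hv, eq_div_iff hww]
  linear_combination (-1 : ZMod q) * hc6L

end Fermat.Agent.ES.U52.NonResL9
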