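/-
Programme U (S52, the 3–5 switch), chapter LOCAL §B2.1 + §B2.3 (helper9): **the global lemma on
integer roots of the 3-division quartic, and the criterion "one non-split multiplicative prime
`q ≡ 1 mod 24` with `3 ∤ v_q(c₄³ - c₆²)` ⇒ `theta c₄ c₆` has no integer root"**.

* `even_val_L`: if no prime `ℓ ≥ 5` divides both `c₄` and `c₆` (semistability away from `2, 3`),
  every integer root `L` of `theta c₄ c₆` has EVEN valuation at every prime `ℓ ≥ 5`
  (by `I1`: `4 L Φ = 3 δ²`, and `ℓ ∣ L, Φ, δ` forces `ℓ ∣ c₄, c₆`);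
* `isSquare_of_even_val`: such an `L` is `± 2^a 3^b s²`, a square modulo every prime
  `q ≡ 1 mod 24`;
* `no_root_of_nonsplit`: combined with the local lemma `NonResL9.nonres_L`.
-/
import Mathlib
import Fermat.Agent.ES.U52.ThreeDiv9
import Fermat.Agent.ES.U52.NonResL9

set_option autoImplicit false

namespace Fermat.Agent.ES.U52.EvenValL9

open Fermat.Agent.ES.U52.ThreeDiv9 Fermat.Agent.ES.U52.NonResL9

/-- **The global lemma**: even valuation of an integer root at every prime `ℓ ≥ 5`. -/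
theorem even_val_L {c4 c6 L : ℤ} (hc4 : c4 ≠ 0) (hD : c4 ^ 3 - c6 ^ 2 ≠ 0)
    (hcop : ∀ ℓ : ℕ, ℓ.Prime → 5 ≤ ℓ → (ℓ : ℤ) ∣ c4 → ¬ (ℓ : ℤ) ∣ c6)
    (hL : theta c4 c6 L = 0) {ℓ : ℕ} (hℓ : ℓ.Prime) (h5 : 5 ≤ ℓ) :
    Even (padicValInt ℓ L) := by
  have : Fact ℓ.Prime := ⟨hℓ⟩
  have hℓZ : Prime (ℓ : ℤ) := Nat.prime_iff_prime_int.mp hℓ
  have hI1 := I1_of_root hL
  -- `L ≠ 0`
  have hL0 : L ≠ 0 := by
    intro h
    rw [h] at hL
    unfold theta at hL
    have : 3 * c4 ^ 2 = 0 := by linear_combination -hL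
    rcases mul_eq_zero.mp this with h' | h'
    · norm_num at h'
    · exact hc4 (pow_eq_zero_iff two_ne_zero |>.mp h')
  -- `δ ≠ 0`
  have hδ0 : L ^ 2 - c4 ≠ 0 := by
    intro h
    rw [h] at hI1
    have hΦ : L ^ 3 - 3 * c4 * L - 2 * c6 = 0 := by
      have : 4 * L * (L ^ 3 - 3 * c4 * L - 2 * c6) = 0 := by rw [hI1]; ring
      rcases mul_eq_zero.mp this with h' | h'
      · exfalso
        rcases mul_eq_zero.mp h' with h'' | h''
        · norm_num at h''
        · exact hL0 h''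
      · exact h'
    have hc4' : c4 = L ^ 2 := by linear_combination -h
    have hc6' : 2 * c6 = -2 * L ^ 3 := by rw [hc4'] at hΦ; linear_combination -hΦ
    apply hD
    have hc6'' : c6 = -L ^ 3 := by linarith
    rw [hc4', hc6'']
    ring
  have hΦ0 : L ^ 3 - 3 * c4 * L - 2 * c6 ≠ 0 := by
    intro h
    rw [h, mul_zero] at hI1
    have : (L ^ 2 - c4) ^ 2 = 0 := by linarith
    exact hδ0 (pow_eq_zero_iff two_ne_zero |>.mp this)
  -- small numbers are `ℓ`-adic units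
  have h4 : ¬ (ℓ : ℤ) ∣ 4 := by
    intro h
    have : ℓ ∣ 4 := by exact_mod_cast h
    have := Nat.le_of_dvd (by norm_num) this
    omega
  have h3 : ¬ (ℓ : ℤ) ∣ 3 := by
    intro h
    have : ℓ ∣ 3 := by exact_mod_cast h
    have := Nat.le_of_dvd (by norm_num) this
    omega
  have h2 : ¬ (ℓ : ℤ) ∣ 2 := by
    intro h
    have : ℓ ∣ 2 := by exact_mod_cast h
    have := Nat.le_of_dvd (by norm_num) this
    omega
  -- valuations
  have hv : padicValInt ℓ (4 * L * (L ^ 3 - 3 * c4 * L - 2 * c6))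
      = padicValInt ℓ (3 * (L ^ 2 - c4) ^ 2) := by rw [hI1]
  rw [padicValInt.mul (mul_ne_zero (by norm_num) hL0) hΦ0,
    padicValInt.mul (by norm_num) hL0,
    padicValInt.mul (by norm_num) (pow_ne_zero 2 hδ0),
    padicValInt_pow_eq, padicValInt.eq_zero_of_not_dvd h4,
    padicValInt.eq_zero_of_not_dvd h3] at hv
  by_contra hodd
  rw [Nat.not_even_iff_odd] at hodd
  -- then `v(Φ)` is odd, in particular both are positive, and `v(δ) ≥ 1`
  have hvL : 1 ≤ padicValInt ℓ L := by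
    rcases hodd with ⟨k, hk⟩
    omega
  have hvΦ : 1 ≤ padicValInt ℓ (L ^ 3 - 3 * c4 * L - 2 * c6) := by
    rcases hodd with ⟨k, hk⟩
    omega
  have hvδ : 1 ≤ padicValInt ℓ (L ^ 2 - c4) := by omega
  have hdL : (ℓ : ℤ) ∣ L := by
    have := (padicValInt_dvd_iff (p := ℓ) 1 L).mpr (Or.inr hvL)
    simpa using this
  have hdΦ : (ℓ : ℤ) ∣ L ^ 3 - 3 * c4 * L - 2 * c6 := by
    have := (padicValInt_dvd_iff (p := ℓ) 1 _).mpr (Or.inr hvΦ)
    simpa using this
  have hdδ : (ℓ : ℤ) ∣ L ^ 2 - c4 := by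
    have := (padicValInt_dvd_iff (p := ℓ) 1 _).mpr (Or.inr hvδ)
    simpa using this
  have hdc4 : (ℓ : ℤ) ∣ c4 := by
    have : c4 = L * L - (L ^ 2 - c4) := by ring
    rw [this]
    exact dvd_sub (Dvd.dvd.mul_right hdL L) hdδ
  have hdc6 : (ℓ : ℤ) ∣ c6 := by
    have h2c6 : (ℓ : ℤ) ∣ 2 * c6 := by
      have : 2 * c6 = L * (L ^ 2 - 3 * c4) - (L ^ 3 - 3 * c4 * L - 2 * c6) := by ring
      rw [this]
      exact dvd_sub (Dvd.dvd.mul_right hdL _) hdΦ
    exact (hℓZ.dvd_or_dvd h2c6).resolve_left h2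
  exact hcop ℓ hℓ h5 hdc4 hdc6

/-- `-1`, `2`, `3` are squares modulo a prime `q ≡ 1 mod 24`. -/
theorem isSquare_small {q : ℕ} [hq : Fact q.Prime] (h24 : q % 24 = 1) :
    IsSquare (-1 : ZMod q) ∧ IsSquare (2 : ZMod q) ∧ IsSquare (3 : ZMod q) := by
  have hm1 : IsSquare (-1 : ZMod q) := by
    rw [ZMod.exists_sq_eq_neg_one_iff]
    omega
  have h2 : IsSquare (2 : ZMod q) := by
    have hq2 : q ≠ 2 := by
      intro h
      rw [h] at h24
      norm_num at h24
    rw [ZMod.exists_sq_eq_two_iff hq2]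
    omega
  refine ⟨hm1, h2, ?_⟩
  obtain ⟨v, hv⟩ := exists_sq_eq_neg_three (q := q) (by omega)
  obtain ⟨i, hi⟩ := hm1
  refine ⟨i * v, ?_⟩
  linear_combination (-(i * i)) * hv - (3 : ZMod q) * hi

/-- an integer with even valuation at every prime `≥ 5` is a square modulo `q ≡ 1 mod 24`. -/
theorem isSquare_of_even_val {q : ℕ} [hq : Fact q.Prime] (h24 : q % 24 = 1) {L : ℤ} (hL0 : L ≠ 0)
    (hev : ∀ ℓ : ℕ, ℓ.Prime → 5 ≤ ℓ → Even (padicValInt ℓ L)) :
    IsSquare ((L : ℤ) : ZMod q) := by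
  obtain ⟨hm1, h2, h3⟩ := isSquare_small h24
  have hn0 : L.natAbs ≠ 0 := Int.natAbs_ne_zero.mpr hL0
  obtain ⟨a, b, hab, hsf⟩ := Nat.sq_mul_squarefree L.natAbs
  have ha0 : a ≠ 0 := by
    intro h
    rw [h, mul_zero] at hab
    exact hn0 hab.symm
  have hb0 : b ≠ 0 := by
    intro h
    rw [h] at hab
    simp at hab
    exact hn0 hab.symm
  -- every prime factor of `a` is `2` or `3`
  have hprimes : a.primeFactors ⊆ ({2, 3} : Finset ℕ) := by
    intro ℓ hℓ
    have hℓp : ℓ.Prime := Nat.prime_of_mem_primeFactors hℓ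
    have hℓa : ℓ ∣ a := Nat.dvd_of_mem_primeFactors hℓ
    have : Fact ℓ.Prime := ⟨hℓp⟩
    by_contra hne
    have h5 : 5 ≤ ℓ := by
      simp only [Finset.mem_insert, Finset.mem_singleton, not_or] at hne
      have h2 := hℓp.two_le
      by_contra hlt
      have hlt' : ℓ < 5 := by omega
      interval_cases ℓ
      · exact hne.1 rfl
      · exact hne.2 rfl
      · exact absurd hℓp (by decide)
    have hva : padicValNat ℓ a = 1 := by
      have h1 : 1 ≤ padicValNat ℓ a := one_le_padicValNat_of_dvd ha0 hℓa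
      have h2 : padicValNat ℓ a ≤ 1 := by
        by_contra hgt
        have : ℓ ^ 2 ∣ a := by
          rw [padicValNat_dvd_iff]
          right
          omega
        have := hsf ℓ (by simpa [sq] using this)
        exact hℓp.one_lt.ne' (Nat.isUnit_iff.mp this)
      omega
    have hvn : padicValInt ℓ L = 2 * padicValNat ℓ b + 1 := by
      unfold padicValInt
      rw [← hab, padicValNat.mul (pow_ne_zero 2 hb0) ha0, padicValNat.pow, hva]
    have := hev ℓ hℓp h5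
    rw [hvn] at this
    exact (Nat.not_even_iff_odd.mpr ⟨padicValNat ℓ b, rfl⟩) this
  -- hence `a ∣ 6`
  have ha6 : a ∣ 6 := by
    have h1 : a = ∏ p ∈ a.primeFactors, p := (Nat.prod_primeFactors_of_squarefree hsf).symm
    have h2 : (∏ p ∈ ({2, 3} : Finset ℕ), p) = 6 := by decide
    rw [h1, ← h2]
    exact Finset.prod_dvd_prod_of_subset _ _ _ hprimes
  have ha : IsSquare ((a : ℕ) : ZMod q) := by
    have hle : a ≤ 6 := Nat.le_of_dvd (by norm_num) ha6
    interval_cases a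
    · exact absurd rfl ha0
    · simp
    · simpa using h2
    · simpa using h3
    · norm_num at ha6
    · norm_num at ha6
    · have : ((6 : ℕ) : ZMod q) = 2 * 3 := by norm_num
      rw [this]
      exact h2.mul h3
  have hnat : IsSquare ((L.natAbs : ℕ) : ZMod q) := by
    rw [← hab]
    push_cast
    exact (IsSquare.sq _).mul ha
  rcases Int.natAbs_eq L with h | h
  · have : ((L : ℤ) : ZMod q) = ((L.natAbs : ℕ) : ZMod q) := by
      conv_lhs => rw [h]
      rw [Int.cast_natCast]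
    rw [this]
    exact hnat
  · have : ((L : ℤ) : ZMod q) = (-1) * ((L.natAbs : ℕ) : ZMod q) := by
      conv_lhs => rw [h]
      rw [Int.cast_neg, Int.cast_natCast]
      ring
    rw [this]
    exact hm1.mul hnat

/-- **The criterion**: one prime `q ≡ 1 mod 24` of non-split multiplicative reduction with
`3 ∤ v_q(c₄³ - c₆²)`, and no prime `ℓ ≥ 5` dividing both `c₄` and `c₆`: then `theta c₄ c₆` has
no integer root. -/
theorem no_root_of_nonsplit {q : ℕ} [hq : Fact q.Prime] (h24 : q % 24 = 1) {c4 c6 : ℤ}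
    (hc4 : c4 ≠ 0) (hD : c4 ^ 3 - c6 ^ 2 ≠ 0)
    (hcop : ∀ ℓ : ℕ, ℓ.Prime → 5 ≤ ℓ → (ℓ : ℤ) ∣ c4 → ¬ (ℓ : ℤ) ∣ c6)
    (hqc4 : ¬ (q : ℤ) ∣ c4) (hqD : (q : ℤ) ∣ c4 ^ 3 - c6 ^ 2)
    (h3 : ¬ 3 ∣ padicValInt q (c4 ^ 3 - c6 ^ 2))
    (hns : ¬ IsSquare ((-c6 : ℤ) : ZMod q)) (L : ℤ) : theta c4 c6 L ≠ 0 := by
  intro hL
  have hq5 : 5 ≤ q := by
    have := hq.out.two_le
    omega
  obtain ⟨hLunit, hLns⟩ := nonres_L hq5 (by omega) hqc4 hD hqD h3 hns hL
  have hL0 : L ≠ 0 := fun h => hLunit (h ▸ dvd_zero _)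
  exact hLns (isSquare_of_even_val h24 hL0
    (fun ℓ hℓ h5 => even_val_L hc4 hD hcop hL hℓ h5))

end Fermat.Agent.ES.U52.EvenValL9
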