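/-
Programme U (S52, the 3–5 switch), chapter SPEC (helper12): **the place `T = c` of the rational
function field `F(T)`**.

For a field `F` and `c : F`:

* `placeAt c : ValuationSubring (RatFunc F)` : the rational functions whose (reduced) denominator
  does not vanish at `c`;
* `evalAt c : ↥(placeAt c) →+* F` : evaluation at `c`, with `evalAt_div` (`p / q ↦ p(c) / q(c)`),
  `evalAt_polyTo`, `evalAt_C`;
* `polyTo c : F[X] →+* ↥(placeAt c)` : polynomials are regular at `c`;
* `isUnit_iff_evalAt_ne_zero`, `mem_maximalIdeal_iff` : the units are the functions which do not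
  vanish at `c`;
* `resEquiv c : IsLocalRing.ResidueField ↥(placeAt c) ≃+* F` with
  `resEquiv_residue : resEquiv c (residue a) = evalAt c a`.
-/
import Mathlib

set_option autoImplicit false

open Polynomial

namespace Fermat.Agent.ES.U52.SpecPlace12

variable {F : Type*} [Field F]

/-- non-vanishing at `c` passes to divisors. -/
theorem eval_ne_zero_of_dvd {p q : F[X]} {c : F} (h : p ∣ q) (hq : q.eval c ≠ 0) :
    p.eval c ≠ 0 := by
  intro h0
  obtain ⟨r, rfl⟩ := h
  rw [eval_mul, h0, zero_mul] at hq
  exact hq rfl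

theorem denom_neg_dvd (x : RatFunc F) : RatFunc.denom (-x) ∣ RatFunc.denom x := by
  have h := RatFunc.denom_mul_dvd (RatFunc.C (-1 : F)) x
  have hC : RatFunc.denom (RatFunc.C (-1 : F)) = 1 := by
    rw [← RatFunc.algebraMap_C, RatFunc.denom_algebraMap]
  rw [hC, one_mul] at h
  have e : RatFunc.C (-1 : F) * x = -x := by
    rw [map_neg, map_one, neg_one_mul]
  rwa [e] at h

/-- The valuation subring of `F(T)` of the rational functions regular at `T = c`. -/
def placeAt (c : F) : ValuationSubring (RatFunc F) where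
  carrier := {f | (RatFunc.denom f).eval c ≠ 0}
  mul_mem' := by
    intro f g hf hg
    refine eval_ne_zero_of_dvd (RatFunc.denom_mul_dvd f g) ?_
    rw [eval_mul]
    exact mul_ne_zero hf hg
  one_mem' := by
    show (RatFunc.denom (1 : RatFunc F)).eval c ≠ 0
    rw [RatFunc.denom_one, eval_one]
    exact one_ne_zero
  add_mem' := by
    intro f g hf hg
    refine eval_ne_zero_of_dvd (RatFunc.denom_add_dvd f g) ?_
    rw [eval_mul]
    exact mul_ne_zero hf hg
  zero_mem' := by
    show (RatFunc.denom (0 : RatFunc F)).eval c ≠ 0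
    rw [RatFunc.denom_zero, eval_one]
    exact one_ne_zero
  neg_mem' := by
    intro f hf
    exact eval_ne_zero_of_dvd (denom_neg_dvd f) hf
  mem_or_inv_mem' := by
    intro f
    by_cases hf : (RatFunc.denom f).eval c = 0
    · right
      have hf0 : f ≠ 0 := by
        rintro rfl
        rw [RatFunc.denom_zero, eval_one] at hf
        exact one_ne_zero hf
      refine eval_ne_zero_of_dvd (RatFunc.denom_inv_dvd hf0) ?_
      intro hn
      obtain ⟨a, b, hab⟩ := RatFunc.isCoprime_num_denom f
      have := congrArg (Polynomial.eval c) hab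
      rw [eval_add, eval_mul, eval_mul, hn, hf, mul_zero, mul_zero, add_zero, eval_one] at this
      exact zero_ne_one this
    · left
      exact hf

theorem mem_placeAt {c : F} {f : RatFunc F} :
    f ∈ placeAt c ↔ (RatFunc.denom f).eval c ≠ 0 := Iff.rfl

/-- a quotient of polynomials whose denominator does not vanish at `c` is regular at `c`. -/
theorem div_mem_placeAt {c : F} (p : F[X]) {q : F[X]} (hq : q.eval c ≠ 0) :
    algebraMap F[X] (RatFunc F) p / algebraMap F[X] (RatFunc F) q ∈ placeAt c :=
  eval_ne_zero_of_dvd (RatFunc.denom_div_dvd p q) hq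

theorem algebraMap_mem_placeAt (c : F) (p : F[X]) : algebraMap F[X] (RatFunc F) p ∈ placeAt c := by
  show (RatFunc.denom (algebraMap F[X] (RatFunc F) p)).eval c ≠ 0
  rw [RatFunc.denom_algebraMap, eval_one]
  exact one_ne_zero

/-- **Evaluation at `c`** of the rational functions regular at `c`. -/
noncomputable def evalAt (c : F) : ↥(placeAt c) →+* F where
  toFun f := RatFunc.eval (RingHom.id F) c (f : RatFunc F)
  map_one' := RatFunc.eval_one (RingHom.id F) c
  map_mul' f g := by
    have hf : Polynomial.eval₂ (RingHom.id F) c (RatFunc.denom (f : RatFunc F)) ≠ 0 := by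
      rw [eval₂_id]; exact f.2
    have hg : Polynomial.eval₂ (RingHom.id F) c (RatFunc.denom (g : RatFunc F)) ≠ 0 := by
      rw [eval₂_id]; exact g.2
    exact RatFunc.eval_mul (RingHom.id F) c hf hg
  map_zero' := RatFunc.eval_zero (RingHom.id F) c
  map_add' f g := by
    have hf : Polynomial.eval₂ (RingHom.id F) c (RatFunc.denom (f : RatFunc F)) ≠ 0 := by
      rw [eval₂_id]; exact f.2
    have hg : Polynomial.eval₂ (RingHom.id F) c (RatFunc.denom (g : RatFunc F)) ≠ 0 := by
      rw [eval₂_id]; exact g.2
    exact RatFunc.eval_add (RingHom.id F) c hf hg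

/-- polynomials are regular at `c`. -/
noncomputable def polyTo (c : F) : F[X] →+* ↥(placeAt c) where
  toFun p := ⟨algebraMap F[X] (RatFunc F) p, algebraMap_mem_placeAt c p⟩
  map_one' := Subtype.ext (map_one _)
  map_mul' p q := Subtype.ext (map_mul _ p q)
  map_zero' := Subtype.ext (map_zero _)
  map_add' p q := Subtype.ext (map_add _ p q)

@[simp] theorem coe_polyTo (c : F) (p : F[X]) :
    ((polyTo c p : ↥(placeAt c)) : RatFunc F) = algebraMap F[X] (RatFunc F) p := rfl

@[simp] theorem evalAt_polyTo (c : F) (p : F[X]) : evalAt c (polyTo c p) = p.eval c := by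
  show RatFunc.eval (RingHom.id F) c (algebraMap F[X] (RatFunc F) p) = p.eval c
  rw [RatFunc.eval_algebraMap, eval₂_id, Algebra.algebraMap_self, RingHom.id_apply]

theorem evalAt_C (c a : F) : evalAt c (polyTo c (Polynomial.C a)) = a := by
  rw [evalAt_polyTo, eval_C]

theorem evalAt_surjective (c : F) : Function.Surjective (evalAt c) :=
  fun a => ⟨polyTo c (Polynomial.C a), evalAt_C c a⟩

/-- evaluation of a quotient `p / q` with `q(c) ≠ 0`. -/
theorem evalAt_div {c : F} (p : F[X]) {q : F[X]} (hq : q.eval c ≠ 0) :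
    evalAt c ⟨algebraMap F[X] (RatFunc F) p / algebraMap F[X] (RatFunc F) q, div_mem_placeAt p hq⟩
      = p.eval c / q.eval c := by
  have hq0 : q ≠ 0 := by
    rintro rfl
    rw [eval_zero] at hq
    exact hq rfl
  have hqK : algebraMap F[X] (RatFunc F) q ≠ 0 := by
    rw [Ne, map_eq_zero_iff _ (IsFractionRing.injective F[X] (RatFunc F))]
    exact hq0
  have h : (⟨algebraMap F[X] (RatFunc F) p / algebraMap F[X] (RatFunc F) q,
      div_mem_placeAt p hq⟩ : ↥(placeAt c)) * polyTo c q = polyTo c p := by
    apply Subtype.ext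
    show algebraMap F[X] (RatFunc F) p / algebraMap F[X] (RatFunc F) q
      * algebraMap F[X] (RatFunc F) q = algebraMap F[X] (RatFunc F) p
    exact div_mul_cancel₀ _ hqK
  have h2 := congrArg (evalAt c) h
  rw [map_mul, evalAt_polyTo, evalAt_polyTo] at h2
  rw [eq_div_iff hq]
  exact h2

/-- every element of `placeAt c` is `num / denom`, evaluated accordingly. -/
theorem evalAt_eq (c : F) (f : ↥(placeAt c)) :
    evalAt c f = (RatFunc.num (f : RatFunc F)).eval c / (RatFunc.denom (f : RatFunc F)).eval c := by
  show RatFunc.eval (RingHom.id F) c (f : RatFunc F) = _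
  rw [RatFunc.eval, eval₂_id, eval₂_id]

/-- the units of `placeAt c` are the functions which do not vanish at `c`. -/
theorem isUnit_iff_evalAt_ne_zero {c : F} (f : ↥(placeAt c)) : IsUnit f ↔ evalAt c f ≠ 0 := by
  constructor
  · intro h
    exact ((evalAt c).isUnit_map h).ne_zero
  · intro h
    have hf0 : (f : RatFunc F) ≠ 0 := by
      intro h0
      apply h
      have : f = 0 := Subtype.ext h0
      rw [this, map_zero]
    have hnum : (RatFunc.num (f : RatFunc F)).eval c ≠ 0 := by
      intro hn
      apply h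
      rw [evalAt_eq, hn, zero_div]
    have hinv : (f : RatFunc F)⁻¹ ∈ placeAt c :=
      eval_ne_zero_of_dvd (RatFunc.denom_inv_dvd hf0) hnum
    refine isUnit_iff_exists_inv.mpr ⟨⟨(f : RatFunc F)⁻¹, hinv⟩, ?_⟩
    apply Subtype.ext
    show (f : RatFunc F) * (f : RatFunc F)⁻¹ = 1
    exact mul_inv_cancel₀ hf0

instance isLocalHom_evalAt (c : F) : IsLocalHom (evalAt c) where
  map_nonunit f hf := (isUnit_iff_evalAt_ne_zero f).mpr hf.ne_zero

theorem mem_maximalIdeal_iff {c : F} (f : ↥(placeAt c)) :
    f ∈ IsLocalRing.maximalIdeal ↥(placeAt c) ↔ evalAt c f = 0 := by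
  rw [IsLocalRing.mem_maximalIdeal, mem_nonunits_iff, isUnit_iff_evalAt_ne_zero, not_not]

/-- **The residue field of the place `T = c` is `F`**, through evaluation at `c`. -/
noncomputable def resEquiv (c : F) : IsLocalRing.ResidueField ↥(placeAt c) ≃+* F :=
  RingEquiv.ofBijective (IsLocalRing.ResidueField.lift (evalAt c))
    ⟨(IsLocalRing.ResidueField.lift (evalAt c)).injective, by
      intro a
      obtain ⟨f, hf⟩ := evalAt_surjective c a
      exact ⟨IsLocalRing.residue _ f, by rw [IsLocalRing.ResidueField.lift_residue_apply, hf]⟩⟩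

@[simp] theorem resEquiv_residue (c : F) (f : ↥(placeAt c)) :
    resEquiv c (IsLocalRing.residue ↥(placeAt c) f) = evalAt c f := by
  show IsLocalRing.ResidueField.lift (evalAt c) (IsLocalRing.residue ↥(placeAt c) f) = evalAt c f
  exact IsLocalRing.ResidueField.lift_residue_apply _ f

theorem resEquiv_symm_evalAt (c : F) (f : ↥(placeAt c)) :
    (resEquiv c).symm (evalAt c f) = IsLocalRing.residue ↥(placeAt c) f := by
  rw [← resEquiv_residue, RingEquiv.symm_apply_apply]

/-- the valuation of a nonzero constant is `1`. -/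
theorem valuation_C_eq_one (c : F) {a : F} (ha : a ≠ 0) :
    (placeAt c).valuation (algebraMap F[X] (RatFunc F) (Polynomial.C a)) = 1 := by
  have hu : IsUnit (polyTo c (Polynomial.C a)) := by
    rw [isUnit_iff_evalAt_ne_zero, evalAt_C]
    exact ha
  exact (ValuationSubring.valuation_eq_one_iff (placeAt c) (polyTo c (Polynomial.C a))).mp hu

end Fermat.Agent.ES.U52.SpecPlace12
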