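/-
Programme U (S52), chapter SPEC, S3 (helper15): **the family over `ℤ[T]`, its generic fibre over
`ℚ̄(T)`, its models at the places `T = c` (`c ∈ ℤ`) and its fibres over `ℚ̄`**.

`C4, C6 : ℤ[X]`.  Everything is a `map` of the one curve
`EZ C4 C6 : y² = x³ - 27·C4·x - 54·C6` over `ℤ[X]`:

* `EK C4 C6 = (EZ C4 C6).map iota` over `K = RatFunc ℚ̄` (`iota : ℤ[X] →+* K`);
* `WAt C4 C6 c = (EZ C4 C6).map (iotaAt c)` over `placeAt c` (`SpecPlace12`), with
  `WK (placeAt c) (WAt C4 C6 c) = (EK C4 C6).toAffine` (`WK_WAt`);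
* the fibre `(WAt C4 C6 c).map (evalAt c)` over `ℚ̄` IS the Prelude-form curve
  `((shortW (C4.eval c) (C6.eval c)).map (Int.castRingHom ℚ))⁄ℚ̄` (`fibre_eq`);
* `isUnit_Δ_WAt` : `C4(c)³ ≠ C6(c)²` ⇒ the model at `T = c` has unit discriminant;
* `valuation_five` : `5` is a unit at every place `T = c`.
-/
import Mathlib
import Fermat.Agent.ES.U52.SpecPlace12
import Fermat.Agent.ES.U52.KeyLemma15
import Fermat.Agent.ES.Q58.RedHom18

set_option autoImplicit false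

open WeierstrassCurve WeierstrassCurve.Affine Polynomial

namespace Fermat.Agent.ES.U52.SpecFibre15

open Fermat.Agent.ES.U52.SpecPlace12 Fermat.Agent.ES.U52.KeyLemma15
  Fermat.Agent.ES.Q58.RedHom18

local notation "Qbar" => AlgebraicClosure ℚ

/-- The family over `ℤ[T]`. -/
noncomputable def EZ (C4 C6 : ℤ[X]) : WeierstrassCurve ℤ[X] := ⟨0, 0, 0, -27 * C4, -54 * C6⟩

/-- `ℤ[T] → ℚ̄(T)`. -/
noncomputable def iota : ℤ[X] →+* RatFunc Qbar :=
  (algebraMap Qbar[X] (RatFunc Qbar)).comp (Polynomial.mapRingHom (Int.castRingHom Qbar))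

/-- The generic fibre over `ℚ̄(T)`. -/
noncomputable def EK (C4 C6 : ℤ[X]) : WeierstrassCurve (RatFunc Qbar) := (EZ C4 C6).map iota

/-- `ℤ[T] →` the local ring of `T = c`. -/
noncomputable def iotaAt (c : ℤ) : ℤ[X] →+* ↥(placeAt ((c : ℤ) : Qbar)) :=
  (polyTo ((c : ℤ) : Qbar)).comp (Polynomial.mapRingHom (Int.castRingHom Qbar))

theorem coe_iotaAt (c : ℤ) (p : ℤ[X]) : ((iotaAt c p : ↥(placeAt ((c : ℤ) : Qbar))) : RatFunc Qbar)
    = iota p := rfl

/-- The model at the place `T = c`. -/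
noncomputable def WAt (C4 C6 : ℤ[X]) (c : ℤ) : WeierstrassCurve ↥(placeAt ((c : ℤ) : Qbar)) :=
  (EZ C4 C6).map (iotaAt c)

theorem WK_WAt (C4 C6 : ℤ[X]) (c : ℤ) :
    WK (placeAt ((c : ℤ) : Qbar)) (WAt C4 C6 c) = (EK C4 C6).toAffine := by
  show ((WAt C4 C6 c).map (placeAt ((c : ℤ) : Qbar)).subtype).toAffine = (EK C4 C6).toAffine
  rw [WAt, EK, WeierstrassCurve.map_map]
  rfl

/-- evaluation at `c` on `ℤ[T]`, with values in `ℚ̄`. -/
theorem evalAt_iotaAt (c : ℤ) (p : ℤ[X]) :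
    evalAt ((c : ℤ) : Qbar) (iotaAt c p) = ((p.eval c : ℤ) : Qbar) := by
  show evalAt ((c : ℤ) : Qbar) (polyTo ((c : ℤ) : Qbar) (p.map (Int.castRingHom Qbar))) = _
  rw [evalAt_polyTo, eval_intCast_map]
  rfl

theorem EZ_map_eval (C4 C6 : ℤ[X]) (c : ℤ) :
    (EZ C4 C6).map (Polynomial.evalRingHom c) = shortW (C4.eval c) (C6.eval c) := by
  ext <;> simp [EZ, shortW]

/-- **The fibre at `T = c` is the Prelude-form curve.** -/
theorem fibre_eq (C4 C6 : ℤ[X]) (c : ℤ) :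
    ((WAt C4 C6 c).map (evalAt ((c : ℤ) : Qbar))).toAffine
      = (((shortW (C4.eval c) (C6.eval c)).map (Int.castRingHom ℚ))⁄Qbar) := by
  have h1 : (evalAt ((c : ℤ) : Qbar)).comp (iotaAt c)
      = (Int.castRingHom Qbar).comp (Polynomial.evalRingHom c) := by
    ext p
    · simp
    · simp [evalAt_iotaAt]
  have h2 : (algebraMap ℚ Qbar).comp (Int.castRingHom ℚ) = Int.castRingHom Qbar :=
    RingHom.ext_int _ _
  show ((WAt C4 C6 c).map (evalAt ((c : ℤ) : Qbar))).toAffine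
    = (((shortW (C4.eval c) (C6.eval c)).map (Int.castRingHom ℚ)).map (algebraMap ℚ Qbar)).toAffine
  rw [WAt, WeierstrassCurve.map_map, h1, WeierstrassCurve.map_map, h2, ← EZ_map_eval,
    WeierstrassCurve.map_map]

/-- The discriminant of the model at `T = c` is a unit when the fibre is nonsingular. -/
theorem isUnit_Δ_WAt (C4 C6 : ℤ[X]) (c : ℤ) (hc : (C4.eval c) ^ 3 ≠ (C6.eval c) ^ 2) :
    IsUnit (WAt C4 C6 c).Δ := by
  rw [isUnit_iff_evalAt_ne_zero, WAt, WeierstrassCurve.map_Δ, evalAt_iotaAt]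
  have h1 : ((EZ C4 C6).Δ).eval c = (shortW (C4.eval c) (C6.eval c)).Δ := by
    rw [← EZ_map_eval, WeierstrassCurve.map_Δ]
    rfl
  rw [h1, shortW_Δ]
  have : (1259712 * ((C4.eval c) ^ 3 - (C6.eval c) ^ 2) : ℤ) ≠ 0 :=
    mul_ne_zero (by norm_num) (sub_ne_zero.mpr hc)
  exact_mod_cast this

/-- `5` (any nonzero natural number) is a unit at the place `T = c`. -/
theorem valuation_natCast (c : Qbar) {n : ℕ} (hn : n ≠ 0) :
    (placeAt c).valuation (((n : ℕ) : RatFunc Qbar)) = 1 := by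
  have h := valuation_C_eq_one c (a := ((n : ℕ) : Qbar)) (by exact_mod_cast hn)
  have e : algebraMap Qbar[X] (RatFunc Qbar) (Polynomial.C ((n : ℕ) : Qbar))
      = ((n : ℕ) : RatFunc Qbar) := by
    rw [Polynomial.C_eq_natCast, map_natCast]
  rw [e] at h
  exact h

end Fermat.Agent.ES.U52.SpecFibre15
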