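/-
Programme U (S52, the 3–5 switch), chapter SPEC (helper12): **the coefficientwise action of field
automorphisms on `F(T)` and its compatibility with the place `T = c`**.

For a ring endomorphism `σ : F →+* F` of a field `F`:

* `mapK σ : RatFunc F →+* RatFunc F` : `σ` applied to the coefficients (`T ↦ T`);
  `mapK_algebraMap`, `mapK_div`, `mapK_apply`, `mapK_C`, `mapK_X`, `mapK_id`, `mapK_comp`,
  `mapK_intPoly` (polynomials with integer coefficients are fixed);
* if `σ c = c`: `mapK_mem_placeAt` (`mapK σ` preserves the functions regular at `c`) and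
  **`evalAt_mapK : evalAt c (mapK σ f) = σ (evalAt c f)`**, `resEquiv_mapK`;
* for an automorphism `σ : F ≃+* F`: `mapK_symm_mapK`, `mapK_mapK_symm`, the ring automorphism
  `mapKEquiv σ` and `mapK_mem_placeAt_iff`.
-/
import Mathlib
import Fermat.Agent.ES.U52.SpecPlace12

set_option autoImplicit false

open Polynomial

namespace Fermat.Agent.ES.U52.SpecGal12

open Fermat.Agent.ES.U52.SpecPlace12

variable {F : Type*} [Field F]

theorem comap_le (σ : F →+* F) :
    nonZeroDivisors F[X] ≤ Submonoid.comap (Polynomial.mapRingHom σ) (nonZeroDivisors F[X]) :=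
  nonZeroDivisors_le_comap_nonZeroDivisors_of_injective _
    (Polynomial.map_injective σ σ.injective)

/-- `σ` applied to the coefficients of a rational function. -/
noncomputable def mapK (σ : F →+* F) : RatFunc F →+* RatFunc F :=
  RatFunc.mapRingHom (Polynomial.mapRingHom σ) (comap_le σ)

theorem mapK_div (σ : F →+* F) (p q : F[X]) :
    mapK σ (algebraMap F[X] (RatFunc F) p / algebraMap F[X] (RatFunc F) q)
      = algebraMap F[X] (RatFunc F) (p.map σ) / algebraMap F[X] (RatFunc F) (q.map σ) := by
  show RatFunc.mapRingHom (Polynomial.mapRingHom σ) (comap_le σ) _ = _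
  rw [RatFunc.coe_mapRingHom_eq_coe_map, RatFunc.map_apply_div]
  rfl

theorem mapK_algebraMap (σ : F →+* F) (p : F[X]) :
    mapK σ (algebraMap F[X] (RatFunc F) p) = algebraMap F[X] (RatFunc F) (p.map σ) := by
  have h := mapK_div σ p 1
  rw [map_one, div_one, Polynomial.map_one, map_one, div_one] at h
  exact h

theorem mapK_apply (σ : F →+* F) (f : RatFunc F) :
    mapK σ f = algebraMap F[X] (RatFunc F) ((RatFunc.num f).map σ)
      / algebraMap F[X] (RatFunc F) ((RatFunc.denom f).map σ) := by
  conv_lhs => rw [← RatFunc.num_div_denom f]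
  exact mapK_div σ _ _

theorem mapK_C (σ : F →+* F) (a : F) :
    mapK σ (algebraMap F[X] (RatFunc F) (Polynomial.C a))
      = algebraMap F[X] (RatFunc F) (Polynomial.C (σ a)) := by
  rw [mapK_algebraMap, Polynomial.map_C]

theorem mapK_X (σ : F →+* F) :
    mapK σ (algebraMap F[X] (RatFunc F) Polynomial.X) = algebraMap F[X] (RatFunc F) Polynomial.X := by
  rw [mapK_algebraMap, Polynomial.map_X]

/-- polynomials with integer coefficients are fixed. -/
theorem mapK_intPoly (σ : F →+* F) (p : ℤ[X]) :
    mapK σ (algebraMap F[X] (RatFunc F) (p.map (Int.castRingHom F)))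
      = algebraMap F[X] (RatFunc F) (p.map (Int.castRingHom F)) := by
  rw [mapK_algebraMap, Polynomial.map_map]
  congr 2
  exact RingHom.ext_int _ _

theorem mapK_id (f : RatFunc F) : mapK (RingHom.id F) f = f := by
  rw [mapK_apply, Polynomial.map_id, Polynomial.map_id, RatFunc.num_div_denom]

theorem mapK_comp (σ τ : F →+* F) (f : RatFunc F) :
    mapK σ (mapK τ f) = mapK (σ.comp τ) f := by
  rw [mapK_apply τ f, mapK_div, Polynomial.map_map, Polynomial.map_map, ← mapK_div,
    RatFunc.num_div_denom]

/-! ### Compatibility with the place `T = c` -/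

theorem eval_map_of_fix (σ : F →+* F) {c : F} (hc : σ c = c) (p : F[X]) :
    (p.map σ).eval c = σ (p.eval c) := by
  conv_lhs => rw [← hc]
  rw [Polynomial.eval_map, Polynomial.eval₂_at_apply]

/-- `mapK σ` preserves the rational functions regular at a point `c` fixed by `σ`. -/
theorem mapK_mem_placeAt (σ : F →+* F) {c : F} (hc : σ c = c) {f : RatFunc F}
    (hf : f ∈ placeAt c) : mapK σ f ∈ placeAt c := by
  rw [mapK_apply]
  refine div_mem_placeAt _ ?_
  rw [eval_map_of_fix σ hc]
  exact (map_ne_zero σ).mpr hf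

/-- **evaluation at a fixed point commutes with the coefficientwise action.** -/
theorem evalAt_mapK (σ : F →+* F) {c : F} (hc : σ c = c) (f : ↥(placeAt c)) :
    evalAt c ⟨mapK σ (f : RatFunc F), mapK_mem_placeAt σ hc f.2⟩ = σ (evalAt c f) := by
  have hd : ((RatFunc.denom (f : RatFunc F)).map σ).eval c ≠ 0 := by
    rw [eval_map_of_fix σ hc]
    exact (map_ne_zero σ).mpr f.2
  have e : (⟨mapK σ (f : RatFunc F), mapK_mem_placeAt σ hc f.2⟩ : ↥(placeAt c))
      = ⟨algebraMap F[X] (RatFunc F) ((RatFunc.num (f : RatFunc F)).map σ)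
        / algebraMap F[X] (RatFunc F) ((RatFunc.denom (f : RatFunc F)).map σ),
        div_mem_placeAt _ hd⟩ := Subtype.ext (mapK_apply σ _)
  rw [e, evalAt_div _ hd, eval_map_of_fix σ hc, eval_map_of_fix σ hc, evalAt_eq, map_div₀]

theorem resEquiv_mapK (σ : F →+* F) {c : F} (hc : σ c = c) (f : ↥(placeAt c)) :
    resEquiv c (IsLocalRing.residue ↥(placeAt c)
        ⟨mapK σ (f : RatFunc F), mapK_mem_placeAt σ hc f.2⟩)
      = σ (resEquiv c (IsLocalRing.residue ↥(placeAt c) f)) := by
  rw [resEquiv_residue, resEquiv_residue, evalAt_mapK σ hc]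

/-! ### Automorphisms -/

theorem mapK_symm_mapK (σ : F ≃+* F) (f : RatFunc F) :
    mapK (σ.symm : F →+* F) (mapK (σ : F →+* F) f) = f := by
  rw [mapK_comp]
  have : (σ.symm : F →+* F).comp (σ : F →+* F) = RingHom.id F := by
    ext x
    simp
  rw [this, mapK_id]

theorem mapK_mapK_symm (σ : F ≃+* F) (f : RatFunc F) :
    mapK (σ : F →+* F) (mapK (σ.symm : F →+* F) f) = f := by
  rw [mapK_comp]
  have : (σ : F →+* F).comp (σ.symm : F →+* F) = RingHom.id F := by
    ext x
    simp
  rw [this, mapK_id]

/-- the ring automorphism of `F(T)` induced by an automorphism of `F`. -/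
noncomputable def mapKEquiv (σ : F ≃+* F) : RatFunc F ≃+* RatFunc F :=
  RingEquiv.ofRingHom (mapK (σ : F →+* F)) (mapK (σ.symm : F →+* F))
    (RingHom.ext (mapK_mapK_symm σ)) (RingHom.ext (mapK_symm_mapK σ))

@[simp] theorem mapKEquiv_apply (σ : F ≃+* F) (f : RatFunc F) :
    mapKEquiv σ f = mapK (σ : F →+* F) f := rfl

theorem mapK_mem_placeAt_iff (σ : F ≃+* F) {c : F} (hc : σ c = c) {f : RatFunc F} :
    mapK (σ : F →+* F) f ∈ placeAt c ↔ f ∈ placeAt c := by
  constructor
  · intro h
    have hc' : (σ.symm : F →+* F) c = c := by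
      show σ.symm c = c
      rw [RingEquiv.symm_apply_eq]
      exact hc.symm
    have := mapK_mem_placeAt (σ.symm : F →+* F) hc' h
    rwa [mapK_symm_mapK] at this
  · exact mapK_mem_placeAt (σ : F →+* F) hc

end Fermat.Agent.ES.U52.SpecGal12
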