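/-
Programme U (S52), chapter SPEC, abstract layer (helper15): **specialisation of torsion points at a
place with an arbitrary presentation of the residue field**.

`A` a valuation subring of a field `K`, `WA` a Weierstrass curve over `A` with unit discriminant, and
`k` a field which is an `A`-algebra with SURJECTIVE structure map `e = algebraMap A k` (then `e` kills
exactly the nonunits and `k` is the residue field of `A`).  Main's `Q58.RedHom18.red` composed with the
induced isomorphism `ResidueField A ≅ k` gives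

* `sp : WK(K) → (WA ⊗ k)(k)`, `sp_zero`, `sp_some` (`sp (x, y) = (e x, e y)` for `x, y ∈ A`),
* on the `n`-torsion (`n` odd, `n ∈ Aˣ`): `coords_of_torsion` (integral coordinates), `sp_add`,
  `sp_nsmul`, `sp_injOn`.

Instance in view: `K = ℚ̄(T)`, `A` = the local ring of `T = c`, `k = ℚ̄`, `e` = evaluation at `c`.
-/
import Mathlib
import Fermat.Agent.ES.Q58.RedHom18

set_option autoImplicit false

open WeierstrassCurve WeierstrassCurve.Affine

namespace Fermat.Agent.ES.U52.SpecRed15

open Fermat.Agent.S05.Kernel Fermat.Agent.ES.Q58.RedHom18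

section Residue

variable {K : Type*} [Field K] (A : ValuationSubring K) (k : Type*) [Field k] [Algebra ↥A k]

/-- A surjective structure map from a valuation ring onto a field kills exactly the nonunits. -/
theorem algebraMap_eq_zero_iff (he : Function.Surjective (algebraMap ↥A k)) (a : ↥A) :
    algebraMap ↥A k a = 0 ↔ ¬ IsUnit a := by
  constructor
  · intro h hu
    have := hu.map (algebraMap ↥A k)
    rw [h] at this
    exact not_isUnit_zero this
  · intro hnu
    have hmax : (RingHom.ker (algebraMap ↥A k)).IsMaximal :=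
      RingHom.ker_isMaximal_of_surjective _ he
    have hker : RingHom.ker (algebraMap ↥A k) = IsLocalRing.maximalIdeal ↥A :=
      IsLocalRing.eq_maximalIdeal hmax
    have ha : a ∈ IsLocalRing.maximalIdeal ↥A := (IsLocalRing.mem_maximalIdeal a).mpr hnu
    rw [← hker] at ha
    exact ha

/-- The induced map from the residue field. -/
noncomputable def resAlgHom (he : Function.Surjective (algebraMap ↥A k)) :
    IsLocalRing.ResidueField ↥A →ₐ[↥A] k :=
  Ideal.Quotient.liftₐ (IsLocalRing.maximalIdeal ↥A) (Algebra.ofId ↥A k)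
    (fun a ha => (algebraMap_eq_zero_iff A k he a).mpr ((IsLocalRing.mem_maximalIdeal a).mp ha))

theorem resAlgHom_residue (he : Function.Surjective (algebraMap ↥A k)) (a : ↥A) :
    resAlgHom A k he (IsLocalRing.residue ↥A a) = algebraMap ↥A k a := rfl

/-- An element of `A` with nonzero image in `k` has valuation `1`. -/
theorem valuation_eq_one_of_algebraMap_ne_zero (he : Function.Surjective (algebraMap ↥A k))
    {a : ↥A} (ha : algebraMap ↥A k a ≠ 0) : A.valuation (a : K) = 1 := by
  have hu : IsUnit a := by
    by_contra hnu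
    exact ha ((algebraMap_eq_zero_iff A k he a).mpr hnu)
  exact val_eq_one_of_isUnit hu

/-- A natural number which is nonzero in `k` has valuation `1`. -/
theorem valuation_natCast_eq_one (he : Function.Surjective (algebraMap ↥A k)) {n : ℕ}
    (hn : (n : k) ≠ 0) : A.valuation ((n : ℕ) : K) = 1 := by
  have h := valuation_eq_one_of_algebraMap_ne_zero A k he (a := (n : ↥A)) (by rwa [map_natCast])
  simpa using h

end Residue

section Sp

variable {K : Type*} [Field K] (A : ValuationSubring K) (WA : WeierstrassCurve ↥A)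
  (k : Type*) [Field k] [DecidableEq k] [Algebra ↥A k]
  (he : Function.Surjective (algebraMap ↥A k)) (hΔ : IsUnit WA.Δ)

/-- Main's reduction map, with values in the base change to the residue field. -/
noncomputable def redF : (WK A WA).Point → (WA.toAffine⁄(IsLocalRing.ResidueField ↥A)).Point :=
  red hΔ

open Classical in
/-- **Specialisation of points.** -/
noncomputable def sp : (WK A WA).Point → (WA.toAffine⁄k).Point := fun P =>
  Point.map (W' := WA.toAffine) (resAlgHom A k he) (redF A WA hΔ P)

theorem sp_zero : sp A WA k he hΔ 0 = 0 := by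
  classical
  have h0 : redF A WA hΔ 0 = 0 := red_zero hΔ
  rw [sp, h0]
  rfl

/-- On a point with coordinates in `A`, specialisation is coordinatewise. -/
theorem sp_some {x y : K} (h : (WK A WA).Nonsingular x y) (x' y' : ↥A)
    (hx : x = (x' : K)) (hy : y = (y' : K)) :
    ∃ h' : (WA.toAffine⁄k).Nonsingular (algebraMap ↥A k x') (algebraMap ↥A k y'),
      sp A WA k he hΔ (Point.some x y h) =
        Point.some (algebraMap ↥A k x') (algebraMap ↥A k y') h' := by
  classical
  have hres : (WA.toAffine⁄(IsLocalRing.ResidueField ↥A)).Nonsingular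
      (IsLocalRing.residue ↥A x') (IsLocalRing.residue ↥A y') :=
    nonsingular_res hΔ (by rw [← hx, ← hy]; exact h.1)
  have h1 : redF A WA hΔ (Point.some x y h) =
      Point.some (IsLocalRing.residue ↥A x') (IsLocalRing.residue ↥A y') hres :=
    red_some_eq hΔ h x' y' hx hy
  have h' : (WA.toAffine⁄k).Nonsingular (algebraMap ↥A k x') (algebraMap ↥A k y') :=
    (Affine.baseChange_nonsingular WA.toAffine
      (f := resAlgHom A k he) (resAlgHom A k he).toRingHom.injective
      (IsLocalRing.residue ↥A x') (IsLocalRing.residue ↥A y')).mpr hres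
  refine ⟨h', ?_⟩
  rw [sp, h1, Point.map_some]
  rfl

variable [DecidableEq K]

/-- The `n`-torsion subgroup of the `K`-points. -/
def torsK (n : ℕ) : AddSubgroup (WK A WA).Point := (nsmulAddMonoidHom (α := (WK A WA).Point) n).ker

theorem mem_torsK {n : ℕ} {P : (WK A WA).Point} : P ∈ torsK A WA n ↔ n • P = 0 :=
  AddMonoidHom.mem_ker

theorem torsK_hT1 {n : ℕ} (hval : A.valuation ((n : ℕ) : K) = 1) :
    ∀ P ∈ torsK A WA n, InE1 A.valuation P → P = 0 := fun _ hP hE =>
  eq_zero_of_nsmul_eq_zero integralCoeffs hE hval ((mem_torsK A WA).mp hP)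

theorem torsK_hT2 {n : ℕ} (hn : Odd n) : ∀ P ∈ torsK A WA n, P + P = 0 → P = 0 := by
  intro P hP h2
  obtain ⟨m, rfl⟩ := hn
  have h := (mem_torsK A WA).mp hP
  rw [add_smul, one_smul, mul_comm, mul_smul, two_nsmul, h2, nsmul_zero, zero_add] at h
  exact h

/-- Nonzero torsion points of odd order prime to the residue characteristic have coordinates
in `A`. -/
theorem coords_of_torsion (hΔ : IsUnit WA.Δ) {n : ℕ} (hn : Odd n)
    (hval : A.valuation ((n : ℕ) : K) = 1)
    {P : (WK A WA).Point} (hP : n • P = 0) (h0 : P ≠ 0) :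
    ∃ (x y : ↥A) (h : (WK A WA).Nonsingular (x : K) (y : K)), P = Point.some (x : K) (y : K) h := by
  obtain ⟨x, y, h, hP', -⟩ := coords_of_mem hΔ (torsK A WA n) (torsK_hT1 A WA hval)
    (torsK_hT2 A WA hn) ((mem_torsK A WA).mpr hP) h0
  exact ⟨x, y, h, hP'⟩

open Classical in
theorem redF_add {n : ℕ} (hn : Odd n) (hval : A.valuation ((n : ℕ) : K) = 1)
    {P Q : (WK A WA).Point} (hP : n • P = 0) (hQ : n • Q = 0) :
    redF A WA hΔ (P + Q) = redF A WA hΔ P + redF A WA hΔ Q :=
  red_add hΔ (torsK A WA n) (torsK_hT1 A WA hval) (torsK_hT2 A WA hn)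
    ((mem_torsK A WA).mpr hP) ((mem_torsK A WA).mpr hQ)

/-- Specialisation is additive on the `n`-torsion. -/
theorem sp_add {n : ℕ} (hn : Odd n) (hval : A.valuation ((n : ℕ) : K) = 1)
    {P Q : (WK A WA).Point} (hP : n • P = 0) (hQ : n • Q = 0) :
    sp A WA k he hΔ (P + Q) = sp A WA k he hΔ P + sp A WA k he hΔ Q := by
  classical
  rw [sp, sp, sp, redF_add A WA hΔ hn hval hP hQ, map_add]

/-- Specialisation is injective on the `n`-torsion. -/
theorem sp_injOn {n : ℕ} (hn : Odd n) (hval : A.valuation ((n : ℕ) : K) = 1)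
    {P Q : (WK A WA).Point} (hP : n • P = 0) (hQ : n • Q = 0)
    (h : sp A WA k he hΔ P = sp A WA k he hΔ Q) : P = Q := by
  classical
  rw [sp, sp] at h
  have h1 : redF A WA hΔ P = redF A WA hΔ Q :=
    Point.map_injective (W' := WA.toAffine) (resAlgHom A k he) h
  exact red_injOn hΔ (torsK A WA n) (torsK_hT1 A WA hval) (torsK_hT2 A WA hn)
    ((mem_torsK A WA).mpr hP) ((mem_torsK A WA).mpr hQ) h1

/-- Specialisation commutes with multiples on the `n`-torsion. -/
theorem sp_nsmul {n : ℕ} (hn : Odd n) (hval : A.valuation ((n : ℕ) : K) = 1)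
    {P : (WK A WA).Point} (hP : n • P = 0) (m : ℕ) :
    sp A WA k he hΔ (m • P) = m • sp A WA k he hΔ P := by
  induction m with
  | zero => rw [zero_nsmul, zero_nsmul, sp_zero]
  | succ m ih =>
    have hmP : n • (m • P) = 0 := by rw [smul_comm, hP, smul_zero]
    rw [succ_nsmul, succ_nsmul, sp_add A WA k he hΔ hn hval hmP hP, ih]

/-- The specialisation of an `n`-torsion point is `n`-torsion. -/
theorem nsmul_sp_eq_zero {n : ℕ} (hn : Odd n) (hval : A.valuation ((n : ℕ) : K) = 1)
    {P : (WK A WA).Point} (hP : n • P = 0) : n • sp A WA k he hΔ P = 0 := by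
  rw [← sp_nsmul A WA k he hΔ hn hval hP, hP, sp_zero]

end Sp

end Fermat.Agent.ES.U52.SpecRed15
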