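/-
Programme U (S52), chapter SPEC, S4–S5 (helper15): **specialisation at `T = c` of the `5`-torsion of
the generic fibre, with values in the Prelude-form fibre, and its Galois equivariance**.

`C4, C6 : ℤ[X]`, `c : ℤ` with `C4(c)³ ≠ C6(c)²`.  With `SpecRed15.sp` at the place `placeAt c`
(`SpecPlace12`) and the identifications of `SpecFibre15`:

* `spAt C4 C6 c hc : (EK C4 C6)(ℚ̄(T)) → Pt (shortW (C4 c) (C6 c))`, `spAt_zero`;
* `spAt_some` : on a point with coordinates regular at `c`, `spAt` evaluates the coordinates at `c`;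
  `spAt_poly` : on a point with polynomial coordinates `(p, q)`, `spAt = (p(c), q(c))`;
* on the `5`-torsion: `spAt_add`, `spAt_injOn`, `five_nsmul_spAt`;
* `galPt σ` : the coefficientwise action of `σ ∈ Gal(ℚ̄/ℚ)` on `(EK C4 C6)(ℚ̄(T))` (additive), and
  `spAt_galPt` : `spAt (galPt σ S) = σ • spAt S` on the `5`-torsion.
-/
import Mathlib
import Fermat.Agent.ES.U52.SpecRed15
import Fermat.Agent.ES.U52.SpecFibre15
import Fermat.Agent.ES.U52.SpecGal12
import Fermat.Agent.ES.Q58.RedInst18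

set_option autoImplicit false

open WeierstrassCurve WeierstrassCurve.Affine Polynomial

namespace Fermat.Agent.ES.U52.SpecAt15

open Fermat.Agent.ES.U52.SpecPlace12 Fermat.Agent.ES.U52.SpecGal12 Fermat.Agent.ES.U52.SpecRed15
  Fermat.Agent.ES.U52.SpecFibre15 Fermat.Agent.ES.U52.KeyLemma15
  Fermat.Agent.ES.Q58.RedHom18 Fermat.Agent.ES.Q58.RedInst18

local notation "Qbar" => AlgebraicClosure ℚ

/-- `ℚ̄` as an algebra over the local ring of `T = c`, through evaluation at `c`. -/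
@[reducible] noncomputable def algAt (c : ℤ) : Algebra ↥(placeAt ((c : ℤ) : Qbar)) Qbar :=
  (evalAt ((c : ℤ) : Qbar)).toAlgebra

attribute [local instance] algAt

theorem algebraMap_algAt (c : ℤ) :
    algebraMap ↥(placeAt ((c : ℤ) : Qbar)) Qbar = evalAt ((c : ℤ) : Qbar) := rfl

theorem surjective_algAt (c : ℤ) :
    Function.Surjective (algebraMap ↥(placeAt ((c : ℤ) : Qbar)) Qbar) :=
  evalAt_surjective _

section Raw

variable (C4 C6 : ℤ[X]) (c : ℤ) (hc : (C4.eval c) ^ 3 ≠ (C6.eval c) ^ 2)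

/-- `SpecRed15.sp` at the place `T = c`, with values in the `map` spelling of the fibre. -/
noncomputable def spRaw : (WK (placeAt ((c : ℤ) : Qbar)) (WAt C4 C6 c)).Point →
    ((WAt C4 C6 c).map (evalAt ((c : ℤ) : Qbar))).toAffine.Point :=
  sp (placeAt ((c : ℤ) : Qbar)) (WAt C4 C6 c) Qbar (surjective_algAt c) (isUnit_Δ_WAt C4 C6 c hc)

theorem spRaw_zero : spRaw C4 C6 c hc 0 = 0 :=
  sp_zero (placeAt ((c : ℤ) : Qbar)) (WAt C4 C6 c) Qbar (surjective_algAt c)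
    (isUnit_Δ_WAt C4 C6 c hc)

theorem spRaw_some {x y : RatFunc Qbar}
    (h : (WK (placeAt ((c : ℤ) : Qbar)) (WAt C4 C6 c)).Nonsingular x y)
    (x' y' : ↥(placeAt ((c : ℤ) : Qbar))) (hx : x = (x' : RatFunc Qbar))
    (hy : y = (y' : RatFunc Qbar)) :
    ∃ h' : ((WAt C4 C6 c).map (evalAt ((c : ℤ) : Qbar))).toAffine.Nonsingular
        (evalAt ((c : ℤ) : Qbar) x') (evalAt ((c : ℤ) : Qbar) y'),
      spRaw C4 C6 c hc (Point.some x y h) =
        Point.some (evalAt ((c : ℤ) : Qbar) x') (evalAt ((c : ℤ) : Qbar) y') h' :=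
  sp_some (placeAt ((c : ℤ) : Qbar)) (WAt C4 C6 c) Qbar (surjective_algAt c)
    (isUnit_Δ_WAt C4 C6 c hc) h x' y' hx hy

theorem val5 : (placeAt ((c : ℤ) : Qbar)).valuation (((5 : ℕ) : ℕ) : RatFunc Qbar) = 1 :=
  valuation_natCast _ (by norm_num)

variable [DecidableEq (RatFunc Qbar)]

theorem spRaw_add {P Q : (WK (placeAt ((c : ℤ) : Qbar)) (WAt C4 C6 c)).Point}
    (hP : 5 • P = 0) (hQ : 5 • Q = 0) :
    spRaw C4 C6 c hc (P + Q) = spRaw C4 C6 c hc P + spRaw C4 C6 c hc Q :=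
  sp_add (placeAt ((c : ℤ) : Qbar)) (WAt C4 C6 c) Qbar (surjective_algAt c)
    (isUnit_Δ_WAt C4 C6 c hc) (by decide) (val5 c) hP hQ

theorem spRaw_injOn {P Q : (WK (placeAt ((c : ℤ) : Qbar)) (WAt C4 C6 c)).Point}
    (hP : 5 • P = 0) (hQ : 5 • Q = 0) (h : spRaw C4 C6 c hc P = spRaw C4 C6 c hc Q) : P = Q :=
  sp_injOn (placeAt ((c : ℤ) : Qbar)) (WAt C4 C6 c) Qbar (surjective_algAt c)
    (isUnit_Δ_WAt C4 C6 c hc) (by decide) (val5 c) hP hQ h

include hc in
theorem coords_raw {P : (WK (placeAt ((c : ℤ) : Qbar)) (WAt C4 C6 c)).Point}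
    (hP : 5 • P = 0) (h0 : P ≠ 0) :
    ∃ (x y : ↥(placeAt ((c : ℤ) : Qbar)))
      (h : (WK (placeAt ((c : ℤ) : Qbar)) (WAt C4 C6 c)).Nonsingular (x : RatFunc Qbar)
        (y : RatFunc Qbar)), P = Point.some (x : RatFunc Qbar) (y : RatFunc Qbar) h :=
  coords_of_torsion (placeAt ((c : ℤ) : Qbar)) (WAt C4 C6 c) (isUnit_Δ_WAt C4 C6 c hc)
    (by decide) (val5 c) hP h0

end Raw

variable [DecidableEq (RatFunc Qbar)]

/-- **Specialisation at `T = c`**, from the generic fibre to the Prelude-form fibre. -/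
noncomputable def spAt (C4 C6 : ℤ[X]) (c : ℤ) (hc : (C4.eval c) ^ 3 ≠ (C6.eval c) ^ 2) :
    (EK C4 C6).toAffine.Point →
      (((shortW (C4.eval c) (C6.eval c)).map (Int.castRingHom ℚ))⁄Qbar).Point := fun S =>
  castPt (fibre_eq C4 C6 c) (spRaw C4 C6 c hc (castPt (WK_WAt C4 C6 c).symm S))

variable (C4 C6 : ℤ[X]) (c : ℤ) (hc : (C4.eval c) ^ 3 ≠ (C6.eval c) ^ 2)

theorem spAt_zero : spAt C4 C6 c hc 0 = 0 := by
  rw [spAt, castPt_zero, spRaw_zero, castPt_zero]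

/-- On a point with coordinates regular at `c`, `spAt` evaluates the coordinates. -/
theorem spAt_some {x y : RatFunc Qbar} (h : (EK C4 C6).toAffine.Nonsingular x y)
    (hx : x ∈ placeAt ((c : ℤ) : Qbar)) (hy : y ∈ placeAt ((c : ℤ) : Qbar)) :
    ∃ h' : (((shortW (C4.eval c) (C6.eval c)).map (Int.castRingHom ℚ))⁄Qbar).Nonsingular
        (evalAt ((c : ℤ) : Qbar) ⟨x, hx⟩) (evalAt ((c : ℤ) : Qbar) ⟨y, hy⟩),
      spAt C4 C6 c hc (Point.some x y h) =
        Point.some (evalAt ((c : ℤ) : Qbar) ⟨x, hx⟩) (evalAt ((c : ℤ) : Qbar) ⟨y, hy⟩) h' := by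
  have h1 : (WK (placeAt ((c : ℤ) : Qbar)) (WAt C4 C6 c)).Nonsingular x y :=
    (WK_WAt C4 C6 c).symm ▸ h
  obtain ⟨h', e⟩ := spRaw_some C4 C6 c hc h1 ⟨x, hx⟩ ⟨y, hy⟩ rfl rfl
  refine ⟨(fibre_eq C4 C6 c) ▸ h', ?_⟩
  rw [spAt, castPt_some, e, castPt_some]

/-- On a point with polynomial coordinates, `spAt` evaluates the polynomials at `c`. -/
theorem spAt_poly {p q : Qbar[X]}
    (h : (EK C4 C6).toAffine.Nonsingular (algebraMap Qbar[X] (RatFunc Qbar) p)
      (algebraMap Qbar[X] (RatFunc Qbar) q)) :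
    ∃ h' : (((shortW (C4.eval c) (C6.eval c)).map (Int.castRingHom ℚ))⁄Qbar).Nonsingular
        (p.eval ((c : ℤ) : Qbar)) (q.eval ((c : ℤ) : Qbar)),
      spAt C4 C6 c hc (Point.some _ _ h) =
        Point.some (p.eval ((c : ℤ) : Qbar)) (q.eval ((c : ℤ) : Qbar)) h' := by
  obtain ⟨h', e⟩ := spAt_some C4 C6 c hc h (algebraMap_mem_placeAt _ p) (algebraMap_mem_placeAt _ q)
  have ep : evalAt ((c : ℤ) : Qbar) ⟨algebraMap Qbar[X] (RatFunc Qbar) p,
      algebraMap_mem_placeAt _ p⟩ = p.eval ((c : ℤ) : Qbar) := evalAt_polyTo _ p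
  have eq : evalAt ((c : ℤ) : Qbar) ⟨algebraMap Qbar[X] (RatFunc Qbar) q,
      algebraMap_mem_placeAt _ q⟩ = q.eval ((c : ℤ) : Qbar) := evalAt_polyTo _ q
  refine ⟨by rw [← ep, ← eq]; exact h', ?_⟩
  rw [e]
  exact some_congr ep eq _ _

/-- transport of the `5`-torsion condition. -/
theorem five_nsmul_cast {S : (EK C4 C6).toAffine.Point} (hS : 5 • S = 0) :
    5 • castPt (WK_WAt C4 C6 c).symm S = 0 := by
  rw [← map_nsmul, hS, map_zero]

/-- `spAt` is additive on the `5`-torsion. -/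
theorem spAt_add {S S' : (EK C4 C6).toAffine.Point} (hS : 5 • S = 0) (hS' : 5 • S' = 0) :
    spAt C4 C6 c hc (S + S') = spAt C4 C6 c hc S + spAt C4 C6 c hc S' := by
  rw [spAt, spAt, spAt, map_add,
    spRaw_add C4 C6 c hc (five_nsmul_cast C4 C6 c hS) (five_nsmul_cast C4 C6 c hS'), map_add]

/-- `spAt` is injective on the `5`-torsion. -/
theorem spAt_injOn {S S' : (EK C4 C6).toAffine.Point} (hS : 5 • S = 0) (hS' : 5 • S' = 0)
    (h : spAt C4 C6 c hc S = spAt C4 C6 c hc S') : S = S' := by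
  rw [spAt, spAt] at h
  have h1 := (castPt (fibre_eq C4 C6 c)).injective h
  have h2 := spRaw_injOn C4 C6 c hc (five_nsmul_cast C4 C6 c hS) (five_nsmul_cast C4 C6 c hS') h1
  exact (castPt (WK_WAt C4 C6 c).symm).injective h2

/-- `spAt` commutes with multiples on the `5`-torsion. -/
theorem spAt_nsmul {S : (EK C4 C6).toAffine.Point} (hS : 5 • S = 0) (m : ℕ) :
    spAt C4 C6 c hc (m • S) = m • spAt C4 C6 c hc S := by
  induction m with
  | zero => rw [zero_nsmul, zero_nsmul, spAt_zero]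
  | succ m ih =>
    have hmS : 5 • (m • S) = 0 := by
      rw [← mul_nsmul, mul_comm, mul_nsmul, hS]
      exact nsmul_zero (M := (EK C4 C6).toAffine.Point) m
    rw [succ_nsmul, succ_nsmul, spAt_add C4 C6 c hc hmS hS, ih]

theorem five_nsmul_spAt {S : (EK C4 C6).toAffine.Point} (hS : 5 • S = 0) :
    5 • spAt C4 C6 c hc S = 0 := by
  rw [← spAt_nsmul C4 C6 c hc hS, hS, spAt_zero]

end Fermat.Agent.ES.U52.SpecAt15
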