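/-
Programme U (S52), chapter SPEC, S5 (helper15): **the coefficientwise Galois action on the points of
the generic fibre, and the equivariance of specialisation**.

* `galPt C4 C6 σ : (EK C4 C6)(ℚ̄(T)) →+ (EK C4 C6)(ℚ̄(T))` for `σ ∈ Gal(ℚ̄/ℚ)`: `σ` applied to the
  coefficients of the two coordinates (`SpecGal12.mapK`; the curve has coefficients in `ℤ[T]`, which
  `mapK σ` fixes), `galPt_some`;
* `spAt_galPt` : `spAt (galPt σ S) = σ • spAt S` for `S` killed by `5` (`c ∈ ℤ` is fixed by `σ`: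
  `SpecGal12.evalAt_mapK`).
-/
import Mathlib
import Fermat.Prelude.Def_FLTPrelim_GaloisRep
import Fermat.Agent.ES.U52.SpecAt15

set_option autoImplicit false

open WeierstrassCurve WeierstrassCurve.Affine Polynomial

namespace Fermat.Agent.ES.U52.SpecGalPt15

open Fermat.Agent.ES.U52.SpecPlace12 Fermat.Agent.ES.U52.SpecGal12 Fermat.Agent.ES.U52.SpecRed15
  Fermat.Agent.ES.U52.SpecFibre15 Fermat.Agent.ES.U52.SpecAt15 Fermat.Agent.ES.U52.KeyLemma15
  Fermat.Agent.ES.Q58.RedHom18 Fermat.Agent.ES.Q58.RedInst18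

local notation "Qbar" => AlgebraicClosure ℚ

/-- `ℚ̄(T)` as an algebra over `ℤ[T]`. -/
@[reducible] noncomputable def algK : Algebra ℤ[X] (RatFunc Qbar) := iota.toAlgebra

attribute [local instance] algK

/-- `σ` acting on the coefficients, as a `ℤ[T]`-algebra endomorphism of `ℚ̄(T)`. -/
noncomputable def galAlg (σ : Qbar ≃ₐ[ℚ] Qbar) : RatFunc Qbar →ₐ[ℤ[X]] RatFunc Qbar :=
  { mapK ((σ : Qbar ≃+* Qbar) : Qbar →+* Qbar) with
    commutes' := fun p => mapK_intPoly ((σ : Qbar ≃+* Qbar) : Qbar →+* Qbar) p }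

theorem galAlg_apply (σ : Qbar ≃ₐ[ℚ] Qbar) (f : RatFunc Qbar) :
    galAlg σ f = mapK ((σ : Qbar ≃+* Qbar) : Qbar →+* Qbar) f := rfl

variable [DecidableEq (RatFunc Qbar)]

/-- **The coefficientwise action of `σ` on the points of the generic fibre.** -/
noncomputable def galPt (C4 C6 : ℤ[X]) (σ : Qbar ≃ₐ[ℚ] Qbar) :
    (EK C4 C6).toAffine.Point →+ (EK C4 C6).toAffine.Point :=
  Point.map (W' := (EZ C4 C6).toAffine) (galAlg σ)

theorem galPt_some (C4 C6 : ℤ[X]) (σ : Qbar ≃ₐ[ℚ] Qbar) {x y : RatFunc Qbar}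
    (h : (EK C4 C6).toAffine.Nonsingular x y) :
    ∃ h' : (EK C4 C6).toAffine.Nonsingular (mapK ((σ : Qbar ≃+* Qbar) : Qbar →+* Qbar) x)
        (mapK ((σ : Qbar ≃+* Qbar) : Qbar →+* Qbar) y),
      galPt C4 C6 σ (Point.some x y h) = Point.some _ _ h' := by
  have h1 : ((EZ C4 C6).toAffine⁄(RatFunc Qbar)).Nonsingular x y := h
  refine ⟨(Affine.baseChange_nonsingular (EZ C4 C6).toAffine (f := galAlg σ)
    (galAlg σ).toRingHom.injective x y).mpr h1, ?_⟩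
  exact Point.map_some (W' := (EZ C4 C6).toAffine) (galAlg σ) h1

variable (C4 C6 : ℤ[X]) (c : ℤ) (hc : (C4.eval c) ^ 3 ≠ (C6.eval c) ^ 2)

omit [DecidableEq (RatFunc Qbar)] in
theorem sigma_intCast (σ : Qbar ≃ₐ[ℚ] Qbar) :
    ((σ : Qbar ≃+* Qbar) : Qbar →+* Qbar) ((c : ℤ) : Qbar) = ((c : ℤ) : Qbar) :=
  map_intCast _ c

include hc in
/-- a nonzero point of the generic fibre killed by `5` has coordinates regular at `T = c`. -/
theorem coords_at {S : (EK C4 C6).toAffine.Point} (hS : 5 • S = 0) (h0 : S ≠ 0) :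
    ∃ (x y : RatFunc Qbar) (h : (EK C4 C6).toAffine.Nonsingular x y),
      x ∈ placeAt ((c : ℤ) : Qbar) ∧ y ∈ placeAt ((c : ℤ) : Qbar) ∧ S = Point.some x y h := by
  have h0' : castPt (WK_WAt C4 C6 c).symm S ≠ 0 := by
    intro h
    apply h0
    apply (castPt (WK_WAt C4 C6 c).symm).injective
    rw [h, map_zero]
  obtain ⟨x, y, h, e⟩ := coords_raw C4 C6 c hc (five_nsmul_cast C4 C6 c hS) h0'
  refine ⟨(x : RatFunc Qbar), (y : RatFunc Qbar), (WK_WAt C4 C6 c) ▸ h, x.2, y.2, ?_⟩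
  have e2 := congrArg (castPt (WK_WAt C4 C6 c).symm).symm e
  rw [AddEquiv.symm_apply_apply, castPt_symm_some] at e2
  exact e2

/-- **Specialisation commutes with the Galois actions** on the `5`-torsion. -/
theorem spAt_galPt (σ : Qbar ≃ₐ[ℚ] Qbar) {S : (EK C4 C6).toAffine.Point} (hS : 5 • S = 0) :
    spAt C4 C6 c hc (galPt C4 C6 σ S) = σ • spAt C4 C6 c hc S := by
  by_cases h0 : S = 0
  · subst h0
    rw [map_zero, spAt_zero]
    exact (smul_zero
      (A := (((shortW (C4.eval c) (C6.eval c)).map (Int.castRingHom ℚ))⁄Qbar).Point) σ).symm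
  obtain ⟨x, y, h, hx, hy, rfl⟩ := coords_at C4 C6 c hc hS h0
  obtain ⟨h', e'⟩ := galPt_some C4 C6 σ h
  have hσc := sigma_intCast c σ
  have hx' := mapK_mem_placeAt ((σ : Qbar ≃+* Qbar) : Qbar →+* Qbar) hσc hx
  have hy' := mapK_mem_placeAt ((σ : Qbar ≃+* Qbar) : Qbar →+* Qbar) hσc hy
  obtain ⟨h₁, e₁⟩ := spAt_some C4 C6 c hc h hx hy
  obtain ⟨h₂, e₂⟩ := spAt_some C4 C6 c hc h' hx' hy'
  rw [e', e₂, e₁, Point.algEquiv_smul_def, Point.map_some]
  have ex := evalAt_mapK ((σ : Qbar ≃+* Qbar) : Qbar →+* Qbar) hσc ⟨x, hx⟩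
  have ey := evalAt_mapK ((σ : Qbar ≃+* Qbar) : Qbar →+* Qbar) hσc ⟨y, hy⟩
  exact some_congr ex ey _ _

end Fermat.Agent.ES.U52.SpecGalPt15
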