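/-
Programme U (S52), chapter SPEC, S6 (helper15): **`θ_t = sp_t ∘ sp₀⁻¹` on the `5`-torsion**.

`C4, C6 : ℤ[X]` with `C4(0)³ ≠ C6(0)²`, and the hypothesis
`hsec` : every point `P` of the fibre at `T = 0` killed by `5` is the specialisation at `T = 0` of a
point of the generic fibre `EK C4 C6` over `ℚ̄(T)` killed by `5` (FAM's per-point sections).
Then `theta C4 C6 h0 hsec t : Pt (fibre 0) → Pt (fibre t)` satisfies, for every `t : ℤ` with
`C4(t)³ ≠ C6(t)²`: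

* `theta_spAt` : `theta t (sp₀ S) = sp_t S` for every `S` killed by `5`;
* `theta_add`, `theta_gal`, `theta_inj` on the `5`-torsion — the literal clauses of
  `U52Iface29.FiveCongFamily`;
* `theta_poly` : on a section with polynomial coordinates `(p, q)` killed by `5`,
  `theta t (p(0), q(0)) = (p(t), q(t))`.
-/
import Mathlib
import Fermat.Agent.ES.U52.SpecGalPt15

set_option autoImplicit false

open WeierstrassCurve WeierstrassCurve.Affine Polynomial

namespace Fermat.Agent.ES.U52.SpecTheta15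

open Fermat.Agent.ES.U52.SpecPlace12 Fermat.Agent.ES.U52.SpecFibre15 Fermat.Agent.ES.U52.SpecAt15
  Fermat.Agent.ES.U52.SpecGalPt15 Fermat.Agent.ES.U52.KeyLemma15

local notation "Qbar" => AlgebraicClosure ℚ

variable [DecidableEq (RatFunc Qbar)] (C4 C6 : ℤ[X])
  (h0 : (C4.eval 0) ^ 3 ≠ (C6.eval 0) ^ 2)
  (hsec : ∀ P : (((shortW (C4.eval 0) (C6.eval 0)).map (Int.castRingHom ℚ))⁄Qbar).Point,
    5 • P = 0 → ∃ S : (EK C4 C6).toAffine.Point, 5 • S = 0 ∧ spAt C4 C6 0 h0 S = P)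

open Classical in
/-- The point of the generic fibre killed by `5` which specialises to `P` at `T = 0`
(`0` if `P` is not killed by `5`). -/
noncomputable def lift
    (P : (((shortW (C4.eval 0) (C6.eval 0)).map (Int.castRingHom ℚ))⁄Qbar).Point) :
    (EK C4 C6).toAffine.Point :=
  if h : 5 • P = 0 then Classical.choose (hsec P h) else 0

theorem five_nsmul_lift
    {P : (((shortW (C4.eval 0) (C6.eval 0)).map (Int.castRingHom ℚ))⁄Qbar).Point}
    (hP : 5 • P = 0) : 5 • lift C4 C6 h0 hsec P = 0 := by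
  rw [lift, dif_pos hP]
  exact (Classical.choose_spec (hsec P hP)).1

theorem spAt_lift
    {P : (((shortW (C4.eval 0) (C6.eval 0)).map (Int.castRingHom ℚ))⁄Qbar).Point}
    (hP : 5 • P = 0) : spAt C4 C6 0 h0 (lift C4 C6 h0 hsec P) = P := by
  rw [lift, dif_pos hP]
  exact (Classical.choose_spec (hsec P hP)).2

/-- uniqueness of the lift. -/
theorem lift_spAt {S : (EK C4 C6).toAffine.Point} (hS : 5 • S = 0) :
    lift C4 C6 h0 hsec (spAt C4 C6 0 h0 S) = S := by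
  have hP : 5 • spAt C4 C6 0 h0 S = 0 := five_nsmul_spAt C4 C6 0 h0 hS
  exact spAt_injOn C4 C6 0 h0 (five_nsmul_lift C4 C6 h0 hsec hP) hS (spAt_lift C4 C6 h0 hsec hP)

theorem lift_eq_of_spAt_eq {S : (EK C4 C6).toAffine.Point} (hS : 5 • S = 0)
    {P : (((shortW (C4.eval 0) (C6.eval 0)).map (Int.castRingHom ℚ))⁄Qbar).Point}
    (h : spAt C4 C6 0 h0 S = P) : lift C4 C6 h0 hsec P = S := by
  rw [← h]
  exact lift_spAt C4 C6 h0 hsec hS

open Classical in
/-- **`θ_t = sp_t ∘ sp₀⁻¹`** (`0` outside the `5`-torsion and at bad `t`). -/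
noncomputable def theta (t : ℤ)
    (P : (((shortW (C4.eval 0) (C6.eval 0)).map (Int.castRingHom ℚ))⁄Qbar).Point) :
    (((shortW (C4.eval t) (C6.eval t)).map (Int.castRingHom ℚ))⁄Qbar).Point :=
  if ht : (C4.eval t) ^ 3 ≠ (C6.eval t) ^ 2 then spAt C4 C6 t ht (lift C4 C6 h0 hsec P) else 0

variable {t : ℤ} (ht : (C4.eval t) ^ 3 ≠ (C6.eval t) ^ 2)

theorem theta_eq
    (P : (((shortW (C4.eval 0) (C6.eval 0)).map (Int.castRingHom ℚ))⁄Qbar).Point) :
    theta C4 C6 h0 hsec t P = spAt C4 C6 t ht (lift C4 C6 h0 hsec P) := by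
  rw [theta, dif_pos ht]

/-- `θ_t (sp₀ S) = sp_t S`. -/
theorem theta_spAt {S : (EK C4 C6).toAffine.Point} (hS : 5 • S = 0) :
    theta C4 C6 h0 hsec t (spAt C4 C6 0 h0 S) = spAt C4 C6 t ht S := by
  rw [theta_eq C4 C6 h0 hsec ht, lift_spAt C4 C6 h0 hsec hS]

include ht

theorem theta_add
    {P Q : (((shortW (C4.eval 0) (C6.eval 0)).map (Int.castRingHom ℚ))⁄Qbar).Point}
    (hP : 5 • P = 0) (hQ : 5 • Q = 0) :
    theta C4 C6 h0 hsec t (P + Q) = theta C4 C6 h0 hsec t P + theta C4 C6 h0 hsec t Q := by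
  have hSP := five_nsmul_lift C4 C6 h0 hsec hP
  have hSQ := five_nsmul_lift C4 C6 h0 hsec hQ
  have hsum : 5 • (lift C4 C6 h0 hsec P + lift C4 C6 h0 hsec Q) = 0 := by
    have e1 := nsmul_add (M := (EK C4 C6).toAffine.Point) (lift C4 C6 h0 hsec P)
      (lift C4 C6 h0 hsec Q) 5
    rw [hSP, hSQ] at e1
    exact e1.trans (add_zero (M := (EK C4 C6).toAffine.Point) 0)
  have e : lift C4 C6 h0 hsec (P + Q) = lift C4 C6 h0 hsec P + lift C4 C6 h0 hsec Q := by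
    apply lift_eq_of_spAt_eq C4 C6 h0 hsec hsum
    rw [spAt_add C4 C6 0 h0 hSP hSQ, spAt_lift C4 C6 h0 hsec hP, spAt_lift C4 C6 h0 hsec hQ]
  rw [theta_eq C4 C6 h0 hsec ht, theta_eq C4 C6 h0 hsec ht, theta_eq C4 C6 h0 hsec ht, e,
    spAt_add C4 C6 t ht hSP hSQ]

theorem theta_gal (σ : Qbar ≃ₐ[ℚ] Qbar)
    {P : (((shortW (C4.eval 0) (C6.eval 0)).map (Int.castRingHom ℚ))⁄Qbar).Point}
    (hP : 5 • P = 0) :
    theta C4 C6 h0 hsec t (σ • P) = σ • theta C4 C6 h0 hsec t P := by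
  have hSP := five_nsmul_lift C4 C6 h0 hsec hP
  have hσS : 5 • galPt C4 C6 σ (lift C4 C6 h0 hsec P) = 0 := by
    rw [← map_nsmul, hSP, map_zero]
  have e : lift C4 C6 h0 hsec (σ • P) = galPt C4 C6 σ (lift C4 C6 h0 hsec P) := by
    apply lift_eq_of_spAt_eq C4 C6 h0 hsec hσS
    rw [spAt_galPt C4 C6 0 h0 σ hSP, spAt_lift C4 C6 h0 hsec hP]
  rw [theta_eq C4 C6 h0 hsec ht, theta_eq C4 C6 h0 hsec ht, e, spAt_galPt C4 C6 t ht σ hSP]

theorem theta_inj
    {P : (((shortW (C4.eval 0) (C6.eval 0)).map (Int.castRingHom ℚ))⁄Qbar).Point}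
    (hP : 5 • P = 0) (h : theta C4 C6 h0 hsec t P = 0) : P = 0 := by
  have hSP := five_nsmul_lift C4 C6 h0 hsec hP
  rw [theta_eq C4 C6 h0 hsec ht, ← spAt_zero C4 C6 t ht] at h
  have hz : (5 : ℕ) • (0 : (EK C4 C6).toAffine.Point) = 0 :=
    nsmul_zero (M := (EK C4 C6).toAffine.Point) 5
  have e := spAt_injOn C4 C6 t ht hSP hz h
  rw [← spAt_lift C4 C6 h0 hsec hP, e, spAt_zero]

/-- **`θ_t` on a section with polynomial coordinates.** -/
theorem theta_poly {p q : Qbar[X]}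
    (h : (EK C4 C6).toAffine.Nonsingular (algebraMap Qbar[X] (RatFunc Qbar) p)
      (algebraMap Qbar[X] (RatFunc Qbar) q))
    (h5 : 5 • (Point.some _ _ h : (EK C4 C6).toAffine.Point) = 0) :
    ∃ (hz : (((shortW (C4.eval 0) (C6.eval 0)).map (Int.castRingHom ℚ))⁄Qbar).Nonsingular
        (p.eval (((0 : ℤ) : ℤ) : Qbar)) (q.eval (((0 : ℤ) : ℤ) : Qbar)))
      (hw : (((shortW (C4.eval t) (C6.eval t)).map (Int.castRingHom ℚ))⁄Qbar).Nonsingular
        (p.eval ((t : ℤ) : Qbar)) (q.eval ((t : ℤ) : Qbar))),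
      theta C4 C6 h0 hsec t (Point.some _ _ hz) = Point.some _ _ hw := by
  obtain ⟨hz, ez⟩ := spAt_poly C4 C6 0 h0 h
  obtain ⟨hw, ew⟩ := spAt_poly C4 C6 t ht h
  refine ⟨hz, hw, ?_⟩
  rw [← ez, ← ew]
  exact theta_spAt C4 C6 h0 hsec ht h5

end Fermat.Agent.ES.U52.SpecTheta15
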