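/-
Programme U (S52), the CONTRACT INSTANCE (helper15): **`FiveCongFamily` from FAM's per-point sections
and SPEC's `θ_t`**.

Input (`FamAt`, = the conclusion of helper24's `FamilyP24.family_at_point` for `F = ℚ̄`,
`K = RatFunc ℚ̄`, `fam4 c4 c6 = C4.map (Int.castRingHom ℚ̄)`): for every point `(x₀, y₀)` killed by `5`
on the fibre at `T = 0`, polynomials `xS, yS, N, D ∈ ℚ̄[T]` and `κ ≠ 0` with `(xS, yS)(0) = (x₀, y₀)`,
`N`, `D` without common root and one of them with five simple roots, the Tate data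
`(b, u) = (N(t)/D(t), κ·D(t))` of `(xS(t), yS(t))` on the fibre at `t`, and `(xS, yS)` a point of the
generic fibre killed by `5`.

Output: `fiveCongFamily C4 C6 hΔ hfam : FiveCongFamily (C4.eval 0) (C6.eval 0)` (contract
`U52Iface29`), with `theta = SpecTheta15.theta`.
-/
import Mathlib
import Fermat.Agent.ES.U52.SpecTheta15
import Fermat.Agent.ES.U52.U52Iface29
import Fermat.Agent.ES.U52.TateSection24

set_option autoImplicit false

open WeierstrassCurve WeierstrassCurve.Affine Polynomial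

namespace Fermat.Agent.ES.U52.FamInst15

open Fermat.Agent.ES.U52.SpecPlace12 Fermat.Agent.ES.U52.SpecFibre15 Fermat.Agent.ES.U52.SpecAt15
  Fermat.Agent.ES.U52.SpecTheta15 Fermat.Agent.ES.U52.KeyLemma15 Fermat.Agent.ES.U52.TateNF15
  Fermat.Agent.ES.U52.U52Iface29 Fermat.Agent.ES.U52.TateSection24
  Fermat.Agent.ES.Q58.RedInst18

local notation "Qbar" => AlgebraicClosure ℚ

/-! ### Bridges between the spellings of the curves -/

/-- the Prelude-form fibre is `shortE` over `ℚ̄`. -/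
theorem fibre_eq_shortE (a b : ℤ) :
    (((shortW a b).map (Int.castRingHom ℚ))⁄Qbar) = shortE (((a : ℤ)) : Qbar) (((b : ℤ)) : Qbar) := by
  ext <;> simp [shortW, shortE, WeierstrassCurve.baseChange]

/-- the generic fibre is `shortE` over `ℚ̄(T)`. -/
theorem EK_eq_shortE (C4 C6 : ℤ[X]) :
    EK C4 C6 = shortE (algebraMap Qbar[X] (RatFunc Qbar) (C4.map (Int.castRingHom Qbar)))
      (algebraMap Qbar[X] (RatFunc Qbar) (C6.map (Int.castRingHom Qbar))) := by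
  ext <;> simp [EK, EZ, iota, shortE, map_ofNat]

/-- transport of a point killed by `5` along an equality of curves. -/
theorem transport5 {F : Type*} [Field F] [DecidableEq F] {W₁ W₂ : WeierstrassCurve F}
    (e : W₁ = W₂) {x y : F} (h : W₁.toAffine.Nonsingular x y)
    (h5 : 5 • (Point.some x y h : W₁.toAffine.Point) = 0) :
    ∃ h' : W₂.toAffine.Nonsingular x y, 5 • (Point.some x y h' : W₂.toAffine.Point) = 0 := by
  subst e
  exact ⟨h, h5⟩

/-- **FAM's output at one point** of the fibre at `T = 0`. -/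
def FamAt [DecidableEq (RatFunc Qbar)] (C4 C6 : ℤ[X]) (x₀ y₀ : Qbar) : Prop :=
  ∃ (xS yS N D : Qbar[X]) (κ : Qbar), κ ≠ 0 ∧ xS.eval 0 = x₀ ∧ yS.eval 0 = y₀ ∧
    (∀ z : Qbar, N.eval z = 0 → D.eval z ≠ 0) ∧
    ((∃ (c : Qbar) (β : Fin 5 → Qbar), c ≠ 0 ∧ Function.Injective β ∧
        N = C c * ∏ i : Fin 5, (X - C (β i))) ∨
      (∃ (c : Qbar) (β : Fin 5 → Qbar), c ≠ 0 ∧ Function.Injective β ∧
        D = C c * ∏ i : Fin 5, (X - C (β i)))) ∧
    (∀ t : Qbar, D.eval t ≠ 0 → ∃ Cv : VariableChange Qbar,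
      Cv • shortE ((C4.map (Int.castRingHom Qbar)).eval t) ((C6.map (Int.castRingHom Qbar)).eval t) =
          tateNF (N.eval t / D.eval t) (N.eval t / D.eval t) ∧
        Cv.r = xS.eval t ∧ Cv.t = yS.eval t ∧ (Cv.u : Qbar) = κ * D.eval t) ∧
    ∃ hK : (shortE (algebraMap Qbar[X] (RatFunc Qbar) (C4.map (Int.castRingHom Qbar)))
        (algebraMap Qbar[X] (RatFunc Qbar) (C6.map (Int.castRingHom Qbar)))).toAffine.Nonsingular
        (algebraMap Qbar[X] (RatFunc Qbar) xS) (algebraMap Qbar[X] (RatFunc Qbar) yS),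
      5 • (Point.some _ _ hK : (shortE (algebraMap Qbar[X] (RatFunc Qbar)
        (C4.map (Int.castRingHom Qbar))) (algebraMap Qbar[X] (RatFunc Qbar)
        (C6.map (Int.castRingHom Qbar)))).toAffine.Point) = 0

variable [DecidableEq (RatFunc Qbar)] (C4 C6 : ℤ[X])
  (hΔ : (C4.eval 0) ^ 3 ≠ (C6.eval 0) ^ 2)
  (hfam : ∀ (x₀ y₀ : Qbar)
    (h : (shortE (((C4.eval 0 : ℤ)) : Qbar) (((C6.eval 0 : ℤ)) : Qbar)).toAffine.Nonsingular x₀ y₀),
    5 • (Point.some x₀ y₀ h :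
      (shortE (((C4.eval 0 : ℤ)) : Qbar) (((C6.eval 0 : ℤ)) : Qbar)).toAffine.Point) = 0 →
    FamAt C4 C6 x₀ y₀)

include hfam in
/-- **The hypothesis of `SpecTheta15`** from FAM's sections. -/
theorem hsec_of_fam :
    ∀ P : (((shortW (C4.eval 0) (C6.eval 0)).map (Int.castRingHom ℚ))⁄Qbar).Point,
      5 • P = 0 → ∃ S : (EK C4 C6).toAffine.Point, 5 • S = 0 ∧ spAt C4 C6 0 hΔ S = P := by
  intro P hP
  rcases P with _ | ⟨x₀, y₀, h⟩
  · exact ⟨0, nsmul_zero (M := (EK C4 C6).toAffine.Point) 5, spAt_zero C4 C6 0 hΔ⟩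
  · obtain ⟨h', h5'⟩ := transport5 (fibre_eq_shortE (C4.eval 0) (C6.eval 0)) h hP
    obtain ⟨xS, yS, N, D, κ, -, hx0, hy0, -, -, -, hK, hK5⟩ := hfam x₀ y₀ h' h5'
    obtain ⟨hK', hK5'⟩ := transport5 (EK_eq_shortE C4 C6).symm hK hK5
    refine ⟨Point.some _ _ hK', hK5', ?_⟩
    obtain ⟨hz, e⟩ := spAt_poly C4 C6 0 hΔ hK'
    rw [e]
    exact some_congr (by rw [Int.cast_zero]; exact hx0) (by rw [Int.cast_zero]; exact hy0) _ _

include hfam in
/-- **Clause (C-b)** from FAM's sections and `SpecTheta15.theta_poly`. -/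
theorem cb_of_fam (P₀ : (((shortW (C4.eval 0) (C6.eval 0)).map (Int.castRingHom ℚ))⁄Qbar).Point)
    (hP₀ : 5 • P₀ = 0) (hne : P₀ ≠ 0) :
    ClauseCb C4 C6 (C4.eval 0) (C6.eval 0)
      (fun t => theta C4 C6 hΔ (hsec_of_fam C4 C6 hΔ hfam) t) P₀ := by
  rcases P₀ with _ | ⟨x₀, y₀, h⟩
  · exact absurd rfl hne
  · obtain ⟨h', h5'⟩ := transport5 (fibre_eq_shortE (C4.eval 0) (C6.eval 0)) h hP₀
    obtain ⟨xS, yS, N, D, κ, hκ, hx0, hy0, hND, h5r, htate, hK, hK5⟩ := hfam x₀ y₀ h' h5'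
    obtain ⟨hK', hK5'⟩ := transport5 (EK_eq_shortE C4 C6).symm hK hK5
    refine ⟨N, D, κ, hκ, hND, h5r, ?_⟩
    intro t hgood _ hDt x y hxy hθ
    obtain ⟨hz, hw, e⟩ := theta_poly C4 C6 hΔ (hsec_of_fam C4 C6 hΔ hfam) hgood hK' hK5'
    have eP : (Point.some x₀ y₀ h :
        (((shortW (C4.eval 0) (C6.eval 0)).map (Int.castRingHom ℚ))⁄Qbar).Point)
        = Point.some _ _ hz :=
      some_congr (by rw [Int.cast_zero]; exact hx0.symm) (by rw [Int.cast_zero]; exact hy0.symm) _ _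
    have hθ' : (Point.some _ _ hw :
        (((shortW (C4.eval t) (C6.eval t)).map (Int.castRingHom ℚ))⁄Qbar).Point)
        = Point.some x y hxy := by
      rw [← e, ← eP]
      exact hθ
    obtain ⟨hx, hy⟩ := Point.some.inj hθ'
    obtain ⟨Cv, hCv, hr, ht', hu⟩ := htate ((t : ℤ) : Qbar) hDt
    refine ⟨Cv, ?_, hr.trans hx, ht'.trans hy, hu⟩
    rw [← hCv]
    congr 1
    show (((shortW (C4.eval t) (C6.eval t)).map (Int.castRingHom ℚ))⁄Qbar) = _
    rw [fibre_eq_shortE, eval_intCast_map, eval_intCast_map]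
    rfl

/-- **The contract instance.** -/
noncomputable def fiveCongFamily : FiveCongFamily (C4.eval 0) (C6.eval 0) where
  C4 := C4
  C6 := C6
  C4_zero := rfl
  C6_zero := rfl
  theta := fun t => theta C4 C6 hΔ (hsec_of_fam C4 C6 hΔ hfam) t
  theta_add := fun _ ht _ _ hP hQ =>
    theta_add C4 C6 hΔ (hsec_of_fam C4 C6 hΔ hfam) ht hP hQ
  theta_gal := fun _ ht σ _ hP =>
    theta_gal C4 C6 hΔ (hsec_of_fam C4 C6 hΔ hfam) ht σ hP
  theta_inj := fun _ ht _ hP h0 =>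
    theta_inj C4 C6 hΔ (hsec_of_fam C4 C6 hΔ hfam) ht hP h0
  cb := cb_of_fam C4 C6 hΔ hfam

/-- The contract instance for prescribed values at `0`. -/
theorem nonempty_fiveCongFamily {c4 c6 : ℤ} (h4 : C4.eval 0 = c4) (h6 : C6.eval 0 = c6)
    (hΔ' : c4 ^ 3 ≠ c6 ^ 2)
    (hfam' : ∀ (x₀ y₀ : Qbar)
      (h : (shortE (((c4 : ℤ)) : Qbar) (((c6 : ℤ)) : Qbar)).toAffine.Nonsingular x₀ y₀),
      5 • (Point.some x₀ y₀ h :
        (shortE (((c4 : ℤ)) : Qbar) (((c6 : ℤ)) : Qbar)).toAffine.Point) = 0 →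
      FamAt C4 C6 x₀ y₀) :
    ∃ F : FiveCongFamily c4 c6, F.C4 = C4 ∧ F.C6 = C6 := by
  subst h4 h6
  exact ⟨fiveCongFamily C4 C6 hΔ' hfam', rfl, rfl⟩

end Fermat.Agent.ES.U52.FamInst15
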