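/-
Programme U (S52), chapter FAM (helper24): **uniformisation adapted to a point of order `5`**.

Given a point `P₀ = (x₀, y₀)` killed by `5` on the short model `E : y² = x³ - 27c₄x - 54c₆` over a
field of characteristic `0` containing `r = √5` and `e` with `2e² = -(5 + r)`, Tate's normal form of
`(E, P₀)` (helper15's `exists_tateNF_at`) gives `(u, b)`; the LINEAR system
`D_P(X₀,Y₀) = u/(6c_P)`, `N_P(X₀,Y₀) = b·u/(6c_P)` has a unique solution and then
`kc4 X₀ Y₀ = c₄`, `kc6 X₀ Y₀ = c₆` and `P₀` IS the section `P` at `(X₀, Y₀)`.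
No root extraction, no icosahedral symmetry.
-/
import Mathlib
import Fermat.Agent.ES.U52.TateNFUnique15
import Fermat.Agent.ES.U52.KleinP24

set_option autoImplicit false

open WeierstrassCurve WeierstrassCurve.Affine

namespace Fermat.Agent.ES.U52.UniformiseP24

open Fermat.Agent.ES.U52.TateNF15 Fermat.Agent.ES.U52.TateNFUnique15
  Fermat.Agent.ES.U52.KleinForms29 Fermat.Agent.ES.U52.TateSection24 Fermat.Agent.ES.U52.KleinP24

variable {F : Type*} [Field F] [CharZero F] [DecidableEq F]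

omit [DecidableEq F] [CharZero F] in
theorem phi4_scale (b d : F) : phi4 (b * d) d = d ^ 4 * phi4 b 1 := by
  simp only [phi4]; ring

omit [DecidableEq F] [CharZero F] in
theorem phi6_scale (b d : F) : phi6 (b * d) d = d ^ 6 * phi6 b 1 := by
  simp only [phi6]; ring

/-- **Uniformisation at a point of order `5`.** -/
theorem exists_klein_of_point {r e : F} (hr : r ^ 2 = 5) (he : 2 * e ^ 2 = -(5 + r))
    {c4 c6 x₀ y₀ : F} (h : (shortE c4 c6).toAffine.Nonsingular x₀ y₀)
    (h5 : 5 • (Point.some x₀ y₀ h : (shortE c4 c6).toAffine.Point) = 0) :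
    ∃ X₀ Y₀ : F, kc4 X₀ Y₀ = c4 ∧ kc6 X₀ Y₀ = c6 ∧
      secX (nP r X₀ Y₀) (dP r X₀ Y₀) (cP r e) = x₀ ∧
      secY (nP r X₀ Y₀) (dP r X₀ Y₀) (cP r e) = y₀ ∧
      dP r X₀ Y₀ ≠ 0 ∧ nP r X₀ Y₀ ≠ 0 := by
  obtain ⟨C, b, hb, hC, hCr, hCt⟩ := exists_tateNF_at (shortE c4 c6) h h5
  have hu : (C.u : F) ≠ 0 := C.u.ne_zero
  have hcP := cP_ne_zero hr he
  -- the coefficient equations
  have e1 := congrArg WeierstrassCurve.a₁ hC
  have e2 := congrArg WeierstrassCurve.a₂ hC
  have e3 := congrArg WeierstrassCurve.a₃ hC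
  have e4 := congrArg WeierstrassCurve.c₄ hC
  have e6 := congrArg WeierstrassCurve.c₆ hC
  rw [variableChange_a₁] at e1
  rw [variableChange_a₂] at e2
  rw [variableChange_a₃] at e3
  rw [variableChange_c₄, shortE_c₄, tateNF_c₄'] at e4
  rw [variableChange_c₆, shortE_c₆, tateNF_c₆] at e6
  simp only [shortE, tateNF, Units.val_inv_eq_inv_val, hCr, hCt] at e1 e2 e3
  simp only [Units.val_inv_eq_inv_val] at e4 e6
  have hs : C.s = (1 - b) * C.u / 2 := by
    field_simp at e1 ⊢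
    linear_combination e1
  have hx : x₀ = (C.u : F) ^ 2 * (b ^ 2 - 6 * b + 1) / 12 := by
    rw [hs] at e2
    field_simp at e2 ⊢
    linear_combination e2
  have hy : y₀ = -(b * (C.u : F) ^ 3) / 2 := by
    field_simp at e3 ⊢
    linear_combination e3
  have hc4 : c4 = (C.u : F) ^ 4 * phi4 b 1 / 1296 := by
    field_simp at e4 ⊢
    linear_combination e4
  have hc6 : c6 = -((C.u : F) ^ 6 * phi6 b 1) / 46656 := by
    field_simp at e6 ⊢
    linear_combination e6
  obtain ⟨X₀, Y₀, hn, hd⟩ := exists_XY hr (b * ((C.u : F) / (6 * cP r e))) ((C.u : F) / (6 * cP r e))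
  have hd0 : (C.u : F) / (6 * cP r e) ≠ 0 := div_ne_zero hu (mul_ne_zero (by norm_num) hcP)
  refine ⟨X₀, Y₀, ?_, ?_, ?_, ?_, ?_, ?_⟩
  · rw [kc4_eq_P' hr he, hn, hd, phi4_scale, hc4]
    field_simp
    ring
  · rw [kc6_eq_P' hr he, hn, hd, phi6_scale, hc6]
    field_simp
    ring
  · rw [hn, hd, hx]
    simp only [secX]
    field_simp
    ring
  · rw [hn, hd, hy]
    simp only [secY]
    field_simp
    ring
  · rw [hd]; exact hd0
  · rw [hn]; exact mul_ne_zero hb hd0

end Fermat.Agent.ES.U52.UniformiseP24
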