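/-
Programme U (S52), chapter FAM (helper24): **export of FAM** — the section through ANY point of
order `5`, with its Tate data, in one statement.

Input: the Rubin–Silverberg identity in the abstract form
`kc4 (lineX (C X₀) (C Y₀) X) (lineY (C X₀) (C Y₀) X) = fam4 (kc4 X₀ Y₀) (kc6 X₀ Y₀)` (same for `kc6`),
i.e. the curve over `F[T]` only depends on `(c₄, c₆)`.
Output, for every point `(x₀, y₀)` killed by `5` on `y² = x³ - 27c₄x - 54c₆` (`c₄³ ≠ c₆²`):
polynomials `xS, yS, N, D ∈ F[T]` and `κ ≠ 0` with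
* `(xS, yS)(0) = (x₀, y₀)`;
* `N`, `D` without common root, one of them with exactly five simple roots;
* at every `t` with `D(t) ≠ 0`: a change of variables `C` with `C.r = xS(t)`, `C.t = yS(t)`,
  `C.u = κ·D(t)` carrying the fibre at `t` to Tate's `𝓔_b`, `b = N(t)/D(t)`;
* over any field `K ⊇ F[T]`: `(xS, yS)` is a point of the generic fibre killed by `5`.
-/
import Mathlib
import Fermat.Agent.ES.U52.UniformiseP24
import Fermat.Agent.ES.U52.ClauseCb24

set_option autoImplicit false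

open WeierstrassCurve WeierstrassCurve.Affine Polynomial

namespace Fermat.Agent.ES.U52.FamilyP24

open Fermat.Agent.ES.U52.TateNF15 Fermat.Agent.ES.U52.KleinForms29
  Fermat.Agent.ES.U52.TateSection24 Fermat.Agent.ES.U52.KleinP24
  Fermat.Agent.ES.U52.UniformiseP24 Fermat.Agent.ES.U52.SectionP24
  Fermat.Agent.ES.U52.ClauseCb24

variable {F : Type*} [Field F] [IsAlgClosed F] [CharZero F] [DecidableEq F]
variable {K : Type*} [Field K] [CharZero K] [DecidableEq K] [Algebra F[X] K]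

/-- **FAM export.** -/
theorem family_at_point (hinj : Function.Injective (algebraMap F[X] K))
    {r e : F} (hr : r ^ 2 = 5) (he : 2 * e ^ 2 = -(5 + r))
    (fam4 fam6 : F → F → F[X])
    (hRS4 : ∀ X₀ Y₀ : F,
      kc4 (lineX (C X₀) (C Y₀) X) (lineY (C X₀) (C Y₀) X) = fam4 (kc4 X₀ Y₀) (kc6 X₀ Y₀))
    (hRS6 : ∀ X₀ Y₀ : F,
      kc6 (lineX (C X₀) (C Y₀) X) (lineY (C X₀) (C Y₀) X) = fam6 (kc4 X₀ Y₀) (kc6 X₀ Y₀))
    {c4 c6 : F} (hΔ : c4 ^ 3 ≠ c6 ^ 2) {x₀ y₀ : F}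
    (h : (shortE c4 c6).toAffine.Nonsingular x₀ y₀)
    (h5 : 5 • (Point.some x₀ y₀ h : (shortE c4 c6).toAffine.Point) = 0) :
    ∃ (xS yS N D : F[X]) (κ : F), κ ≠ 0 ∧ xS.eval 0 = x₀ ∧ yS.eval 0 = y₀ ∧
      (∀ z : F, N.eval z = 0 → D.eval z ≠ 0) ∧
      ((∃ (c : F) (β : Fin 5 → F), c ≠ 0 ∧ Function.Injective β ∧
          N = C c * ∏ i : Fin 5, (X - C (β i))) ∨
        (∃ (c : F) (β : Fin 5 → F), c ≠ 0 ∧ Function.Injective β ∧
          D = C c * ∏ i : Fin 5, (X - C (β i)))) ∧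
      (∀ t : F, D.eval t ≠ 0 → ∃ Cv : VariableChange F,
        Cv • shortE ((fam4 c4 c6).eval t) ((fam6 c4 c6).eval t) =
            tateNF (N.eval t / D.eval t) (N.eval t / D.eval t) ∧
          Cv.r = xS.eval t ∧ Cv.t = yS.eval t ∧ (Cv.u : F) = κ * D.eval t) ∧
      ∃ hK : (shortE (algebraMap F[X] K (fam4 c4 c6)) (algebraMap F[X] K (fam6 c4 c6))).toAffine.Nonsingular
          (algebraMap F[X] K xS) (algebraMap F[X] K yS),
        5 • (Point.some _ _ hK : (shortE (algebraMap F[X] K (fam4 c4 c6))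
          (algebraMap F[X] K (fam6 c4 c6))).toAffine.Point) = 0 := by
  obtain ⟨X₀, Y₀, e4, e6, ex, ey, hd, hn⟩ := exists_klein_of_point hr he h h5
  obtain ⟨hX, hY, hs⟩ := nondeg_of_disc e4 e6 hΔ
  have h4 : kc4 (polyXT X₀ Y₀) (polyYT X₀ Y₀) = fam4 c4 c6 := by
    rw [polyXT_eq_lineX, polyYT_eq_lineY, hRS4, e4, e6]
  have h6 : kc6 (polyXT X₀ Y₀) (polyYT X₀ Y₀) = fam6 c4 c6 := by
    rw [polyXT_eq_lineX, polyYT_eq_lineY, hRS6, e4, e6]
  refine ⟨polySX r e X₀ Y₀, polySY r e X₀ Y₀, polyN r X₀ Y₀, polyD r X₀ Y₀, 6 * cP r e,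
    mul_ne_zero (by norm_num) (cP_ne_zero hr he), ?_, ?_, no_common_root hr hX hY hs,
    five_roots hr hX hY hs, ?_, section_five hinj hr he hd hn h4 h6⟩
  · rw [eval_zero_polySX, ex]
  · rw [eval_zero_polySY, ey]
  · intro t ht
    exact fibre_tate hr he X₀ Y₀ h4 h6 t ht

end Fermat.Agent.ES.U52.FamilyP24
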