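/-
Programme U (S52), the CONTRACT INSTANCE, second half (helper15): **from the Rubin–Silverberg identity
to the contract**.

`famAt_of_RS` : helper24's `FamilyP24.family_at_point` at `F = ℚ̄`, `K = RatFunc ℚ̄` gives the
hypothesis `FamInst15.FamAt` of the instance, once the two-variable family `fam4, fam6` of the
identity specialises at `(c₄, c₆) ∈ ℤ²` to the integer polynomials `C4, C6`.

`nonempty_fiveCongFamily_of_RS` : hence `∃ F : FiveCongFamily c4 c6, F.C4 = C4 ∧ F.C6 = C6`.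
-/
import Mathlib
import Fermat.Agent.ES.U52.FamInst15
import Fermat.Agent.ES.U52.FamilyP24

set_option autoImplicit false

open WeierstrassCurve WeierstrassCurve.Affine Polynomial

namespace Fermat.Agent.ES.U52.FamBridge15

open Fermat.Agent.ES.U52.KleinForms29 Fermat.Agent.ES.U52.TateSection24
  Fermat.Agent.ES.U52.FamilyP24 Fermat.Agent.ES.U52.FamInst15 Fermat.Agent.ES.U52.U52Iface29

local notation "Qbar" => AlgebraicClosure ℚ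

/-- `√5` and `e` with `2e² = -(5 + √5)` in `ℚ̄`. -/
theorem exists_r_e : ∃ r e : Qbar, r ^ 2 = 5 ∧ 2 * e ^ 2 = -(5 + r) := by
  obtain ⟨r, hr⟩ := IsAlgClosed.exists_pow_nat_eq (5 : Qbar) (n := 2) (by norm_num)
  obtain ⟨e, he⟩ := IsAlgClosed.exists_pow_nat_eq (-(5 + r) / 2 : Qbar) (n := 2) (by norm_num)
  refine ⟨r, e, hr, ?_⟩
  rw [he]
  ring

variable [DecidableEq (RatFunc Qbar)]

/-- **FAM's output in the shape consumed by the instance.** -/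
theorem famAt_of_RS (C4 C6 : ℤ[X]) (fam4 fam6 : Qbar → Qbar → Qbar[X])
    (hRS4 : ∀ X₀ Y₀ : Qbar,
      kc4 (lineX (C X₀) (C Y₀) X) (lineY (C X₀) (C Y₀) X) = fam4 (kc4 X₀ Y₀) (kc6 X₀ Y₀))
    (hRS6 : ∀ X₀ Y₀ : Qbar,
      kc6 (lineX (C X₀) (C Y₀) X) (lineY (C X₀) (C Y₀) X) = fam6 (kc4 X₀ Y₀) (kc6 X₀ Y₀))
    {c4 c6 : ℤ} (hΔ : c4 ^ 3 ≠ c6 ^ 2)
    (e4 : fam4 ((c4 : ℤ) : Qbar) ((c6 : ℤ) : Qbar) = C4.map (Int.castRingHom Qbar))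
    (e6 : fam6 ((c4 : ℤ) : Qbar) ((c6 : ℤ) : Qbar) = C6.map (Int.castRingHom Qbar))
    (x₀ y₀ : Qbar)
    (h : (shortE (((c4 : ℤ)) : Qbar) (((c6 : ℤ)) : Qbar)).toAffine.Nonsingular x₀ y₀)
    (h5 : 5 • (Point.some x₀ y₀ h :
      (shortE (((c4 : ℤ)) : Qbar) (((c6 : ℤ)) : Qbar)).toAffine.Point) = 0) :
    FamAt C4 C6 x₀ y₀ := by
  obtain ⟨r, e, hr, he⟩ := exists_r_e
  have hΔ' : (((c4 : ℤ)) : Qbar) ^ 3 ≠ (((c6 : ℤ)) : Qbar) ^ 2 := by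
    intro h0
    apply hΔ
    exact_mod_cast h0
  have hinj : Function.Injective (algebraMap Qbar[X] (RatFunc Qbar)) :=
    IsFractionRing.injective Qbar[X] (RatFunc Qbar)
  have := family_at_point (K := RatFunc Qbar) hinj hr he fam4 fam6 hRS4 hRS6 hΔ' h h5
  rw [e4, e6] at this
  exact this

/-- **The contract from the Rubin–Silverberg identity.** -/
theorem nonempty_fiveCongFamily_of_RS (C4 C6 : ℤ[X]) (fam4 fam6 : Qbar → Qbar → Qbar[X])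
    (hRS4 : ∀ X₀ Y₀ : Qbar,
      kc4 (lineX (C X₀) (C Y₀) X) (lineY (C X₀) (C Y₀) X) = fam4 (kc4 X₀ Y₀) (kc6 X₀ Y₀))
    (hRS6 : ∀ X₀ Y₀ : Qbar,
      kc6 (lineX (C X₀) (C Y₀) X) (lineY (C X₀) (C Y₀) X) = fam6 (kc4 X₀ Y₀) (kc6 X₀ Y₀))
    {c4 c6 : ℤ} (hΔ : c4 ^ 3 ≠ c6 ^ 2)
    (e4 : fam4 ((c4 : ℤ) : Qbar) ((c6 : ℤ) : Qbar) = C4.map (Int.castRingHom Qbar))
    (e6 : fam6 ((c4 : ℤ) : Qbar) ((c6 : ℤ) : Qbar) = C6.map (Int.castRingHom Qbar))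
    (h4 : C4.eval 0 = c4) (h6 : C6.eval 0 = c6) :
    ∃ F : FiveCongFamily c4 c6, F.C4 = C4 ∧ F.C6 = C6 :=
  nonempty_fiveCongFamily C4 C6 h4 h6 hΔ
    (fun x₀ y₀ h h5 => famAt_of_RS C4 C6 fam4 fam6 hRS4 hRS6 hΔ e4 e6 x₀ y₀ h h5)

end Fermat.Agent.ES.U52.FamBridge15
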