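/-
Programme U (S52), chapter LOCAL §A2, application (helper15): **the KEY LEMMA holds for every member
of a 5-congruent family at every prime of good reduction of `W` outside `{2, 3, 5}`**.

`W` an integral Weierstrass model, `c₄, c₆ ∈ ℤ`, `θ : W(ℚ̄) → E(ℚ̄)` (`E : y² = x³ - 27c₄x - 54c₆`) a map
which on the `5`-torsion is additive, Galois-equivariant and not identically zero.  For a prime
`q ∉ {2, 3, 5}` of good reduction of `W` the inertia group at a place over `q` fixes `W[5](ℚ̄)` pointwise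
(`Q58.InertiaGood11.inertia_fix_of_good`, on main), hence (equivariance) it fixes the nonzero point
`θ P` killed by `5`, hence its two coordinates, and `KeyLemma15.key_lemma` applies.
-/
import Mathlib
import Fermat.Agent.ES.U52.KeyLemma15
import Fermat.Agent.ES.Q58.InertiaGood11
import Fermat.Agent.Lib.FrobeniusExists

set_option autoImplicit false

open WeierstrassCurve WeierstrassCurve.Affine

namespace Fermat.Agent.ES.U52.InertiaFixTheta15

open Fermat.Agent.ES.U52.KeyLemma15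

local notation "Qbar" => AlgebraicClosure ℚ

/-- A map which is additive on the `5`-torsion sends the `5`-torsion into the `5`-torsion. -/
theorem five_nsmul_apply {A B : Type*} [AddCommGroup A] [AddCommGroup B] (θ : A → B)
    (hadd : ∀ x y : A, 5 • x = 0 → 5 • y = 0 → θ (x + y) = θ x + θ y) {x : A} (hx : 5 • x = 0) :
    5 • θ x = 0 := by
  have h0 : θ 0 = 0 := by
    have h := hadd 0 0 (nsmul_zero 5) (nsmul_zero 5)
    rw [add_zero] at h
    exact left_eq_add.mp h
  have h2 : 5 • (2 • x) = 0 := by rw [smul_comm, hx, smul_zero]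
  have h3 : 5 • (3 • x) = 0 := by rw [smul_comm, hx, smul_zero]
  have e2 : θ (2 • x) = 2 • θ x := by rw [two_nsmul, hadd x x hx hx, two_nsmul]
  have e3 : θ (3 • x) = 3 • θ x := by
    have : (3 : ℕ) • x = 2 • x + x := by abel
    rw [this, hadd _ _ h2 hx, e2]
    abel
  have e5 : θ (5 • x) = 5 • θ x := by
    have : (5 : ℕ) • x = 3 • x + 2 • x := by abel
    rw [this, hadd _ _ h3 h2, e3, e2]
    abel
  rw [← e5, hx, h0]

/-- **§A2, application.**  Every member `(c₄, c₆)` of a `5`-congruent family of `W` satisfies the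
conclusion of the key lemma at every prime `q ∉ {2, 3, 5}` of good reduction of `W`. -/
theorem key_of_theta (W : WeierstrassCurve ℤ) (c4 c6 : ℤ)
    (θ : ((W.map (Int.castRingHom ℚ))⁄Qbar).Point →
      (((shortW c4 c6).map (Int.castRingHom ℚ))⁄Qbar).Point)
    (hadd : ∀ P Q : ((W.map (Int.castRingHom ℚ))⁄Qbar).Point, 5 • P = 0 → 5 • Q = 0 →
      θ (P + Q) = θ P + θ Q)
    (hgal : ∀ (σ : Qbar ≃ₐ[ℚ] Qbar) (P : ((W.map (Int.castRingHom ℚ))⁄Qbar).Point), 5 • P = 0 →
      θ (σ • P) = σ • θ P)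
    (hne : ∃ P : ((W.map (Int.castRingHom ℚ))⁄Qbar).Point, 5 • P = 0 ∧ θ P ≠ 0)
    {q : ℕ} (hq : q.Prime) (hq2 : q ≠ 2) (hq3 : q ≠ 3) (hq5 : q ≠ 5)
    (hgood : W.IsGoodPrimeFor q) :
    ∃ k : ℕ, (q : ℤ) ^ (4 * k) ∣ c4 ∧ (q : ℤ) ^ (12 * k) ∣ (c4 ^ 3 - c6 ^ 2) ∧
      ¬ ((q : ℤ) ^ (4 * k + 1) ∣ c4 ∧ (q : ℤ) ^ (12 * k + 1) ∣ (c4 ^ 3 - c6 ^ 2)) := by
  obtain ⟨P₀, hP₀, hθP₀⟩ := hne
  obtain ⟨V, hV⟩ := Fermat.Agent.Lib.FrobeniusExists.exists_valuationSubring_liesOverPrime q hq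
  have h5 : 5 • θ P₀ = 0 := five_nsmul_apply θ hadd hP₀
  have hq5' : ¬ q ∣ 5 := fun h => hq5 ((Nat.prime_dvd_prime_iff_eq hq Nat.prime_five).mp h)
  -- the inertia group fixes `θ P₀`
  have hfix : ∀ τ ∈ V.inertiaSubgroupIn ℚ, τ • θ P₀ = θ P₀ := by
    intro τ hτ
    have h1 : τ • P₀ = P₀ :=
      Fermat.Agent.ES.Q58.InertiaGood11.inertia_fix_of_good W hq (by decide) hq5' hgood hV hτ
        P₀ hP₀
    rw [← hgal τ P₀ hP₀, h1]
  -- the point `θ P₀` is affine
  rcases hθ : θ P₀ with _ | ⟨x, y, h⟩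
  · exact absurd hθ hθP₀
  · rw [hθ] at h5 hfix
    have hx : ∀ τ ∈ V.inertiaSubgroupIn ℚ, τ x = x := by
      intro τ hτ
      have h1 := hfix τ hτ
      rw [Point.algEquiv_smul_def, Point.map_some] at h1
      have h2 := Point.some.inj h1
      exact h2.1
    have hy : ∀ τ ∈ V.inertiaSubgroupIn ℚ, τ y = y := by
      intro τ hτ
      have h1 := hfix τ hτ
      rw [Point.algEquiv_smul_def, Point.map_some] at h1
      have h2 := Point.some.inj h1
      exact h2.2
    exact key_lemma hq hq2 hq3 hq5 V hV c4 c6 h h5 hx hy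

end Fermat.Agent.ES.U52.InertiaFixTheta15
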