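/-
Programme U (S52, the 3–5 switch), chapter LOCAL §B2.0 + §B2.3 (helper9): **the criterion for
mod-3 irreducibility of a semistable integral model, in the frozen vocabulary**.

`irreducible_three_of_nonsplit`: a semistable `W : WeierstrassCurve ℤ` with `Δ ≠ 0` which has ONE
prime `q ≡ 1 mod 24` of non-split multiplicative reduction (`q ∣ Δ`, `q ∤ c₄`, `-c₆` a non-residue
mod `q`) with `3 ∤ v_q(Δ)` has `W.ModRepIsIrreducible 3`.

Proof: otherwise `S51/GaloisDescent.rational_root_of_not_irreducible_three` gives a rational root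
`x` of the 3-division polynomial; `L = 12 x + b₂` is a rational, hence integral, root of the monic
quartic `theta c₄ c₆`, contradicting `EvenValL9.no_root_of_nonsplit`.
-/
import Mathlib
import Fermat.Prelude.Def_FLTPrelim_Modularity
import Fermat.Prelude.Def_FLTPrelim_ModularRep
import Fermat.Agent.S51.GaloisDescent
import Fermat.Agent.ES.U52.EvenValL9

set_option autoImplicit false

namespace Fermat.Agent.ES.U52.IrredThree9

open Fermat.Agent.ES.U52.ThreeDiv9 Fermat.Agent.ES.U52.NonResL9 Fermat.Agent.ES.U52.EvenValL9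
open Polynomial

/-- `theta` at `L = 12 x + b₂` is `6912 · ψ₃(x)` (with S51's explicit `psi3`). -/
theorem theta_eq_psi3' {R : Type*} [CommRing R] (W : WeierstrassCurve R) (x : R) :
    theta W.c₄ W.c₆ (12 * x + W.b₂) = 6912 * Fermat.Agent.S51.psi3 W x := by
  have h8 := W.b_relation
  unfold theta Fermat.Agent.S51.psi3
  simp only [WeierstrassCurve.c₄, WeierstrassCurve.c₆]
  linear_combination (-1728 : R) * h8

/-- the quartic `theta c₄ c₆` as a monic integer polynomial. -/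
noncomputable def thetaPoly (c4 c6 : ℤ) : ℤ[X] :=
  X ^ 4 + (-(C (6 * c4) * X ^ 2) - C (8 * c6) * X - C (3 * c4 ^ 2))

theorem thetaPoly_monic (c4 c6 : ℤ) : (thetaPoly c4 c6).Monic := by
  unfold thetaPoly
  apply monic_X_pow_add
  compute_degree!

theorem aeval_thetaPoly (c4 c6 : ℤ) (L : ℚ) :
    aeval L (thetaPoly c4 c6) = theta (c4 : ℚ) (c6 : ℚ) L := by
  unfold thetaPoly theta
  simp only [map_add, map_sub, map_neg, map_mul, map_pow, aeval_X, aeval_C]
  simp only [eq_intCast]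
  push_cast
  ring

/-- a rational root of `theta c₄ c₆` (integers `c₄, c₆`) is an integer. -/
theorem int_of_rat_root {c4 c6 : ℤ} {L : ℚ} (h : theta (c4 : ℚ) (c6 : ℚ) L = 0) :
    ∃ n : ℤ, (n : ℚ) = L ∧ theta c4 c6 n = 0 := by
  have hint : IsLocalization.IsInteger ℤ L :=
    isInteger_of_is_root_of_monic (thetaPoly_monic c4 c6) (by rw [aeval_thetaPoly, h])
  obtain ⟨n, hn⟩ := hint
  refine ⟨n, by simpa using hn, ?_⟩
  have hn' : (n : ℚ) = L := by simpa using hn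
  rw [← hn'] at h
  have : ((theta c4 c6 n : ℤ) : ℚ) = 0 := by
    rw [← h]
    unfold theta
    push_cast
    ring
  exact_mod_cast this

/-- **The criterion** (§B2.3) in the frozen vocabulary. -/
theorem irreducible_three_of_nonsplit (W : WeierstrassCurve ℤ) (hΔ : W.Δ ≠ 0)
    (hW : W.IsSemistableModel) {q : ℕ} [hq : Fact q.Prime] (h24 : q % 24 = 1)
    (hqc4 : ¬ (q : ℤ) ∣ W.c₄) (hqΔ : (q : ℤ) ∣ W.Δ) (h3 : ¬ 3 ∣ padicValInt q W.Δ)
    (hns : ¬ IsSquare ((-W.c₆ : ℤ) : ZMod q)) : W.ModRepIsIrreducible 3 := by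
  by_contra hirr
  unfold WeierstrassCurve.ModRepIsIrreducible at hirr
  have hΔq : (W.map (Int.castRingHom ℚ)).Δ = (W.Δ : ℚ) := by
    rw [WeierstrassCurve.map_Δ]; rfl
  have hΔne : (W.map (Int.castRingHom ℚ)).Δ ≠ 0 := by
    rw [hΔq]; exact_mod_cast hΔ
  obtain ⟨x, hx1, hx2⟩ :=
    Fermat.Agent.S51.Galois.rational_root_of_not_irreducible_three
      (W.map (Int.castRingHom ℚ)) hΔne hirr
  have hpsi3 : Fermat.Agent.S51.psi3 (W.map (Int.castRingHom ℚ)) x = 0 := by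
    rw [Fermat.Agent.S51.psi3_eq, hx2]; ring
  have hth := theta_eq_psi3' (W.map (Int.castRingHom ℚ)) x
  rw [hpsi3, mul_zero, WeierstrassCurve.map_c₄, WeierstrassCurve.map_c₆] at hth
  obtain ⟨L, -, hL⟩ := int_of_rat_root (c4 := W.c₄) (c6 := W.c₆) (by simpa using hth)
  -- the hypotheses of `no_root_of_nonsplit`
  have hq25 : 25 ≤ q := by
    have := hq.out.two_le
    have h1 : q ≠ 1 := hq.out.ne_one
    omega
  have hqZ : Prime (q : ℤ) := Nat.prime_iff_prime_int.mp hq.out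
  have hrel : W.c₄ ^ 3 - W.c₆ ^ 2 = 1728 * W.Δ := by
    linear_combination -W.c_relation
  have h1728 : ¬ (q : ℤ) ∣ 1728 := by
    intro h
    have h' : q ∣ 1728 := by exact_mod_cast h
    have h'' : q ∣ 2 ^ 6 * 3 ^ 3 := by simpa using h'
    rcases (Nat.Prime.dvd_mul hq.out).mp h'' with h2 | h3
    · have := (Nat.prime_dvd_prime_iff_eq hq.out Nat.prime_two).mp (hq.out.dvd_of_dvd_pow h2)
      omega
    · have := (Nat.prime_dvd_prime_iff_eq hq.out Nat.prime_three).mp (hq.out.dvd_of_dvd_pow h3)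
      omega
  have hc4 : W.c₄ ≠ 0 := fun h => hqc4 (h ▸ dvd_zero _)
  have hD : W.c₄ ^ 3 - W.c₆ ^ 2 ≠ 0 := by
    rw [hrel]
    exact mul_ne_zero (by norm_num) hΔ
  have hqD : (q : ℤ) ∣ W.c₄ ^ 3 - W.c₆ ^ 2 := by
    rw [hrel]
    exact Dvd.dvd.mul_left hqΔ _
  have hval : padicValInt q (W.c₄ ^ 3 - W.c₆ ^ 2) = padicValInt q W.Δ := by
    rw [hrel, padicValInt.mul (by norm_num) hΔ, padicValInt.eq_zero_of_not_dvd h1728, zero_add]
  have hcop : ∀ ℓ : ℕ, ℓ.Prime → 5 ≤ ℓ → (ℓ : ℤ) ∣ W.c₄ → ¬ (ℓ : ℤ) ∣ W.c₆ := by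
    intro ℓ hℓ h5 hd4 hd6
    have hℓZ : Prime (ℓ : ℤ) := Nat.prime_iff_prime_int.mp hℓ
    have hdD : (ℓ : ℤ) ∣ 1728 * W.Δ := by
      rw [← hrel]
      exact dvd_sub (dvd_pow hd4 (by norm_num)) (dvd_pow hd6 (by norm_num))
    have hdΔ : (ℓ : ℤ) ∣ W.Δ := by
      rcases hℓZ.dvd_or_dvd hdD with h | h
      · exfalso
        have h' : ℓ ∣ 1728 := by exact_mod_cast h
        have h'' : ℓ ∣ 2 ^ 6 * 3 ^ 3 := by simpa using h'
        rcases (Nat.Prime.dvd_mul hℓ).mp h'' with h2 | h3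
        · have := (Nat.prime_dvd_prime_iff_eq hℓ Nat.prime_two).mp (hℓ.dvd_of_dvd_pow h2)
          omega
        · have := (Nat.prime_dvd_prime_iff_eq hℓ Nat.prime_three).mp (hℓ.dvd_of_dvd_pow h3)
          omega
      · exact h
    exact hW ℓ hℓ hdΔ hd4
  exact no_root_of_nonsplit h24 hc4 hD hcop hqc4 hqD (by rwa [hval]) hns L hL

end Fermat.Agent.ES.U52.IrredThree9
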