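/-
Programme U (S52), chapter LOCAL §A3 step 5 (helper15): **the short model of an integral model, and
the transport of the `5`-congruence**.

* `short_eq_smul` : over `ℚ`, `y² = x³ - 27u⁴c₄(E)x - 54u⁶c₆(E)` is the transform of `E` under the
  explicit change of variables `⟨(6u)⁻¹, -b₂/12, -a₁/2, -(a₃ - a₁b₂/12)/2⟩`.
* `shortW_eq_smul` : if `c₄ = u⁴c₄(W')`, `c₆ = u⁶c₆(W')` (`u ≠ 0`) then `(shortW c₄ c₆)_ℚ = C • W'_ℚ`.
* `exists_theta_transport` : a map `θ : W(ℚ̄) → (shortW c₄ c₆)(ℚ̄)` which on the `p`-torsion is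
  additive, Galois-equivariant and not identically zero gives such a map `W(ℚ̄) → W'(ℚ̄)`
  (compose with main's `S05.TransportQ.pointEquivBC`, equivariant by `pointEquivBC_map`).
-/
import Mathlib
import Fermat.Agent.S05.TransportQ
import Fermat.Agent.ES.U52.KeyLemma15

set_option autoImplicit false

open WeierstrassCurve WeierstrassCurve.Affine

namespace Fermat.Agent.ES.U52.IsoShort15

open Fermat.Agent.ES.U52.KeyLemma15 Fermat.Agent.S05.TransportQ

local notation "Qbar" => AlgebraicClosure ℚ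

/-- The short model is a transform of `E` over `ℚ`. -/
theorem short_eq_smul (E : WeierstrassCurve ℚ) {u : ℚ} (hu : u ≠ 0) :
    ∃ C : VariableChange ℚ,
      (⟨0, 0, 0, -27 * (u ^ 4 * E.c₄), -54 * (u ^ 6 * E.c₆)⟩ : WeierstrassCurve ℚ) = C • E := by
  have h6u : (6 * u)⁻¹ ≠ 0 := inv_ne_zero (mul_ne_zero (by norm_num) hu)
  let C : VariableChange ℚ :=
    ⟨Units.mk0 _ h6u, -E.b₂ / 12, -E.a₁ / 2, -(E.a₃ + -E.b₂ / 12 * E.a₁) / 2⟩
  have hCu : ((C.u⁻¹ : ℚˣ) : ℚ) = 6 * u := by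
    simp only [C, Units.val_inv_eq_inv_val, Units.val_mk0, inv_inv]
  refine ⟨C, ?_⟩
  ext
  · simp only [variableChange_a₁, hCu]
    simp only [C]
    ring
  · simp only [variableChange_a₂, hCu]
    simp only [C, WeierstrassCurve.b₂]
    ring
  · simp only [variableChange_a₃, hCu]
    simp only [C]
    ring
  · simp only [variableChange_a₄, hCu]
    simp only [C, WeierstrassCurve.c₄, WeierstrassCurve.b₂, WeierstrassCurve.b₄]
    ring
  · simp only [variableChange_a₆, hCu]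
    simp only [C, WeierstrassCurve.c₆, WeierstrassCurve.b₂, WeierstrassCurve.b₄,
      WeierstrassCurve.b₆]
    ring

/-- `(shortW c₄ c₆)_ℚ` is a transform over `ℚ` of any integral model `W'` with
`c₄ = u⁴c₄(W')`, `c₆ = u⁶c₆(W')`. -/
theorem shortW_eq_smul (W' : WeierstrassCurve ℤ) (c4 c6 : ℤ) {u : ℕ} (hu : u ≠ 0)
    (h4 : c4 = (u : ℤ) ^ 4 * W'.c₄) (h6 : c6 = (u : ℤ) ^ 6 * W'.c₆) :
    ∃ C : VariableChange ℚ,
      (shortW c4 c6).map (Int.castRingHom ℚ) = C • W'.map (Int.castRingHom ℚ) := by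
  have hu' : (u : ℚ) ≠ 0 := by exact_mod_cast hu
  obtain ⟨C, hC⟩ := short_eq_smul (W'.map (Int.castRingHom ℚ)) hu'
  refine ⟨C, ?_⟩
  rw [← hC]
  ext
  · simp [shortW]
  · simp [shortW]
  · simp [shortW]
  · rw [WeierstrassCurve.map_c₄]
    simp only [shortW, WeierstrassCurve.map_a₄, h4, eq_intCast]
    push_cast
    ring
  · rw [WeierstrassCurve.map_c₆]
    simp only [shortW, WeierstrassCurve.map_a₆, h6, eq_intCast]
    push_cast
    ring

/-- **Transport of the congruence** to any integral model of the short curve. -/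
theorem exists_theta_transport {p : ℕ} (W W' : WeierstrassCurve ℤ) (c4 c6 : ℤ)
    {C : VariableChange ℚ}
    (hC : (shortW c4 c6).map (Int.castRingHom ℚ) = C • W'.map (Int.castRingHom ℚ))
    (θ : ((W.map (Int.castRingHom ℚ))⁄Qbar).Point →
      (((shortW c4 c6).map (Int.castRingHom ℚ))⁄Qbar).Point)
    (hadd : ∀ P Q : ((W.map (Int.castRingHom ℚ))⁄Qbar).Point, p • P = 0 → p • Q = 0 →
      θ (P + Q) = θ P + θ Q)
    (hgal : ∀ (σ : Qbar ≃ₐ[ℚ] Qbar) (P : ((W.map (Int.castRingHom ℚ))⁄Qbar).Point), p • P = 0 →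
      θ (σ • P) = σ • θ P)
    (hne : ∃ P : ((W.map (Int.castRingHom ℚ))⁄Qbar).Point, p • P = 0 ∧ θ P ≠ 0) :
    ∃ θ' : ((W.map (Int.castRingHom ℚ))⁄Qbar).Point →
        ((W'.map (Int.castRingHom ℚ))⁄Qbar).Point,
      (∀ P Q : ((W.map (Int.castRingHom ℚ))⁄Qbar).Point, p • P = 0 → p • Q = 0 →
        θ' (P + Q) = θ' P + θ' Q) ∧
      (∀ (σ : Qbar ≃ₐ[ℚ] Qbar) (P : ((W.map (Int.castRingHom ℚ))⁄Qbar).Point), p • P = 0 →
        θ' (σ • P) = σ • θ' P) ∧
      ∃ P : ((W.map (Int.castRingHom ℚ))⁄Qbar).Point, p • P = 0 ∧ θ' P ≠ 0 := by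
  refine ⟨fun P => pointEquivBC Qbar hC (θ P), ?_, ?_, ?_⟩
  · intro P Q hP hQ
    show pointEquivBC Qbar hC (θ (P + Q)) = _
    rw [hadd P Q hP hQ, map_add]
  · intro σ P hP
    show pointEquivBC Qbar hC (θ (σ • P)) = σ • pointEquivBC Qbar hC (θ P)
    rw [hgal σ P hP, Point.algEquiv_smul_def, Point.algEquiv_smul_def]
    exact pointEquivBC_map hC σ.toAlgHom (θ P)
  · obtain ⟨P, hP, hθP⟩ := hne
    refine ⟨P, hP, ?_⟩
    intro h0
    apply hθP
    apply (pointEquivBC Qbar hC).injective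
    rw [map_zero]
    exact h0

end Fermat.Agent.ES.U52.IsoShort15
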