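/-
Programme U (S52), chapter LOCAL §A3 step 1 (helper15): **the minimal scaling away from a set of
primes** — pure arithmetic of `ℤ`.

`(c₄, c₆) ∈ ℤ²` with `D = c₄³ - c₆² ≠ 0`, `S` a set of primes.  Suppose that for every prime `q ∉ S` the
conclusion of the key lemma holds: `∃ k, q^{4k} ∣ c₄ ∧ q^{12k} ∣ D ∧ ¬(q^{4k+1} ∣ c₄ ∧ q^{12k+1} ∣ D)`.
Then `c₄ = u⁴c₄'`, `c₆ = u⁶c₆'` with `u ≥ 1` a product of primes outside `S` and `(c₄', c₆')`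
semistable at every prime `q ∉ S`: `¬(q ∣ c₄' ∧ q ∣ c₄'³ - c₆'²)`.
(Descent on `|D|`: a bad prime `q ∉ S` has `k ≥ 1`, so `q⁴ ∣ c₄`, `q¹² ∣ D`, hence `q⁶ ∣ c₆`; divide.)
-/
import Mathlib

set_option autoImplicit false

namespace Fermat.Agent.ES.U52.MinScale15

/-- The conclusion of the key lemma at `q` for the pair `(c₄, c₆)`. -/
def KeyAt (q : ℕ) (c4 c6 : ℤ) : Prop :=
  ∃ k : ℕ, (q : ℤ) ^ (4 * k) ∣ c4 ∧ (q : ℤ) ^ (12 * k) ∣ (c4 ^ 3 - c6 ^ 2) ∧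
    ¬ ((q : ℤ) ^ (4 * k + 1) ∣ c4 ∧ (q : ℤ) ^ (12 * k + 1) ∣ (c4 ^ 3 - c6 ^ 2))

/-- `KeyAt` is inherited by `(c₄/q⁴, c₆/q⁶)` at the prime `q` itself, when `q` is bad. -/
theorem keyAt_div_self {q : ℕ} (hq : q.Prime) {a b : ℤ}
    (h : KeyAt q ((q : ℤ) ^ 4 * a) ((q : ℤ) ^ 6 * b))
    (hbad : (q : ℤ) ∣ (q : ℤ) ^ 4 * a ∧
      (q : ℤ) ∣ (((q : ℤ) ^ 4 * a) ^ 3 - ((q : ℤ) ^ 6 * b) ^ 2)) : KeyAt q a b := by
  have hq0 : (q : ℤ) ≠ 0 := by exact_mod_cast hq.ne_zero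
  obtain ⟨k, hk4, hkD, hkmax⟩ := h
  have hk0 : k ≠ 0 := by
    rintro rfl
    apply hkmax
    simpa using hbad
  obtain ⟨k', rfl⟩ := Nat.exists_eq_succ_of_ne_zero hk0
  have hD : ((q : ℤ) ^ 4 * a) ^ 3 - ((q : ℤ) ^ 6 * b) ^ 2 = (q : ℤ) ^ 12 * (a ^ 3 - b ^ 2) := by ring
  rw [hD] at hkD hkmax
  refine ⟨k', ?_, ?_, ?_⟩
  · have e : (q : ℤ) ^ (4 * (k' + 1)) = (q : ℤ) ^ 4 * (q : ℤ) ^ (4 * k') := by
      rw [← pow_add]; congr 1; ring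
    rw [e] at hk4
    exact (mul_dvd_mul_iff_left (pow_ne_zero 4 hq0)).mp hk4
  · have e : (q : ℤ) ^ (12 * (k' + 1)) = (q : ℤ) ^ 12 * (q : ℤ) ^ (12 * k') := by
      rw [← pow_add]; congr 1; ring
    rw [e] at hkD
    exact (mul_dvd_mul_iff_left (pow_ne_zero 12 hq0)).mp hkD
  · rintro ⟨h1, h2⟩
    apply hkmax
    constructor
    · have e : (q : ℤ) ^ (4 * (k' + 1) + 1) = (q : ℤ) ^ 4 * (q : ℤ) ^ (4 * k' + 1) := by
        rw [← pow_add]; congr 1; ring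
      rw [e]
      exact mul_dvd_mul_left _ h1
    · have e : (q : ℤ) ^ (12 * (k' + 1) + 1) = (q : ℤ) ^ 12 * (q : ℤ) ^ (12 * k' + 1) := by
        rw [← pow_add]; congr 1; ring
      rw [e]
      exact mul_dvd_mul_left _ h2

/-- `KeyAt` at a prime `q' ≠ q` is inherited by `(c₄/q⁴, c₆/q⁶)`. -/
theorem keyAt_div_other {q q' : ℕ} (hq : q.Prime) (hq' : q'.Prime) (hne : q' ≠ q) {a b : ℤ}
    (h : KeyAt q' ((q : ℤ) ^ 4 * a) ((q : ℤ) ^ 6 * b)) : KeyAt q' a b := by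
  obtain ⟨k, hk4, hkD, hkmax⟩ := h
  have hD : ((q : ℤ) ^ 4 * a) ^ 3 - ((q : ℤ) ^ 6 * b) ^ 2 = (q : ℤ) ^ 12 * (a ^ 3 - b ^ 2) := by ring
  rw [hD] at hkD hkmax
  have hcop : ∀ m n : ℕ, IsCoprime ((q' : ℤ) ^ m) ((q : ℤ) ^ n) := by
    intro m n
    have h1 : Nat.Coprime (q' ^ m) (q ^ n) :=
      Nat.Coprime.pow m n ((Nat.coprime_primes hq' hq).mpr hne)
    have h2 := Nat.isCoprime_iff_coprime.mpr h1
    push_cast at h2
    exact h2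
  refine ⟨k, ?_, ?_, ?_⟩
  · exact (hcop (4 * k) 4).dvd_of_dvd_mul_left hk4
  · exact (hcop (12 * k) 12).dvd_of_dvd_mul_left hkD
  · rintro ⟨h1, h2⟩
    exact hkmax ⟨Dvd.dvd.mul_left h1 _, Dvd.dvd.mul_left h2 _⟩

/-- **Minimal scaling away from `S`.** -/
theorem exists_minimal_scaling (S : Set ℕ) (n : ℕ) :
    ∀ c4 c6 : ℤ, (c4 ^ 3 - c6 ^ 2).natAbs = n → c4 ^ 3 - c6 ^ 2 ≠ 0 →
      (∀ q : ℕ, q.Prime → q ∉ S → KeyAt q c4 c6) →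
      ∃ (u : ℕ) (c4' c6' : ℤ), u ≠ 0 ∧ c4 = (u : ℤ) ^ 4 * c4' ∧ c6 = (u : ℤ) ^ 6 * c6' ∧
        (∀ q : ℕ, q.Prime → q ∣ u → q ∉ S) ∧
        ∀ q : ℕ, q.Prime → q ∉ S → ¬ ((q : ℤ) ∣ c4' ∧ (q : ℤ) ∣ (c4' ^ 3 - c6' ^ 2)) := by
  induction n using Nat.strong_induction_on with
  | _ n ih =>
    intro c4 c6 hn hD hK
    by_cases hex : ∃ q : ℕ, q.Prime ∧ q ∉ S ∧ (q : ℤ) ∣ c4 ∧ (q : ℤ) ∣ (c4 ^ 3 - c6 ^ 2)
    · obtain ⟨q, hq, hqS, hq4, hqD⟩ := hex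
      have hq0 : (q : ℤ) ≠ 0 := by exact_mod_cast hq.ne_zero
      -- `q⁴ ∣ c₄`, `q¹² ∣ D`
      obtain ⟨k, hk4, hkD, hkmax⟩ := hK q hq hqS
      have hk0 : k ≠ 0 := by
        rintro rfl
        apply hkmax
        simpa using ⟨hq4, hqD⟩
      have h4 : (q : ℤ) ^ 4 ∣ c4 := dvd_trans (pow_dvd_pow _ (by omega)) hk4
      have h12 : (q : ℤ) ^ 12 ∣ (c4 ^ 3 - c6 ^ 2) := dvd_trans (pow_dvd_pow _ (by omega)) hkD
      obtain ⟨a, ha⟩ := h4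
      -- `q⁶ ∣ c₆`
      have h12' : ((q : ℤ) ^ 6) ^ 2 ∣ c6 ^ 2 := by
        have e : c6 ^ 2 = c4 ^ 3 - (c4 ^ 3 - c6 ^ 2) := by ring
        rw [e, ← pow_mul]
        apply dvd_sub _ h12
        rw [ha]
        exact ⟨a ^ 3, by ring⟩
      have h6 : (q : ℤ) ^ 6 ∣ c6 := (Int.pow_dvd_pow_iff (by norm_num)).mp h12'
      obtain ⟨b, hb⟩ := h6
      subst ha hb
      have hDeq : ((q : ℤ) ^ 4 * a) ^ 3 - ((q : ℤ) ^ 6 * b) ^ 2
          = (q : ℤ) ^ 12 * (a ^ 3 - b ^ 2) := by ring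
      have hD' : a ^ 3 - b ^ 2 ≠ 0 := by
        intro h0
        apply hD
        rw [hDeq, h0, mul_zero]
      -- the size drops
      have hlt : (a ^ 3 - b ^ 2).natAbs < n := by
        rw [← hn, hDeq, Int.natAbs_mul, Int.natAbs_pow, Int.natAbs_natCast]
        have h1 : 0 < (a ^ 3 - b ^ 2).natAbs := Int.natAbs_pos.mpr hD'
        have h2 : 2 ≤ q ^ 12 := by
          calc 2 ≤ q := hq.two_le
            _ = q ^ 1 := (pow_one q).symm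
            _ ≤ q ^ 12 := Nat.pow_le_pow_right hq.pos (by norm_num)
        nlinarith
      -- the hypothesis is inherited
      have hK' : ∀ q' : ℕ, q'.Prime → q' ∉ S → KeyAt q' a b := by
        intro q' hq' hq'S
        by_cases hqq : q' = q
        · subst hqq
          exact keyAt_div_self hq' (hK q' hq' hq'S) ⟨hq4, hqD⟩
        · exact keyAt_div_other hq hq' hqq (hK q' hq' hq'S)
      obtain ⟨u, c4', c6', hu, h4', h6', huS, hmin⟩ := ih _ hlt a b rfl hD' hK'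
      refine ⟨q * u, c4', c6', Nat.mul_ne_zero hq.ne_zero hu, ?_, ?_, ?_, hmin⟩
      · rw [h4']; push_cast; ring
      · rw [h6']; push_cast; ring
      · intro q' hq' hdvd
        rcases (Nat.Prime.dvd_mul hq').mp hdvd with h | h
        · rw [(Nat.prime_dvd_prime_iff_eq hq' hq).mp h]
          exact hqS
        · exact huS q' hq' h
    · push Not at hex
      refine ⟨1, c4, c6, one_ne_zero, by simp, by simp, ?_, ?_⟩
      · intro q hq hdvd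
        exact absurd (Nat.dvd_one.mp hdvd) hq.one_lt.ne'
      · rintro q hq hqS ⟨h1, h2⟩
        exact hex q hq hqS h1 h2

end Fermat.Agent.ES.U52.MinScale15
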