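/-
Programme U (S52), TOP glue (helper15): **from the short model of `W` back to `W`**.

`shortW W.c₄ W.c₆ : y² = x³ - 27c₄(W)x - 54c₆(W)` is a transform of `W` over `ℚ`
(`IsoShort15.shortW_eq_smul` with `u = 1`), so main's `S05.TransportQ.pointEquivBC` gives a
Galois-equivariant additive bijection `Pt (shortW W.c₄ W.c₆) ≃+ Pt W`.

`exists_equiv` : that bijection `ψ`, with `ψ (σ • P) = σ • ψ P` and the same for `ψ.symm`.

`exists_theta_of_short` : a map `θ : Pt (shortW W.c₄ W.c₆) → Pt E'` which on the `p`-torsion is additive,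
Galois-equivariant and not identically zero gives such a map `Pt W → Pt E'` (pre-composition with the
inverse bijection).
-/
import Mathlib
import Fermat.Agent.ES.U52.IsoShort15

set_option autoImplicit false

open WeierstrassCurve WeierstrassCurve.Affine

namespace Fermat.Agent.ES.U52.ShortOfW15

open Fermat.Agent.ES.U52.KeyLemma15 Fermat.Agent.ES.U52.IsoShort15 Fermat.Agent.S05.TransportQ

local notation "Qbar" => AlgebraicClosure ℚ

/-- `(shortW W.c₄ W.c₆)_ℚ` is a transform of `W_ℚ`. -/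
theorem exists_shortW_self (W : WeierstrassCurve ℤ) :
    ∃ C : VariableChange ℚ,
      (shortW W.c₄ W.c₆).map (Int.castRingHom ℚ) = C • W.map (Int.castRingHom ℚ) :=
  shortW_eq_smul W W.c₄ W.c₆ (u := 1) one_ne_zero (by simp) (by simp)

/-- **The Galois-equivariant additive bijection `Pt (shortW W.c₄ W.c₆) ≃+ Pt W`.** -/
theorem exists_equiv (W : WeierstrassCurve ℤ) :
    ∃ ψ : (((shortW W.c₄ W.c₆).map (Int.castRingHom ℚ))⁄Qbar).Point ≃+
        ((W.map (Int.castRingHom ℚ))⁄Qbar).Point,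
      (∀ (σ : Qbar ≃ₐ[ℚ] Qbar) (P : (((shortW W.c₄ W.c₆).map (Int.castRingHom ℚ))⁄Qbar).Point),
        ψ (σ • P) = σ • ψ P) ∧
      (∀ (σ : Qbar ≃ₐ[ℚ] Qbar) (P : ((W.map (Int.castRingHom ℚ))⁄Qbar).Point),
        ψ.symm (σ • P) = σ • ψ.symm P) := by
  obtain ⟨C, hC⟩ := exists_shortW_self W
  have h1 : ∀ (σ : Qbar ≃ₐ[ℚ] Qbar)
      (P : (((shortW W.c₄ W.c₆).map (Int.castRingHom ℚ))⁄Qbar).Point),
      pointEquivBC Qbar hC (σ • P) = σ • pointEquivBC Qbar hC P := by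
    intro σ P
    rw [Point.algEquiv_smul_def, Point.algEquiv_smul_def]
    exact pointEquivBC_map hC σ.toAlgHom P
  refine ⟨pointEquivBC Qbar hC, h1, ?_⟩
  intro σ P
  apply (pointEquivBC Qbar hC).injective
  rw [AddEquiv.apply_symm_apply, h1, AddEquiv.apply_symm_apply]

/-- **Pre-composition with `W ≅ shortW W.c₄ W.c₆`.** -/
theorem exists_theta_of_short {p : ℕ} (W E' : WeierstrassCurve ℤ)
    (θ : (((shortW W.c₄ W.c₆).map (Int.castRingHom ℚ))⁄Qbar).Point →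
      ((E'.map (Int.castRingHom ℚ))⁄Qbar).Point)
    (hadd : ∀ P Q : (((shortW W.c₄ W.c₆).map (Int.castRingHom ℚ))⁄Qbar).Point,
      p • P = 0 → p • Q = 0 → θ (P + Q) = θ P + θ Q)
    (hgal : ∀ (σ : Qbar ≃ₐ[ℚ] Qbar)
      (P : (((shortW W.c₄ W.c₆).map (Int.castRingHom ℚ))⁄Qbar).Point), p • P = 0 →
      θ (σ • P) = σ • θ P)
    (hinj : ∀ P : (((shortW W.c₄ W.c₆).map (Int.castRingHom ℚ))⁄Qbar).Point,
      p • P = 0 → θ P = 0 → P = 0)
    (hne : ∃ P : ((W.map (Int.castRingHom ℚ))⁄Qbar).Point, p • P = 0 ∧ P ≠ 0) :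
    ∃ θ' : ((W.map (Int.castRingHom ℚ))⁄Qbar).Point → ((E'.map (Int.castRingHom ℚ))⁄Qbar).Point,
      (∀ P Q : ((W.map (Int.castRingHom ℚ))⁄Qbar).Point, p • P = 0 → p • Q = 0 →
        θ' (P + Q) = θ' P + θ' Q) ∧
      (∀ (σ : Qbar ≃ₐ[ℚ] Qbar) (P : ((W.map (Int.castRingHom ℚ))⁄Qbar).Point), p • P = 0 →
        θ' (σ • P) = σ • θ' P) ∧
      ∃ P : ((W.map (Int.castRingHom ℚ))⁄Qbar).Point, p • P = 0 ∧ θ' P ≠ 0 := by
  obtain ⟨C, hC⟩ := exists_shortW_self W
  -- the equivariant bijection `ψ : Pt (short) ≃+ Pt W`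
  have hψσ : ∀ (σ : Qbar ≃ₐ[ℚ] Qbar) (P : ((W.map (Int.castRingHom ℚ))⁄Qbar).Point),
      (pointEquivBC Qbar hC).symm (σ • P) = σ • (pointEquivBC Qbar hC).symm P := by
    intro σ P
    apply (pointEquivBC Qbar hC).injective
    rw [AddEquiv.apply_symm_apply, Point.algEquiv_smul_def, Point.algEquiv_smul_def,
      pointEquivBC_map hC σ.toAlgHom, AddEquiv.apply_symm_apply]
  have hψp : ∀ P : ((W.map (Int.castRingHom ℚ))⁄Qbar).Point, p • P = 0 →
      p • (pointEquivBC Qbar hC).symm P = 0 := by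
    intro P hP
    rw [← map_nsmul, hP, map_zero]
  refine ⟨fun P => θ ((pointEquivBC Qbar hC).symm P), ?_, ?_, ?_⟩
  · intro P Q hP hQ
    show θ ((pointEquivBC Qbar hC).symm (P + Q)) = _
    rw [map_add, hadd _ _ (hψp P hP) (hψp Q hQ)]
  · intro σ P hP
    show θ ((pointEquivBC Qbar hC).symm (σ • P)) = σ • θ ((pointEquivBC Qbar hC).symm P)
    rw [hψσ σ P, hgal σ _ (hψp P hP)]
  · obtain ⟨P, hP, hP0⟩ := hne
    refine ⟨P, hP, ?_⟩
    intro h0
    apply hP0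
    have := hinj _ (hψp P hP) h0
    rw [AddEquivClass.map_eq_zero_iff] at this
    exact this

end Fermat.Agent.ES.U52.ShortOfW15
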