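/-
Programme U (S52, the 3–5 switch), chapter LOCAL-B EXPORT (helper9): **`mod3_member`**.

`W` an integral model with `Δ ≠ 0` and `W[5]` irreducible, `F : FiveCongFamily W.c₄ W.c₆` (the contract
`U52Iface29`).  Then outside any finite set `S` there are a prime `q ≡ 1 mod 24` and an integer `t_q`
such that for every good `t ≡ t_q mod q²`:
`q ∤ C4(t)`, `q ∣ C4(t)³ - C6(t)²`, `3 ∤ v_q(C4(t)³ - C6(t)²)`, `-C6(t)` is a non-residue modulo `q`,
i.e. exactly the hypotheses `h24 hqc4 hqD h3 hns` of `S52OfFamily15.s52_of_family`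
(`= S52Reduce15.s52_of_member` `= IrredThree9.irreducible_three_of_nonsplit`).

`= AuxPrime9.mod3_member_short` + `SigmaElem9.exists_sigma0` transported to the short model by
`ShortOfW15.exists_equiv`.
-/
import Mathlib
import Fermat.Agent.ES.U52.ShortOfW15
import Fermat.Agent.ES.U52.AuxPrime9

set_option autoImplicit false

open WeierstrassCurve WeierstrassCurve.Affine Polynomial

noncomputable section

namespace Fermat.Agent.ES.U52.Mod3Member9

open Fermat.Agent.ES.U52.U52Iface29 Fermat.Agent.ES.U52.KeyLemma15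
  Fermat.Agent.ES.U52.AuxCheb9 Fermat.Agent.ES.U52.SigmaElem9
  Fermat.Agent.ES.R48.ModCyclo13

local notation "Qbar" => AlgebraicClosure ℚ
local notation "GQ" => (AlgebraicClosure ℚ ≃ₐ[ℚ] AlgebraicClosure ℚ)

/-- the element `σ₀` on the short model. -/
theorem exists_sigma0_short (W : WeierstrassCurve ℤ) (hΔ : W.Δ ≠ 0)
    (h5 : W.ModRepIsIrreducible 5) :
    ∃ σ₀ : GQ, chiMod 24 σ₀ = 1 ∧
      NegEigen ((shortW W.c₄ W.c₆).map (Int.castRingHom ℚ)) σ₀ := by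
  obtain ⟨σ₀, h24, P, hP0, hσP⟩ := exists_sigma0 W hΔ h5
  obtain ⟨ψ, -, hψ⟩ := ShortOfW15.exists_equiv W
  refine ⟨σ₀, h24, ?_⟩
  have hP5 : 5 • (P : ((W.map (Int.castRingHom ℚ))⁄Qbar).Point) = 0 := by
    have := (Submodule.mem_torsionBy_iff _ _).mp P.2
    rwa [natCast_zsmul] at this
  have hx5 : ψ.symm (P : ((W.map (Int.castRingHom ℚ))⁄Qbar).Point) ∈
      Submodule.torsionBy ℤ ((((shortW W.c₄ W.c₆).map (Int.castRingHom ℚ))⁄Qbar).Point)
        ((5 : ℕ) : ℤ) := by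
    rw [Submodule.mem_torsionBy_iff, natCast_zsmul, ← map_nsmul, hP5, map_zero]
  refine ⟨⟨ψ.symm (P : ((W.map (Int.castRingHom ℚ))⁄Qbar).Point), hx5⟩, ?_, ?_⟩
  · intro h0
    apply hP0
    have h1 : ψ.symm (P : ((W.map (Int.castRingHom ℚ))⁄Qbar).Point) = 0 :=
      congrArg Subtype.val h0
    apply Subtype.ext
    rw [← map_zero ψ.symm] at h1
    exact ψ.symm.injective h1
  · apply Subtype.ext
    show σ₀ • ψ.symm (P : ((W.map (Int.castRingHom ℚ))⁄Qbar).Point)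
      = -ψ.symm (P : ((W.map (Int.castRingHom ℚ))⁄Qbar).Point)
    rw [← hψ, ← map_neg]
    congr 1
    exact congrArg Subtype.val hσP

/-- **`mod3_member`** (LOCAL-B export). -/
theorem mod3_member (W : WeierstrassCurve ℤ) (hΔ : W.Δ ≠ 0) (h5 : W.ModRepIsIrreducible 5)
    (F : FiveCongFamily W.c₄ W.c₆) (S : Finset ℕ) :
    ∃ (q : ℕ) (tq : ℤ), q.Prime ∧ q % 24 = 1 ∧ q ∉ S ∧
      ∀ t : ℤ, (q : ℤ) ^ 2 ∣ t - tq → Good F.C4 F.C6 t →
        ¬ (q : ℤ) ∣ F.C4.eval t ∧ (q : ℤ) ∣ (F.C4.eval t) ^ 3 - (F.C6.eval t) ^ 2 ∧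
          ¬ 3 ∣ padicValInt q ((F.C4.eval t) ^ 3 - (F.C6.eval t) ^ 2) ∧
          ¬ IsSquare (((-F.C6.eval t : ℤ)) : ZMod q) := by
  have hD0 : W.c₄ ^ 3 ≠ W.c₆ ^ 2 := by
    intro h
    have := W.c_relation
    rw [h, sub_self] at this
    exact hΔ (by simpa using this)
  exact AuxPrime9.mod3_member_short F hD0 (exists_sigma0_short W hΔ h5) S

end Fermat.Agent.ES.U52.Mod3Member9

end
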