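/-
Programme U (S52), chapter LOCAL §A3 steps 2–4 (helper15): **an integral Weierstrass model with
prescribed `(c₄, c₆)` close to a scaled copy of `W`** — no Kraus theorem.

`W` an integral model, `l, M₀ ∈ ℤ`, and `(c₄', c₆') ∈ ℤ²` with
`c₄' ≡ l⁴c₄(W)`, `c₆' ≡ l⁶c₆(W)  (mod 82944·M₀)`   (`82944 = 48·1728 = 2¹⁰·3⁴`).
Then the model `W' := ⟨l a₁, l²a₂, l³a₃, l⁴a₄ + δ₄, l⁶a₆ + δ₆⟩` with the explicit corrections
`δ₄ = -1728 M₀ x`, `δ₆ = -48 M₀ (3 x l²b₂ + 2 y)` has `c₄(W') = c₄'`, `c₆(W') = c₆'` **exactly** and is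
coefficientwise congruent to the `l`-scaled copy of `W` modulo `M₀`; in particular
`Δ(W') ≡ l¹²Δ(W)  (mod M₀)`.

`semistable_of_close`: a model `W'` which is `M₀`-close in this sense to a semistable `W`, with `l`
prime to `M₀`, and which is semistable at the primes not dividing `M₀`, is semistable.
-/
import Mathlib
import Fermat.Prelude.Def_FLTPrelim_Modularity

set_option autoImplicit false

open WeierstrassCurve

namespace Fermat.Agent.ES.U52.ModelOfC4C6_15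

/-- The `l`-scaled copy of `W` (`= ⟨l⁻¹, 0, 0, 0⟩ • W` when `l` is a unit). -/
def scaled (W : WeierstrassCurve ℤ) (l : ℤ) : WeierstrassCurve ℤ :=
  ⟨l * W.a₁, l ^ 2 * W.a₂, l ^ 3 * W.a₃, l ^ 4 * W.a₄, l ^ 6 * W.a₆⟩

theorem scaled_c₄ (W : WeierstrassCurve ℤ) (l : ℤ) : (scaled W l).c₄ = l ^ 4 * W.c₄ := by
  simp only [scaled, WeierstrassCurve.c₄, WeierstrassCurve.b₂, WeierstrassCurve.b₄]; ring

theorem scaled_c₆ (W : WeierstrassCurve ℤ) (l : ℤ) : (scaled W l).c₆ = l ^ 6 * W.c₆ := by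
  simp only [scaled, WeierstrassCurve.c₆, WeierstrassCurve.b₂, WeierstrassCurve.b₄,
    WeierstrassCurve.b₆]; ring

theorem scaled_Δ (W : WeierstrassCurve ℤ) (l : ℤ) : (scaled W l).Δ = l ^ 12 * W.Δ := by
  simp only [scaled, WeierstrassCurve.Δ, WeierstrassCurve.b₂, WeierstrassCurve.b₄,
    WeierstrassCurve.b₆, WeierstrassCurve.b₈]; ring

/-- The corrected model. -/
def model (W : WeierstrassCurve ℤ) (l M₀ x y : ℤ) : WeierstrassCurve ℤ :=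
  ⟨l * W.a₁, l ^ 2 * W.a₂, l ^ 3 * W.a₃, l ^ 4 * W.a₄ - 1728 * M₀ * x,
    l ^ 6 * W.a₆ - 48 * M₀ * (3 * x * (l ^ 2 * W.b₂) + 2 * y)⟩

theorem model_c₄ (W : WeierstrassCurve ℤ) (l M₀ x y : ℤ) :
    (model W l M₀ x y).c₄ = l ^ 4 * W.c₄ + 82944 * M₀ * x := by
  simp only [model, WeierstrassCurve.c₄, WeierstrassCurve.b₂, WeierstrassCurve.b₄]; ring

theorem model_c₆ (W : WeierstrassCurve ℤ) (l M₀ x y : ℤ) :
    (model W l M₀ x y).c₆ = l ^ 6 * W.c₆ + 82944 * M₀ * y := by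
  simp only [model, WeierstrassCurve.c₆, WeierstrassCurve.b₂, WeierstrassCurve.b₄,
    WeierstrassCurve.b₆]; ring

/-- The corrected model is congruent to the scaled copy modulo `M₀`, so the discriminants are. -/
theorem model_Δ_dvd (W : WeierstrassCurve ℤ) (l M₀ x y : ℤ) :
    M₀ ∣ (model W l M₀ x y).Δ - l ^ 12 * W.Δ := by
  rw [← scaled_Δ]
  have h0 : ∀ z : ℤ, ((M₀ * z : ℤ) : ZMod M₀.natAbs) = 0 := by
    intro z
    rw [ZMod.intCast_zmod_eq_zero_iff_dvd]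
    exact Dvd.dvd.mul_right (Int.natAbs_dvd.mpr dvd_rfl) z
  have hmap : (model W l M₀ x y).map (Int.castRingHom (ZMod M₀.natAbs))
      = (scaled W l).map (Int.castRingHom (ZMod M₀.natAbs)) := by
    ext
    · rfl
    · rfl
    · rfl
    · show ((l ^ 4 * W.a₄ - 1728 * M₀ * x : ℤ) : ZMod M₀.natAbs) = ((l ^ 4 * W.a₄ : ℤ) : ZMod _)
      have e : l ^ 4 * W.a₄ - 1728 * M₀ * x = l ^ 4 * W.a₄ - M₀ * (1728 * x) := by ring
      rw [e, Int.cast_sub, h0, sub_zero]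
    · show ((l ^ 6 * W.a₆ - 48 * M₀ * (3 * x * (l ^ 2 * W.b₂) + 2 * y) : ℤ) : ZMod M₀.natAbs)
        = ((l ^ 6 * W.a₆ : ℤ) : ZMod _)
      have e : l ^ 6 * W.a₆ - 48 * M₀ * (3 * x * (l ^ 2 * W.b₂) + 2 * y)
          = l ^ 6 * W.a₆ - M₀ * (48 * (3 * x * (l ^ 2 * W.b₂) + 2 * y)) := by ring
      rw [e, Int.cast_sub, h0, sub_zero]
  have hΔ := congrArg WeierstrassCurve.Δ hmap
  rw [WeierstrassCurve.map_Δ, WeierstrassCurve.map_Δ] at hΔ
  have h1 : ((M₀.natAbs : ℕ) : ℤ) ∣ (model W l M₀ x y).Δ - (scaled W l).Δ := by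
    have := (ZMod.intCast_eq_intCast_iff_dvd_sub (scaled W l).Δ (model W l M₀ x y).Δ
      M₀.natAbs).mp (by simpa using hΔ.symm)
    exact this
  exact Int.natAbs_dvd.mp h1

/-- **§A3 step 2–3.** An integral model with prescribed `(c₄', c₆')` close to `(l⁴c₄(W), l⁶c₆(W))`. -/
theorem exists_model (W : WeierstrassCurve ℤ) (l M₀ c4' c6' : ℤ)
    (h4 : 82944 * M₀ ∣ c4' - l ^ 4 * W.c₄) (h6 : 82944 * M₀ ∣ c6' - l ^ 6 * W.c₆) :
    ∃ W' : WeierstrassCurve ℤ, W'.c₄ = c4' ∧ W'.c₆ = c6' ∧ M₀ ∣ W'.Δ - l ^ 12 * W.Δ := by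
  obtain ⟨x, hx⟩ := h4
  obtain ⟨y, hy⟩ := h6
  refine ⟨model W l M₀ x y, ?_, ?_, model_Δ_dvd W l M₀ x y⟩
  · rw [model_c₄]; linarith
  · rw [model_c₆]; linarith

/-- **§A3 step 4.** Closeness to a semistable model at the primes of `M₀`, plus semistability
outside `M₀`, gives a semistable model. -/
theorem semistable_of_close (W W' : WeierstrassCurve ℤ) (hW : W.IsSemistableModel) (l M₀ : ℤ)
    (hl : IsCoprime l M₀) (hc4 : M₀ ∣ W'.c₄ - l ^ 4 * W.c₄) (hΔ : M₀ ∣ W'.Δ - l ^ 12 * W.Δ)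
    (hout : ∀ p : ℕ, p.Prime → ¬ (p : ℤ) ∣ M₀ →
      ¬ ((p : ℤ) ∣ W'.c₄ ∧ (p : ℤ) ∣ (W'.c₄ ^ 3 - W'.c₆ ^ 2))) :
    W'.IsSemistableModel := by
  intro p hp hpΔ hpc4
  have hpi : Prime (p : ℤ) := Nat.prime_iff_prime_int.mp hp
  by_cases hpM : (p : ℤ) ∣ M₀
  · -- `p ∤ l`
    have hpl : ¬ (p : ℤ) ∣ l := by
      intro h
      exact hpi.not_isUnit (hl.isUnit_of_dvd' h hpM)
    -- `p ∣ Δ(W)`
    have h1 : (p : ℤ) ∣ l ^ 12 * W.Δ := by
      have := dvd_sub hpΔ (hpM.trans hΔ)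
      rwa [sub_sub_cancel] at this
    have h2 : (p : ℤ) ∣ W.Δ := by
      rcases hpi.dvd_or_dvd h1 with h | h
      · exact absurd (hpi.dvd_of_dvd_pow h) hpl
      · exact h
    -- `p ∣ c₄(W)`
    have h3 : (p : ℤ) ∣ l ^ 4 * W.c₄ := by
      have := dvd_sub hpc4 (hpM.trans hc4)
      rwa [sub_sub_cancel] at this
    have h4 : (p : ℤ) ∣ W.c₄ := by
      rcases hpi.dvd_or_dvd h3 with h | h
      · exact absurd (hpi.dvd_of_dvd_pow h) hpl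
      · exact h
    exact hW p hp h2 h4
  · apply hout p hp hpM
    refine ⟨hpc4, ?_⟩
    rw [← WeierstrassCurve.c_relation]
    exact Dvd.dvd.mul_left hpΔ _

end Fermat.Agent.ES.U52.ModelOfC4C6_15
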