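/-
Programme U (S52), chapter FAM: the Rubin–Silverberg family on Klein's cone, DEFINITIONS (helper29).

`rsC4 a b T = Σ_(k ≤ 20) p4_k(a, b) T^k` and `rsC6 a b T = Σ_(k ≤ 30) q6_k(a, b) T^k` with integer
polynomials `p4_k`, `q6_k` (isobaric of weight `4 + 2k`, resp. `6 + 2k`, for `wt a = 4`, `wt b = 6`) are
`c₄` and `c₆` of the family of elliptic curves with the same mod-`5` representation as
`y² = x³ - 27 a x - 54 b`:  `kc4 (lineX X Y T) (lineY X Y T) = rsC4 (kc4 X Y) (kc6 X Y) T` and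
`kc6 (lineX X Y T) (lineY X Y T) = rsC6 (kc4 X Y) (kc6 X Y) T`  (`RSIdentity29`).
The coefficients were computed by exact integer linear algebra (python) and are CHECKED by Lean in
`RSIdentity29`; nothing here is trusted.
-/
import Mathlib

set_option autoImplicit false
set_option maxHeartbeats 1000000
set_option linter.unusedSimpArgs false
set_option linter.unusedVariables false

namespace Fermat.Agent.ES.U52.RSDefs29

variable {R : Type*} [CommRing R]

/-- The coefficient of `T ^ 0` in `rsC4`. -/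
def p4_0 (a b : R) : R := 1 * a ^ 1

/-- The coefficient of `T ^ 1` in `rsC4`. -/
def p4_1 (a b : R) : R := 20 * b ^ 1

/-- The coefficient of `T ^ 2` in `rsC4`. -/
def p4_2 (a b : R) : R := 190 * a ^ 2

/-- The coefficient of `T ^ 3` in `rsC4`. -/
def p4_3 (a b : R) : R := 1140 * a ^ 1 * b ^ 1

/-- The coefficient of `T ^ 4` in `rsC4`. -/
def p4_4 (a b : R) : R := (-855) * a ^ 3 + 5700 * b ^ 2

/-- The coefficient of `T ^ 5` in `rsC4`. -/
def p4_5 (a b : R) : R := 15504 * a ^ 2 * b ^ 1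

/-- The coefficient of `T ^ 6` in `rsC4`. -/
def p4_6 (a b : R) : R := 102600 * a ^ 4 + (-63840) * a ^ 1 * b ^ 2

/-- The coefficient of `T ^ 7` in `rsC4`. -/
def p4_7 (a b : R) : R := 259920 * a ^ 3 * b ^ 1 + (-182400) * b ^ 3

/-- The coefficient of `T ^ 8` in `rsC4`. -/
def p4_8 (a b : R) : R := (-1000350) * a ^ 5 + 1126320 * a ^ 2 * b ^ 2

/-- The coefficient of `T ^ 9` in `rsC4`. -/
def p4_9 (a b : R) : R := (-7736040) * a ^ 4 * b ^ 1 + 7904000 * a ^ 1 * b ^ 3

/-- The coefficient of `T ^ 10` in `rsC4`. -/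
def p4_10 (a b : R) : R := (-10003500) * a ^ 6 + (-5619744) * a ^ 3 * b ^ 2 + 15808000 * b ^ 4

/-- The coefficient of `T ^ 11` in `rsC4`. -/
def p4_11 (a b : R) : R := (-54685800) * a ^ 5 * b ^ 1 + 54853760 * a ^ 2 * b ^ 3

/-- The coefficient of `T ^ 12` in `rsC4`. -/
def p4_12 (a b : R) : R := (-45015750) * a ^ 7 + 7202520 * a ^ 4 * b ^ 2 + 37939200 * a ^ 1 * b ^ 4

/-- The coefficient of `T ^ 13` in `rsC4`. -/
def p4_13 (a b : R) : R := (-35089200) * a ^ 6 * b ^ 1 + (-23201280) * a ^ 3 * b ^ 3 + 58368000 * b ^ 5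

/-- The coefficient of `T ^ 14` in `rsC4`. -/
def p4_14 (a b : R) : R := 207765000 * a ^ 8 + (-495188640) * a ^ 5 * b ^ 2 + 287462400 * a ^ 2 * b ^ 4

/-- The coefficient of `T ^ 15` in `rsC4`. -/
def p4_15 (a b : R) : R := 415530000 * a ^ 7 * b ^ 1 + (-882458496) * a ^ 4 * b ^ 3 + 466944000 * a ^ 1 * b ^ 5

/-- The coefficient of `T ^ 16` in `rsC4`. -/
def p4_16 (a b : R) : R := (-77911875) * a ^ 9 + 714711600 * a ^ 6 * b ^ 2 + (-1220474880) * a ^ 3 * b ^ 4 + 583680000 * b ^ 6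

/-- The coefficient of `T ^ 17` in `rsC4`. -/
def p4_17 (a b : R) : R := 353200500 * a ^ 8 * b ^ 1 + (-715080960) * a ^ 5 * b ^ 3 + 361881600 * a ^ 2 * b ^ 5

/-- The coefficient of `T ^ 18` in `rsC4`. -/
def p4_18 (a b : R) : R := 779118750 * a ^ 10 + (-2182917600) * a ^ 7 * b ^ 2 + 2026391040 * a ^ 4 * b ^ 4 + (-622592000) * a ^ 1 * b ^ 6

/-- The coefficient of `T ^ 19` in `rsC4`. -/
def p4_19 (a b : R) : R := 694372500 * a ^ 9 * b ^ 1 + (-2044414080) * a ^ 6 * b ^ 3 + 2005401600 * a ^ 3 * b ^ 5 + (-655360000) * b ^ 7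

/-- The coefficient of `T ^ 20` in `rsC4`. -/
def p4_20 (a b : R) : R := 184528125 * a ^ 11 + (-549301500) * a ^ 8 * b ^ 2 + 544997376 * a ^ 5 * b ^ 4 + (-180224000) * a ^ 2 * b ^ 6

/-- The coefficient of `T ^ 0` in `rsC6`. -/
def q6_0 (a b : R) : R := 1 * b ^ 1

/-- The coefficient of `T ^ 1` in `rsC6`. -/
def q6_1 (a b : R) : R := 30 * a ^ 2

/-- The coefficient of `T ^ 2` in `rsC6`. -/
def q6_2 (a b : R) : R := 435 * a ^ 1 * b ^ 1

/-- The coefficient of `T ^ 3` in `rsC6`. -/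
def q6_3 (a b : R) : R := 1160 * a ^ 3 + 2900 * b ^ 2

/-- The coefficient of `T ^ 4` in `rsC6`. -/
def q6_4 (a b : R) : R := 27405 * a ^ 2 * b ^ 1

/-- The coefficient of `T ^ 5` in `rsC6`. -/
def q6_5 (a b : R) : R := 95526 * a ^ 4 + 46980 * a ^ 1 * b ^ 2

/-- The coefficient of `T ^ 6` in `rsC6`. -/
def q6_6 (a b : R) : R := 437175 * a ^ 3 * b ^ 1 + 156600 * b ^ 3

/-- The coefficient of `T ^ 7` in `rsC6`. -/
def q6_7 (a b : R) : R := (-1879200) * a ^ 5 + 3915000 * a ^ 2 * b ^ 2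

/-- The coefficient of `T ^ 8` in `rsC6`. -/
def q6_8 (a b : R) : R := (-8554275) * a ^ 4 * b ^ 1 + 14407200 * a ^ 1 * b ^ 3

/-- The coefficient of `T ^ 9` in `rsC6`. -/
def q6_9 (a b : R) : R := 24312150 * a ^ 6 + (-42021000) * a ^ 3 * b ^ 2 + 32016000 * b ^ 4

/-- The coefficient of `T ^ 10` in `rsC6`. -/
def q6_10 (a b : R) : R := 246633255 * a ^ 5 * b ^ 1 + (-216588240) * a ^ 2 * b ^ 3

/-- The coefficient of `T ^ 11` in `rsC6`. -/
def q6_11 (a b : R) : R := 162081000 * a ^ 7 + 1352475900 * a ^ 4 * b ^ 2 + (-1459929600) * a ^ 1 * b ^ 4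

/-- The coefficient of `T ^ 12` in `rsC6`. -/
def q6_12 (a b : R) : R := 4131714825 * a ^ 6 * b ^ 1 + (-1612005600) * a ^ 3 * b ^ 3 + (-2433216000) * b ^ 5

/-- The coefficient of `T ^ 13` in `rsC6`. -/
def q6_13 (a b : R) : R := 6928962750 * a ^ 8 + 5235216300 * a ^ 5 * b ^ 2 + (-12044419200) * a ^ 2 * b ^ 4

/-- The coefficient of `T ^ 14` in `rsC6`. -/
def q6_14 (a b : R) : R := 43190534475 * a ^ 7 * b ^ 1 + (-43045111800) * a ^ 4 * b ^ 3

/-- The coefficient of `T ^ 15` in `rsC6`. -/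
def q6_15 (a b : R) : R := 79575287760 * a ^ 6 * b ^ 2 + (-79420170240) * a ^ 3 * b ^ 4

/-- The coefficient of `T ^ 16` in `rsC6`. -/
def q6_16 (a b : R) : R := (-176688550125) * a ^ 8 * b ^ 1 + 474659611200 * a ^ 5 * b ^ 3 + (-297825638400) * a ^ 2 * b ^ 5

/-- The coefficient of `T ^ 17` in `rsC6`. -/
def q6_17 (a b : R) : R := (-311803323750) * a ^ 10 + 77604382800 * a ^ 7 * b ^ 2 + 935084908800 * a ^ 4 * b ^ 4 + (-700766208000) * a ^ 1 * b ^ 6

/-- The coefficient of `T ^ 18` in `rsC6`. -/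
def q6_18 (a b : R) : R := (-1694131392375) * a ^ 9 * b ^ 1 + 2776512362400 * a ^ 6 * b ^ 3 + (-303665356800) * a ^ 3 * b ^ 5 + (-778629120000) * b ^ 7

/-- The coefficient of `T ^ 19` in `rsC6`. -/
def q6_19 (a b : R) : R := (-328214025000) * a ^ 11 + (-3481840250100) * a ^ 8 * b ^ 2 + 8100765158400 * a ^ 5 * b ^ 4 + (-4290656256000) * a ^ 2 * b ^ 6

/-- The coefficient of `T ^ 20` in `rsC6`. -/
def q6_20 (a b : R) : R := (-2874607835625) * a ^ 10 * b ^ 1 + 2424887357760 * a ^ 7 * b ^ 3 + 3892110842880 * a ^ 4 * b ^ 5 + (-3442360320000) * a ^ 1 * b ^ 7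

/-- The coefficient of `T ^ 21` in `rsC6`. -/
def q6_21 (a b : R) : R := (-2215444668750) * a ^ 12 + 3077188825500 * a ^ 9 * b ^ 2 + (-2709129888000) * a ^ 6 * b ^ 4 + 5125838438400 * a ^ 3 * b ^ 6 + (-3278438400000) * b ^ 8

/-- The coefficient of `T ^ 22` in `rsC6`. -/
def q6_22 (a b : R) : R := (-1403114956875) * a ^ 11 * b ^ 1 + (-1724509423800) * a ^ 8 * b ^ 3 + 7701051801600 * a ^ 5 * b ^ 5 + (-4573421568000) * a ^ 2 * b ^ 7

/-- The coefficient of `T ^ 23` in `rsC6`. -/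
def q6_23 (a b : R) : R := 7705894500000 * a ^ 13 + (-33414470973000) * a ^ 10 * b ^ 2 + 49888700928000 * a ^ 7 * b ^ 4 + (-30337884979200) * a ^ 4 * b ^ 6 + 6157762560000 * a ^ 1 * b ^ 8

/-- The coefficient of `T ^ 24` in `rsC6`. -/
def q6_24 (a b : R) : R := 5089101159375 * a ^ 12 * b ^ 1 + (-22687218914400) * a ^ 9 * b ^ 3 + 35246094796800 * a ^ 6 * b ^ 5 + (-22779445248000) * a ^ 3 * b ^ 7 + 5131468800000 * b ^ 9

/-- The coefficient of `T ^ 25` in `rsC6`. -/
def q6_25 (a b : R) : R := (-17627233668750) * a ^ 14 + 70097953635000 * a ^ 11 * b ^ 2 + (-105528606261120) * a ^ 8 * b ^ 4 + 71274600677376 * a ^ 5 * b ^ 6 + (-18216714240000) * a ^ 2 * b ^ 8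

/-- The coefficient of `T ^ 26` in `rsC6`. -/
def q6_26 (a b : R) : R := (-40985726371875) * a ^ 13 * b ^ 1 + 163672057566000 * a ^ 10 * b ^ 3 + (-245438120632320) * a ^ 7 * b ^ 5 + 163803539865600 * a ^ 4 * b ^ 7 + (-41051750400000) * a ^ 1 * b ^ 9

/-- The coefficient of `T ^ 27` in `rsC6`. -/
def q6_27 (a b : R) : R := (-9632368125000) * a ^ 15 + 8104032382500 * a ^ 12 * b ^ 2 + 63806176396800 * a ^ 9 * b ^ 4 + (-143803576074240) * a ^ 6 * b ^ 6 + 111934439424000 * a ^ 3 * b ^ 8 + (-30408704000000) * b ^ 10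

/-- The coefficient of `T ^ 28` in `rsC6`. -/
def q6_28 (a b : R) : R := (-21432019078125) * a ^ 14 * b ^ 1 + 85719228804000 * a ^ 11 * b ^ 3 + (-128580522647040) * a ^ 8 * b ^ 5 + 85731449241600 * a ^ 5 * b ^ 7 + (-21438136320000) * a ^ 2 * b ^ 9

/-- The coefficient of `T ^ 29` in `rsC6`. -/
def q6_29 (a b : R) : R := (-11210083593750) * a ^ 16 + 49873523512500 * a ^ 13 * b ^ 2 + (-87394892457600) * a ^ 10 * b ^ 4 + 75042714746880 * a ^ 7 * b ^ 6 + (-31344427008000) * a ^ 4 * b ^ 8 + 5033164800000 * a ^ 1 * b ^ 10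

/-- The coefficient of `T ^ 30` in `rsC6`. -/
def q6_30 (a b : R) : R := (-4110363984375) * a ^ 15 * b ^ 1 + 19796866155000 * a ^ 12 * b ^ 3 + (-38083944628224) * a ^ 9 * b ^ 5 + 36574189977600 * a ^ 6 * b ^ 7 + (-17532190720000) * a ^ 3 * b ^ 9 + 3355443200000 * b ^ 11

/-- `c₄` of the Rubin–Silverberg family through the curve with invariants `(a, b) = (c₄, c₆)`. -/
def rsC4 (a b T : R) : R :=
    p4_0 a b * T ^ 0
    + p4_1 a b * T ^ 1
    + p4_2 a b * T ^ 2
    + p4_3 a b * T ^ 3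
    + p4_4 a b * T ^ 4
    + p4_5 a b * T ^ 5
    + p4_6 a b * T ^ 6
    + p4_7 a b * T ^ 7
    + p4_8 a b * T ^ 8
    + p4_9 a b * T ^ 9
    + p4_10 a b * T ^ 10
    + p4_11 a b * T ^ 11
    + p4_12 a b * T ^ 12
    + p4_13 a b * T ^ 13
    + p4_14 a b * T ^ 14
    + p4_15 a b * T ^ 15
    + p4_16 a b * T ^ 16
    + p4_17 a b * T ^ 17
    + p4_18 a b * T ^ 18
    + p4_19 a b * T ^ 19
    + p4_20 a b * T ^ 20

/-- `c₆` of the Rubin–Silverberg family through the curve with invariants `(a, b) = (c₄, c₆)`. -/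
def rsC6 (a b T : R) : R :=
    q6_0 a b * T ^ 0
    + q6_1 a b * T ^ 1
    + q6_2 a b * T ^ 2
    + q6_3 a b * T ^ 3
    + q6_4 a b * T ^ 4
    + q6_5 a b * T ^ 5
    + q6_6 a b * T ^ 6
    + q6_7 a b * T ^ 7
    + q6_8 a b * T ^ 8
    + q6_9 a b * T ^ 9
    + q6_10 a b * T ^ 10
    + q6_11 a b * T ^ 11
    + q6_12 a b * T ^ 12
    + q6_13 a b * T ^ 13
    + q6_14 a b * T ^ 14
    + q6_15 a b * T ^ 15
    + q6_16 a b * T ^ 16
    + q6_17 a b * T ^ 17
    + q6_18 a b * T ^ 18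
    + q6_19 a b * T ^ 19
    + q6_20 a b * T ^ 20
    + q6_21 a b * T ^ 21
    + q6_22 a b * T ^ 22
    + q6_23 a b * T ^ 23
    + q6_24 a b * T ^ 24
    + q6_25 a b * T ^ 25
    + q6_26 a b * T ^ 26
    + q6_27 a b * T ^ 27
    + q6_28 a b * T ^ 28
    + q6_29 a b * T ^ 29
    + q6_30 a b * T ^ 30

theorem rsC4_zero (a b : R) : rsC4 a b 0 = a := by
  simp [rsC4, p4_0]

theorem rsC6_zero (a b : R) : rsC6 a b 0 = b := by
  simp [rsC6, q6_0]

section maps

variable {S : Type*} [CommRing S] (φ : R →+* S)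

theorem map_p4_0 (a b : R) : φ (p4_0 a b) = p4_0 (φ a) (φ b) := by
  simp only [p4_0, map_add, map_mul, map_pow, map_neg, map_ofNat, map_one, map_zero]

theorem map_p4_1 (a b : R) : φ (p4_1 a b) = p4_1 (φ a) (φ b) := by
  simp only [p4_1, map_add, map_mul, map_pow, map_neg, map_ofNat, map_one, map_zero]

theorem map_p4_2 (a b : R) : φ (p4_2 a b) = p4_2 (φ a) (φ b) := by
  simp only [p4_2, map_add, map_mul, map_pow, map_neg, map_ofNat, map_one, map_zero]

theorem map_p4_3 (a b : R) : φ (p4_3 a b) = p4_3 (φ a) (φ b) := by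
  simp only [p4_3, map_add, map_mul, map_pow, map_neg, map_ofNat, map_one, map_zero]

theorem map_p4_4 (a b : R) : φ (p4_4 a b) = p4_4 (φ a) (φ b) := by
  simp only [p4_4, map_add, map_mul, map_pow, map_neg, map_ofNat, map_one, map_zero]

theorem map_p4_5 (a b : R) : φ (p4_5 a b) = p4_5 (φ a) (φ b) := by
  simp only [p4_5, map_add, map_mul, map_pow, map_neg, map_ofNat, map_one, map_zero]

theorem map_p4_6 (a b : R) : φ (p4_6 a b) = p4_6 (φ a) (φ b) := by
  simp only [p4_6, map_add, map_mul, map_pow, map_neg, map_ofNat, map_one, map_zero]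

theorem map_p4_7 (a b : R) : φ (p4_7 a b) = p4_7 (φ a) (φ b) := by
  simp only [p4_7, map_add, map_mul, map_pow, map_neg, map_ofNat, map_one, map_zero]

theorem map_p4_8 (a b : R) : φ (p4_8 a b) = p4_8 (φ a) (φ b) := by
  simp only [p4_8, map_add, map_mul, map_pow, map_neg, map_ofNat, map_one, map_zero]

theorem map_p4_9 (a b : R) : φ (p4_9 a b) = p4_9 (φ a) (φ b) := by
  simp only [p4_9, map_add, map_mul, map_pow, map_neg, map_ofNat, map_one, map_zero]

theorem map_p4_10 (a b : R) : φ (p4_10 a b) = p4_10 (φ a) (φ b) := by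
  simp only [p4_10, map_add, map_mul, map_pow, map_neg, map_ofNat, map_one, map_zero]

theorem map_p4_11 (a b : R) : φ (p4_11 a b) = p4_11 (φ a) (φ b) := by
  simp only [p4_11, map_add, map_mul, map_pow, map_neg, map_ofNat, map_one, map_zero]

theorem map_p4_12 (a b : R) : φ (p4_12 a b) = p4_12 (φ a) (φ b) := by
  simp only [p4_12, map_add, map_mul, map_pow, map_neg, map_ofNat, map_one, map_zero]

theorem map_p4_13 (a b : R) : φ (p4_13 a b) = p4_13 (φ a) (φ b) := by
  simp only [p4_13, map_add, map_mul, map_pow, map_neg, map_ofNat, map_one, map_zero]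

theorem map_p4_14 (a b : R) : φ (p4_14 a b) = p4_14 (φ a) (φ b) := by
  simp only [p4_14, map_add, map_mul, map_pow, map_neg, map_ofNat, map_one, map_zero]

theorem map_p4_15 (a b : R) : φ (p4_15 a b) = p4_15 (φ a) (φ b) := by
  simp only [p4_15, map_add, map_mul, map_pow, map_neg, map_ofNat, map_one, map_zero]

theorem map_p4_16 (a b : R) : φ (p4_16 a b) = p4_16 (φ a) (φ b) := by
  simp only [p4_16, map_add, map_mul, map_pow, map_neg, map_ofNat, map_one, map_zero]

theorem map_p4_17 (a b : R) : φ (p4_17 a b) = p4_17 (φ a) (φ b) := by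
  simp only [p4_17, map_add, map_mul, map_pow, map_neg, map_ofNat, map_one, map_zero]

theorem map_p4_18 (a b : R) : φ (p4_18 a b) = p4_18 (φ a) (φ b) := by
  simp only [p4_18, map_add, map_mul, map_pow, map_neg, map_ofNat, map_one, map_zero]

theorem map_p4_19 (a b : R) : φ (p4_19 a b) = p4_19 (φ a) (φ b) := by
  simp only [p4_19, map_add, map_mul, map_pow, map_neg, map_ofNat, map_one, map_zero]

theorem map_p4_20 (a b : R) : φ (p4_20 a b) = p4_20 (φ a) (φ b) := by
  simp only [p4_20, map_add, map_mul, map_pow, map_neg, map_ofNat, map_one, map_zero]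

theorem map_q6_0 (a b : R) : φ (q6_0 a b) = q6_0 (φ a) (φ b) := by
  simp only [q6_0, map_add, map_mul, map_pow, map_neg, map_ofNat, map_one, map_zero]

theorem map_q6_1 (a b : R) : φ (q6_1 a b) = q6_1 (φ a) (φ b) := by
  simp only [q6_1, map_add, map_mul, map_pow, map_neg, map_ofNat, map_one, map_zero]

theorem map_q6_2 (a b : R) : φ (q6_2 a b) = q6_2 (φ a) (φ b) := by
  simp only [q6_2, map_add, map_mul, map_pow, map_neg, map_ofNat, map_one, map_zero]

theorem map_q6_3 (a b : R) : φ (q6_3 a b) = q6_3 (φ a) (φ b) := by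
  simp only [q6_3, map_add, map_mul, map_pow, map_neg, map_ofNat, map_one, map_zero]

theorem map_q6_4 (a b : R) : φ (q6_4 a b) = q6_4 (φ a) (φ b) := by
  simp only [q6_4, map_add, map_mul, map_pow, map_neg, map_ofNat, map_one, map_zero]

theorem map_q6_5 (a b : R) : φ (q6_5 a b) = q6_5 (φ a) (φ b) := by
  simp only [q6_5, map_add, map_mul, map_pow, map_neg, map_ofNat, map_one, map_zero]

theorem map_q6_6 (a b : R) : φ (q6_6 a b) = q6_6 (φ a) (φ b) := by
  simp only [q6_6, map_add, map_mul, map_pow, map_neg, map_ofNat, map_one, map_zero]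

theorem map_q6_7 (a b : R) : φ (q6_7 a b) = q6_7 (φ a) (φ b) := by
  simp only [q6_7, map_add, map_mul, map_pow, map_neg, map_ofNat, map_one, map_zero]

theorem map_q6_8 (a b : R) : φ (q6_8 a b) = q6_8 (φ a) (φ b) := by
  simp only [q6_8, map_add, map_mul, map_pow, map_neg, map_ofNat, map_one, map_zero]

theorem map_q6_9 (a b : R) : φ (q6_9 a b) = q6_9 (φ a) (φ b) := by
  simp only [q6_9, map_add, map_mul, map_pow, map_neg, map_ofNat, map_one, map_zero]

theorem map_q6_10 (a b : R) : φ (q6_10 a b) = q6_10 (φ a) (φ b) := by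
  simp only [q6_10, map_add, map_mul, map_pow, map_neg, map_ofNat, map_one, map_zero]

theorem map_q6_11 (a b : R) : φ (q6_11 a b) = q6_11 (φ a) (φ b) := by
  simp only [q6_11, map_add, map_mul, map_pow, map_neg, map_ofNat, map_one, map_zero]

theorem map_q6_12 (a b : R) : φ (q6_12 a b) = q6_12 (φ a) (φ b) := by
  simp only [q6_12, map_add, map_mul, map_pow, map_neg, map_ofNat, map_one, map_zero]

theorem map_q6_13 (a b : R) : φ (q6_13 a b) = q6_13 (φ a) (φ b) := by
  simp only [q6_13, map_add, map_mul, map_pow, map_neg, map_ofNat, map_one, map_zero]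

theorem map_q6_14 (a b : R) : φ (q6_14 a b) = q6_14 (φ a) (φ b) := by
  simp only [q6_14, map_add, map_mul, map_pow, map_neg, map_ofNat, map_one, map_zero]

theorem map_q6_15 (a b : R) : φ (q6_15 a b) = q6_15 (φ a) (φ b) := by
  simp only [q6_15, map_add, map_mul, map_pow, map_neg, map_ofNat, map_one, map_zero]

theorem map_q6_16 (a b : R) : φ (q6_16 a b) = q6_16 (φ a) (φ b) := by
  simp only [q6_16, map_add, map_mul, map_pow, map_neg, map_ofNat, map_one, map_zero]

theorem map_q6_17 (a b : R) : φ (q6_17 a b) = q6_17 (φ a) (φ b) := by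
  simp only [q6_17, map_add, map_mul, map_pow, map_neg, map_ofNat, map_one, map_zero]

theorem map_q6_18 (a b : R) : φ (q6_18 a b) = q6_18 (φ a) (φ b) := by
  simp only [q6_18, map_add, map_mul, map_pow, map_neg, map_ofNat, map_one, map_zero]

theorem map_q6_19 (a b : R) : φ (q6_19 a b) = q6_19 (φ a) (φ b) := by
  simp only [q6_19, map_add, map_mul, map_pow, map_neg, map_ofNat, map_one, map_zero]

theorem map_q6_20 (a b : R) : φ (q6_20 a b) = q6_20 (φ a) (φ b) := by
  simp only [q6_20, map_add, map_mul, map_pow, map_neg, map_ofNat, map_one, map_zero]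

theorem map_q6_21 (a b : R) : φ (q6_21 a b) = q6_21 (φ a) (φ b) := by
  simp only [q6_21, map_add, map_mul, map_pow, map_neg, map_ofNat, map_one, map_zero]

theorem map_q6_22 (a b : R) : φ (q6_22 a b) = q6_22 (φ a) (φ b) := by
  simp only [q6_22, map_add, map_mul, map_pow, map_neg, map_ofNat, map_one, map_zero]

theorem map_q6_23 (a b : R) : φ (q6_23 a b) = q6_23 (φ a) (φ b) := by
  simp only [q6_23, map_add, map_mul, map_pow, map_neg, map_ofNat, map_one, map_zero]

theorem map_q6_24 (a b : R) : φ (q6_24 a b) = q6_24 (φ a) (φ b) := by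
  simp only [q6_24, map_add, map_mul, map_pow, map_neg, map_ofNat, map_one, map_zero]

theorem map_q6_25 (a b : R) : φ (q6_25 a b) = q6_25 (φ a) (φ b) := by
  simp only [q6_25, map_add, map_mul, map_pow, map_neg, map_ofNat, map_one, map_zero]

theorem map_q6_26 (a b : R) : φ (q6_26 a b) = q6_26 (φ a) (φ b) := by
  simp only [q6_26, map_add, map_mul, map_pow, map_neg, map_ofNat, map_one, map_zero]

theorem map_q6_27 (a b : R) : φ (q6_27 a b) = q6_27 (φ a) (φ b) := by
  simp only [q6_27, map_add, map_mul, map_pow, map_neg, map_ofNat, map_one, map_zero]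

theorem map_q6_28 (a b : R) : φ (q6_28 a b) = q6_28 (φ a) (φ b) := by
  simp only [q6_28, map_add, map_mul, map_pow, map_neg, map_ofNat, map_one, map_zero]

theorem map_q6_29 (a b : R) : φ (q6_29 a b) = q6_29 (φ a) (φ b) := by
  simp only [q6_29, map_add, map_mul, map_pow, map_neg, map_ofNat, map_one, map_zero]

theorem map_q6_30 (a b : R) : φ (q6_30 a b) = q6_30 (φ a) (φ b) := by
  simp only [q6_30, map_add, map_mul, map_pow, map_neg, map_ofNat, map_one, map_zero]

theorem map_rsC4 (a b T : R) : φ (rsC4 a b T) = rsC4 (φ a) (φ b) (φ T) := by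
  simp only [rsC4, map_add, map_mul, map_pow, map_p4_0, map_p4_1, map_p4_2, map_p4_3, map_p4_4, map_p4_5, map_p4_6, map_p4_7, map_p4_8, map_p4_9, map_p4_10, map_p4_11, map_p4_12, map_p4_13, map_p4_14, map_p4_15, map_p4_16, map_p4_17, map_p4_18, map_p4_19, map_p4_20]

theorem map_rsC6 (a b T : R) : φ (rsC6 a b T) = rsC6 (φ a) (φ b) (φ T) := by
  simp only [rsC6, map_add, map_mul, map_pow, map_q6_0, map_q6_1, map_q6_2, map_q6_3, map_q6_4, map_q6_5, map_q6_6, map_q6_7, map_q6_8, map_q6_9, map_q6_10, map_q6_11, map_q6_12, map_q6_13, map_q6_14, map_q6_15, map_q6_16, map_q6_17, map_q6_18, map_q6_19, map_q6_20, map_q6_21, map_q6_22, map_q6_23, map_q6_24, map_q6_25, map_q6_26, map_q6_27, map_q6_28, map_q6_29, map_q6_30]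

end maps

end Fermat.Agent.ES.U52.RSDefs29
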