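/-
Programme U (S52), chapter FAM: the Rubin–Silverberg identity, SKELETON (helper29; generated).

With `A`, `B` treated as ATOMS, `kc4 (X (1 - T A)⁵) (Y (1 + T B)⁵) = Σ_k s4_k(X, Y, A, B) T^k` and the same
for `kc6` (binomial expansions; five atoms, one `ring` each).  The slices
`s6_k X Y (kA X Y) (kB X Y) = q6_k (kc4 X Y) (kc6 X Y)` are two-atom identities proved in `RSSlice*29`.
-/
import Mathlib
import Fermat.Agent.ES.U52.KleinForms29
import Fermat.Agent.ES.U52.RSSkelDefs29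

set_option autoImplicit false
set_option maxHeartbeats 4000000

namespace Fermat.Agent.ES.U52.RSSkel29

open Fermat.Agent.ES.U52.KleinForms29 Fermat.Agent.ES.U52.RSSkelDefs29

variable {R : Type*} [CommRing R]

theorem kc4_skel (X Y T A B : R) :
    kc4 (X * (1 - T * A) ^ 5) (Y * (1 + T * B) ^ 5) =
      s4_0 X Y A B * T ^ 0
      + s4_1 X Y A B * T ^ 1
      + s4_2 X Y A B * T ^ 2
      + s4_3 X Y A B * T ^ 3
      + s4_4 X Y A B * T ^ 4
      + s4_5 X Y A B * T ^ 5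
      + s4_6 X Y A B * T ^ 6
      + s4_7 X Y A B * T ^ 7
      + s4_8 X Y A B * T ^ 8
      + s4_9 X Y A B * T ^ 9
      + s4_10 X Y A B * T ^ 10
      + s4_11 X Y A B * T ^ 11
      + s4_12 X Y A B * T ^ 12
      + s4_13 X Y A B * T ^ 13
      + s4_14 X Y A B * T ^ 14
      + s4_15 X Y A B * T ^ 15
      + s4_16 X Y A B * T ^ 16
      + s4_17 X Y A B * T ^ 17
      + s4_18 X Y A B * T ^ 18
      + s4_19 X Y A B * T ^ 19
      + s4_20 X Y A B * T ^ 20 := by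
  simp only [kc4, s4_0, s4_1, s4_2, s4_3, s4_4, s4_5, s4_6, s4_7, s4_8, s4_9, s4_10, s4_11, s4_12, s4_13, s4_14, s4_15, s4_16, s4_17, s4_18, s4_19, s4_20]
  ring

theorem kc6_skel (X Y T A B : R) :
    kc6 (X * (1 - T * A) ^ 5) (Y * (1 + T * B) ^ 5) =
      s6_0 X Y A B * T ^ 0
      + s6_1 X Y A B * T ^ 1
      + s6_2 X Y A B * T ^ 2
      + s6_3 X Y A B * T ^ 3
      + s6_4 X Y A B * T ^ 4
      + s6_5 X Y A B * T ^ 5
      + s6_6 X Y A B * T ^ 6
      + s6_7 X Y A B * T ^ 7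
      + s6_8 X Y A B * T ^ 8
      + s6_9 X Y A B * T ^ 9
      + s6_10 X Y A B * T ^ 10
      + s6_11 X Y A B * T ^ 11
      + s6_12 X Y A B * T ^ 12
      + s6_13 X Y A B * T ^ 13
      + s6_14 X Y A B * T ^ 14
      + s6_15 X Y A B * T ^ 15
      + s6_16 X Y A B * T ^ 16
      + s6_17 X Y A B * T ^ 17
      + s6_18 X Y A B * T ^ 18
      + s6_19 X Y A B * T ^ 19
      + s6_20 X Y A B * T ^ 20
      + s6_21 X Y A B * T ^ 21
      + s6_22 X Y A B * T ^ 22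
      + s6_23 X Y A B * T ^ 23
      + s6_24 X Y A B * T ^ 24
      + s6_25 X Y A B * T ^ 25
      + s6_26 X Y A B * T ^ 26
      + s6_27 X Y A B * T ^ 27
      + s6_28 X Y A B * T ^ 28
      + s6_29 X Y A B * T ^ 29
      + s6_30 X Y A B * T ^ 30 := by
  simp only [kc6, s6_0, s6_1, s6_2, s6_3, s6_4, s6_5, s6_6, s6_7, s6_8, s6_9, s6_10, s6_11, s6_12, s6_13, s6_14, s6_15, s6_16, s6_17, s6_18, s6_19, s6_20, s6_21, s6_22, s6_23, s6_24, s6_25, s6_26, s6_27, s6_28, s6_29, s6_30]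
  ring

end Fermat.Agent.ES.U52.RSSkel29
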