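/-
Programme U (S52), chapter FAM: the Rubin–Silverberg identity, SKELETON DEFINITIONS (helper29; generated).

`s4_k X Y A B`, `s6_k X Y A B`: the coefficient of `T ^ k` in `kc4`, resp. `kc6`, of
`(X (1 - T A)⁵, Y (1 + T B)⁵)` with `A`, `B` treated as ATOMS (binomial expansions).
-/
import Mathlib

set_option autoImplicit false
set_option maxHeartbeats 1000000
set_option linter.unusedVariables false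

namespace Fermat.Agent.ES.U52.RSSkelDefs29

variable {R : Type*} [CommRing R]

/-- The coefficient of `T ^ 0` in `kc4 (X (1 - T A)⁵) (Y (1 + T B)⁵)`. -/
def s4_0 (X Y A B : R) : R :=
    1 * X ^ 4 * (1)
    + 1 * Y ^ 4 * (1)
    + (-228) * X ^ 3 * Y ^ 1 * (1)
    + 228 * X ^ 1 * Y ^ 3 * (1)
    + 494 * X ^ 2 * Y ^ 2 * (1)

/-- The coefficient of `T ^ 1` in `kc4 (X (1 - T A)⁵) (Y (1 + T B)⁵)`. -/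
def s4_1 (X Y A B : R) : R :=
    1 * X ^ 4 * ((-20) * A ^ 1)
    + 1 * Y ^ 4 * (20 * B ^ 1)
    + (-228) * X ^ 3 * Y ^ 1 * (5 * B ^ 1 + (-15) * A ^ 1)
    + 228 * X ^ 1 * Y ^ 3 * (15 * B ^ 1 + (-5) * A ^ 1)
    + 494 * X ^ 2 * Y ^ 2 * (10 * B ^ 1 + (-10) * A ^ 1)

/-- The coefficient of `T ^ 2` in `kc4 (X (1 - T A)⁵) (Y (1 + T B)⁵)`. -/
def s4_2 (X Y A B : R) : R :=
    1 * X ^ 4 * (190 * A ^ 2)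
    + 1 * Y ^ 4 * (190 * B ^ 2)
    + (-228) * X ^ 3 * Y ^ 1 * (10 * B ^ 2 + (-75) * A ^ 1 * B ^ 1 + 105 * A ^ 2)
    + 228 * X ^ 1 * Y ^ 3 * (105 * B ^ 2 + (-75) * A ^ 1 * B ^ 1 + 10 * A ^ 2)
    + 494 * X ^ 2 * Y ^ 2 * (45 * B ^ 2 + (-100) * A ^ 1 * B ^ 1 + 45 * A ^ 2)

/-- The coefficient of `T ^ 3` in `kc4 (X (1 - T A)⁵) (Y (1 + T B)⁵)`. -/
def s4_3 (X Y A B : R) : R :=
    1 * X ^ 4 * ((-1140) * A ^ 3)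
    + 1 * Y ^ 4 * (1140 * B ^ 3)
    + (-228) * X ^ 3 * Y ^ 1 * (10 * B ^ 3 + (-150) * A ^ 1 * B ^ 2 + 525 * A ^ 2 * B ^ 1 + (-455) * A ^ 3)
    + 228 * X ^ 1 * Y ^ 3 * (455 * B ^ 3 + (-525) * A ^ 1 * B ^ 2 + 150 * A ^ 2 * B ^ 1 + (-10) * A ^ 3)
    + 494 * X ^ 2 * Y ^ 2 * (120 * B ^ 3 + (-450) * A ^ 1 * B ^ 2 + 450 * A ^ 2 * B ^ 1 + (-120) * A ^ 3)

/-- The coefficient of `T ^ 4` in `kc4 (X (1 - T A)⁵) (Y (1 + T B)⁵)`. -/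
def s4_4 (X Y A B : R) : R :=
    1 * X ^ 4 * (4845 * A ^ 4)
    + 1 * Y ^ 4 * (4845 * B ^ 4)
    + (-228) * X ^ 3 * Y ^ 1 * (5 * B ^ 4 + (-150) * A ^ 1 * B ^ 3 + 1050 * A ^ 2 * B ^ 2 + (-2275) * A ^ 3 * B ^ 1 + 1365 * A ^ 4)
    + 228 * X ^ 1 * Y ^ 3 * (1365 * B ^ 4 + (-2275) * A ^ 1 * B ^ 3 + 1050 * A ^ 2 * B ^ 2 + (-150) * A ^ 3 * B ^ 1 + 5 * A ^ 4)
    + 494 * X ^ 2 * Y ^ 2 * (210 * B ^ 4 + (-1200) * A ^ 1 * B ^ 3 + 2025 * A ^ 2 * B ^ 2 + (-1200) * A ^ 3 * B ^ 1 + 210 * A ^ 4)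

/-- The coefficient of `T ^ 5` in `kc4 (X (1 - T A)⁵) (Y (1 + T B)⁵)`. -/
def s4_5 (X Y A B : R) : R :=
    1 * X ^ 4 * ((-15504) * A ^ 5)
    + 1 * Y ^ 4 * (15504 * B ^ 5)
    + (-228) * X ^ 3 * Y ^ 1 * (1 * B ^ 5 + (-75) * A ^ 1 * B ^ 4 + 1050 * A ^ 2 * B ^ 3 + (-4550) * A ^ 3 * B ^ 2 + 6825 * A ^ 4 * B ^ 1 + (-3003) * A ^ 5)
    + 228 * X ^ 1 * Y ^ 3 * (3003 * B ^ 5 + (-6825) * A ^ 1 * B ^ 4 + 4550 * A ^ 2 * B ^ 3 + (-1050) * A ^ 3 * B ^ 2 + 75 * A ^ 4 * B ^ 1 + (-1) * A ^ 5)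
    + 494 * X ^ 2 * Y ^ 2 * (252 * B ^ 5 + (-2100) * A ^ 1 * B ^ 4 + 5400 * A ^ 2 * B ^ 3 + (-5400) * A ^ 3 * B ^ 2 + 2100 * A ^ 4 * B ^ 1 + (-252) * A ^ 5)

/-- The coefficient of `T ^ 6` in `kc4 (X (1 - T A)⁵) (Y (1 + T B)⁵)`. -/
def s4_6 (X Y A B : R) : R :=
    1 * X ^ 4 * (38760 * A ^ 6)
    + 1 * Y ^ 4 * (38760 * B ^ 6)
    + (-228) * X ^ 3 * Y ^ 1 * ((-15) * A ^ 1 * B ^ 5 + 525 * A ^ 2 * B ^ 4 + (-4550) * A ^ 3 * B ^ 3 + 13650 * A ^ 4 * B ^ 2 + (-15015) * A ^ 5 * B ^ 1 + 5005 * A ^ 6)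
    + 228 * X ^ 1 * Y ^ 3 * (5005 * B ^ 6 + (-15015) * A ^ 1 * B ^ 5 + 13650 * A ^ 2 * B ^ 4 + (-4550) * A ^ 3 * B ^ 3 + 525 * A ^ 4 * B ^ 2 + (-15) * A ^ 5 * B ^ 1)
    + 494 * X ^ 2 * Y ^ 2 * (210 * B ^ 6 + (-2520) * A ^ 1 * B ^ 5 + 9450 * A ^ 2 * B ^ 4 + (-14400) * A ^ 3 * B ^ 3 + 9450 * A ^ 4 * B ^ 2 + (-2520) * A ^ 5 * B ^ 1 + 210 * A ^ 6)

/-- The coefficient of `T ^ 7` in `kc4 (X (1 - T A)⁵) (Y (1 + T B)⁵)`. -/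
def s4_7 (X Y A B : R) : R :=
    1 * X ^ 4 * ((-77520) * A ^ 7)
    + 1 * Y ^ 4 * (77520 * B ^ 7)
    + (-228) * X ^ 3 * Y ^ 1 * (105 * A ^ 2 * B ^ 5 + (-2275) * A ^ 3 * B ^ 4 + 13650 * A ^ 4 * B ^ 3 + (-30030) * A ^ 5 * B ^ 2 + 25025 * A ^ 6 * B ^ 1 + (-6435) * A ^ 7)
    + 228 * X ^ 1 * Y ^ 3 * (6435 * B ^ 7 + (-25025) * A ^ 1 * B ^ 6 + 30030 * A ^ 2 * B ^ 5 + (-13650) * A ^ 3 * B ^ 4 + 2275 * A ^ 4 * B ^ 3 + (-105) * A ^ 5 * B ^ 2)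
    + 494 * X ^ 2 * Y ^ 2 * (120 * B ^ 7 + (-2100) * A ^ 1 * B ^ 6 + 11340 * A ^ 2 * B ^ 5 + (-25200) * A ^ 3 * B ^ 4 + 25200 * A ^ 4 * B ^ 3 + (-11340) * A ^ 5 * B ^ 2 + 2100 * A ^ 6 * B ^ 1 + (-120) * A ^ 7)

/-- The coefficient of `T ^ 8` in `kc4 (X (1 - T A)⁵) (Y (1 + T B)⁵)`. -/
def s4_8 (X Y A B : R) : R :=
    1 * X ^ 4 * (125970 * A ^ 8)
    + 1 * Y ^ 4 * (125970 * B ^ 8)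
    + (-228) * X ^ 3 * Y ^ 1 * ((-455) * A ^ 3 * B ^ 5 + 6825 * A ^ 4 * B ^ 4 + (-30030) * A ^ 5 * B ^ 3 + 50050 * A ^ 6 * B ^ 2 + (-32175) * A ^ 7 * B ^ 1 + 6435 * A ^ 8)
    + 228 * X ^ 1 * Y ^ 3 * (6435 * B ^ 8 + (-32175) * A ^ 1 * B ^ 7 + 50050 * A ^ 2 * B ^ 6 + (-30030) * A ^ 3 * B ^ 5 + 6825 * A ^ 4 * B ^ 4 + (-455) * A ^ 5 * B ^ 3)
    + 494 * X ^ 2 * Y ^ 2 * (45 * B ^ 8 + (-1200) * A ^ 1 * B ^ 7 + 9450 * A ^ 2 * B ^ 6 + (-30240) * A ^ 3 * B ^ 5 + 44100 * A ^ 4 * B ^ 4 + (-30240) * A ^ 5 * B ^ 3 + 9450 * A ^ 6 * B ^ 2 + (-1200) * A ^ 7 * B ^ 1 + 45 * A ^ 8)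

/-- The coefficient of `T ^ 9` in `kc4 (X (1 - T A)⁵) (Y (1 + T B)⁵)`. -/
def s4_9 (X Y A B : R) : R :=
    1 * X ^ 4 * ((-167960) * A ^ 9)
    + 1 * Y ^ 4 * (167960 * B ^ 9)
    + (-228) * X ^ 3 * Y ^ 1 * (1365 * A ^ 4 * B ^ 5 + (-15015) * A ^ 5 * B ^ 4 + 50050 * A ^ 6 * B ^ 3 + (-64350) * A ^ 7 * B ^ 2 + 32175 * A ^ 8 * B ^ 1 + (-5005) * A ^ 9)
    + 228 * X ^ 1 * Y ^ 3 * (5005 * B ^ 9 + (-32175) * A ^ 1 * B ^ 8 + 64350 * A ^ 2 * B ^ 7 + (-50050) * A ^ 3 * B ^ 6 + 15015 * A ^ 4 * B ^ 5 + (-1365) * A ^ 5 * B ^ 4)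
    + 494 * X ^ 2 * Y ^ 2 * (10 * B ^ 9 + (-450) * A ^ 1 * B ^ 8 + 5400 * A ^ 2 * B ^ 7 + (-25200) * A ^ 3 * B ^ 6 + 52920 * A ^ 4 * B ^ 5 + (-52920) * A ^ 5 * B ^ 4 + 25200 * A ^ 6 * B ^ 3 + (-5400) * A ^ 7 * B ^ 2 + 450 * A ^ 8 * B ^ 1 + (-10) * A ^ 9)

/-- The coefficient of `T ^ 10` in `kc4 (X (1 - T A)⁵) (Y (1 + T B)⁵)`. -/
def s4_10 (X Y A B : R) : R :=
    1 * X ^ 4 * (184756 * A ^ 10)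
    + 1 * Y ^ 4 * (184756 * B ^ 10)
    + (-228) * X ^ 3 * Y ^ 1 * ((-3003) * A ^ 5 * B ^ 5 + 25025 * A ^ 6 * B ^ 4 + (-64350) * A ^ 7 * B ^ 3 + 64350 * A ^ 8 * B ^ 2 + (-25025) * A ^ 9 * B ^ 1 + 3003 * A ^ 10)
    + 228 * X ^ 1 * Y ^ 3 * (3003 * B ^ 10 + (-25025) * A ^ 1 * B ^ 9 + 64350 * A ^ 2 * B ^ 8 + (-64350) * A ^ 3 * B ^ 7 + 25025 * A ^ 4 * B ^ 6 + (-3003) * A ^ 5 * B ^ 5)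
    + 494 * X ^ 2 * Y ^ 2 * (1 * B ^ 10 + (-100) * A ^ 1 * B ^ 9 + 2025 * A ^ 2 * B ^ 8 + (-14400) * A ^ 3 * B ^ 7 + 44100 * A ^ 4 * B ^ 6 + (-63504) * A ^ 5 * B ^ 5 + 44100 * A ^ 6 * B ^ 4 + (-14400) * A ^ 7 * B ^ 3 + 2025 * A ^ 8 * B ^ 2 + (-100) * A ^ 9 * B ^ 1 + 1 * A ^ 10)

/-- The coefficient of `T ^ 11` in `kc4 (X (1 - T A)⁵) (Y (1 + T B)⁵)`. -/
def s4_11 (X Y A B : R) : R :=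
    1 * X ^ 4 * ((-167960) * A ^ 11)
    + 1 * Y ^ 4 * (167960 * B ^ 11)
    + (-228) * X ^ 3 * Y ^ 1 * (5005 * A ^ 6 * B ^ 5 + (-32175) * A ^ 7 * B ^ 4 + 64350 * A ^ 8 * B ^ 3 + (-50050) * A ^ 9 * B ^ 2 + 15015 * A ^ 10 * B ^ 1 + (-1365) * A ^ 11)
    + 228 * X ^ 1 * Y ^ 3 * (1365 * B ^ 11 + (-15015) * A ^ 1 * B ^ 10 + 50050 * A ^ 2 * B ^ 9 + (-64350) * A ^ 3 * B ^ 8 + 32175 * A ^ 4 * B ^ 7 + (-5005) * A ^ 5 * B ^ 6)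
    + 494 * X ^ 2 * Y ^ 2 * ((-10) * A ^ 1 * B ^ 10 + 450 * A ^ 2 * B ^ 9 + (-5400) * A ^ 3 * B ^ 8 + 25200 * A ^ 4 * B ^ 7 + (-52920) * A ^ 5 * B ^ 6 + 52920 * A ^ 6 * B ^ 5 + (-25200) * A ^ 7 * B ^ 4 + 5400 * A ^ 8 * B ^ 3 + (-450) * A ^ 9 * B ^ 2 + 10 * A ^ 10 * B ^ 1)

/-- The coefficient of `T ^ 12` in `kc4 (X (1 - T A)⁵) (Y (1 + T B)⁵)`. -/
def s4_12 (X Y A B : R) : R :=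
    1 * X ^ 4 * (125970 * A ^ 12)
    + 1 * Y ^ 4 * (125970 * B ^ 12)
    + (-228) * X ^ 3 * Y ^ 1 * ((-6435) * A ^ 7 * B ^ 5 + 32175 * A ^ 8 * B ^ 4 + (-50050) * A ^ 9 * B ^ 3 + 30030 * A ^ 10 * B ^ 2 + (-6825) * A ^ 11 * B ^ 1 + 455 * A ^ 12)
    + 228 * X ^ 1 * Y ^ 3 * (455 * B ^ 12 + (-6825) * A ^ 1 * B ^ 11 + 30030 * A ^ 2 * B ^ 10 + (-50050) * A ^ 3 * B ^ 9 + 32175 * A ^ 4 * B ^ 8 + (-6435) * A ^ 5 * B ^ 7)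
    + 494 * X ^ 2 * Y ^ 2 * (45 * A ^ 2 * B ^ 10 + (-1200) * A ^ 3 * B ^ 9 + 9450 * A ^ 4 * B ^ 8 + (-30240) * A ^ 5 * B ^ 7 + 44100 * A ^ 6 * B ^ 6 + (-30240) * A ^ 7 * B ^ 5 + 9450 * A ^ 8 * B ^ 4 + (-1200) * A ^ 9 * B ^ 3 + 45 * A ^ 10 * B ^ 2)

/-- The coefficient of `T ^ 13` in `kc4 (X (1 - T A)⁵) (Y (1 + T B)⁵)`. -/
def s4_13 (X Y A B : R) : R :=
    1 * X ^ 4 * ((-77520) * A ^ 13)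
    + 1 * Y ^ 4 * (77520 * B ^ 13)
    + (-228) * X ^ 3 * Y ^ 1 * (6435 * A ^ 8 * B ^ 5 + (-25025) * A ^ 9 * B ^ 4 + 30030 * A ^ 10 * B ^ 3 + (-13650) * A ^ 11 * B ^ 2 + 2275 * A ^ 12 * B ^ 1 + (-105) * A ^ 13)
    + 228 * X ^ 1 * Y ^ 3 * (105 * B ^ 13 + (-2275) * A ^ 1 * B ^ 12 + 13650 * A ^ 2 * B ^ 11 + (-30030) * A ^ 3 * B ^ 10 + 25025 * A ^ 4 * B ^ 9 + (-6435) * A ^ 5 * B ^ 8)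
    + 494 * X ^ 2 * Y ^ 2 * ((-120) * A ^ 3 * B ^ 10 + 2100 * A ^ 4 * B ^ 9 + (-11340) * A ^ 5 * B ^ 8 + 25200 * A ^ 6 * B ^ 7 + (-25200) * A ^ 7 * B ^ 6 + 11340 * A ^ 8 * B ^ 5 + (-2100) * A ^ 9 * B ^ 4 + 120 * A ^ 10 * B ^ 3)

/-- The coefficient of `T ^ 14` in `kc4 (X (1 - T A)⁵) (Y (1 + T B)⁵)`. -/
def s4_14 (X Y A B : R) : R :=
    1 * X ^ 4 * (38760 * A ^ 14)
    + 1 * Y ^ 4 * (38760 * B ^ 14)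
    + (-228) * X ^ 3 * Y ^ 1 * ((-5005) * A ^ 9 * B ^ 5 + 15015 * A ^ 10 * B ^ 4 + (-13650) * A ^ 11 * B ^ 3 + 4550 * A ^ 12 * B ^ 2 + (-525) * A ^ 13 * B ^ 1 + 15 * A ^ 14)
    + 228 * X ^ 1 * Y ^ 3 * (15 * B ^ 14 + (-525) * A ^ 1 * B ^ 13 + 4550 * A ^ 2 * B ^ 12 + (-13650) * A ^ 3 * B ^ 11 + 15015 * A ^ 4 * B ^ 10 + (-5005) * A ^ 5 * B ^ 9)
    + 494 * X ^ 2 * Y ^ 2 * (210 * A ^ 4 * B ^ 10 + (-2520) * A ^ 5 * B ^ 9 + 9450 * A ^ 6 * B ^ 8 + (-14400) * A ^ 7 * B ^ 7 + 9450 * A ^ 8 * B ^ 6 + (-2520) * A ^ 9 * B ^ 5 + 210 * A ^ 10 * B ^ 4)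

/-- The coefficient of `T ^ 15` in `kc4 (X (1 - T A)⁵) (Y (1 + T B)⁵)`. -/
def s4_15 (X Y A B : R) : R :=
    1 * X ^ 4 * ((-15504) * A ^ 15)
    + 1 * Y ^ 4 * (15504 * B ^ 15)
    + (-228) * X ^ 3 * Y ^ 1 * (3003 * A ^ 10 * B ^ 5 + (-6825) * A ^ 11 * B ^ 4 + 4550 * A ^ 12 * B ^ 3 + (-1050) * A ^ 13 * B ^ 2 + 75 * A ^ 14 * B ^ 1 + (-1) * A ^ 15)
    + 228 * X ^ 1 * Y ^ 3 * (1 * B ^ 15 + (-75) * A ^ 1 * B ^ 14 + 1050 * A ^ 2 * B ^ 13 + (-4550) * A ^ 3 * B ^ 12 + 6825 * A ^ 4 * B ^ 11 + (-3003) * A ^ 5 * B ^ 10)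
    + 494 * X ^ 2 * Y ^ 2 * ((-252) * A ^ 5 * B ^ 10 + 2100 * A ^ 6 * B ^ 9 + (-5400) * A ^ 7 * B ^ 8 + 5400 * A ^ 8 * B ^ 7 + (-2100) * A ^ 9 * B ^ 6 + 252 * A ^ 10 * B ^ 5)

/-- The coefficient of `T ^ 16` in `kc4 (X (1 - T A)⁵) (Y (1 + T B)⁵)`. -/
def s4_16 (X Y A B : R) : R :=
    1 * X ^ 4 * (4845 * A ^ 16)
    + 1 * Y ^ 4 * (4845 * B ^ 16)
    + (-228) * X ^ 3 * Y ^ 1 * ((-1365) * A ^ 11 * B ^ 5 + 2275 * A ^ 12 * B ^ 4 + (-1050) * A ^ 13 * B ^ 3 + 150 * A ^ 14 * B ^ 2 + (-5) * A ^ 15 * B ^ 1)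
    + 228 * X ^ 1 * Y ^ 3 * ((-5) * A ^ 1 * B ^ 15 + 150 * A ^ 2 * B ^ 14 + (-1050) * A ^ 3 * B ^ 13 + 2275 * A ^ 4 * B ^ 12 + (-1365) * A ^ 5 * B ^ 11)
    + 494 * X ^ 2 * Y ^ 2 * (210 * A ^ 6 * B ^ 10 + (-1200) * A ^ 7 * B ^ 9 + 2025 * A ^ 8 * B ^ 8 + (-1200) * A ^ 9 * B ^ 7 + 210 * A ^ 10 * B ^ 6)

/-- The coefficient of `T ^ 17` in `kc4 (X (1 - T A)⁵) (Y (1 + T B)⁵)`. -/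
def s4_17 (X Y A B : R) : R :=
    1 * X ^ 4 * ((-1140) * A ^ 17)
    + 1 * Y ^ 4 * (1140 * B ^ 17)
    + (-228) * X ^ 3 * Y ^ 1 * (455 * A ^ 12 * B ^ 5 + (-525) * A ^ 13 * B ^ 4 + 150 * A ^ 14 * B ^ 3 + (-10) * A ^ 15 * B ^ 2)
    + 228 * X ^ 1 * Y ^ 3 * (10 * A ^ 2 * B ^ 15 + (-150) * A ^ 3 * B ^ 14 + 525 * A ^ 4 * B ^ 13 + (-455) * A ^ 5 * B ^ 12)
    + 494 * X ^ 2 * Y ^ 2 * ((-120) * A ^ 7 * B ^ 10 + 450 * A ^ 8 * B ^ 9 + (-450) * A ^ 9 * B ^ 8 + 120 * A ^ 10 * B ^ 7)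

/-- The coefficient of `T ^ 18` in `kc4 (X (1 - T A)⁵) (Y (1 + T B)⁵)`. -/
def s4_18 (X Y A B : R) : R :=
    1 * X ^ 4 * (190 * A ^ 18)
    + 1 * Y ^ 4 * (190 * B ^ 18)
    + (-228) * X ^ 3 * Y ^ 1 * ((-105) * A ^ 13 * B ^ 5 + 75 * A ^ 14 * B ^ 4 + (-10) * A ^ 15 * B ^ 3)
    + 228 * X ^ 1 * Y ^ 3 * ((-10) * A ^ 3 * B ^ 15 + 75 * A ^ 4 * B ^ 14 + (-105) * A ^ 5 * B ^ 13)
    + 494 * X ^ 2 * Y ^ 2 * (45 * A ^ 8 * B ^ 10 + (-100) * A ^ 9 * B ^ 9 + 45 * A ^ 10 * B ^ 8)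

/-- The coefficient of `T ^ 19` in `kc4 (X (1 - T A)⁵) (Y (1 + T B)⁵)`. -/
def s4_19 (X Y A B : R) : R :=
    1 * X ^ 4 * ((-20) * A ^ 19)
    + 1 * Y ^ 4 * (20 * B ^ 19)
    + (-228) * X ^ 3 * Y ^ 1 * (15 * A ^ 14 * B ^ 5 + (-5) * A ^ 15 * B ^ 4)
    + 228 * X ^ 1 * Y ^ 3 * (5 * A ^ 4 * B ^ 15 + (-15) * A ^ 5 * B ^ 14)
    + 494 * X ^ 2 * Y ^ 2 * ((-10) * A ^ 9 * B ^ 10 + 10 * A ^ 10 * B ^ 9)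

/-- The coefficient of `T ^ 20` in `kc4 (X (1 - T A)⁵) (Y (1 + T B)⁵)`. -/
def s4_20 (X Y A B : R) : R :=
    1 * X ^ 4 * (1 * A ^ 20)
    + 1 * Y ^ 4 * (1 * B ^ 20)
    + (-228) * X ^ 3 * Y ^ 1 * ((-1) * A ^ 15 * B ^ 5)
    + 228 * X ^ 1 * Y ^ 3 * ((-1) * A ^ 5 * B ^ 15)
    + 494 * X ^ 2 * Y ^ 2 * (1 * A ^ 10 * B ^ 10)

/-- The coefficient of `T ^ 0` in `kc6 (X (1 - T A)⁵) (Y (1 + T B)⁵)`. -/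
def s6_0 (X Y A B : R) : R :=
    (-1) * X ^ 6 * (1)
    + (-1) * Y ^ 6 * (1)
    + (-522) * X ^ 5 * Y ^ 1 * (1)
    + 522 * X ^ 1 * Y ^ 5 * (1)
    + 10005 * X ^ 4 * Y ^ 2 * (1)
    + 10005 * X ^ 2 * Y ^ 4 * (1)

/-- The coefficient of `T ^ 1` in `kc6 (X (1 - T A)⁵) (Y (1 + T B)⁵)`. -/
def s6_1 (X Y A B : R) : R :=
    (-1) * X ^ 6 * ((-30) * A ^ 1)
    + (-1) * Y ^ 6 * (30 * B ^ 1)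
    + (-522) * X ^ 5 * Y ^ 1 * (5 * B ^ 1 + (-25) * A ^ 1)
    + 522 * X ^ 1 * Y ^ 5 * (25 * B ^ 1 + (-5) * A ^ 1)
    + 10005 * X ^ 4 * Y ^ 2 * (10 * B ^ 1 + (-20) * A ^ 1)
    + 10005 * X ^ 2 * Y ^ 4 * (20 * B ^ 1 + (-10) * A ^ 1)

/-- The coefficient of `T ^ 2` in `kc6 (X (1 - T A)⁵) (Y (1 + T B)⁵)`. -/
def s6_2 (X Y A B : R) : R :=
    (-1) * X ^ 6 * (435 * A ^ 2)
    + (-1) * Y ^ 6 * (435 * B ^ 2)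
    + (-522) * X ^ 5 * Y ^ 1 * (10 * B ^ 2 + (-125) * A ^ 1 * B ^ 1 + 300 * A ^ 2)
    + 522 * X ^ 1 * Y ^ 5 * (300 * B ^ 2 + (-125) * A ^ 1 * B ^ 1 + 10 * A ^ 2)
    + 10005 * X ^ 4 * Y ^ 2 * (45 * B ^ 2 + (-200) * A ^ 1 * B ^ 1 + 190 * A ^ 2)
    + 10005 * X ^ 2 * Y ^ 4 * (190 * B ^ 2 + (-200) * A ^ 1 * B ^ 1 + 45 * A ^ 2)

/-- The coefficient of `T ^ 3` in `kc6 (X (1 - T A)⁵) (Y (1 + T B)⁵)`. -/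
def s6_3 (X Y A B : R) : R :=
    (-1) * X ^ 6 * ((-4060) * A ^ 3)
    + (-1) * Y ^ 6 * (4060 * B ^ 3)
    + (-522) * X ^ 5 * Y ^ 1 * (10 * B ^ 3 + (-250) * A ^ 1 * B ^ 2 + 1500 * A ^ 2 * B ^ 1 + (-2300) * A ^ 3)
    + 522 * X ^ 1 * Y ^ 5 * (2300 * B ^ 3 + (-1500) * A ^ 1 * B ^ 2 + 250 * A ^ 2 * B ^ 1 + (-10) * A ^ 3)
    + 10005 * X ^ 4 * Y ^ 2 * (120 * B ^ 3 + (-900) * A ^ 1 * B ^ 2 + 1900 * A ^ 2 * B ^ 1 + (-1140) * A ^ 3)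
    + 10005 * X ^ 2 * Y ^ 4 * (1140 * B ^ 3 + (-1900) * A ^ 1 * B ^ 2 + 900 * A ^ 2 * B ^ 1 + (-120) * A ^ 3)

/-- The coefficient of `T ^ 4` in `kc6 (X (1 - T A)⁵) (Y (1 + T B)⁵)`. -/
def s6_4 (X Y A B : R) : R :=
    (-1) * X ^ 6 * (27405 * A ^ 4)
    + (-1) * Y ^ 6 * (27405 * B ^ 4)
    + (-522) * X ^ 5 * Y ^ 1 * (5 * B ^ 4 + (-250) * A ^ 1 * B ^ 3 + 3000 * A ^ 2 * B ^ 2 + (-11500) * A ^ 3 * B ^ 1 + 12650 * A ^ 4)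
    + 522 * X ^ 1 * Y ^ 5 * (12650 * B ^ 4 + (-11500) * A ^ 1 * B ^ 3 + 3000 * A ^ 2 * B ^ 2 + (-250) * A ^ 3 * B ^ 1 + 5 * A ^ 4)
    + 10005 * X ^ 4 * Y ^ 2 * (210 * B ^ 4 + (-2400) * A ^ 1 * B ^ 3 + 8550 * A ^ 2 * B ^ 2 + (-11400) * A ^ 3 * B ^ 1 + 4845 * A ^ 4)
    + 10005 * X ^ 2 * Y ^ 4 * (4845 * B ^ 4 + (-11400) * A ^ 1 * B ^ 3 + 8550 * A ^ 2 * B ^ 2 + (-2400) * A ^ 3 * B ^ 1 + 210 * A ^ 4)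

/-- The coefficient of `T ^ 5` in `kc6 (X (1 - T A)⁵) (Y (1 + T B)⁵)`. -/
def s6_5 (X Y A B : R) : R :=
    (-1) * X ^ 6 * ((-142506) * A ^ 5)
    + (-1) * Y ^ 6 * (142506 * B ^ 5)
    + (-522) * X ^ 5 * Y ^ 1 * (1 * B ^ 5 + (-125) * A ^ 1 * B ^ 4 + 3000 * A ^ 2 * B ^ 3 + (-23000) * A ^ 3 * B ^ 2 + 63250 * A ^ 4 * B ^ 1 + (-53130) * A ^ 5)
    + 522 * X ^ 1 * Y ^ 5 * (53130 * B ^ 5 + (-63250) * A ^ 1 * B ^ 4 + 23000 * A ^ 2 * B ^ 3 + (-3000) * A ^ 3 * B ^ 2 + 125 * A ^ 4 * B ^ 1 + (-1) * A ^ 5)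
    + 10005 * X ^ 4 * Y ^ 2 * (252 * B ^ 5 + (-4200) * A ^ 1 * B ^ 4 + 22800 * A ^ 2 * B ^ 3 + (-51300) * A ^ 3 * B ^ 2 + 48450 * A ^ 4 * B ^ 1 + (-15504) * A ^ 5)
    + 10005 * X ^ 2 * Y ^ 4 * (15504 * B ^ 5 + (-48450) * A ^ 1 * B ^ 4 + 51300 * A ^ 2 * B ^ 3 + (-22800) * A ^ 3 * B ^ 2 + 4200 * A ^ 4 * B ^ 1 + (-252) * A ^ 5)

/-- The coefficient of `T ^ 6` in `kc6 (X (1 - T A)⁵) (Y (1 + T B)⁵)`. -/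
def s6_6 (X Y A B : R) : R :=
    (-1) * X ^ 6 * (593775 * A ^ 6)
    + (-1) * Y ^ 6 * (593775 * B ^ 6)
    + (-522) * X ^ 5 * Y ^ 1 * ((-25) * A ^ 1 * B ^ 5 + 1500 * A ^ 2 * B ^ 4 + (-23000) * A ^ 3 * B ^ 3 + 126500 * A ^ 4 * B ^ 2 + (-265650) * A ^ 5 * B ^ 1 + 177100 * A ^ 6)
    + 522 * X ^ 1 * Y ^ 5 * (177100 * B ^ 6 + (-265650) * A ^ 1 * B ^ 5 + 126500 * A ^ 2 * B ^ 4 + (-23000) * A ^ 3 * B ^ 3 + 1500 * A ^ 4 * B ^ 2 + (-25) * A ^ 5 * B ^ 1)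
    + 10005 * X ^ 4 * Y ^ 2 * (210 * B ^ 6 + (-5040) * A ^ 1 * B ^ 5 + 39900 * A ^ 2 * B ^ 4 + (-136800) * A ^ 3 * B ^ 3 + 218025 * A ^ 4 * B ^ 2 + (-155040) * A ^ 5 * B ^ 1 + 38760 * A ^ 6)
    + 10005 * X ^ 2 * Y ^ 4 * (38760 * B ^ 6 + (-155040) * A ^ 1 * B ^ 5 + 218025 * A ^ 2 * B ^ 4 + (-136800) * A ^ 3 * B ^ 3 + 39900 * A ^ 4 * B ^ 2 + (-5040) * A ^ 5 * B ^ 1 + 210 * A ^ 6)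

/-- The coefficient of `T ^ 7` in `kc6 (X (1 - T A)⁵) (Y (1 + T B)⁵)`. -/
def s6_7 (X Y A B : R) : R :=
    (-1) * X ^ 6 * ((-2035800) * A ^ 7)
    + (-1) * Y ^ 6 * (2035800 * B ^ 7)
    + (-522) * X ^ 5 * Y ^ 1 * (300 * A ^ 2 * B ^ 5 + (-11500) * A ^ 3 * B ^ 4 + 126500 * A ^ 4 * B ^ 3 + (-531300) * A ^ 5 * B ^ 2 + 885500 * A ^ 6 * B ^ 1 + (-480700) * A ^ 7)
    + 522 * X ^ 1 * Y ^ 5 * (480700 * B ^ 7 + (-885500) * A ^ 1 * B ^ 6 + 531300 * A ^ 2 * B ^ 5 + (-126500) * A ^ 3 * B ^ 4 + 11500 * A ^ 4 * B ^ 3 + (-300) * A ^ 5 * B ^ 2)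
    + 10005 * X ^ 4 * Y ^ 2 * (120 * B ^ 7 + (-4200) * A ^ 1 * B ^ 6 + 47880 * A ^ 2 * B ^ 5 + (-239400) * A ^ 3 * B ^ 4 + 581400 * A ^ 4 * B ^ 3 + (-697680) * A ^ 5 * B ^ 2 + 387600 * A ^ 6 * B ^ 1 + (-77520) * A ^ 7)
    + 10005 * X ^ 2 * Y ^ 4 * (77520 * B ^ 7 + (-387600) * A ^ 1 * B ^ 6 + 697680 * A ^ 2 * B ^ 5 + (-581400) * A ^ 3 * B ^ 4 + 239400 * A ^ 4 * B ^ 3 + (-47880) * A ^ 5 * B ^ 2 + 4200 * A ^ 6 * B ^ 1 + (-120) * A ^ 7)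

/-- The coefficient of `T ^ 8` in `kc6 (X (1 - T A)⁵) (Y (1 + T B)⁵)`. -/
def s6_8 (X Y A B : R) : R :=
    (-1) * X ^ 6 * (5852925 * A ^ 8)
    + (-1) * Y ^ 6 * (5852925 * B ^ 8)
    + (-522) * X ^ 5 * Y ^ 1 * ((-2300) * A ^ 3 * B ^ 5 + 63250 * A ^ 4 * B ^ 4 + (-531300) * A ^ 5 * B ^ 3 + 1771000 * A ^ 6 * B ^ 2 + (-2403500) * A ^ 7 * B ^ 1 + 1081575 * A ^ 8)
    + 522 * X ^ 1 * Y ^ 5 * (1081575 * B ^ 8 + (-2403500) * A ^ 1 * B ^ 7 + 1771000 * A ^ 2 * B ^ 6 + (-531300) * A ^ 3 * B ^ 5 + 63250 * A ^ 4 * B ^ 4 + (-2300) * A ^ 5 * B ^ 3)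
    + 10005 * X ^ 4 * Y ^ 2 * (45 * B ^ 8 + (-2400) * A ^ 1 * B ^ 7 + 39900 * A ^ 2 * B ^ 6 + (-287280) * A ^ 3 * B ^ 5 + 1017450 * A ^ 4 * B ^ 4 + (-1860480) * A ^ 5 * B ^ 3 + 1744200 * A ^ 6 * B ^ 2 + (-775200) * A ^ 7 * B ^ 1 + 125970 * A ^ 8)
    + 10005 * X ^ 2 * Y ^ 4 * (125970 * B ^ 8 + (-775200) * A ^ 1 * B ^ 7 + 1744200 * A ^ 2 * B ^ 6 + (-1860480) * A ^ 3 * B ^ 5 + 1017450 * A ^ 4 * B ^ 4 + (-287280) * A ^ 5 * B ^ 3 + 39900 * A ^ 6 * B ^ 2 + (-2400) * A ^ 7 * B ^ 1 + 45 * A ^ 8)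

/-- The coefficient of `T ^ 9` in `kc6 (X (1 - T A)⁵) (Y (1 + T B)⁵)`. -/
def s6_9 (X Y A B : R) : R :=
    (-1) * X ^ 6 * ((-14307150) * A ^ 9)
    + (-1) * Y ^ 6 * (14307150 * B ^ 9)
    + (-522) * X ^ 5 * Y ^ 1 * (12650 * A ^ 4 * B ^ 5 + (-265650) * A ^ 5 * B ^ 4 + 1771000 * A ^ 6 * B ^ 3 + (-4807000) * A ^ 7 * B ^ 2 + 5407875 * A ^ 8 * B ^ 1 + (-2042975) * A ^ 9)
    + 522 * X ^ 1 * Y ^ 5 * (2042975 * B ^ 9 + (-5407875) * A ^ 1 * B ^ 8 + 4807000 * A ^ 2 * B ^ 7 + (-1771000) * A ^ 3 * B ^ 6 + 265650 * A ^ 4 * B ^ 5 + (-12650) * A ^ 5 * B ^ 4)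
    + 10005 * X ^ 4 * Y ^ 2 * (10 * B ^ 9 + (-900) * A ^ 1 * B ^ 8 + 22800 * A ^ 2 * B ^ 7 + (-239400) * A ^ 3 * B ^ 6 + 1220940 * A ^ 4 * B ^ 5 + (-3255840) * A ^ 5 * B ^ 4 + 4651200 * A ^ 6 * B ^ 3 + (-3488400) * A ^ 7 * B ^ 2 + 1259700 * A ^ 8 * B ^ 1 + (-167960) * A ^ 9)
    + 10005 * X ^ 2 * Y ^ 4 * (167960 * B ^ 9 + (-1259700) * A ^ 1 * B ^ 8 + 3488400 * A ^ 2 * B ^ 7 + (-4651200) * A ^ 3 * B ^ 6 + 3255840 * A ^ 4 * B ^ 5 + (-1220940) * A ^ 5 * B ^ 4 + 239400 * A ^ 6 * B ^ 3 + (-22800) * A ^ 7 * B ^ 2 + 900 * A ^ 8 * B ^ 1 + (-10) * A ^ 9)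

/-- The coefficient of `T ^ 10` in `kc6 (X (1 - T A)⁵) (Y (1 + T B)⁵)`. -/
def s6_10 (X Y A B : R) : R :=
    (-1) * X ^ 6 * (30045015 * A ^ 10)
    + (-1) * Y ^ 6 * (30045015 * B ^ 10)
    + (-522) * X ^ 5 * Y ^ 1 * ((-53130) * A ^ 5 * B ^ 5 + 885500 * A ^ 6 * B ^ 4 + (-4807000) * A ^ 7 * B ^ 3 + 10815750 * A ^ 8 * B ^ 2 + (-10214875) * A ^ 9 * B ^ 1 + 3268760 * A ^ 10)
    + 522 * X ^ 1 * Y ^ 5 * (3268760 * B ^ 10 + (-10214875) * A ^ 1 * B ^ 9 + 10815750 * A ^ 2 * B ^ 8 + (-4807000) * A ^ 3 * B ^ 7 + 885500 * A ^ 4 * B ^ 6 + (-53130) * A ^ 5 * B ^ 5)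
    + 10005 * X ^ 4 * Y ^ 2 * (1 * B ^ 10 + (-200) * A ^ 1 * B ^ 9 + 8550 * A ^ 2 * B ^ 8 + (-136800) * A ^ 3 * B ^ 7 + 1017450 * A ^ 4 * B ^ 6 + (-3907008) * A ^ 5 * B ^ 5 + 8139600 * A ^ 6 * B ^ 4 + (-9302400) * A ^ 7 * B ^ 3 + 5668650 * A ^ 8 * B ^ 2 + (-1679600) * A ^ 9 * B ^ 1 + 184756 * A ^ 10)
    + 10005 * X ^ 2 * Y ^ 4 * (184756 * B ^ 10 + (-1679600) * A ^ 1 * B ^ 9 + 5668650 * A ^ 2 * B ^ 8 + (-9302400) * A ^ 3 * B ^ 7 + 8139600 * A ^ 4 * B ^ 6 + (-3907008) * A ^ 5 * B ^ 5 + 1017450 * A ^ 6 * B ^ 4 + (-136800) * A ^ 7 * B ^ 3 + 8550 * A ^ 8 * B ^ 2 + (-200) * A ^ 9 * B ^ 1 + 1 * A ^ 10)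

/-- The coefficient of `T ^ 11` in `kc6 (X (1 - T A)⁵) (Y (1 + T B)⁵)`. -/
def s6_11 (X Y A B : R) : R :=
    (-1) * X ^ 6 * ((-54627300) * A ^ 11)
    + (-1) * Y ^ 6 * (54627300 * B ^ 11)
    + (-522) * X ^ 5 * Y ^ 1 * (177100 * A ^ 6 * B ^ 5 + (-2403500) * A ^ 7 * B ^ 4 + 10815750 * A ^ 8 * B ^ 3 + (-20429750) * A ^ 9 * B ^ 2 + 16343800 * A ^ 10 * B ^ 1 + (-4457400) * A ^ 11)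
    + 522 * X ^ 1 * Y ^ 5 * (4457400 * B ^ 11 + (-16343800) * A ^ 1 * B ^ 10 + 20429750 * A ^ 2 * B ^ 9 + (-10815750) * A ^ 3 * B ^ 8 + 2403500 * A ^ 4 * B ^ 7 + (-177100) * A ^ 5 * B ^ 6)
    + 10005 * X ^ 4 * Y ^ 2 * ((-20) * A ^ 1 * B ^ 10 + 1900 * A ^ 2 * B ^ 9 + (-51300) * A ^ 3 * B ^ 8 + 581400 * A ^ 4 * B ^ 7 + (-3255840) * A ^ 5 * B ^ 6 + 9767520 * A ^ 6 * B ^ 5 + (-16279200) * A ^ 7 * B ^ 4 + 15116400 * A ^ 8 * B ^ 3 + (-7558200) * A ^ 9 * B ^ 2 + 1847560 * A ^ 10 * B ^ 1 + (-167960) * A ^ 11)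
    + 10005 * X ^ 2 * Y ^ 4 * (167960 * B ^ 11 + (-1847560) * A ^ 1 * B ^ 10 + 7558200 * A ^ 2 * B ^ 9 + (-15116400) * A ^ 3 * B ^ 8 + 16279200 * A ^ 4 * B ^ 7 + (-9767520) * A ^ 5 * B ^ 6 + 3255840 * A ^ 6 * B ^ 5 + (-581400) * A ^ 7 * B ^ 4 + 51300 * A ^ 8 * B ^ 3 + (-1900) * A ^ 9 * B ^ 2 + 20 * A ^ 10 * B ^ 1)

/-- The coefficient of `T ^ 12` in `kc6 (X (1 - T A)⁵) (Y (1 + T B)⁵)`. -/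
def s6_12 (X Y A B : R) : R :=
    (-1) * X ^ 6 * (86493225 * A ^ 12)
    + (-1) * Y ^ 6 * (86493225 * B ^ 12)
    + (-522) * X ^ 5 * Y ^ 1 * ((-480700) * A ^ 7 * B ^ 5 + 5407875 * A ^ 8 * B ^ 4 + (-20429750) * A ^ 9 * B ^ 3 + 32687600 * A ^ 10 * B ^ 2 + (-22287000) * A ^ 11 * B ^ 1 + 5200300 * A ^ 12)
    + 522 * X ^ 1 * Y ^ 5 * (5200300 * B ^ 12 + (-22287000) * A ^ 1 * B ^ 11 + 32687600 * A ^ 2 * B ^ 10 + (-20429750) * A ^ 3 * B ^ 9 + 5407875 * A ^ 4 * B ^ 8 + (-480700) * A ^ 5 * B ^ 7)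
    + 10005 * X ^ 4 * Y ^ 2 * (190 * A ^ 2 * B ^ 10 + (-11400) * A ^ 3 * B ^ 9 + 218025 * A ^ 4 * B ^ 8 + (-1860480) * A ^ 5 * B ^ 7 + 8139600 * A ^ 6 * B ^ 6 + (-19535040) * A ^ 7 * B ^ 5 + 26453700 * A ^ 8 * B ^ 4 + (-20155200) * A ^ 9 * B ^ 3 + 8314020 * A ^ 10 * B ^ 2 + (-1679600) * A ^ 11 * B ^ 1 + 125970 * A ^ 12)
    + 10005 * X ^ 2 * Y ^ 4 * (125970 * B ^ 12 + (-1679600) * A ^ 1 * B ^ 11 + 8314020 * A ^ 2 * B ^ 10 + (-20155200) * A ^ 3 * B ^ 9 + 26453700 * A ^ 4 * B ^ 8 + (-19535040) * A ^ 5 * B ^ 7 + 8139600 * A ^ 6 * B ^ 6 + (-1860480) * A ^ 7 * B ^ 5 + 218025 * A ^ 8 * B ^ 4 + (-11400) * A ^ 9 * B ^ 3 + 190 * A ^ 10 * B ^ 2)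

/-- The coefficient of `T ^ 13` in `kc6 (X (1 - T A)⁵) (Y (1 + T B)⁵)`. -/
def s6_13 (X Y A B : R) : R :=
    (-1) * X ^ 6 * ((-119759850) * A ^ 13)
    + (-1) * Y ^ 6 * (119759850 * B ^ 13)
    + (-522) * X ^ 5 * Y ^ 1 * (1081575 * A ^ 8 * B ^ 5 + (-10214875) * A ^ 9 * B ^ 4 + 32687600 * A ^ 10 * B ^ 3 + (-44574000) * A ^ 11 * B ^ 2 + 26001500 * A ^ 12 * B ^ 1 + (-5200300) * A ^ 13)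
    + 522 * X ^ 1 * Y ^ 5 * (5200300 * B ^ 13 + (-26001500) * A ^ 1 * B ^ 12 + 44574000 * A ^ 2 * B ^ 11 + (-32687600) * A ^ 3 * B ^ 10 + 10214875 * A ^ 4 * B ^ 9 + (-1081575) * A ^ 5 * B ^ 8)
    + 10005 * X ^ 4 * Y ^ 2 * ((-1140) * A ^ 3 * B ^ 10 + 48450 * A ^ 4 * B ^ 9 + (-697680) * A ^ 5 * B ^ 8 + 4651200 * A ^ 6 * B ^ 7 + (-16279200) * A ^ 7 * B ^ 6 + 31744440 * A ^ 8 * B ^ 5 + (-35271600) * A ^ 9 * B ^ 4 + 22170720 * A ^ 10 * B ^ 3 + (-7558200) * A ^ 11 * B ^ 2 + 1259700 * A ^ 12 * B ^ 1 + (-77520) * A ^ 13)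
    + 10005 * X ^ 2 * Y ^ 4 * (77520 * B ^ 13 + (-1259700) * A ^ 1 * B ^ 12 + 7558200 * A ^ 2 * B ^ 11 + (-22170720) * A ^ 3 * B ^ 10 + 35271600 * A ^ 4 * B ^ 9 + (-31744440) * A ^ 5 * B ^ 8 + 16279200 * A ^ 6 * B ^ 7 + (-4651200) * A ^ 7 * B ^ 6 + 697680 * A ^ 8 * B ^ 5 + (-48450) * A ^ 9 * B ^ 4 + 1140 * A ^ 10 * B ^ 3)

/-- The coefficient of `T ^ 14` in `kc6 (X (1 - T A)⁵) (Y (1 + T B)⁵)`. -/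
def s6_14 (X Y A B : R) : R :=
    (-1) * X ^ 6 * (145422675 * A ^ 14)
    + (-1) * Y ^ 6 * (145422675 * B ^ 14)
    + (-522) * X ^ 5 * Y ^ 1 * ((-2042975) * A ^ 9 * B ^ 5 + 16343800 * A ^ 10 * B ^ 4 + (-44574000) * A ^ 11 * B ^ 3 + 52003000 * A ^ 12 * B ^ 2 + (-26001500) * A ^ 13 * B ^ 1 + 4457400 * A ^ 14)
    + 522 * X ^ 1 * Y ^ 5 * (4457400 * B ^ 14 + (-26001500) * A ^ 1 * B ^ 13 + 52003000 * A ^ 2 * B ^ 12 + (-44574000) * A ^ 3 * B ^ 11 + 16343800 * A ^ 4 * B ^ 10 + (-2042975) * A ^ 5 * B ^ 9)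
    + 10005 * X ^ 4 * Y ^ 2 * (4845 * A ^ 4 * B ^ 10 + (-155040) * A ^ 5 * B ^ 9 + 1744200 * A ^ 6 * B ^ 8 + (-9302400) * A ^ 7 * B ^ 7 + 26453700 * A ^ 8 * B ^ 6 + (-42325920) * A ^ 9 * B ^ 5 + 38798760 * A ^ 10 * B ^ 4 + (-20155200) * A ^ 11 * B ^ 3 + 5668650 * A ^ 12 * B ^ 2 + (-775200) * A ^ 13 * B ^ 1 + 38760 * A ^ 14)
    + 10005 * X ^ 2 * Y ^ 4 * (38760 * B ^ 14 + (-775200) * A ^ 1 * B ^ 13 + 5668650 * A ^ 2 * B ^ 12 + (-20155200) * A ^ 3 * B ^ 11 + 38798760 * A ^ 4 * B ^ 10 + (-42325920) * A ^ 5 * B ^ 9 + 26453700 * A ^ 6 * B ^ 8 + (-9302400) * A ^ 7 * B ^ 7 + 1744200 * A ^ 8 * B ^ 6 + (-155040) * A ^ 9 * B ^ 5 + 4845 * A ^ 10 * B ^ 4)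

/-- The coefficient of `T ^ 15` in `kc6 (X (1 - T A)⁵) (Y (1 + T B)⁵)`. -/
def s6_15 (X Y A B : R) : R :=
    (-1) * X ^ 6 * ((-155117520) * A ^ 15)
    + (-1) * Y ^ 6 * (155117520 * B ^ 15)
    + (-522) * X ^ 5 * Y ^ 1 * (3268760 * A ^ 10 * B ^ 5 + (-22287000) * A ^ 11 * B ^ 4 + 52003000 * A ^ 12 * B ^ 3 + (-52003000) * A ^ 13 * B ^ 2 + 22287000 * A ^ 14 * B ^ 1 + (-3268760) * A ^ 15)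
    + 522 * X ^ 1 * Y ^ 5 * (3268760 * B ^ 15 + (-22287000) * A ^ 1 * B ^ 14 + 52003000 * A ^ 2 * B ^ 13 + (-52003000) * A ^ 3 * B ^ 12 + 22287000 * A ^ 4 * B ^ 11 + (-3268760) * A ^ 5 * B ^ 10)
    + 10005 * X ^ 4 * Y ^ 2 * ((-15504) * A ^ 5 * B ^ 10 + 387600 * A ^ 6 * B ^ 9 + (-3488400) * A ^ 7 * B ^ 8 + 15116400 * A ^ 8 * B ^ 7 + (-35271600) * A ^ 9 * B ^ 6 + 46558512 * A ^ 10 * B ^ 5 + (-35271600) * A ^ 11 * B ^ 4 + 15116400 * A ^ 12 * B ^ 3 + (-3488400) * A ^ 13 * B ^ 2 + 387600 * A ^ 14 * B ^ 1 + (-15504) * A ^ 15)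
    + 10005 * X ^ 2 * Y ^ 4 * (15504 * B ^ 15 + (-387600) * A ^ 1 * B ^ 14 + 3488400 * A ^ 2 * B ^ 13 + (-15116400) * A ^ 3 * B ^ 12 + 35271600 * A ^ 4 * B ^ 11 + (-46558512) * A ^ 5 * B ^ 10 + 35271600 * A ^ 6 * B ^ 9 + (-15116400) * A ^ 7 * B ^ 8 + 3488400 * A ^ 8 * B ^ 7 + (-387600) * A ^ 9 * B ^ 6 + 15504 * A ^ 10 * B ^ 5)

/-- The coefficient of `T ^ 16` in `kc6 (X (1 - T A)⁵) (Y (1 + T B)⁵)`. -/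
def s6_16 (X Y A B : R) : R :=
    (-1) * X ^ 6 * (145422675 * A ^ 16)
    + (-1) * Y ^ 6 * (145422675 * B ^ 16)
    + (-522) * X ^ 5 * Y ^ 1 * ((-4457400) * A ^ 11 * B ^ 5 + 26001500 * A ^ 12 * B ^ 4 + (-52003000) * A ^ 13 * B ^ 3 + 44574000 * A ^ 14 * B ^ 2 + (-16343800) * A ^ 15 * B ^ 1 + 2042975 * A ^ 16)
    + 522 * X ^ 1 * Y ^ 5 * (2042975 * B ^ 16 + (-16343800) * A ^ 1 * B ^ 15 + 44574000 * A ^ 2 * B ^ 14 + (-52003000) * A ^ 3 * B ^ 13 + 26001500 * A ^ 4 * B ^ 12 + (-4457400) * A ^ 5 * B ^ 11)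
    + 10005 * X ^ 4 * Y ^ 2 * (38760 * A ^ 6 * B ^ 10 + (-775200) * A ^ 7 * B ^ 9 + 5668650 * A ^ 8 * B ^ 8 + (-20155200) * A ^ 9 * B ^ 7 + 38798760 * A ^ 10 * B ^ 6 + (-42325920) * A ^ 11 * B ^ 5 + 26453700 * A ^ 12 * B ^ 4 + (-9302400) * A ^ 13 * B ^ 3 + 1744200 * A ^ 14 * B ^ 2 + (-155040) * A ^ 15 * B ^ 1 + 4845 * A ^ 16)
    + 10005 * X ^ 2 * Y ^ 4 * (4845 * B ^ 16 + (-155040) * A ^ 1 * B ^ 15 + 1744200 * A ^ 2 * B ^ 14 + (-9302400) * A ^ 3 * B ^ 13 + 26453700 * A ^ 4 * B ^ 12 + (-42325920) * A ^ 5 * B ^ 11 + 38798760 * A ^ 6 * B ^ 10 + (-20155200) * A ^ 7 * B ^ 9 + 5668650 * A ^ 8 * B ^ 8 + (-775200) * A ^ 9 * B ^ 7 + 38760 * A ^ 10 * B ^ 6)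

/-- The coefficient of `T ^ 17` in `kc6 (X (1 - T A)⁵) (Y (1 + T B)⁵)`. -/
def s6_17 (X Y A B : R) : R :=
    (-1) * X ^ 6 * ((-119759850) * A ^ 17)
    + (-1) * Y ^ 6 * (119759850 * B ^ 17)
    + (-522) * X ^ 5 * Y ^ 1 * (5200300 * A ^ 12 * B ^ 5 + (-26001500) * A ^ 13 * B ^ 4 + 44574000 * A ^ 14 * B ^ 3 + (-32687600) * A ^ 15 * B ^ 2 + 10214875 * A ^ 16 * B ^ 1 + (-1081575) * A ^ 17)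
    + 522 * X ^ 1 * Y ^ 5 * (1081575 * B ^ 17 + (-10214875) * A ^ 1 * B ^ 16 + 32687600 * A ^ 2 * B ^ 15 + (-44574000) * A ^ 3 * B ^ 14 + 26001500 * A ^ 4 * B ^ 13 + (-5200300) * A ^ 5 * B ^ 12)
    + 10005 * X ^ 4 * Y ^ 2 * ((-77520) * A ^ 7 * B ^ 10 + 1259700 * A ^ 8 * B ^ 9 + (-7558200) * A ^ 9 * B ^ 8 + 22170720 * A ^ 10 * B ^ 7 + (-35271600) * A ^ 11 * B ^ 6 + 31744440 * A ^ 12 * B ^ 5 + (-16279200) * A ^ 13 * B ^ 4 + 4651200 * A ^ 14 * B ^ 3 + (-697680) * A ^ 15 * B ^ 2 + 48450 * A ^ 16 * B ^ 1 + (-1140) * A ^ 17)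
    + 10005 * X ^ 2 * Y ^ 4 * (1140 * B ^ 17 + (-48450) * A ^ 1 * B ^ 16 + 697680 * A ^ 2 * B ^ 15 + (-4651200) * A ^ 3 * B ^ 14 + 16279200 * A ^ 4 * B ^ 13 + (-31744440) * A ^ 5 * B ^ 12 + 35271600 * A ^ 6 * B ^ 11 + (-22170720) * A ^ 7 * B ^ 10 + 7558200 * A ^ 8 * B ^ 9 + (-1259700) * A ^ 9 * B ^ 8 + 77520 * A ^ 10 * B ^ 7)

/-- The coefficient of `T ^ 18` in `kc6 (X (1 - T A)⁵) (Y (1 + T B)⁵)`. -/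
def s6_18 (X Y A B : R) : R :=
    (-1) * X ^ 6 * (86493225 * A ^ 18)
    + (-1) * Y ^ 6 * (86493225 * B ^ 18)
    + (-522) * X ^ 5 * Y ^ 1 * ((-5200300) * A ^ 13 * B ^ 5 + 22287000 * A ^ 14 * B ^ 4 + (-32687600) * A ^ 15 * B ^ 3 + 20429750 * A ^ 16 * B ^ 2 + (-5407875) * A ^ 17 * B ^ 1 + 480700 * A ^ 18)
    + 522 * X ^ 1 * Y ^ 5 * (480700 * B ^ 18 + (-5407875) * A ^ 1 * B ^ 17 + 20429750 * A ^ 2 * B ^ 16 + (-32687600) * A ^ 3 * B ^ 15 + 22287000 * A ^ 4 * B ^ 14 + (-5200300) * A ^ 5 * B ^ 13)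
    + 10005 * X ^ 4 * Y ^ 2 * (125970 * A ^ 8 * B ^ 10 + (-1679600) * A ^ 9 * B ^ 9 + 8314020 * A ^ 10 * B ^ 8 + (-20155200) * A ^ 11 * B ^ 7 + 26453700 * A ^ 12 * B ^ 6 + (-19535040) * A ^ 13 * B ^ 5 + 8139600 * A ^ 14 * B ^ 4 + (-1860480) * A ^ 15 * B ^ 3 + 218025 * A ^ 16 * B ^ 2 + (-11400) * A ^ 17 * B ^ 1 + 190 * A ^ 18)
    + 10005 * X ^ 2 * Y ^ 4 * (190 * B ^ 18 + (-11400) * A ^ 1 * B ^ 17 + 218025 * A ^ 2 * B ^ 16 + (-1860480) * A ^ 3 * B ^ 15 + 8139600 * A ^ 4 * B ^ 14 + (-19535040) * A ^ 5 * B ^ 13 + 26453700 * A ^ 6 * B ^ 12 + (-20155200) * A ^ 7 * B ^ 11 + 8314020 * A ^ 8 * B ^ 10 + (-1679600) * A ^ 9 * B ^ 9 + 125970 * A ^ 10 * B ^ 8)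

/-- The coefficient of `T ^ 19` in `kc6 (X (1 - T A)⁵) (Y (1 + T B)⁵)`. -/
def s6_19 (X Y A B : R) : R :=
    (-1) * X ^ 6 * ((-54627300) * A ^ 19)
    + (-1) * Y ^ 6 * (54627300 * B ^ 19)
    + (-522) * X ^ 5 * Y ^ 1 * (4457400 * A ^ 14 * B ^ 5 + (-16343800) * A ^ 15 * B ^ 4 + 20429750 * A ^ 16 * B ^ 3 + (-10815750) * A ^ 17 * B ^ 2 + 2403500 * A ^ 18 * B ^ 1 + (-177100) * A ^ 19)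
    + 522 * X ^ 1 * Y ^ 5 * (177100 * B ^ 19 + (-2403500) * A ^ 1 * B ^ 18 + 10815750 * A ^ 2 * B ^ 17 + (-20429750) * A ^ 3 * B ^ 16 + 16343800 * A ^ 4 * B ^ 15 + (-4457400) * A ^ 5 * B ^ 14)
    + 10005 * X ^ 4 * Y ^ 2 * ((-167960) * A ^ 9 * B ^ 10 + 1847560 * A ^ 10 * B ^ 9 + (-7558200) * A ^ 11 * B ^ 8 + 15116400 * A ^ 12 * B ^ 7 + (-16279200) * A ^ 13 * B ^ 6 + 9767520 * A ^ 14 * B ^ 5 + (-3255840) * A ^ 15 * B ^ 4 + 581400 * A ^ 16 * B ^ 3 + (-51300) * A ^ 17 * B ^ 2 + 1900 * A ^ 18 * B ^ 1 + (-20) * A ^ 19)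
    + 10005 * X ^ 2 * Y ^ 4 * (20 * B ^ 19 + (-1900) * A ^ 1 * B ^ 18 + 51300 * A ^ 2 * B ^ 17 + (-581400) * A ^ 3 * B ^ 16 + 3255840 * A ^ 4 * B ^ 15 + (-9767520) * A ^ 5 * B ^ 14 + 16279200 * A ^ 6 * B ^ 13 + (-15116400) * A ^ 7 * B ^ 12 + 7558200 * A ^ 8 * B ^ 11 + (-1847560) * A ^ 9 * B ^ 10 + 167960 * A ^ 10 * B ^ 9)

/-- The coefficient of `T ^ 20` in `kc6 (X (1 - T A)⁵) (Y (1 + T B)⁵)`. -/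
def s6_20 (X Y A B : R) : R :=
    (-1) * X ^ 6 * (30045015 * A ^ 20)
    + (-1) * Y ^ 6 * (30045015 * B ^ 20)
    + (-522) * X ^ 5 * Y ^ 1 * ((-3268760) * A ^ 15 * B ^ 5 + 10214875 * A ^ 16 * B ^ 4 + (-10815750) * A ^ 17 * B ^ 3 + 4807000 * A ^ 18 * B ^ 2 + (-885500) * A ^ 19 * B ^ 1 + 53130 * A ^ 20)
    + 522 * X ^ 1 * Y ^ 5 * (53130 * B ^ 20 + (-885500) * A ^ 1 * B ^ 19 + 4807000 * A ^ 2 * B ^ 18 + (-10815750) * A ^ 3 * B ^ 17 + 10214875 * A ^ 4 * B ^ 16 + (-3268760) * A ^ 5 * B ^ 15)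
    + 10005 * X ^ 4 * Y ^ 2 * (184756 * A ^ 10 * B ^ 10 + (-1679600) * A ^ 11 * B ^ 9 + 5668650 * A ^ 12 * B ^ 8 + (-9302400) * A ^ 13 * B ^ 7 + 8139600 * A ^ 14 * B ^ 6 + (-3907008) * A ^ 15 * B ^ 5 + 1017450 * A ^ 16 * B ^ 4 + (-136800) * A ^ 17 * B ^ 3 + 8550 * A ^ 18 * B ^ 2 + (-200) * A ^ 19 * B ^ 1 + 1 * A ^ 20)
    + 10005 * X ^ 2 * Y ^ 4 * (1 * B ^ 20 + (-200) * A ^ 1 * B ^ 19 + 8550 * A ^ 2 * B ^ 18 + (-136800) * A ^ 3 * B ^ 17 + 1017450 * A ^ 4 * B ^ 16 + (-3907008) * A ^ 5 * B ^ 15 + 8139600 * A ^ 6 * B ^ 14 + (-9302400) * A ^ 7 * B ^ 13 + 5668650 * A ^ 8 * B ^ 12 + (-1679600) * A ^ 9 * B ^ 11 + 184756 * A ^ 10 * B ^ 10)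

/-- The coefficient of `T ^ 21` in `kc6 (X (1 - T A)⁵) (Y (1 + T B)⁵)`. -/
def s6_21 (X Y A B : R) : R :=
    (-1) * X ^ 6 * ((-14307150) * A ^ 21)
    + (-1) * Y ^ 6 * (14307150 * B ^ 21)
    + (-522) * X ^ 5 * Y ^ 1 * (2042975 * A ^ 16 * B ^ 5 + (-5407875) * A ^ 17 * B ^ 4 + 4807000 * A ^ 18 * B ^ 3 + (-1771000) * A ^ 19 * B ^ 2 + 265650 * A ^ 20 * B ^ 1 + (-12650) * A ^ 21)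
    + 522 * X ^ 1 * Y ^ 5 * (12650 * B ^ 21 + (-265650) * A ^ 1 * B ^ 20 + 1771000 * A ^ 2 * B ^ 19 + (-4807000) * A ^ 3 * B ^ 18 + 5407875 * A ^ 4 * B ^ 17 + (-2042975) * A ^ 5 * B ^ 16)
    + 10005 * X ^ 4 * Y ^ 2 * ((-167960) * A ^ 11 * B ^ 10 + 1259700 * A ^ 12 * B ^ 9 + (-3488400) * A ^ 13 * B ^ 8 + 4651200 * A ^ 14 * B ^ 7 + (-3255840) * A ^ 15 * B ^ 6 + 1220940 * A ^ 16 * B ^ 5 + (-239400) * A ^ 17 * B ^ 4 + 22800 * A ^ 18 * B ^ 3 + (-900) * A ^ 19 * B ^ 2 + 10 * A ^ 20 * B ^ 1)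
    + 10005 * X ^ 2 * Y ^ 4 * ((-10) * A ^ 1 * B ^ 20 + 900 * A ^ 2 * B ^ 19 + (-22800) * A ^ 3 * B ^ 18 + 239400 * A ^ 4 * B ^ 17 + (-1220940) * A ^ 5 * B ^ 16 + 3255840 * A ^ 6 * B ^ 15 + (-4651200) * A ^ 7 * B ^ 14 + 3488400 * A ^ 8 * B ^ 13 + (-1259700) * A ^ 9 * B ^ 12 + 167960 * A ^ 10 * B ^ 11)

/-- The coefficient of `T ^ 22` in `kc6 (X (1 - T A)⁵) (Y (1 + T B)⁵)`. -/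
def s6_22 (X Y A B : R) : R :=
    (-1) * X ^ 6 * (5852925 * A ^ 22)
    + (-1) * Y ^ 6 * (5852925 * B ^ 22)
    + (-522) * X ^ 5 * Y ^ 1 * ((-1081575) * A ^ 17 * B ^ 5 + 2403500 * A ^ 18 * B ^ 4 + (-1771000) * A ^ 19 * B ^ 3 + 531300 * A ^ 20 * B ^ 2 + (-63250) * A ^ 21 * B ^ 1 + 2300 * A ^ 22)
    + 522 * X ^ 1 * Y ^ 5 * (2300 * B ^ 22 + (-63250) * A ^ 1 * B ^ 21 + 531300 * A ^ 2 * B ^ 20 + (-1771000) * A ^ 3 * B ^ 19 + 2403500 * A ^ 4 * B ^ 18 + (-1081575) * A ^ 5 * B ^ 17)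
    + 10005 * X ^ 4 * Y ^ 2 * (125970 * A ^ 12 * B ^ 10 + (-775200) * A ^ 13 * B ^ 9 + 1744200 * A ^ 14 * B ^ 8 + (-1860480) * A ^ 15 * B ^ 7 + 1017450 * A ^ 16 * B ^ 6 + (-287280) * A ^ 17 * B ^ 5 + 39900 * A ^ 18 * B ^ 4 + (-2400) * A ^ 19 * B ^ 3 + 45 * A ^ 20 * B ^ 2)
    + 10005 * X ^ 2 * Y ^ 4 * (45 * A ^ 2 * B ^ 20 + (-2400) * A ^ 3 * B ^ 19 + 39900 * A ^ 4 * B ^ 18 + (-287280) * A ^ 5 * B ^ 17 + 1017450 * A ^ 6 * B ^ 16 + (-1860480) * A ^ 7 * B ^ 15 + 1744200 * A ^ 8 * B ^ 14 + (-775200) * A ^ 9 * B ^ 13 + 125970 * A ^ 10 * B ^ 12)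

/-- The coefficient of `T ^ 23` in `kc6 (X (1 - T A)⁵) (Y (1 + T B)⁵)`. -/
def s6_23 (X Y A B : R) : R :=
    (-1) * X ^ 6 * ((-2035800) * A ^ 23)
    + (-1) * Y ^ 6 * (2035800 * B ^ 23)
    + (-522) * X ^ 5 * Y ^ 1 * (480700 * A ^ 18 * B ^ 5 + (-885500) * A ^ 19 * B ^ 4 + 531300 * A ^ 20 * B ^ 3 + (-126500) * A ^ 21 * B ^ 2 + 11500 * A ^ 22 * B ^ 1 + (-300) * A ^ 23)
    + 522 * X ^ 1 * Y ^ 5 * (300 * B ^ 23 + (-11500) * A ^ 1 * B ^ 22 + 126500 * A ^ 2 * B ^ 21 + (-531300) * A ^ 3 * B ^ 20 + 885500 * A ^ 4 * B ^ 19 + (-480700) * A ^ 5 * B ^ 18)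
    + 10005 * X ^ 4 * Y ^ 2 * ((-77520) * A ^ 13 * B ^ 10 + 387600 * A ^ 14 * B ^ 9 + (-697680) * A ^ 15 * B ^ 8 + 581400 * A ^ 16 * B ^ 7 + (-239400) * A ^ 17 * B ^ 6 + 47880 * A ^ 18 * B ^ 5 + (-4200) * A ^ 19 * B ^ 4 + 120 * A ^ 20 * B ^ 3)
    + 10005 * X ^ 2 * Y ^ 4 * ((-120) * A ^ 3 * B ^ 20 + 4200 * A ^ 4 * B ^ 19 + (-47880) * A ^ 5 * B ^ 18 + 239400 * A ^ 6 * B ^ 17 + (-581400) * A ^ 7 * B ^ 16 + 697680 * A ^ 8 * B ^ 15 + (-387600) * A ^ 9 * B ^ 14 + 77520 * A ^ 10 * B ^ 13)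

/-- The coefficient of `T ^ 24` in `kc6 (X (1 - T A)⁵) (Y (1 + T B)⁵)`. -/
def s6_24 (X Y A B : R) : R :=
    (-1) * X ^ 6 * (593775 * A ^ 24)
    + (-1) * Y ^ 6 * (593775 * B ^ 24)
    + (-522) * X ^ 5 * Y ^ 1 * ((-177100) * A ^ 19 * B ^ 5 + 265650 * A ^ 20 * B ^ 4 + (-126500) * A ^ 21 * B ^ 3 + 23000 * A ^ 22 * B ^ 2 + (-1500) * A ^ 23 * B ^ 1 + 25 * A ^ 24)
    + 522 * X ^ 1 * Y ^ 5 * (25 * B ^ 24 + (-1500) * A ^ 1 * B ^ 23 + 23000 * A ^ 2 * B ^ 22 + (-126500) * A ^ 3 * B ^ 21 + 265650 * A ^ 4 * B ^ 20 + (-177100) * A ^ 5 * B ^ 19)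
    + 10005 * X ^ 4 * Y ^ 2 * (38760 * A ^ 14 * B ^ 10 + (-155040) * A ^ 15 * B ^ 9 + 218025 * A ^ 16 * B ^ 8 + (-136800) * A ^ 17 * B ^ 7 + 39900 * A ^ 18 * B ^ 6 + (-5040) * A ^ 19 * B ^ 5 + 210 * A ^ 20 * B ^ 4)
    + 10005 * X ^ 2 * Y ^ 4 * (210 * A ^ 4 * B ^ 20 + (-5040) * A ^ 5 * B ^ 19 + 39900 * A ^ 6 * B ^ 18 + (-136800) * A ^ 7 * B ^ 17 + 218025 * A ^ 8 * B ^ 16 + (-155040) * A ^ 9 * B ^ 15 + 38760 * A ^ 10 * B ^ 14)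

/-- The coefficient of `T ^ 25` in `kc6 (X (1 - T A)⁵) (Y (1 + T B)⁵)`. -/
def s6_25 (X Y A B : R) : R :=
    (-1) * X ^ 6 * ((-142506) * A ^ 25)
    + (-1) * Y ^ 6 * (142506 * B ^ 25)
    + (-522) * X ^ 5 * Y ^ 1 * (53130 * A ^ 20 * B ^ 5 + (-63250) * A ^ 21 * B ^ 4 + 23000 * A ^ 22 * B ^ 3 + (-3000) * A ^ 23 * B ^ 2 + 125 * A ^ 24 * B ^ 1 + (-1) * A ^ 25)
    + 522 * X ^ 1 * Y ^ 5 * (1 * B ^ 25 + (-125) * A ^ 1 * B ^ 24 + 3000 * A ^ 2 * B ^ 23 + (-23000) * A ^ 3 * B ^ 22 + 63250 * A ^ 4 * B ^ 21 + (-53130) * A ^ 5 * B ^ 20)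
    + 10005 * X ^ 4 * Y ^ 2 * ((-15504) * A ^ 15 * B ^ 10 + 48450 * A ^ 16 * B ^ 9 + (-51300) * A ^ 17 * B ^ 8 + 22800 * A ^ 18 * B ^ 7 + (-4200) * A ^ 19 * B ^ 6 + 252 * A ^ 20 * B ^ 5)
    + 10005 * X ^ 2 * Y ^ 4 * ((-252) * A ^ 5 * B ^ 20 + 4200 * A ^ 6 * B ^ 19 + (-22800) * A ^ 7 * B ^ 18 + 51300 * A ^ 8 * B ^ 17 + (-48450) * A ^ 9 * B ^ 16 + 15504 * A ^ 10 * B ^ 15)

/-- The coefficient of `T ^ 26` in `kc6 (X (1 - T A)⁵) (Y (1 + T B)⁵)`. -/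
def s6_26 (X Y A B : R) : R :=
    (-1) * X ^ 6 * (27405 * A ^ 26)
    + (-1) * Y ^ 6 * (27405 * B ^ 26)
    + (-522) * X ^ 5 * Y ^ 1 * ((-12650) * A ^ 21 * B ^ 5 + 11500 * A ^ 22 * B ^ 4 + (-3000) * A ^ 23 * B ^ 3 + 250 * A ^ 24 * B ^ 2 + (-5) * A ^ 25 * B ^ 1)
    + 522 * X ^ 1 * Y ^ 5 * ((-5) * A ^ 1 * B ^ 25 + 250 * A ^ 2 * B ^ 24 + (-3000) * A ^ 3 * B ^ 23 + 11500 * A ^ 4 * B ^ 22 + (-12650) * A ^ 5 * B ^ 21)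
    + 10005 * X ^ 4 * Y ^ 2 * (4845 * A ^ 16 * B ^ 10 + (-11400) * A ^ 17 * B ^ 9 + 8550 * A ^ 18 * B ^ 8 + (-2400) * A ^ 19 * B ^ 7 + 210 * A ^ 20 * B ^ 6)
    + 10005 * X ^ 2 * Y ^ 4 * (210 * A ^ 6 * B ^ 20 + (-2400) * A ^ 7 * B ^ 19 + 8550 * A ^ 8 * B ^ 18 + (-11400) * A ^ 9 * B ^ 17 + 4845 * A ^ 10 * B ^ 16)

/-- The coefficient of `T ^ 27` in `kc6 (X (1 - T A)⁵) (Y (1 + T B)⁵)`. -/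
def s6_27 (X Y A B : R) : R :=
    (-1) * X ^ 6 * ((-4060) * A ^ 27)
    + (-1) * Y ^ 6 * (4060 * B ^ 27)
    + (-522) * X ^ 5 * Y ^ 1 * (2300 * A ^ 22 * B ^ 5 + (-1500) * A ^ 23 * B ^ 4 + 250 * A ^ 24 * B ^ 3 + (-10) * A ^ 25 * B ^ 2)
    + 522 * X ^ 1 * Y ^ 5 * (10 * A ^ 2 * B ^ 25 + (-250) * A ^ 3 * B ^ 24 + 1500 * A ^ 4 * B ^ 23 + (-2300) * A ^ 5 * B ^ 22)
    + 10005 * X ^ 4 * Y ^ 2 * ((-1140) * A ^ 17 * B ^ 10 + 1900 * A ^ 18 * B ^ 9 + (-900) * A ^ 19 * B ^ 8 + 120 * A ^ 20 * B ^ 7)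
    + 10005 * X ^ 2 * Y ^ 4 * ((-120) * A ^ 7 * B ^ 20 + 900 * A ^ 8 * B ^ 19 + (-1900) * A ^ 9 * B ^ 18 + 1140 * A ^ 10 * B ^ 17)

/-- The coefficient of `T ^ 28` in `kc6 (X (1 - T A)⁵) (Y (1 + T B)⁵)`. -/
def s6_28 (X Y A B : R) : R :=
    (-1) * X ^ 6 * (435 * A ^ 28)
    + (-1) * Y ^ 6 * (435 * B ^ 28)
    + (-522) * X ^ 5 * Y ^ 1 * ((-300) * A ^ 23 * B ^ 5 + 125 * A ^ 24 * B ^ 4 + (-10) * A ^ 25 * B ^ 3)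
    + 522 * X ^ 1 * Y ^ 5 * ((-10) * A ^ 3 * B ^ 25 + 125 * A ^ 4 * B ^ 24 + (-300) * A ^ 5 * B ^ 23)
    + 10005 * X ^ 4 * Y ^ 2 * (190 * A ^ 18 * B ^ 10 + (-200) * A ^ 19 * B ^ 9 + 45 * A ^ 20 * B ^ 8)
    + 10005 * X ^ 2 * Y ^ 4 * (45 * A ^ 8 * B ^ 20 + (-200) * A ^ 9 * B ^ 19 + 190 * A ^ 10 * B ^ 18)

/-- The coefficient of `T ^ 29` in `kc6 (X (1 - T A)⁵) (Y (1 + T B)⁵)`. -/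
def s6_29 (X Y A B : R) : R :=
    (-1) * X ^ 6 * ((-30) * A ^ 29)
    + (-1) * Y ^ 6 * (30 * B ^ 29)
    + (-522) * X ^ 5 * Y ^ 1 * (25 * A ^ 24 * B ^ 5 + (-5) * A ^ 25 * B ^ 4)
    + 522 * X ^ 1 * Y ^ 5 * (5 * A ^ 4 * B ^ 25 + (-25) * A ^ 5 * B ^ 24)
    + 10005 * X ^ 4 * Y ^ 2 * ((-20) * A ^ 19 * B ^ 10 + 10 * A ^ 20 * B ^ 9)
    + 10005 * X ^ 2 * Y ^ 4 * ((-10) * A ^ 9 * B ^ 20 + 20 * A ^ 10 * B ^ 19)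

/-- The coefficient of `T ^ 30` in `kc6 (X (1 - T A)⁵) (Y (1 + T B)⁵)`. -/
def s6_30 (X Y A B : R) : R :=
    (-1) * X ^ 6 * (1 * A ^ 30)
    + (-1) * Y ^ 6 * (1 * B ^ 30)
    + (-522) * X ^ 5 * Y ^ 1 * ((-1) * A ^ 25 * B ^ 5)
    + 522 * X ^ 1 * Y ^ 5 * ((-1) * A ^ 5 * B ^ 25)
    + 10005 * X ^ 4 * Y ^ 2 * (1 * A ^ 20 * B ^ 10)
    + 10005 * X ^ 2 * Y ^ 4 * (1 * A ^ 10 * B ^ 20)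

end Fermat.Agent.ES.U52.RSSkelDefs29
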