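/-
Programme U (S52), chapter FAM: the Rubin–Silverberg identity, SLICES `T ^ 0` … `T ^ 10` of `kc4`
(helper29; generated).  Each slice is a two-atom polynomial identity of degree `4 + 2k`.
-/
import Mathlib
import Fermat.Agent.ES.U52.KleinForms29
import Fermat.Agent.ES.U52.RSDefs29
import Fermat.Agent.ES.U52.RSSkelDefs29

set_option autoImplicit false
set_option maxHeartbeats 4000000

namespace Fermat.Agent.ES.U52.RSSliceC4a29

open Fermat.Agent.ES.U52.KleinForms29 Fermat.Agent.ES.U52.RSDefs29 Fermat.Agent.ES.U52.RSSkelDefs29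

variable {R : Type*} [CommRing R]

theorem s4_0_eq (X Y : R) :
    s4_0 X Y (kA X Y) (kB X Y) = p4_0 (kc4 X Y) (kc6 X Y) := by
  simp only [s4_0, p4_0, kA, kB, kc4, kc6]
  ring

theorem s4_1_eq (X Y : R) :
    s4_1 X Y (kA X Y) (kB X Y) = p4_1 (kc4 X Y) (kc6 X Y) := by
  simp only [s4_1, p4_1, kA, kB, kc4, kc6]
  ring

theorem s4_2_eq (X Y : R) :
    s4_2 X Y (kA X Y) (kB X Y) = p4_2 (kc4 X Y) (kc6 X Y) := by
  simp only [s4_2, p4_2, kA, kB, kc4, kc6]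
  ring

theorem s4_3_eq (X Y : R) :
    s4_3 X Y (kA X Y) (kB X Y) = p4_3 (kc4 X Y) (kc6 X Y) := by
  simp only [s4_3, p4_3, kA, kB, kc4, kc6]
  ring

theorem s4_4_eq (X Y : R) :
    s4_4 X Y (kA X Y) (kB X Y) = p4_4 (kc4 X Y) (kc6 X Y) := by
  simp only [s4_4, p4_4, kA, kB, kc4, kc6]
  ring

theorem s4_5_eq (X Y : R) :
    s4_5 X Y (kA X Y) (kB X Y) = p4_5 (kc4 X Y) (kc6 X Y) := by
  simp only [s4_5, p4_5, kA, kB, kc4, kc6]
  ring

theorem s4_6_eq (X Y : R) :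
    s4_6 X Y (kA X Y) (kB X Y) = p4_6 (kc4 X Y) (kc6 X Y) := by
  simp only [s4_6, p4_6, kA, kB, kc4, kc6]
  ring

theorem s4_7_eq (X Y : R) :
    s4_7 X Y (kA X Y) (kB X Y) = p4_7 (kc4 X Y) (kc6 X Y) := by
  simp only [s4_7, p4_7, kA, kB, kc4, kc6]
  ring

theorem s4_8_eq (X Y : R) :
    s4_8 X Y (kA X Y) (kB X Y) = p4_8 (kc4 X Y) (kc6 X Y) := by
  simp only [s4_8, p4_8, kA, kB, kc4, kc6]
  ring

theorem s4_9_eq (X Y : R) :
    s4_9 X Y (kA X Y) (kB X Y) = p4_9 (kc4 X Y) (kc6 X Y) := by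
  simp only [s4_9, p4_9, kA, kB, kc4, kc6]
  ring

theorem s4_10_eq (X Y : R) :
    s4_10 X Y (kA X Y) (kB X Y) = p4_10 (kc4 X Y) (kc6 X Y) := by
  simp only [s4_10, p4_10, kA, kB, kc4, kc6]
  ring

end Fermat.Agent.ES.U52.RSSliceC4a29
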