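/-
Programme U (S52), chapter FAM: the Rubin–Silverberg identity, SLICES `T ^ 0` … `T ^ 9` of `kc6`
(helper29; generated).  Each slice is a two-atom polynomial identity of degree `6 + 2k`.
-/
import Mathlib
import Fermat.Agent.ES.U52.KleinForms29
import Fermat.Agent.ES.U52.RSDefs29
import Fermat.Agent.ES.U52.RSSkelDefs29

set_option autoImplicit false
set_option maxHeartbeats 4000000

namespace Fermat.Agent.ES.U52.RSSliceC6a29

open Fermat.Agent.ES.U52.KleinForms29 Fermat.Agent.ES.U52.RSDefs29 Fermat.Agent.ES.U52.RSSkelDefs29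

variable {R : Type*} [CommRing R]

theorem s6_0_eq (X Y : R) :
    s6_0 X Y (kA X Y) (kB X Y) = q6_0 (kc4 X Y) (kc6 X Y) := by
  simp only [s6_0, q6_0, kA, kB, kc4, kc6]
  ring

theorem s6_1_eq (X Y : R) :
    s6_1 X Y (kA X Y) (kB X Y) = q6_1 (kc4 X Y) (kc6 X Y) := by
  simp only [s6_1, q6_1, kA, kB, kc4, kc6]
  ring

theorem s6_2_eq (X Y : R) :
    s6_2 X Y (kA X Y) (kB X Y) = q6_2 (kc4 X Y) (kc6 X Y) := by
  simp only [s6_2, q6_2, kA, kB, kc4, kc6]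
  ring

theorem s6_3_eq (X Y : R) :
    s6_3 X Y (kA X Y) (kB X Y) = q6_3 (kc4 X Y) (kc6 X Y) := by
  simp only [s6_3, q6_3, kA, kB, kc4, kc6]
  ring

theorem s6_4_eq (X Y : R) :
    s6_4 X Y (kA X Y) (kB X Y) = q6_4 (kc4 X Y) (kc6 X Y) := by
  simp only [s6_4, q6_4, kA, kB, kc4, kc6]
  ring

theorem s6_5_eq (X Y : R) :
    s6_5 X Y (kA X Y) (kB X Y) = q6_5 (kc4 X Y) (kc6 X Y) := by
  simp only [s6_5, q6_5, kA, kB, kc4, kc6]
  ring

theorem s6_6_eq (X Y : R) :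
    s6_6 X Y (kA X Y) (kB X Y) = q6_6 (kc4 X Y) (kc6 X Y) := by
  simp only [s6_6, q6_6, kA, kB, kc4, kc6]
  ring

theorem s6_7_eq (X Y : R) :
    s6_7 X Y (kA X Y) (kB X Y) = q6_7 (kc4 X Y) (kc6 X Y) := by
  simp only [s6_7, q6_7, kA, kB, kc4, kc6]
  ring

theorem s6_8_eq (X Y : R) :
    s6_8 X Y (kA X Y) (kB X Y) = q6_8 (kc4 X Y) (kc6 X Y) := by
  simp only [s6_8, q6_8, kA, kB, kc4, kc6]
  ring

theorem s6_9_eq (X Y : R) :
    s6_9 X Y (kA X Y) (kB X Y) = q6_9 (kc4 X Y) (kc6 X Y) := by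
  simp only [s6_9, q6_9, kA, kB, kc4, kc6]
  ring

end Fermat.Agent.ES.U52.RSSliceC6a29
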