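/-
Programme U (S52), chapter FAM: the Rubin–Silverberg identity, the SINGLE slice `T ^ 11` of `kc4`
(generated; helper15's re-split of helper29's grouped slice files, same statement and proof).
One `ring` call per file keeps the memory of each `lean` process small, and the files are CHAINED by
imports (head of the chain: imports the skeleton `RSSkel29` and the two light grouped slice files), so that two heavy files are never compiled concurrently.
-/
import Mathlib
import Fermat.Agent.ES.U52.KleinForms29
import Fermat.Agent.ES.U52.RSDefs29
import Fermat.Agent.ES.U52.RSSkelDefs29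
import Fermat.Agent.ES.U52.RSSkel29
import Fermat.Agent.ES.U52.RSSliceC4a29
import Fermat.Agent.ES.U52.RSSliceC6a29

set_option autoImplicit false
set_option maxHeartbeats 4000000

namespace Fermat.Agent.ES.U52.RSOne4_11_15

open Fermat.Agent.ES.U52.KleinForms29 Fermat.Agent.ES.U52.RSDefs29 Fermat.Agent.ES.U52.RSSkelDefs29

variable {R : Type*} [CommRing R]

theorem s4_11_eq (X Y : R) :
    s4_11 X Y (kA X Y) (kB X Y) = p4_11 (kc4 X Y) (kc6 X Y) := by
  simp only [s4_11, p4_11, kA, kB, kc4, kc6]
  ring

end Fermat.Agent.ES.U52.RSOne4_11_15
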