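/-
Programme U (S52), chapter FAM: **the Rubin–Silverberg identity on Klein's cone** (helper29;
v2 = helper15's memory-safe re-split: the heavy slices live one per file, `RSOne4_k_15` (`k = 11..20`) and
`RSOne6_k_15` (`k = 10..30`), chained by imports behind `RSSkel29`; statements and proofs unchanged).

`kc4 (lineX X Y T) (lineY X Y T) = rsC4 (kc4 X Y) (kc6 X Y) T` and
`kc6 (lineX X Y T) (lineY X Y T) = rsC6 (kc4 X Y) (kc6 X Y) T` in every commutative ring: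
along the line `(X (1 - T A)⁵, Y (1 + T B)⁵)` the invariants `c₄`, `c₆` of the universal curve are
polynomials in `T` and in `c₄(X, Y)`, `c₆(X, Y)` ALONE.  Proof: skeleton (`RSSkel29`) + slices.
-/
import Mathlib
import Fermat.Agent.ES.U52.KleinForms29
import Fermat.Agent.ES.U52.RSDefs29
import Fermat.Agent.ES.U52.RSSkelDefs29
import Fermat.Agent.ES.U52.RSSkel29
import Fermat.Agent.ES.U52.RSSliceC4a29
import Fermat.Agent.ES.U52.RSSliceC6a29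
import Fermat.Agent.ES.U52.RSOne6_30_15

set_option autoImplicit false

namespace Fermat.Agent.ES.U52.RSIdentity29

open Fermat.Agent.ES.U52.KleinForms29 Fermat.Agent.ES.U52.RSDefs29 Fermat.Agent.ES.U52.RSSkelDefs29
open Fermat.Agent.ES.U52.RSSkel29 Fermat.Agent.ES.U52.RSSliceC4a29 Fermat.Agent.ES.U52.RSSliceC6a29
open Fermat.Agent.ES.U52

variable {R : Type*} [CommRing R]

/-- The Rubin–Silverberg identity for `c₄`. -/
theorem kc4_line (X Y T : R) :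
    kc4 (lineX X Y T) (lineY X Y T) = rsC4 (kc4 X Y) (kc6 X Y) T := by
  unfold lineX lineY rsC4
  rw [kc4_skel X Y T (kA X Y) (kB X Y), s4_0_eq, s4_1_eq, s4_2_eq, s4_3_eq, s4_4_eq, s4_5_eq, s4_6_eq, s4_7_eq, s4_8_eq, s4_9_eq, s4_10_eq, RSOne4_11_15.s4_11_eq, RSOne4_12_15.s4_12_eq, RSOne4_13_15.s4_13_eq, RSOne4_14_15.s4_14_eq, RSOne4_15_15.s4_15_eq, RSOne4_16_15.s4_16_eq, RSOne4_17_15.s4_17_eq, RSOne4_18_15.s4_18_eq, RSOne4_19_15.s4_19_eq, RSOne4_20_15.s4_20_eq]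

/-- The Rubin–Silverberg identity for `c₆`. -/
theorem kc6_line (X Y T : R) :
    kc6 (lineX X Y T) (lineY X Y T) = rsC6 (kc4 X Y) (kc6 X Y) T := by
  unfold lineX lineY rsC6
  rw [kc6_skel X Y T (kA X Y) (kB X Y), s6_0_eq, s6_1_eq, s6_2_eq, s6_3_eq, s6_4_eq, s6_5_eq, s6_6_eq, s6_7_eq, s6_8_eq, s6_9_eq, RSOne6_10_15.s6_10_eq, RSOne6_11_15.s6_11_eq, RSOne6_12_15.s6_12_eq, RSOne6_13_15.s6_13_eq, RSOne6_14_15.s6_14_eq, RSOne6_15_15.s6_15_eq, RSOne6_16_15.s6_16_eq, RSOne6_17_15.s6_17_eq, RSOne6_18_15.s6_18_eq, RSOne6_19_15.s6_19_eq, RSOne6_20_15.s6_20_eq, RSOne6_21_15.s6_21_eq, RSOne6_22_15.s6_22_eq, RSOne6_23_15.s6_23_eq, RSOne6_24_15.s6_24_eq, RSOne6_25_15.s6_25_eq, RSOne6_26_15.s6_26_eq, RSOne6_27_15.s6_27_eq, RSOne6_28_15.s6_28_eq, RSOne6_29_15.s6_29_eq, RSOne6_30_15.s6_30_eq]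

end Fermat.Agent.ES.U52.RSIdentity29
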