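/-
Programme U (S52, the 3–5 switch), route-independent leaf `Cong5` (helper8).

**From a congruence of torsion Galois modules to the congruence of the `a_ℓ`.**
Let `W, W'` be integral Weierstrass models, `p` an odd prime and `θ : W(ℚ̄) → W'(ℚ̄)` a map which
on the `p`-torsion is additive, commutes with `Gal(ℚ̄/ℚ)` and is not identically zero.  Then
`a_ℓ(W') ≡ a_ℓ(W) (mod p)` for every prime `ℓ ≠ p` of good reduction of both models.

Proof.  Let `σ` be a Frobenius element at a place over `ℓ` (`Lib.exists_isFrobeniusAt`).  By the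
Eichler–Shimura relation on the generic fibre (`Q58.RelQbar18.relQbar`, Programme Q, on main),
`σ² - a_ℓ(W) σ + ℓ = 0` on `W[p]` and `σ² - a_ℓ(W') σ + ℓ = 0` on `W'[p]`.  Apply `θ` to the first
relation at `P` and subtract the second one at `θ P`: `(a_ℓ(W') - a_ℓ(W)) • σ (θ P) = 0`; the point
`σ (θ P)` is nonzero and killed by `p`, hence `p ∣ a_ℓ(W') - a_ℓ(W)`.
-/
import Mathlib
import Fermat.Agent.ES.Q58.RelQbar18
import Fermat.Agent.Lib.FrobeniusExists

set_option autoImplicit false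

open WeierstrassCurve WeierstrassCurve.Affine

namespace Fermat.Agent.ES.U52.TorsCong8

section Abstract

variable {A B : Type*} [AddCommGroup A] [AddCommGroup B]

/-- In an additive group, a nonzero element killed by a prime `p` is killed by an integer `n` only
if `p ∣ n`. -/
theorem dvd_of_zsmul_eq_zero {p : ℕ} (hp : p.Prime) {x : A} (hx : x ≠ 0) (hpx : p • x = 0)
    {n : ℤ} (hn : n • x = 0) : (p : ℤ) ∣ n := by
  by_contra hdvd
  have hcop : IsCoprime (p : ℤ) n :=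
    (Nat.prime_iff_prime_int.mp hp).coprime_iff_not_dvd.mpr hdvd
  obtain ⟨a, b, hab⟩ := hcop
  apply hx
  have h1 : ((a * (p : ℤ) + b * n : ℤ)) • x = 0 := by
    rw [add_smul, mul_smul, mul_smul, hn, natCast_zsmul, hpx, smul_zero, smul_zero, add_zero]
  rw [hab, one_smul] at h1
  exact h1

/-- The `p`-torsion, as an additive subgroup. -/
def tors (A : Type*) [AddCommGroup A] (p : ℕ) : AddSubgroup A where
  carrier := {x | p • x = 0}
  zero_mem' := smul_zero p
  add_mem' {x y} hx hy := by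
    show p • (x + y) = 0
    rw [nsmul_add, show p • x = 0 from hx, show p • y = 0 from hy, add_zero]
  neg_mem' {x} hx := by
    show p • (-x) = 0
    rw [smul_neg, show p • x = 0 from hx, neg_zero]

theorem mem_tors {p : ℕ} {x : A} : x ∈ tors A p ↔ p • x = 0 := Iff.rfl

/-- A map which is additive on the `p`-torsion sends `0` to `0`. -/
theorem apply_zero_of_add {p : ℕ} (θ : A → B)
    (hadd : ∀ x y : A, p • x = 0 → p • y = 0 → θ (x + y) = θ x + θ y) : θ 0 = 0 := by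
  have h := hadd 0 0 (nsmul_zero p) (nsmul_zero p)
  rw [add_zero] at h
  exact left_eq_add.mp h

/-- A map which is additive on the `p`-torsion, as a homomorphism on the torsion subgroup. -/
def torsHom {p : ℕ} (θ : A → B)
    (hadd : ∀ x y : A, p • x = 0 → p • y = 0 → θ (x + y) = θ x + θ y) : tors A p →+ B where
  toFun := fun y => θ y
  map_zero' := apply_zero_of_add θ hadd
  map_add' := fun y z => hadd y z y.2 z.2

theorem torsHom_apply {p : ℕ} (θ : A → B)
    (hadd : ∀ x y : A, p • x = 0 → p • y = 0 → θ (x + y) = θ x + θ y) (y : A) (hy : p • y = 0) :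
    torsHom θ hadd ⟨y, hy⟩ = θ y := rfl

/-- A map which is additive on the `p`-torsion sends the `p`-torsion into the `p`-torsion. -/
theorem nsmul_apply_eq_zero {p : ℕ} (θ : A → B)
    (hadd : ∀ x y : A, p • x = 0 → p • y = 0 → θ (x + y) = θ x + θ y) {x : A} (hx : p • x = 0) :
    p • θ x = 0 := by
  rw [← torsHom_apply θ hadd x hx, ← map_nsmul]
  have h0 : p • (⟨x, hx⟩ : tors A p) = 0 := Subtype.ext (by push_cast; exact hx)
  rw [h0, _root_.map_zero]

/-- **The algebra of `Cong5`.**  `θ` additive on the `p`-torsion and intertwining the additive maps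
`s`, `s'` there; two quadratic relations with the same constant term ⇒ the difference of the linear
coefficients kills `s' (θ x)`. -/
theorem sub_zsmul_eq_zero {p : ℕ} (θ : A → B)
    (hadd : ∀ x y : A, p • x = 0 → p • y = 0 → θ (x + y) = θ x + θ y)
    (s : A →+ A) (s' : B →+ B) (hs : ∀ x : A, p • x = 0 → θ (s x) = s' (θ x))
    {x : A} (hx : p • x = 0) (a a' : ℤ) (ℓ : ℕ)
    (hrel : s (s x) - a • s x + ℓ • x = 0)
    (hrel' : s' (s' (θ x)) - a' • s' (θ x) + ℓ • θ x = 0) :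
    (a' - a) • s' (θ x) = 0 := by
  have hsx : p • s x = 0 := by rw [← map_nsmul, hx, _root_.map_zero]
  have hssx : p • s (s x) = 0 := by rw [← map_nsmul, hsx, _root_.map_zero]
  -- the relation inside the torsion subgroup
  have hrelt : (⟨s (s x), hssx⟩ : tors A p) - a • ⟨s x, hsx⟩ + ℓ • ⟨x, hx⟩ = 0 := by
    apply Subtype.ext
    push_cast
    exact hrel
  have h1 := congrArg (torsHom θ hadd) hrelt
  rw [_root_.map_zero, map_add, map_sub, map_zsmul, map_nsmul, torsHom_apply, torsHom_apply,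
    torsHom_apply, hs _ hsx, hs _ hx] at h1
  -- subtract
  have h2 : s' (s' (θ x)) - a • s' (θ x) + ℓ • θ x
      - (s' (s' (θ x)) - a' • s' (θ x) + ℓ • θ x) = 0 := by
    rw [h1, hrel', sub_zero]
  rw [sub_smul, ← h2]
  abel

end Abstract

/-- **`Cong5`, function form.**  A map `θ : W(ℚ̄) → W'(ℚ̄)` which on the `p`-torsion (`p` odd) is
additive, Galois-equivariant and not identically zero forces `a_ℓ(W') ≡ a_ℓ(W) (mod p)` at all
common good primes `ℓ ≠ p`. -/
theorem apOfModel_congr {p : ℕ} (hp : p.Prime) (hp2 : p ≠ 2) (W W' : WeierstrassCurve ℤ)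
    (θ : ((W.map (Int.castRingHom ℚ))⁄(AlgebraicClosure ℚ)).Point →
      ((W'.map (Int.castRingHom ℚ))⁄(AlgebraicClosure ℚ)).Point)
    (hadd : ∀ P Q : ((W.map (Int.castRingHom ℚ))⁄(AlgebraicClosure ℚ)).Point,
      p • P = 0 → p • Q = 0 →
      θ (P + Q) = θ P + θ Q)
    (hgal : ∀ (σ : AlgebraicClosure ℚ ≃ₐ[ℚ] AlgebraicClosure ℚ)
      (P : ((W.map (Int.castRingHom ℚ))⁄(AlgebraicClosure ℚ)).Point), p • P = 0 →
      θ (σ • P) = σ • θ P)
    (hne : ∃ P : ((W.map (Int.castRingHom ℚ))⁄(AlgebraicClosure ℚ)).Point, p • P = 0 ∧ θ P ≠ 0) :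
    ∀ ℓ : ℕ, ℓ.Prime → W.IsGoodPrimeFor ℓ → W'.IsGoodPrimeFor ℓ → ℓ ≠ p →
      (p : ℤ) ∣ (W'.apOfModel ℓ - W.apOfModel ℓ) := by
  intro ℓ hℓ hgood hgood' hℓp
  obtain ⟨P, hP, hθP⟩ := hne
  obtain ⟨V, σ, hV, hσ⟩ := Fermat.Agent.Lib.exists_isFrobeniusAt ℓ hℓ
  have hodd : Odd p := hp.odd_of_ne_two hp2
  have hℓp' : ¬ ℓ ∣ p := fun h => hℓp ((Nat.prime_dvd_prime_iff_eq hℓ hp).mp h)
  let s : ((W.map (Int.castRingHom ℚ))⁄(AlgebraicClosure ℚ)).Point →+
      ((W.map (Int.castRingHom ℚ))⁄(AlgebraicClosure ℚ)).Point :=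
    DistribSMul.toAddMonoidHom _ σ
  let s' : ((W'.map (Int.castRingHom ℚ))⁄(AlgebraicClosure ℚ)).Point →+
      ((W'.map (Int.castRingHom ℚ))⁄(AlgebraicClosure ℚ)).Point :=
    DistribSMul.toAddMonoidHom _ σ
  have hpθP : p • θ P = 0 := nsmul_apply_eq_zero θ hadd hP
  -- the two Eichler–Shimura relations
  have hrel := Fermat.Agent.ES.Q58.RelQbar18.relQbar W ℓ hℓ hgood p hodd hℓp' V σ hV hσ P hP
  have hrel' := Fermat.Agent.ES.Q58.RelQbar18.relQbar W' ℓ hℓ hgood' p hodd hℓp' V σ hV hσ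
    (θ P) hpθP
  have hdiff : (W'.apOfModel ℓ - W.apOfModel ℓ) • s' (θ P) = 0 :=
    sub_zsmul_eq_zero θ hadd s s' (fun x hx => hgal σ x hx) hP (W.apOfModel ℓ)
      (W'.apOfModel ℓ) ℓ hrel hrel'
  have hσθ_ne : s' (θ P) ≠ 0 := fun h => hθP ((smul_eq_zero_iff_eq σ).mp h)
  have hpσθ : p • s' (θ P) = 0 := by rw [← map_nsmul, hpθP, _root_.map_zero]
  exact dvd_of_zsmul_eq_zero hp hσθ_ne hpσθ hdiff

/-- **`Cong5`, torsion-module form**: a nonzero additive Galois-equivariant map between the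
`p`-torsion modules. -/
theorem apOfModel_congr_of_torsionHom {p : ℕ} (hp : p.Prime) (hp2 : p ≠ 2)
    (W W' : WeierstrassCurve ℤ)
    (θ : Submodule.torsionBy ℤ ((W.map (Int.castRingHom ℚ))⁄(AlgebraicClosure ℚ)).Point p →+
      Submodule.torsionBy ℤ ((W'.map (Int.castRingHom ℚ))⁄(AlgebraicClosure ℚ)).Point p)
    (hgal : ∀ (σ : AlgebraicClosure ℚ ≃ₐ[ℚ] AlgebraicClosure ℚ)
      (x : Submodule.torsionBy ℤ ((W.map (Int.castRingHom ℚ))⁄(AlgebraicClosure ℚ)).Point p),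
      θ (σ • x) = σ • θ x)
    (hne : θ ≠ 0) :
    ∀ ℓ : ℕ, ℓ.Prime → W.IsGoodPrimeFor ℓ → W'.IsGoodPrimeFor ℓ → ℓ ≠ p →
      (p : ℤ) ∣ (W'.apOfModel ℓ - W.apOfModel ℓ) := by
  classical
  have hmem : ∀ P : ((W.map (Int.castRingHom ℚ))⁄(AlgebraicClosure ℚ)).Point, p • P = 0 →
      P ∈ Submodule.torsionBy ℤ ((W.map (Int.castRingHom ℚ))⁄(AlgebraicClosure ℚ)).Point p := by
    intro P hP
    rw [Submodule.mem_torsionBy_iff, natCast_zsmul]
    exact hP
  let θ' : ((W.map (Int.castRingHom ℚ))⁄(AlgebraicClosure ℚ)).Point →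
      ((W'.map (Int.castRingHom ℚ))⁄(AlgebraicClosure ℚ)).Point :=
    fun P => if h : p • P = 0 then
      (θ ⟨P, hmem P h⟩ : ((W'.map (Int.castRingHom ℚ))⁄(AlgebraicClosure ℚ)).Point)
      else 0
  have hθ' : ∀ (P : ((W.map (Int.castRingHom ℚ))⁄(AlgebraicClosure ℚ)).Point) (h : p • P = 0),
      θ' P = (θ ⟨P, hmem P h⟩ : ((W'.map (Int.castRingHom ℚ))⁄(AlgebraicClosure ℚ)).Point) := by
    intro P h
    simp only [θ', dif_pos h]
  refine apOfModel_congr hp hp2 W W' θ' ?_ ?_ ?_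
  · intro P Q hP hQ
    have hPQ : p • (P + Q) = 0 := by rw [nsmul_add, hP, hQ, add_zero]
    rw [hθ' _ hPQ, hθ' _ hP, hθ' _ hQ]
    have : (⟨P + Q, hmem _ hPQ⟩ :
        Submodule.torsionBy ℤ ((W.map (Int.castRingHom ℚ))⁄(AlgebraicClosure ℚ)).Point p) =
        ⟨P, hmem P hP⟩ + ⟨Q, hmem Q hQ⟩ := rfl
    rw [this, map_add]
    rfl
  · intro σ P hP
    have hσP : p • (σ • P) = 0 := by
      have h := map_nsmul (DistribSMul.toAddMonoidHom
        ((W.map (Int.castRingHom ℚ))⁄(AlgebraicClosure ℚ)).Point σ) p P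
      rw [hP, _root_.map_zero] at h
      exact h.symm
    rw [hθ' _ hσP, hθ' _ hP]
    have : (⟨σ • P, hmem _ hσP⟩ :
        Submodule.torsionBy ℤ ((W.map (Int.castRingHom ℚ))⁄(AlgebraicClosure ℚ)).Point p) =
        σ • ⟨P, hmem P hP⟩ := rfl
    rw [this, hgal]
    rfl
  · by_contra hcon
    push Not at hcon
    apply hne
    ext x
    have hx : p • (x : ((W.map (Int.castRingHom ℚ))⁄(AlgebraicClosure ℚ)).Point) = 0 := by
      have := x.2
      rw [Submodule.mem_torsionBy_iff, natCast_zsmul] at this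
      exact this
    have h := hcon (x : ((W.map (Int.castRingHom ℚ))⁄(AlgebraicClosure ℚ)).Point) hx
    rw [hθ' _ hx] at h
    simpa using h

/-- **`Cong5` at `p = 5`, in the exact shape of the last conjunct of the frozen S52.** -/
theorem five_dvd_apOfModel_sub (W W' : WeierstrassCurve ℤ)
    (θ : Submodule.torsionBy ℤ ((W.map (Int.castRingHom ℚ))⁄(AlgebraicClosure ℚ)).Point (5 : ℕ) →+
      Submodule.torsionBy ℤ ((W'.map (Int.castRingHom ℚ))⁄(AlgebraicClosure ℚ)).Point (5 : ℕ))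
    (hgal : ∀ (σ : AlgebraicClosure ℚ ≃ₐ[ℚ] AlgebraicClosure ℚ)
      (x : Submodule.torsionBy ℤ ((W.map (Int.castRingHom ℚ))⁄(AlgebraicClosure ℚ)).Point (5 : ℕ)),
      θ (σ • x) = σ • θ x)
    (hne : θ ≠ 0) :
    ∀ ℓ : ℕ, ℓ.Prime → W.IsGoodPrimeFor ℓ → W'.IsGoodPrimeFor ℓ → ℓ ≠ 5 →
      (5 : ℤ) ∣ (W'.apOfModel ℓ - W.apOfModel ℓ) := by
  have h := apOfModel_congr_of_torsionHom (p := 5) (by norm_num) (by norm_num) W W' θ hgal hne
  intro ℓ hℓ hg hg' h5
  exact_mod_cast h ℓ hℓ hg hg' h5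

end Fermat.Agent.ES.U52.TorsCong8
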