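/-
Programme U (S52), chapter LOCAL §A, EXPORT (helper15): **every member of a `5`-congruent family which
is close to `W` has a semistable integral model `W'` with `a_ℓ(W') ≡ a_ℓ(W) (mod 5)`**.

Input: `W` a semistable integral model; `(c₄, c₆) ∈ ℤ²` with `c₄³ ≠ c₆²`,
`c₄ ≡ c₄(W)`, `c₆ ≡ c₆(W)  (mod 2488320·Δ(W))`  (`2488320 = 2¹⁰·3⁴·30`); and a map
`θ : W(ℚ̄) → E(ℚ̄)`, `E : y² = x³ - 27c₄x - 54c₆`, which on the `5`-torsion is additive,
Galois-equivariant and not identically zero.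

Output: an integral model `W'` and `u ≥ 1`, a product of primes not dividing `30Δ(W)`, with
`c₄ = u⁴c₄(W')`, `c₆ = u⁶c₆(W')`, `Δ(W') ≠ 0`, `W'` semistable, and `5 ∣ a_ℓ(W') - a_ℓ(W)` at all
common good primes `ℓ ≠ 5`.

Proof: key lemma at the primes `q ∤ 30Δ(W)` (`InertiaFixTheta15`), minimal scaling `u` (`MinScale15`),
`l` with `l u ≡ 1 (mod 2¹⁰3⁴·30Δ(W))`, the corrected model (`ModelOfC4C6_15`), the short model and the
transport of `θ` (`IsoShort15`), and `TorsCong8.apOfModel_congr`.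
-/
import Mathlib
import Fermat.Agent.ES.U52.InertiaFixTheta15
import Fermat.Agent.ES.U52.MinScale15
import Fermat.Agent.ES.U52.ModelOfC4C6_15
import Fermat.Agent.ES.U52.IsoShort15
import Fermat.Agent.ES.U52.TorsCong8

set_option autoImplicit false

open WeierstrassCurve WeierstrassCurve.Affine

namespace Fermat.Agent.ES.U52.SemistableMember15

open Fermat.Agent.ES.U52.KeyLemma15 Fermat.Agent.ES.U52.InertiaFixTheta15
  Fermat.Agent.ES.U52.MinScale15 Fermat.Agent.ES.U52.ModelOfC4C6_15 Fermat.Agent.ES.U52.IsoShort15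
  Fermat.Agent.ES.U52.TorsCong8

local notation "Qbar" => AlgebraicClosure ℚ

/-- A natural number all of whose prime factors avoid `30·D` is prime to `82944·30·D`. -/
theorem isCoprime_of_primeFactors {u : ℕ} {M₀ : ℤ} (h30 : (30 : ℤ) ∣ M₀)
    (hu : ∀ q : ℕ, q.Prime → q ∣ u → ¬ (q : ℤ) ∣ M₀) : IsCoprime (u : ℤ) (82944 * M₀) := by
  rw [Int.isCoprime_iff_gcd_eq_one, Int.gcd_eq_natAbs, Int.natAbs_natCast]
  apply Nat.Coprime.symm
  apply Nat.coprime_of_dvd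
  intro k hk hkM hku
  apply hu k hk hku
  have hkM' : (k : ℤ) ∣ 82944 * M₀ := Int.natCast_dvd.mpr hkM
  rcases (Nat.prime_iff_prime_int.mp hk).dvd_or_dvd hkM' with h | h
  · have h1 : k ∣ 2 ^ 10 * 3 ^ 4 := by
      have : k ∣ 82944 := by exact_mod_cast h
      simpa using this
    rcases (Nat.Prime.dvd_mul hk).mp h1 with h2 | h3
    · have := (Nat.prime_dvd_prime_iff_eq hk Nat.prime_two).mp (hk.dvd_of_dvd_pow h2)
      subst this
      exact dvd_trans (by norm_num) h30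
    · have := (Nat.prime_dvd_prime_iff_eq hk Nat.prime_three).mp (hk.dvd_of_dvd_pow h3)
      subst this
      exact dvd_trans (by norm_num) h30
  · exact h

/-- **§A, EXPORT.** -/
theorem semistable_member (W : WeierstrassCurve ℤ) (hW : W.IsSemistableModel)
    (c4 c6 : ℤ) (hD : c4 ^ 3 - c6 ^ 2 ≠ 0)
    (hc4 : 2488320 * W.Δ ∣ c4 - W.c₄) (hc6 : 2488320 * W.Δ ∣ c6 - W.c₆)
    (θ : ((W.map (Int.castRingHom ℚ))⁄Qbar).Point →
      (((shortW c4 c6).map (Int.castRingHom ℚ))⁄Qbar).Point)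
    (hadd : ∀ P Q : ((W.map (Int.castRingHom ℚ))⁄Qbar).Point, 5 • P = 0 → 5 • Q = 0 →
      θ (P + Q) = θ P + θ Q)
    (hgal : ∀ (σ : Qbar ≃ₐ[ℚ] Qbar) (P : ((W.map (Int.castRingHom ℚ))⁄Qbar).Point), 5 • P = 0 →
      θ (σ • P) = σ • θ P)
    (hne : ∃ P : ((W.map (Int.castRingHom ℚ))⁄Qbar).Point, 5 • P = 0 ∧ θ P ≠ 0) :
    ∃ (W' : WeierstrassCurve ℤ) (u : ℕ), u ≠ 0 ∧
      c4 = (u : ℤ) ^ 4 * W'.c₄ ∧ c6 = (u : ℤ) ^ 6 * W'.c₆ ∧
      (∀ q : ℕ, q.Prime → q ∣ u → ¬ (q : ℤ) ∣ 30 * W.Δ) ∧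
      W'.Δ ≠ 0 ∧ W'.IsSemistableModel ∧
      ∀ ℓ : ℕ, ℓ.Prime → W.IsGoodPrimeFor ℓ → W'.IsGoodPrimeFor ℓ → ℓ ≠ 5 →
        (5 : ℤ) ∣ (W'.apOfModel ℓ - W.apOfModel ℓ) := by
  classical
  -- the key lemma outside `30Δ(W)`
  have hK : ∀ q : ℕ, q.Prime → q ∉ {q : ℕ | (q : ℤ) ∣ 30 * W.Δ} → KeyAt q c4 c6 := by
    intro q hq hqS
    have h30 : ¬ (q : ℤ) ∣ 30 := fun h => hqS (Dvd.dvd.mul_right h _)
    have hq2 : q ≠ 2 := by rintro rfl; exact h30 (by norm_num)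
    have hq3 : q ≠ 3 := by rintro rfl; exact h30 (by norm_num)
    have hq5 : q ≠ 5 := by rintro rfl; exact h30 (by norm_num)
    have hgood : W.IsGoodPrimeFor q := fun h => hqS (Dvd.dvd.mul_left h _)
    exact key_of_theta W c4 c6 θ hadd hgal hne hq hq2 hq3 hq5 hgood
  -- the minimal scaling
  obtain ⟨u, c4', c6', hu, h4, h6, huS, hmin⟩ :=
    exists_minimal_scaling {q : ℕ | (q : ℤ) ∣ 30 * W.Δ} _ c4 c6 rfl hD hK
  -- `l u ≡ 1`
  obtain ⟨l, m, hlm⟩ := isCoprime_of_primeFactors (M₀ := 30 * W.Δ) (dvd_mul_right _ _) huS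
  have hM : 82944 * (30 * W.Δ) = 2488320 * W.Δ := by ring
  have h1lu : 1 - l * u = (82944 * (30 * W.Δ)) * m := by linear_combination (-1 : ℤ) * hlm
  -- closeness of `(c₄', c₆')`
  have e4 : 82944 * (30 * W.Δ) ∣ c4' - l ^ 4 * W.c₄ := by
    have e : c4' - l ^ 4 * W.c₄ = c4' * (1 - (l * u) ^ 4) + l ^ 4 * (c4 - W.c₄) := by
      rw [h4]; ring
    rw [e]
    apply dvd_add
    · apply Dvd.dvd.mul_left
      refine ⟨m * (1 + l * u + (l * u) ^ 2 + (l * u) ^ 3), ?_⟩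
      linear_combination (1 + l * u + (l * u) ^ 2 + (l * u) ^ 3) * h1lu
    · apply Dvd.dvd.mul_left
      rw [hM]
      exact hc4
  have e6 : 82944 * (30 * W.Δ) ∣ c6' - l ^ 6 * W.c₆ := by
    have e : c6' - l ^ 6 * W.c₆ = c6' * (1 - (l * u) ^ 6) + l ^ 6 * (c6 - W.c₆) := by
      rw [h6]; ring
    rw [e]
    apply dvd_add
    · apply Dvd.dvd.mul_left
      refine ⟨m * (1 + l * u + (l * u) ^ 2 + (l * u) ^ 3 + (l * u) ^ 4 + (l * u) ^ 5), ?_⟩
      linear_combination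
        (1 + l * u + (l * u) ^ 2 + (l * u) ^ 3 + (l * u) ^ 4 + (l * u) ^ 5) * h1lu
    · apply Dvd.dvd.mul_left
      rw [hM]
      exact hc6
  -- the model
  obtain ⟨W', hW'4, hW'6, hW'Δ⟩ := exists_model W l (30 * W.Δ) c4' c6' e4 e6
  have h4' : c4 = (u : ℤ) ^ 4 * W'.c₄ := by rw [hW'4]; exact h4
  have h6' : c6 = (u : ℤ) ^ 6 * W'.c₆ := by rw [hW'6]; exact h6
  refine ⟨W', u, hu, h4', h6', huS, ?_, ?_, ?_⟩
  · -- `Δ(W') ≠ 0`
    intro h0
    apply hD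
    have hrel := W'.c_relation
    rw [h0, mul_zero] at hrel
    rw [h4', h6']
    linear_combination (-(u : ℤ) ^ 12) * hrel
  · -- semistable
    refine semistable_of_close W W' hW l (30 * W.Δ) ⟨u, m * 82944, ?_⟩ ?_ hW'Δ ?_
    · linear_combination hlm
    · rw [hW'4]
      exact (Dvd.intro_left 82944 rfl).trans e4
    · intro p hp hpM
      rw [hW'4, hW'6]
      exact hmin p hp hpM
  · -- the congruence of the `a_ℓ`
    obtain ⟨C, hC⟩ := shortW_eq_smul W' c4 c6 hu h4' h6'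
    obtain ⟨θ', hadd', hgal', hne'⟩ := exists_theta_transport W W' c4 c6 hC θ hadd hgal hne
    exact apOfModel_congr Nat.prime_five (by norm_num) W W' θ' hadd' hgal' hne'

end Fermat.Agent.ES.U52.SemistableMember15
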