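/-
Programme U (S52), LOCAL §A + §B glued (helper15): **S52 for `W` follows from ONE member of a
`5`-congruent family with an auxiliary prime.**

`s52_of_member` : `W` semistable; `(c₄, c₆) ∈ ℤ²` with `c₄³ ≠ c₆²`, `c₄ ≡ c₄(W)`, `c₆ ≡ c₆(W)
(mod 2488320·Δ(W))`; `θ : W(ℚ̄) → E(ℚ̄)` (`E : y² = x³ - 27c₄x - 54c₆`) additive, Galois-equivariant and
not identically zero on the `5`-torsion; `q ≡ 1 (mod 24)` a prime with `q ∤ c₄`, `q ∣ c₄³ - c₆²`,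
`3 ∤ v_q(c₄³ - c₆²)`, `-c₆` a non-residue mod `q`.  Then the conclusion of S52 holds for `W`:
`∃ W', Δ(W') ≠ 0 ∧ W' semistable ∧ W'[3] irreducible ∧ ∀ ℓ good for both, ℓ ≠ 5, 5 ∣ a_ℓ(W') - a_ℓ(W)`.

= `SemistableMember15.semistable_member` + `AuxPrime15.aux_transfer` +
`IrredThree9.irreducible_three_of_nonsplit` (helper9).
-/
import Mathlib
import Fermat.Agent.ES.U52.SemistableMember15
import Fermat.Agent.ES.U52.AuxPrime15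
import Fermat.Agent.ES.U52.IrredThree9

set_option autoImplicit false

open WeierstrassCurve WeierstrassCurve.Affine

namespace Fermat.Agent.ES.U52.S52Reduce15

open Fermat.Agent.ES.U52.KeyLemma15

local notation "Qbar" => AlgebraicClosure ℚ

/-- **S52 from one member with an auxiliary prime.** -/
theorem s52_of_member (W : WeierstrassCurve ℤ) (hW : W.IsSemistableModel)
    (c4 c6 : ℤ) (hD : c4 ^ 3 - c6 ^ 2 ≠ 0)
    (hc4 : 2488320 * W.Δ ∣ c4 - W.c₄) (hc6 : 2488320 * W.Δ ∣ c6 - W.c₆)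
    (θ : ((W.map (Int.castRingHom ℚ))⁄Qbar).Point →
      (((shortW c4 c6).map (Int.castRingHom ℚ))⁄Qbar).Point)
    (hadd : ∀ P Q : ((W.map (Int.castRingHom ℚ))⁄Qbar).Point, 5 • P = 0 → 5 • Q = 0 →
      θ (P + Q) = θ P + θ Q)
    (hgal : ∀ (σ : Qbar ≃ₐ[ℚ] Qbar) (P : ((W.map (Int.castRingHom ℚ))⁄Qbar).Point), 5 • P = 0 →
      θ (σ • P) = σ • θ P)
    (hne : ∃ P : ((W.map (Int.castRingHom ℚ))⁄Qbar).Point, 5 • P = 0 ∧ θ P ≠ 0)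
    {q : ℕ} [hq : Fact q.Prime] (h24 : q % 24 = 1)
    (hqc4 : ¬ (q : ℤ) ∣ c4) (hqD : (q : ℤ) ∣ (c4 ^ 3 - c6 ^ 2))
    (h3 : ¬ 3 ∣ padicValInt q (c4 ^ 3 - c6 ^ 2))
    (hns : ¬ IsSquare (((-c6 : ℤ)) : ZMod q)) :
    ∃ W' : WeierstrassCurve ℤ, W'.Δ ≠ 0 ∧ W'.IsSemistableModel ∧ W'.ModRepIsIrreducible 3 ∧
      ∀ ℓ : ℕ, ℓ.Prime → W.IsGoodPrimeFor ℓ → W'.IsGoodPrimeFor ℓ → ℓ ≠ 5 →
        (5 : ℤ) ∣ (W'.apOfModel ℓ - W.apOfModel ℓ) := by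
  obtain ⟨W', u, _, h4, h6, _, hΔ', hW', hcong⟩ :=
    Fermat.Agent.ES.U52.SemistableMember15.semistable_member W hW c4 c6 hD hc4 hc6 θ hadd hgal hne
  obtain ⟨a1, a2, a3, a4⟩ :=
    Fermat.Agent.ES.U52.AuxPrime15.aux_transfer W' h4 h6 h24 hqc4 hqD h3 hns
  exact ⟨W', hΔ', hW',
    Fermat.Agent.ES.U52.IrredThree9.irreducible_three_of_nonsplit W' hΔ' hW' h24 a1 a2 a3 a4, hcong⟩

end Fermat.Agent.ES.U52.S52Reduce15
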