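/-
Programme U (S52), TOP glue (helper15): **S52 for `W` from a `FiveCongFamily` of its short model, one
good parameter `t` and one auxiliary prime**.

`s52_of_family` : `W` semistable with `W[5]` irreducible, `F : FiveCongFamily W.c₄ W.c₆` (the contract
`U52Iface29`), `t : ℤ` with `2488320·Δ(W) ∣ t` and `C4(t)³ ≠ C6(t)²`, and a prime `q ≡ 1 (mod 24)` with
`q ∤ C4(t)`, `q ∣ C4(t)³ - C6(t)²`, `3 ∤ v_q(C4(t)³ - C6(t)²)`, `-C6(t)` a non-residue mod `q`.
Then the frozen conclusion of S52 holds for `W`.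

= `S52Reduce15.s52_of_member` at `(c₄, c₆) = (C4(t), C6(t))`, with `θ = θ_t ∘ (W ≅ shortW c₄(W) c₆(W))`
(`ShortOfW15`); the closeness `C4(t) ≡ C4(0) = c₄(W)` is `Polynomial.sub_dvd_eval_sub`.
-/
import Mathlib
import Fermat.Prelude.Def_FLTPrelim_ModularRep
import Fermat.Agent.ES.U52.S52Reduce15
import Fermat.Agent.ES.U52.ShortOfW15
import Fermat.Agent.ES.U52.U52Iface29

set_option autoImplicit false

open WeierstrassCurve WeierstrassCurve.Affine

namespace Fermat.Agent.ES.U52.S52OfFamily15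

open Fermat.Agent.ES.U52.KeyLemma15 Fermat.Agent.ES.U52.U52Iface29

local notation "Qbar" => AlgebraicClosure ℚ

/-- An irreducible mod-`n` representation has a nonzero `n`-torsion point. -/
theorem exists_torsion_ne_zero {W : WeierstrassCurve ℤ} {n : ℕ} (h : W.ModRepIsIrreducible n) :
    ∃ P : ((W.map (Int.castRingHom ℚ))⁄Qbar).Point, n • P = 0 ∧ P ≠ 0 := by
  obtain ⟨hnt, -⟩ := h
  obtain ⟨x, y, hxy⟩ := hnt
  have hsub : (x : ((W.map (Int.castRingHom ℚ))⁄Qbar).Point) - y ≠ 0 := by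
    intro h0
    apply hxy
    exact Subtype.ext (sub_eq_zero.mp h0)
  refine ⟨(x : ((W.map (Int.castRingHom ℚ))⁄Qbar).Point) - y, ?_, hsub⟩
  have hx := x.2
  have hy := y.2
  rw [Submodule.mem_torsionBy_iff, natCast_zsmul] at hx hy
  rw [nsmul_sub, hx, hy, sub_zero]

/-- closeness of the member at `t` to the member at `0`. -/
theorem dvd_eval_sub (p : Polynomial ℤ) {M t c : ℤ} (hM : M ∣ t) (h0 : p.eval 0 = c) :
    M ∣ p.eval t - c := by
  rw [← h0]
  have h := Polynomial.sub_dvd_eval_sub t 0 p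
  rw [sub_zero] at h
  exact hM.trans h

/-- **S52 from the contract, one parameter and one auxiliary prime.** -/
theorem s52_of_family (W : WeierstrassCurve ℤ) (hW : W.IsSemistableModel)
    (h5 : W.ModRepIsIrreducible 5) (F : FiveCongFamily W.c₄ W.c₆) (t : ℤ)
    (ht : 2488320 * W.Δ ∣ t) (hgood : Good F.C4 F.C6 t)
    {q : ℕ} [hq : Fact q.Prime] (h24 : q % 24 = 1)
    (hqc4 : ¬ (q : ℤ) ∣ F.C4.eval t)
    (hqD : (q : ℤ) ∣ ((F.C4.eval t) ^ 3 - (F.C6.eval t) ^ 2))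
    (h3 : ¬ 3 ∣ padicValInt q ((F.C4.eval t) ^ 3 - (F.C6.eval t) ^ 2))
    (hns : ¬ IsSquare (((-(F.C6.eval t) : ℤ)) : ZMod q)) :
    ∃ W' : WeierstrassCurve ℤ, W'.Δ ≠ 0 ∧ W'.IsSemistableModel ∧ W'.ModRepIsIrreducible 3 ∧
      ∀ ℓ : ℕ, ℓ.Prime → W.IsGoodPrimeFor ℓ → W'.IsGoodPrimeFor ℓ → ℓ ≠ 5 →
        (5 : ℤ) ∣ (W'.apOfModel ℓ - W.apOfModel ℓ) := by
  obtain ⟨θ', hadd', hgal', hne'⟩ :=
    Fermat.Agent.ES.U52.ShortOfW15.exists_theta_of_short (p := 5) W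
      (shortW (F.C4.eval t) (F.C6.eval t)) (F.theta t)
      (fun P Q hP hQ => F.theta_add t hgood P Q hP hQ)
      (fun σ P hP => F.theta_gal t hgood σ P hP)
      (fun P hP h0 => F.theta_inj t hgood P hP h0)
      (exists_torsion_ne_zero h5)
  exact Fermat.Agent.ES.U52.S52Reduce15.s52_of_member W hW (F.C4.eval t) (F.C6.eval t)
    (sub_ne_zero.mpr hgood) (dvd_eval_sub F.C4 ht F.C4_zero) (dvd_eval_sub F.C6 ht F.C6_zero)
    θ' hadd' hgal' hne' h24 hqc4 hqD h3 hns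

end Fermat.Agent.ES.U52.S52OfFamily15
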