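/-
Programme U (S52, the 3–5 switch), TOP (helper9): **S52 from the Rubin–Silverberg identity**.

`RSPackage` : the Rubin–Silverberg identity in the shape consumed by `FamBridge15` — two families
`fam4 fam6 : ℚ̄ → ℚ̄ → ℚ̄[T]` with `kc4 (line X₀ Y₀ T) = fam4 (kc4 X₀ Y₀) (kc6 X₀ Y₀)` (same for `kc6`) which at
integers `(c4, c6)` are (the images of) integer polynomials `C4, C6` with `C4(0) = c4`, `C6(0) = c6`.

`s52_of_RS` : `RSPackage` ⇒ the frozen statement S52.  If `W[3]` is irreducible take `W' = W`;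
otherwise `F := FamBridge15.nonempty_fiveCongFamily_of_RS`, `(q, t_q) := Mod3Member9.mod3_member` with
`S` the primes dividing `2488320·Δ(W)`, `t := ChooseT15.exists_t` (`t ≡ 0 mod 2488320·Δ(W)`,
`t ≡ t_q mod q²`, `C4(t)³ ≠ C6(t)²`), and `S52OfFamily15.s52_of_family`.
-/
import Mathlib
import Fermat.Agent.ES.U52.FamBridge15
import Fermat.Agent.ES.U52.S52OfFamily15
import Fermat.Agent.ES.U52.ChooseT15
import Fermat.Agent.ES.U52.Mod3Member9

set_option autoImplicit false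

open WeierstrassCurve WeierstrassCurve.Affine Polynomial

noncomputable section

namespace Fermat.Agent.ES.U52.S52Top9

open Fermat.Agent.ES.U52.KleinForms29 Fermat.Agent.ES.U52.U52Iface29
  Fermat.Agent.ES.U52.KeyLemma15

local notation "Qbar" => AlgebraicClosure ℚ

/-- **The Rubin–Silverberg package** (the output of `RSIdentity29`). -/
def RSPackage : Prop :=
  ∃ fam4 fam6 : Qbar → Qbar → Polynomial Qbar,
    (∀ X₀ Y₀ : Qbar,
      kc4 (lineX (C X₀) (C Y₀) X) (lineY (C X₀) (C Y₀) X) = fam4 (kc4 X₀ Y₀) (kc6 X₀ Y₀)) ∧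
    (∀ X₀ Y₀ : Qbar,
      kc6 (lineX (C X₀) (C Y₀) X) (lineY (C X₀) (C Y₀) X) = fam6 (kc4 X₀ Y₀) (kc6 X₀ Y₀)) ∧
    ∀ c4 c6 : ℤ, ∃ C4 C6 : Polynomial ℤ,
      fam4 ((c4 : ℤ) : Qbar) ((c6 : ℤ) : Qbar) = C4.map (Int.castRingHom Qbar) ∧
      fam6 ((c4 : ℤ) : Qbar) ((c6 : ℤ) : Qbar) = C6.map (Int.castRingHom Qbar) ∧
      C4.eval 0 = c4 ∧ C6.eval 0 = c6

/-- **S52 from the Rubin–Silverberg identity.** -/
theorem s52_of_RS (hRS : RSPackage) (W : WeierstrassCurve ℤ) (hΔ : W.Δ ≠ 0)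
    (hW : W.IsSemistableModel) (h5 : W.ModRepIsIrreducible 5) :
    ∃ W' : WeierstrassCurve ℤ, W'.Δ ≠ 0 ∧ W'.IsSemistableModel ∧ W'.ModRepIsIrreducible 3 ∧
      ∀ ℓ : ℕ, ℓ.Prime → W.IsGoodPrimeFor ℓ → W'.IsGoodPrimeFor ℓ → ℓ ≠ 5 →
        (5 : ℤ) ∣ (W'.apOfModel ℓ - W.apOfModel ℓ) := by
  classical
  by_cases h3 : W.ModRepIsIrreducible 3
  · exact ⟨W, hΔ, hW, h3, fun ℓ _ _ _ _ => by rw [sub_self]; exact dvd_zero _⟩
  obtain ⟨fam4, fam6, hRS4, hRS6, hint⟩ := hRS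
  obtain ⟨C4, C6, e4, e6, h4, h6⟩ := hint W.c₄ W.c₆
  have hD0 : W.c₄ ^ 3 ≠ W.c₆ ^ 2 := by
    intro h
    have := W.c_relation
    rw [h, sub_self] at this
    exact hΔ (by simpa using this)
  obtain ⟨F, hF4, hF6⟩ :=
    FamBridge15.nonempty_fiveCongFamily_of_RS C4 C6 fam4 fam6 hRS4 hRS6 hD0 e4 e6 h4 h6
  -- the modulus of closeness and the excluded primes
  set M : ℤ := 2488320 * W.Δ with hM
  have hM0 : M ≠ 0 := mul_ne_zero (by norm_num) hΔ
  obtain ⟨q, tq, hq, h24, hqS, hmem⟩ :=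
    Mod3Member9.mod3_member W hΔ h5 F M.natAbs.primeFactors
  have hqM : ¬ (q : ℤ) ∣ M := by
    intro hdvd
    apply hqS
    rw [Nat.mem_primeFactors]
    exact ⟨hq, Int.natCast_dvd.mp hdvd, Int.natAbs_ne_zero.mpr hM0⟩
  -- the discriminant polynomial of the family
  have hG0 : F.C4 ^ 3 - F.C6 ^ 2 ≠ 0 := by
    intro h
    have := congrArg (Polynomial.eval 0) h
    rw [eval_sub, eval_pow, eval_pow, F.C4_zero, F.C6_zero, eval_zero] at this
    exact hD0 (sub_eq_zero.mp this)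
  obtain ⟨t, htM, htq, htG⟩ := ChooseT15.exists_t M hM0 hq hqM 2 tq (F.C4 ^ 3 - F.C6 ^ 2) hG0
  have hgood : Good F.C4 F.C6 t := by
    intro h
    apply htG
    rw [eval_sub, eval_pow, eval_pow, h, sub_self]
  obtain ⟨hqc4, hqD, hq3, hns⟩ := hmem t htq hgood
  have : Fact q.Prime := ⟨hq⟩
  exact S52OfFamily15.s52_of_family W hW h5 F t htM hgood h24 hqc4 hqD hq3 hns

end Fermat.Agent.ES.U52.S52Top9

end
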