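/-
Programme U (S52), chapter FAM/TOP (helper24): **the Rubin–Silverberg package from the line
identities**.

`rsPackage_of_line` : the two identities
`kc4 (lineX X Y T) (lineY X Y T) = rsC4 (kc4 X Y) (kc6 X Y) T` and
`kc6 (lineX X Y T) (lineY X Y T) = rsC6 (kc4 X Y) (kc6 X Y) T` in the ring `ℚ̄[T]` give
`S52Top9.RSPackage` with `fam4 a b := rsC4 (C a) (C b) X`, `fam6 a b := rsC6 (C a) (C b) X`;
the integer polynomials are `C4 := rsC4 (C c4) (C c6) X`, `C6 := rsC6 (C c4) (C c6) X ∈ ℤ[T]`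
(`map_rsC4` for the base change, `rsC4_zero` for the value at `0`).
-/
import Mathlib
import Fermat.Agent.ES.U52.RSDefs29
import Fermat.Agent.ES.U52.S52Top9

set_option autoImplicit false

open Polynomial

noncomputable section

namespace Fermat.Agent.ES.U52.RSPackage24

open Fermat.Agent.ES.U52.KleinForms29 Fermat.Agent.ES.U52.RSDefs29 Fermat.Agent.ES.U52.S52Top9

local notation "Qbar" => AlgebraicClosure ℚ

/-- Base change of the integer family to any commutative ring. -/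
theorem map_famZ {S : Type*} [CommRing S] (c4 c6 : ℤ) :
    (rsC4 (C c4) (C c6) (X : Polynomial ℤ)).map (Int.castRingHom S)
        = rsC4 (C ((c4 : ℤ) : S)) (C ((c6 : ℤ) : S)) (X : Polynomial S) ∧
      (rsC6 (C c4) (C c6) (X : Polynomial ℤ)).map (Int.castRingHom S)
        = rsC6 (C ((c4 : ℤ) : S)) (C ((c6 : ℤ) : S)) (X : Polynomial S) := by
  constructor
  · have := map_rsC4 (Polynomial.mapRingHom (Int.castRingHom S)) (C c4) (C c6) (X : Polynomial ℤ)
    simpa [Polynomial.coe_mapRingHom, Polynomial.map_C, Polynomial.map_X] using this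
  · have := map_rsC6 (Polynomial.mapRingHom (Int.castRingHom S)) (C c4) (C c6) (X : Polynomial ℤ)
    simpa [Polynomial.coe_mapRingHom, Polynomial.map_C, Polynomial.map_X] using this

theorem eval_zero_famZ (c4 c6 : ℤ) :
    (rsC4 (C c4) (C c6) (X : Polynomial ℤ)).eval 0 = c4 ∧
      (rsC6 (C c4) (C c6) (X : Polynomial ℤ)).eval 0 = c6 := by
  constructor
  · have := map_rsC4 (Polynomial.evalRingHom (0 : ℤ)) (C c4) (C c6) (X : Polynomial ℤ)
    simp only [Polynomial.coe_evalRingHom, Polynomial.eval_C, Polynomial.eval_X] at this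
    rw [this, rsC4_zero]
  · have := map_rsC6 (Polynomial.evalRingHom (0 : ℤ)) (C c4) (C c6) (X : Polynomial ℤ)
    simp only [Polynomial.coe_evalRingHom, Polynomial.eval_C, Polynomial.eval_X] at this
    rw [this, rsC6_zero]

/-- **The Rubin–Silverberg package from the two line identities over `ℚ̄[T]`.** -/
theorem rsPackage_of_line
    (h4 : ∀ Xp Yp Tp : Polynomial Qbar,
      kc4 (lineX Xp Yp Tp) (lineY Xp Yp Tp) = rsC4 (kc4 Xp Yp) (kc6 Xp Yp) Tp)
    (h6 : ∀ Xp Yp Tp : Polynomial Qbar,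
      kc6 (lineX Xp Yp Tp) (lineY Xp Yp Tp) = rsC6 (kc4 Xp Yp) (kc6 Xp Yp) Tp) :
    RSPackage := by
  refine ⟨fun a b => rsC4 (C a) (C b) X, fun a b => rsC6 (C a) (C b) X, ?_, ?_, ?_⟩
  · intro X₀ Y₀
    rw [h4, ← map_kc4 C, ← map_kc6 C]
  · intro X₀ Y₀
    rw [h6, ← map_kc4 C, ← map_kc6 C]
  · intro c4 c6
    refine ⟨rsC4 (C c4) (C c6) X, rsC6 (C c4) (C c6) X, ?_, ?_, (eval_zero_famZ c4 c6).1,
      (eval_zero_famZ c4 c6).2⟩
    · exact ((map_famZ (S := Qbar) c4 c6).1).symm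
    · exact ((map_famZ (S := Qbar) c4 c6).2).symm

end Fermat.Agent.ES.U52.RSPackage24

end
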